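import Mathlib

/-!
helper74 (P-S56, block (A) LOCAL, Mathlib-only leaf).  ABSTRACT ramification filtrations on a
finite group: lower numbering, Herbrand's function `φ` (closed formula of Serre, *Local Fields*
IV §3), its inverse `ψ`, upper numbering.

A `LowerNumbering G` is a function `i : G → ℕ∞` with the formal properties of
`i_G(s) = v_L(s x - x)` (`O_L = O_K[x]`): `i s = ⊤ ↔ s = 1`, `min (i s) (i t) ≤ i (s t)`,
`i s⁻¹ = i s`, invariance under conjugation.  Convention (Serre): `s ∈ G_u ↔ u + 1 ≤ i s`.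

* `lowerGroup I u : Subgroup G` (`u : ℝ`), normal, antitone, `⊤` for `u ≤ -1`, `⊥` for large `u`.
* `tr a x` (`a : ℕ∞`, `x : ℝ`) = `min a x`;  `phi I u = (∑ s, tr (i s) (u + 1)) / |G_0| - 1`.
* `phi_strictMono`, `phi_continuous`, `phi_zero`, `phi_neg_one`, `phiIso : ℝ ≃o ℝ`, `psi`.
* `upperGroup I v := lowerGroup I (psi I v)`.
-/

set_option autoImplicit false
set_option linter.unusedSectionVars false

open Finset

namespace Fermat.Agent.Lib.Ram

/-- The formal properties of the function `i_G` of a finite Galois extension of local fields. -/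
structure LowerNumbering (G : Type*) [Group G] where
  /-- the function `i_G` -/
  i : G → ℕ∞
  i_eq_top : ∀ s, i s = ⊤ ↔ s = 1
  i_mul : ∀ s t, min (i s) (i t) ≤ i (s * t)
  i_inv : ∀ s, i s⁻¹ = i s
  i_conj : ∀ s t, i (t * s * t⁻¹) = i s

/-- `min a x` for `a : ℕ∞`, `x : ℝ`. -/
noncomputable def tr (a : ℕ∞) (x : ℝ) : ℝ :=
  if a = ⊤ then x else min (a.toNat : ℝ) x

theorem tr_top (x : ℝ) : tr ⊤ x = x := if_pos rfl

theorem tr_coe (n : ℕ) (x : ℝ) : tr (n : ℕ∞) x = min (n : ℝ) x := by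
  unfold tr
  rw [if_neg (ENat.natCast_ne_top n), ENat.toNat_natCast]

theorem tr_le (a : ℕ∞) (x : ℝ) : tr a x ≤ x := by
  unfold tr
  split_ifs
  · exact le_rfl
  · exact min_le_right _ _

theorem tr_of_nonpos (a : ℕ∞) {x : ℝ} (hx : x ≤ 0) : tr a x = x := by
  unfold tr
  split_ifs
  · rfl
  · exact min_eq_right (hx.trans (Nat.cast_nonneg _))

theorem tr_nonneg (a : ℕ∞) {x : ℝ} (hx : 0 ≤ x) : 0 ≤ tr a x := by
  unfold tr
  split_ifs
  · exact hx
  · exact le_min (Nat.cast_nonneg _) hx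

theorem tr_mono (a : ℕ∞) : Monotone (tr a) := by
  intro x y hxy
  unfold tr
  split_ifs
  · exact hxy
  · exact min_le_min le_rfl hxy

theorem tr_mono_left {a b : ℕ∞} (hab : a ≤ b) (x : ℝ) : tr a x ≤ tr b x := by
  induction b using ENat.recTopCoe with
  | top => rw [tr_top]; exact tr_le a x
  | coe n =>
    lift a to ℕ using ne_top_of_le_ne_top (ENat.natCast_ne_top n) hab
    rw [tr_coe, tr_coe]
    exact min_le_min (by exact_mod_cast hab) le_rfl

theorem tr_continuous (a : ℕ∞) : Continuous (tr a) := by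
  unfold tr
  split_ifs
  · exact continuous_id
  · exact continuous_const.min continuous_id

/-- `x ≤ a ↔ tr a x = x` in the relevant form: `(x : ℝ) ≤ a` means `a = ⊤` or `x ≤ a.toNat`. -/
def leENat (x : ℝ) (a : ℕ∞) : Prop := a = ⊤ ∨ x ≤ (a.toNat : ℝ)

theorem leENat_top (x : ℝ) : leENat x ⊤ := Or.inl rfl

theorem leENat_coe (x : ℝ) (n : ℕ) : leENat x (n : ℕ∞) ↔ x ≤ (n : ℝ) := by
  unfold leENat
  rw [ENat.toNat_natCast]
  simp

theorem leENat_mono {x y : ℝ} {a b : ℕ∞} (hxy : y ≤ x) (hab : a ≤ b) (h : leENat x a) :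
    leENat y b := by
  induction b using ENat.recTopCoe with
  | top => exact leENat_top y
  | coe n =>
    lift a to ℕ using ne_top_of_le_ne_top (ENat.natCast_ne_top n) hab
    rw [leENat_coe] at h ⊢
    have : (a : ℝ) ≤ n := by exact_mod_cast hab
    linarith

theorem leENat_min {x : ℝ} {a b : ℕ∞} : leENat x (min a b) ↔ leENat x a ∧ leENat x b := by
  constructor
  · intro h
    exact ⟨leENat_mono le_rfl (min_le_left a b) h, leENat_mono le_rfl (min_le_right a b) h⟩
  · rintro ⟨ha, hb⟩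
    rcases le_total a b with hab | hab
    · rwa [min_eq_left hab]
    · rwa [min_eq_right hab]

theorem tr_eq_self_iff (a : ℕ∞) (x : ℝ) : tr a x = x ↔ leENat x a := by
  unfold tr leENat
  split_ifs with h
  · simp [h]
  · simp [h]

theorem tr_tr (a : ℕ∞) (x y : ℝ) : tr a (min x y) = min (tr a x) y := by
  unfold tr
  split_ifs
  · rfl
  · rw [min_assoc]

theorem tr_min (a b : ℕ∞) (x : ℝ) : tr (min a b) x = min (tr a x) (tr b x) := by
  rcases le_total a b with hab | hab
  · rw [min_eq_left hab, min_eq_left (tr_mono_left hab x)]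
  · rw [min_eq_right hab, min_eq_right (tr_mono_left hab x)]

namespace LowerNumbering

variable {G : Type*} [Group G] (I : LowerNumbering G)

theorem i_one : I.i 1 = ⊤ := (I.i_eq_top 1).2 rfl

/-- The lower numbering ramification group `G_u = {s | u + 1 ≤ i s}`. -/
def lowerGroup (u : ℝ) : Subgroup G where
  carrier := {s | leENat (u + 1) (I.i s)}
  one_mem' := by
    show leENat (u + 1) (I.i 1)
    rw [I.i_one]
    exact leENat_top _
  mul_mem' := by
    intro s t hs ht
    exact leENat_mono le_rfl (I.i_mul s t) (leENat_min.2 ⟨hs, ht⟩)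
  inv_mem' := by
    intro s hs
    show leENat (u + 1) (I.i s⁻¹)
    rw [I.i_inv]
    exact hs

theorem mem_lowerGroup {u : ℝ} {s : G} : s ∈ I.lowerGroup u ↔ leENat (u + 1) (I.i s) := Iff.rfl

instance (u : ℝ) : (I.lowerGroup u).Normal where
  conj_mem s hs t := by
    rw [mem_lowerGroup] at hs ⊢
    rwa [I.i_conj]

theorem lowerGroup_antitone : Antitone I.lowerGroup := by
  intro u v huv s hs
  rw [mem_lowerGroup] at hs ⊢
  exact leENat_mono (by linarith) le_rfl hs

theorem lowerGroup_eq_top {u : ℝ} (hu : u ≤ -1) : I.lowerGroup u = ⊤ := by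
  rw [eq_top_iff]
  intro s _
  rw [mem_lowerGroup]
  rcases eq_or_ne (I.i s) ⊤ with h | h
  · exact Or.inl h
  · right
    have : u + 1 ≤ 0 := by linarith
    exact this.trans (Nat.cast_nonneg _)

theorem mem_lowerGroup_zero {s : G} : s ∈ I.lowerGroup 0 ↔ 1 ≤ I.i s := by
  rw [mem_lowerGroup, zero_add]
  induction h : I.i s using ENat.recTopCoe with
  | top => simp [leENat_top]
  | coe n =>
    rw [leENat_coe]
    constructor
    · intro h1; exact_mod_cast h1
    · intro h1; exact_mod_cast h1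

/-! ### Herbrand's function -/

section Phi

variable [Fintype G]

open Classical in
/-- The ramification index `e = |G_0|`. -/
noncomputable def e0 : ℕ := (Finset.univ.filter fun s : G => 1 ≤ I.i s).card

theorem e0_pos : 0 < I.e0 := by
  unfold e0
  rw [Finset.card_pos]
  refine ⟨1, ?_⟩
  rw [Finset.mem_filter]
  exact ⟨Finset.mem_univ _, by rw [I.i_one]; exact le_top⟩

/-- The sum `∑_s min (i s, x)`. -/
noncomputable def trSum (x : ℝ) : ℝ := ∑ s : G, tr (I.i s) x

/-- **Herbrand's function**, by the closed formula `φ(u) + 1 = (1/e) ∑_s min (i s, u + 1)`. -/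
noncomputable def phi (u : ℝ) : ℝ := I.trSum (u + 1) / I.e0 - 1

theorem trSum_mono : Monotone I.trSum := fun _ _ hxy =>
  Finset.sum_le_sum fun s _ => tr_mono (I.i s) hxy

theorem trSum_continuous : Continuous I.trSum :=
  continuous_finsetSum _ fun s _ => tr_continuous (I.i s)

/-- the term of the neutral element makes the sum strictly increasing. -/
theorem trSum_sub_le {x y : ℝ} (hxy : x ≤ y) : y - x ≤ I.trSum y - I.trSum x := by
  unfold trSum
  rw [← Finset.sum_sub_distrib]
  have h1 : y - x = tr (I.i 1) y - tr (I.i 1) x := by rw [I.i_one, tr_top, tr_top]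
  rw [h1]
  exact Finset.single_le_sum (f := fun s => tr (I.i s) y - tr (I.i s) x)
    (fun s _ => sub_nonneg.2 (tr_mono (I.i s) hxy)) (Finset.mem_univ 1)

theorem trSum_strictMono : StrictMono I.trSum := by
  intro x y hxy
  have := I.trSum_sub_le hxy.le
  linarith

theorem trSum_of_nonpos {x : ℝ} (hx : x ≤ 0) : I.trSum x = Fintype.card G * x := by
  unfold trSum
  rw [Finset.sum_congr rfl fun s _ => tr_of_nonpos (I.i s) hx, Finset.sum_const, Finset.card_univ,
    nsmul_eq_mul]

theorem trSum_one : I.trSum 1 = I.e0 := by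
  classical
  unfold trSum e0
  rw [Finset.card_filter, Nat.cast_sum]
  refine Finset.sum_congr rfl fun s _ => ?_
  induction h : I.i s using ENat.recTopCoe with
  | top => simp [tr_top]
  | coe n =>
    rw [tr_coe]
    by_cases hn : 1 ≤ n
    · have : (1 : ℕ∞) ≤ (n : ℕ∞) := by exact_mod_cast hn
      rw [if_pos this, min_eq_right (by exact_mod_cast hn)]
      simp
    · have : ¬ (1 : ℕ∞) ≤ (n : ℕ∞) := by exact_mod_cast hn
      rw [if_neg this]
      have hn0 : n = 0 := by omega
      subst hn0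
      simp

theorem phi_zero : I.phi 0 = 0 := by
  have he : (I.e0 : ℝ) ≠ 0 := Nat.cast_ne_zero.2 I.e0_pos.ne'
  unfold phi
  rw [zero_add, trSum_one, div_self he, sub_self]

theorem phi_neg_one : I.phi (-1) = -1 := by
  unfold phi
  rw [neg_add_cancel, I.trSum_of_nonpos le_rfl, mul_zero, zero_div, zero_sub]

theorem phi_strictMono : StrictMono I.phi := by
  intro x y hxy
  have he : (0 : ℝ) < I.e0 := Nat.cast_pos.2 I.e0_pos
  unfold phi
  have := I.trSum_strictMono (show x + 1 < y + 1 by linarith)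
  have := div_lt_div_of_pos_right this he
  linarith

theorem phi_continuous : Continuous I.phi := by
  unfold phi
  exact ((I.trSum_continuous.comp (continuous_id.add continuous_const)).div_const _).sub
    continuous_const

theorem phi_sub_le {x y : ℝ} (hxy : x ≤ y) : (y - x) / I.e0 ≤ I.phi y - I.phi x := by
  have he : (0 : ℝ) < I.e0 := Nat.cast_pos.2 I.e0_pos
  unfold phi
  have h := I.trSum_sub_le (show x + 1 ≤ y + 1 by linarith)
  have h2 : (y - x) / I.e0 ≤ I.trSum (y + 1) / I.e0 - I.trSum (x + 1) / I.e0 := by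
    rw [← sub_div]
    exact div_le_div_of_nonneg_right (by linarith) he.le
  linarith

theorem phi_surjective : Function.Surjective I.phi := by
  have he : (0 : ℝ) < I.e0 := Nat.cast_pos.2 I.e0_pos
  apply I.phi_continuous.surjective
  · -- tends to `+∞`
    rw [Filter.tendsto_atTop]
    intro b
    filter_upwards [Filter.eventually_ge_atTop (max 0 ((b + 1) * I.e0))] with u hu
    have hu0 : (0 : ℝ) ≤ u := (le_max_left _ _).trans hu
    have h := I.phi_sub_le hu0
    rw [I.phi_zero, sub_zero, sub_zero] at h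
    have h2 : b + 1 ≤ u / I.e0 := by
      rw [le_div_iff₀ he]
      exact (le_max_right _ _).trans hu
    linarith
  · -- tends to `-∞`
    rw [Filter.tendsto_atBot]
    intro b
    filter_upwards [Filter.eventually_le_atBot (min 0 (b * I.e0))] with u hu
    have hu0 : u ≤ 0 := hu.trans (min_le_left _ _)
    have h := I.phi_sub_le hu0
    rw [I.phi_zero, zero_sub, zero_sub] at h
    have h2 : u / I.e0 ≤ b := by
      rw [div_le_iff₀ he]
      exact hu.trans (min_le_right _ _)
    have h3 : -u / I.e0 = -(u / I.e0) := neg_div _ _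
    rw [h3] at h
    linarith

/-- Herbrand's function as an order isomorphism of `ℝ`. -/
noncomputable def phiIso : ℝ ≃o ℝ :=
  StrictMono.orderIsoOfSurjective I.phi I.phi_strictMono I.phi_surjective

@[simp] theorem phiIso_apply (u : ℝ) : I.phiIso u = I.phi u := rfl

/-- The inverse `ψ` of Herbrand's function. -/
noncomputable def psi (v : ℝ) : ℝ := I.phiIso.symm v

@[simp] theorem phi_psi (v : ℝ) : I.phi (I.psi v) = v := I.phiIso.apply_symm_apply v

@[simp] theorem psi_phi (u : ℝ) : I.psi (I.phi u) = u := I.phiIso.symm_apply_apply u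

theorem psi_strictMono : StrictMono I.psi := I.phiIso.symm.strictMono

theorem psi_zero : I.psi 0 = 0 := by
  have := I.psi_phi 0
  rwa [I.phi_zero] at this

theorem phi_le_iff {u v : ℝ} : I.phi u ≤ v ↔ u ≤ I.psi v := by
  rw [← I.phiIso_apply, psi, ← I.phiIso.le_symm_apply]

theorem le_phi_iff {u v : ℝ} : v ≤ I.phi u ↔ I.psi v ≤ u := by
  rw [← I.phiIso_apply, psi, I.phiIso.symm_apply_le]

/-- The upper numbering ramification group `G^v = G_{ψ(v)}`. -/
noncomputable def upperGroup (v : ℝ) : Subgroup G := I.lowerGroup (I.psi v)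

theorem upperGroup_phi (u : ℝ) : I.upperGroup (I.phi u) = I.lowerGroup u := by
  unfold upperGroup
  rw [psi_phi]

theorem upperGroup_antitone : Antitone I.upperGroup := fun _ _ h =>
  I.lowerGroup_antitone (I.psi_strictMono.monotone h)

instance (v : ℝ) : (I.upperGroup v).Normal := by
  unfold upperGroup
  infer_instance

end Phi

/-! ### Subgroups and quotients -/

/-- The restriction of a lower numbering to a subgroup (same top field, bigger base field). -/
def restrict (H : Subgroup G) : LowerNumbering H where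
  i t := I.i (t : G)
  i_eq_top t := by rw [I.i_eq_top]; exact OneMemClass.coe_eq_one
  i_mul s t := I.i_mul s t
  i_inv t := I.i_inv t
  i_conj s t := I.i_conj s t

@[simp] theorem restrict_i (H : Subgroup G) (t : H) : (I.restrict H).i t = I.i (t : G) := rfl

theorem lowerGroup_restrict (H : Subgroup G) (u : ℝ) :
    (I.restrict H).lowerGroup u = (I.lowerGroup u).subgroupOf H := by
  ext t
  rfl

/-- ultrametric inequality: if `i (s t) ≤ i s` then `i (s t) = min (i t) (i s)`. -/
theorem i_mul_eq_min {s t : G} (h : I.i (s * t) ≤ I.i s) : I.i (s * t) = min (I.i t) (I.i s) := by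
  apply le_antisymm
  · refine le_min ?_ h
    by_contra hlt
    rw [not_le] at hlt
    have h1 := I.i_mul s⁻¹ (s * t)
    rw [inv_mul_cancel_left, I.i_inv] at h1
    have h2 : I.i (s * t) ≤ min (I.i s) (I.i (s * t)) := le_min h le_rfl
    exact absurd (h2.trans h1) (not_le.2 hlt)
  · rw [min_comm]
    exact I.i_mul s t

theorem tr_min_coe (a : ℕ∞) (n : ℕ) (x : ℝ) : tr (min a (n : ℕ∞)) x = tr a (min (n : ℝ) x) := by
  induction a using ENat.recTopCoe with
  | top => rw [min_eq_right le_top, tr_top, tr_coe]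
  | coe k =>
    have : min (k : ℕ∞) (n : ℕ∞) = ((min k n : ℕ) : ℕ∞) := by
      rcases le_total k n with h | h
      · rw [min_eq_left h, min_eq_left (by exact_mod_cast h)]
      · rw [min_eq_right h, min_eq_right (by exact_mod_cast h)]
    rw [this, tr_coe, tr_coe, Nat.cast_min, min_assoc]

section Quotient

variable [Fintype G] (H : Subgroup G) [H.Normal] [Fintype H] [Fintype (G ⧸ H)]
  (IQ : LowerNumbering (G ⧸ H))

open Classical in
/-- The fibre of `G → G ⧸ H` over `σ`. -/
noncomputable def fiber (σ : G ⧸ H) : Finset G := Finset.univ.filter fun s : G => (s : G ⧸ H) = σ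

theorem mem_fiber {σ : G ⧸ H} {s : G} : s ∈ fiber H σ ↔ (s : G ⧸ H) = σ := by
  classical
  unfold fiber
  rw [Finset.mem_filter]
  exact ⟨fun h => h.2, fun h => ⟨Finset.mem_univ _, h⟩⟩

theorem fiber_nonempty (σ : G ⧸ H) : (fiber H σ).Nonempty := by
  obtain ⟨s, hs⟩ := QuotientGroup.mk_surjective σ
  exact ⟨s, (mem_fiber H).2 hs⟩

/-- sums over a fibre are sums over `H`. -/
theorem sum_fiber {M : Type*} [AddCommMonoid M] (f : G → M) (s₀ : G) :
    ∑ s ∈ fiber H (s₀ : G ⧸ H), f s = ∑ t : H, f (s₀ * t) := by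
  classical
  symm
  refine Finset.sum_bij (fun (t : H) _ => s₀ * (t : G)) ?_ ?_ ?_ ?_
  · intro t _
    rw [mem_fiber]
    exact (QuotientGroup.mk_mul_of_mem s₀ t.2)
  · intro t _ t' _ h
    exact Subtype.ext (mul_left_cancel h)
  · intro s hs
    rw [mem_fiber] at hs
    have : s₀⁻¹ * s ∈ H := QuotientGroup.eq.1 hs.symm
    exact ⟨⟨s₀⁻¹ * s, this⟩, Finset.mem_univ _, by simp⟩
  · intro t _
    rfl

theorem sum_fiberwise {M : Type*} [AddCommMonoid M] (f : G → M) :
    ∑ σ : G ⧸ H, ∑ s ∈ fiber H σ, f s = ∑ s : G, f s := by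
  classical
  unfold fiber
  exact Finset.sum_fiberwise Finset.univ (fun s : G => (s : G ⧸ H)) f

/-- a representative with maximal `i` in its coset. -/
theorem exists_max_rep (σ : G ⧸ H) :
    ∃ s₀ : G, (s₀ : G ⧸ H) = σ ∧ ∀ t : H, I.i (s₀ * t) ≤ I.i s₀ := by
  obtain ⟨s₀, hs₀, hmax⟩ := Finset.exists_max_image (fiber H σ) I.i (fiber_nonempty H σ)
  rw [mem_fiber] at hs₀
  refine ⟨s₀, hs₀, fun t => hmax _ ?_⟩
  rw [mem_fiber, ← hs₀]
  exact QuotientGroup.mk_mul_of_mem s₀ t.2

theorem i_ne_top_of_mk_ne_one {s : G} (h : (s : G ⧸ H) ≠ 1) : I.i s ≠ ⊤ := by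
  intro htop
  rw [I.i_eq_top] at htop
  rw [htop] at h
  exact h rfl

/-- **Serre IV Prop. 3** as a hypothesis: `e_H · i_{G/H}(σ) = ∑_{s ↦ σ} i_G(s)`. -/
def QuotientFormula : Prop :=
  ∀ σ : G ⧸ H, σ ≠ 1 →
    ((IQ.i σ).toNat : ℝ) * (I.restrict H).e0 = ∑ s ∈ fiber H σ, ((I.i s).toNat : ℝ)

variable {H IQ}

theorem toNat_eq_tr {a : ℕ∞} (ha : a ≠ ⊤) {x : ℝ} (hx : (a.toNat : ℝ) ≤ x) :
    ((a.toNat : ℕ) : ℝ) = tr a x := by
  unfold tr
  rw [if_neg ha, min_eq_left hx]

/-- **Serre IV Lemma 4/Prop. 14 shape**: `i_{G/H}(σ) = φ_H(j(σ) - 1) + 1` where `j(σ)` is the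
maximum of `i_G` on the coset. -/
theorem iQ_eq_phi (hq : QuotientFormula I H IQ) {s₀ : G} (hσ : (s₀ : G ⧸ H) ≠ 1)
    (hmax : ∀ t : H, I.i (s₀ * t) ≤ I.i s₀) :
    ((IQ.i (s₀ : G ⧸ H)).toNat : ℝ) = (I.restrict H).phi ((I.i s₀).toNat - 1) + 1 := by
  have he : ((I.restrict H).e0 : ℝ) ≠ 0 := Nat.cast_ne_zero.2 (I.restrict H).e0_pos.ne'
  have h1 := hq _ hσ
  rw [sum_fiber] at h1
  have hn : I.i s₀ ≠ ⊤ := i_ne_top_of_mk_ne_one I H hσ
  have h2 : ∀ t : H, ((I.i (s₀ * t)).toNat : ℝ) = tr ((I.restrict H).i t) ((I.i s₀).toNat : ℝ) := by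
    intro t
    have h3 := I.i_mul_eq_min (hmax t)
    lift I.i s₀ to ℕ using hn with n hn'
    rw [h3, ENat.toNat_natCast, restrict_i]
    have h4 : min (I.i ↑t) (n : ℕ∞) ≠ ⊤ := ne_top_of_le_ne_top (ENat.natCast_ne_top n)
      (min_le_right _ _)
    rw [toNat_eq_tr h4 (x := (n : ℝ)), tr_min_coe, min_self]
    have : min (I.i ↑t) (n : ℕ∞) ≤ n := min_le_right _ _
    have h5 := ENat.toNat_le_toNat this (ENat.natCast_ne_top n)
    rw [ENat.toNat_natCast] at h5
    exact_mod_cast h5
  rw [Finset.sum_congr rfl fun t _ => h2 t] at h1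
  unfold phi trSum
  rw [sub_add_cancel, sub_add_cancel, ← h1, mul_div_assoc, div_self he, mul_one]

/-- the key identity behind Herbrand's theorem and the transitivity of `φ`. -/
theorem tr_iQ_eq (hq : QuotientFormula I H IQ) (σ : G ⧸ H) (u : ℝ) :
    tr (IQ.i σ) ((I.restrict H).phi u + 1) * (I.restrict H).e0 =
      ∑ s ∈ fiber H σ, tr (I.i s) (u + 1) := by
  have he : ((I.restrict H).e0 : ℝ) ≠ 0 := Nat.cast_ne_zero.2 (I.restrict H).e0_pos.ne'
  obtain ⟨s₀, rfl, hmax⟩ := exists_max_rep I H σ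
  rw [sum_fiber]
  by_cases hσ : (s₀ : G ⧸ H) = 1
  · -- the trivial coset
    rw [hσ, IQ.i_one, tr_top]
    have hs₀ : s₀ ∈ H := (QuotientGroup.eq_one_iff s₀).1 hσ
    unfold phi trSum
    rw [sub_add_cancel, div_mul_cancel₀ _ he]
    -- reindex by left multiplication with `s₀ ∈ H`
    rw [eq_comm]
    exact Fintype.sum_equiv (Equiv.mulLeft (⟨s₀, hs₀⟩ : H))
      (fun t : H => tr (I.i (s₀ * t)) (u + 1)) (fun s : H => tr ((I.restrict H).i s) (u + 1))
      (fun t => rfl)
  · have hn : I.i s₀ ≠ ⊤ := i_ne_top_of_mk_ne_one I H hσ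
    have hm : IQ.i (s₀ : G ⧸ H) ≠ ⊤ := fun h => hσ ((IQ.i_eq_top _).1 h)
    have h1 := iQ_eq_phi I hq hσ hmax
    have h2 : ∀ t : H, tr (I.i (s₀ * t)) (u + 1) =
        tr ((I.restrict H).i t) (min ((I.i s₀).toNat : ℝ) (u + 1)) := by
      intro t
      have h3 := I.i_mul_eq_min (hmax t)
      lift I.i s₀ to ℕ using hn with n hn'
      rw [h3, tr_min_coe, ENat.toNat_natCast, restrict_i]
    rw [Finset.sum_congr rfl fun t _ => h2 t]
    -- left side
    have h4 : tr (IQ.i (s₀ : G ⧸ H)) ((I.restrict H).phi u + 1) =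
        (I.restrict H).phi (min (((I.i s₀).toNat : ℝ) - 1) u) + 1 := by
      unfold tr
      rw [if_neg hm, h1, min_add_add_right, (I.restrict H).phi_strictMono.monotone.map_min]
    rw [h4]
    unfold phi trSum
    rw [sub_add_cancel, div_mul_cancel₀ _ he, ← min_add_add_right, sub_add_cancel]

/-- **Multiplicativity of the ramification index**: `e_G = e_{G/H} · e_H`. -/
theorem e0_eq_mul (hq : QuotientFormula I H IQ) : I.e0 = IQ.e0 * (I.restrict H).e0 := by
  have h : ∀ σ : G ⧸ H, tr (IQ.i σ) 1 * (I.restrict H).e0 = ∑ s ∈ fiber H σ, tr (I.i s) 1 := by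
    intro σ
    have := tr_iQ_eq I hq σ 0
    rwa [(I.restrict H).phi_zero, zero_add] at this
  have h2 : (IQ.e0 : ℝ) * (I.restrict H).e0 = I.e0 := by
    rw [← IQ.trSum_one, ← I.trSum_one]
    unfold trSum
    rw [Finset.sum_mul, Finset.sum_congr rfl fun σ _ => h σ, sum_fiberwise]
  exact_mod_cast h2.symm

/-- **Transitivity of Herbrand's function**: `φ_G = φ_{G/H} ∘ φ_H`. -/
theorem phi_eq_comp (hq : QuotientFormula I H IQ) (u : ℝ) :
    I.phi u = IQ.phi ((I.restrict H).phi u) := by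
  have he : ((I.restrict H).e0 : ℝ) ≠ 0 := Nat.cast_ne_zero.2 (I.restrict H).e0_pos.ne'
  have heQ : (IQ.e0 : ℝ) ≠ 0 := Nat.cast_ne_zero.2 IQ.e0_pos.ne'
  have h1 : IQ.trSum ((I.restrict H).phi u + 1) * (I.restrict H).e0 = I.trSum (u + 1) := by
    unfold trSum
    rw [Finset.sum_mul, Finset.sum_congr rfl fun σ _ => tr_iQ_eq I hq σ u, sum_fiberwise]
  have h2 : (I.e0 : ℝ) = IQ.e0 * (I.restrict H).e0 := by exact_mod_cast e0_eq_mul I hq
  show I.trSum (u + 1) / I.e0 - 1 = IQ.trSum ((I.restrict H).phi u + 1) / IQ.e0 - 1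
  rw [← h1, h2]
  field_simp

/-- `ψ_G = ψ_H ∘ ψ_{G/H}`. -/
theorem psi_eq_comp (hq : QuotientFormula I H IQ) (v : ℝ) :
    I.psi v = (I.restrict H).psi (IQ.psi v) := by
  apply I.phi_strictMono.injective
  rw [phi_psi, phi_eq_comp I hq, phi_psi, phi_psi]

/-- **Herbrand's theorem**: `G_u H / H = (G/H)_{φ_H(u)}`. -/
theorem map_lowerGroup (hq : QuotientFormula I H IQ) (u : ℝ) :
    (I.lowerGroup u).map (QuotientGroup.mk' H) = IQ.lowerGroup ((I.restrict H).phi u) := by
  ext σ
  rw [Subgroup.mem_map]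
  constructor
  · rintro ⟨s, hs, rfl⟩
    rw [QuotientGroup.mk'_apply, mem_lowerGroup, ← tr_eq_self_iff]
    rw [mem_lowerGroup, ← tr_eq_self_iff] at hs
    have he : ((I.restrict H).e0 : ℝ) ≠ 0 := Nat.cast_ne_zero.2 (I.restrict H).e0_pos.ne'
    -- all terms of the fibre sum are maximal as soon as one is and the others are dominated
    obtain ⟨s₀, hs₀, hmax⟩ := exists_max_rep I H (s : G ⧸ H)
    have hle : I.i s ≤ I.i s₀ := by
      have hmem : s₀⁻¹ * s ∈ H := QuotientGroup.eq.1 hs₀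
      have := hmax ⟨s₀⁻¹ * s, hmem⟩
      simpa using this
    have hs0' : tr (I.i s₀) (u + 1) = u + 1 :=
      le_antisymm (tr_le _ _) (hs.symm.le.trans (tr_mono_left hle _))
    by_cases hσ : (s : G ⧸ H) = 1
    · rw [hσ, IQ.i_one, tr_top]
    · rw [← hs₀] at hσ ⊢
      have hm : IQ.i (s₀ : G ⧸ H) ≠ ⊤ := fun h => hσ ((IQ.i_eq_top _).1 h)
      have hn : I.i s₀ ≠ ⊤ := i_ne_top_of_mk_ne_one I H hσ
      have h1 := iQ_eq_phi I hq hσ hmax
      unfold tr
      rw [if_neg hm, h1, min_add_add_right, ← (I.restrict H).phi_strictMono.monotone.map_min]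
      congr 2
      unfold tr at hs0'
      rw [if_neg hn] at hs0'
      rw [min_eq_right_iff] at hs0' ⊢
      linarith
  · intro hσ
    by_cases h1 : σ = 1
    · exact ⟨1, Subgroup.one_mem _, by rw [map_one, h1]⟩
    · obtain ⟨s₀, rfl, hmax⟩ := exists_max_rep I H σ
      refine ⟨s₀, ?_, rfl⟩
      have hm : IQ.i (s₀ : G ⧸ H) ≠ ⊤ := fun h => h1 ((IQ.i_eq_top _).1 h)
      have hn : I.i s₀ ≠ ⊤ := i_ne_top_of_mk_ne_one I H h1
      have h2 := iQ_eq_phi I hq h1 hmax
      rw [mem_lowerGroup] at hσ ⊢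
      rcases hσ with hσ | hσ
      · exact absurd hσ hm
      · right
        rw [h2] at hσ
        have := (I.restrict H).phi_strictMono.le_iff_le.1 (by linarith :
          (I.restrict H).phi u ≤ (I.restrict H).phi (((I.i s₀).toNat : ℝ) - 1))
        linarith

/-- **Upper numbering passes to quotients**: `G^v H / H = (G/H)^v`. -/
theorem map_upperGroup (hq : QuotientFormula I H IQ) (v : ℝ) :
    (I.upperGroup v).map (QuotientGroup.mk' H) = IQ.upperGroup v := by
  unfold upperGroup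
  rw [map_lowerGroup I hq, psi_eq_comp I hq, phi_psi]

end Quotient

end LowerNumbering

end Fermat.Agent.Lib.Ram
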