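/-
P-S56 block (A) LOCAL, arithmetic layer (1) (helper12): the LOWER NUMBERING of a finite Galois
extension in an AKLB setting where `B` is a discrete valuation ring (e.g. `A` a complete DVR and
`B` its integral closure in `L`, see `Lib/CFT/Local/Basic.lean : ext_isDiscreteValuationRing`).

* `iG A K L B σ : ℕ∞ := ⨅ b : B, addVal B (σ b - b)`               (Serre's `i_G(σ)`)
* `lowerNumbering A K L B : LowerNumbering (L ≃ₐ[K] L)`             (instance of helper74's structure)
* `iG_eq_addVal_of_adjoin` : `B = A[x]`  ⟹  `iG σ = addVal B (σ x - x)`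
* `natCast_le_iG_iff`      : `n ≤ iG σ ↔ ∀ b, σ b - b ∈ 𝔪_B ^ n`   (so `lowerGroup n = ker (G → Aut (B/𝔪^(n+1)))`)
-/
import Fermat.Agent.Lib.Ram.Herbrand

set_option autoImplicit false

namespace Fermat.Agent.Lib.Ram.GaloisLower

open Fermat.Agent.Lib.Ram

open IsLocalRing IsDiscreteValuationRing

section AddValAut

variable {B : Type*} [CommRing B] [IsDomain B] [IsDiscreteValuationRing B]

/-- A ring automorphism of a discrete valuation ring preserves the additive valuation. -/
theorem addVal_ringEquiv (τ : B ≃+* B) (b : B) : addVal B (τ b) = addVal B b := by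
  by_cases hb : b = 0
  · subst hb; simp
  obtain ⟨ϖ, hϖ⟩ := exists_irreducible B
  obtain ⟨n, u, rfl⟩ := eq_unit_mul_pow_irreducible hb hϖ
  have hϖ' : Irreducible (τ ϖ) := (MulEquiv.irreducible_iff τ.toMulEquiv).mpr hϖ
  rw [map_mul, map_pow, addVal_def' u hϖ n]
  exact addVal_def' (Units.map τ.toMonoidHom u) hϖ' n

theorem addVal_algEquiv {A : Type*} [CommRing A] [Algebra A B] (τ : B ≃ₐ[A] B) (b : B) :
    addVal B (τ b) = addVal B b :=
  addVal_ringEquiv τ.toRingEquiv b

theorem addVal_neg' (b : B) : addVal B (-b) = addVal B b := by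
  have := (addVal B).map_neg b
  exact this

theorem addVal_sub_comm (a b : B) : addVal B (a - b) = addVal B (b - a) := by
  rw [← neg_sub, addVal_neg']

theorem natCast_le_addVal_iff (n : ℕ) (b : B) :
    (n : ℕ∞) ≤ addVal B b ↔ b ∈ IsLocalRing.maximalIdeal B ^ n := by
  obtain ⟨ϖ, hϖ⟩ := exists_irreducible B
  rw [hϖ.maximalIdeal_eq, Ideal.span_singleton_pow, Ideal.mem_span_singleton,
    ← addVal_le_iff_dvd, hϖ.addVal_pow]

end AddValAut

section AKLB

variable (A K L B : Type*) [CommRing A] [Field K] [Algebra A K] [IsFractionRing A K]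
  [Field L] [Algebra K L] [Algebra.IsAlgebraic K L] [Algebra A L] [IsScalarTower A K L]
  [CommRing B] [IsDomain B] [IsDiscreteValuationRing B] [Algebra A B] [Algebra B L]
  [IsScalarTower A B L] [IsIntegralClosure B A L]

/-- Serre's function `i_G(σ) = min_{b ∈ B} v_L(σ b - b)`. -/
noncomputable def iG (σ : L ≃ₐ[K] L) : ℕ∞ :=
  ⨅ b : B, addVal B (galRestrict A K L B σ b - b)

variable {A K L B}

omit [IsDomain B] [IsDiscreteValuationRing B] in
theorem galRestrict_mul_apply (σ τ : L ≃ₐ[K] L) (b : B) :
    galRestrict A K L B (σ * τ) b = galRestrict A K L B σ (galRestrict A K L B τ b) := by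
  rw [map_mul]; rfl

omit [IsDomain B] [IsDiscreteValuationRing B] in
theorem galRestrict_one_apply (b : B) : galRestrict A K L B (1 : L ≃ₐ[K] L) b = b := by
  rw [map_one]; rfl

omit [IsDomain B] [IsDiscreteValuationRing B] in
theorem galRestrict_inv_apply_self (σ : L ≃ₐ[K] L) (b : B) :
    galRestrict A K L B σ⁻¹ (galRestrict A K L B σ b) = b := by
  rw [← galRestrict_mul_apply, inv_mul_cancel, galRestrict_one_apply]

omit [IsDomain B] [IsDiscreteValuationRing B] in
theorem galRestrict_apply_inv_self (σ : L ≃ₐ[K] L) (b : B) :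
    galRestrict A K L B σ (galRestrict A K L B σ⁻¹ b) = b := by
  rw [← galRestrict_mul_apply, mul_inv_cancel, galRestrict_one_apply]

theorem iG_le (σ : L ≃ₐ[K] L) (b : B) :
    iG A K L B σ ≤ addVal B (galRestrict A K L B σ b - b) :=
  iInf_le _ b

theorem le_iG_iff (σ : L ≃ₐ[K] L) (a : ℕ∞) :
    a ≤ iG A K L B σ ↔ ∀ b : B, a ≤ addVal B (galRestrict A K L B σ b - b) :=
  le_iInf_iff

theorem natCast_le_iG_iff (σ : L ≃ₐ[K] L) (n : ℕ) :
    (n : ℕ∞) ≤ iG A K L B σ ↔ ∀ b : B, galRestrict A K L B σ b - b ∈ IsLocalRing.maximalIdeal B ^ n := by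
  rw [le_iG_iff]
  exact forall_congr' fun b => natCast_le_addVal_iff n _

theorem iG_eq_top_iff (σ : L ≃ₐ[K] L) : iG A K L B σ = ⊤ ↔ σ = 1 := by
  constructor
  · intro h
    have h1 : galRestrict A K L B σ = 1 := by
      ext b
      have := iG_le (A := A) (K := K) (L := L) (B := B) σ b
      rw [h, top_le_iff, addVal_eq_top_iff, sub_eq_zero] at this
      simpa using this
    have h2 : galRestrict A K L B σ = galRestrict A K L B 1 := by rw [h1, map_one]
    exact (galRestrict A K L B).injective h2
  · rintro rfl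
    simp [iG]

theorem iG_mul (σ τ : L ≃ₐ[K] L) :
    min (iG A K L B σ) (iG A K L B τ) ≤ iG A K L B (σ * τ) := by
  rw [le_iG_iff]
  intro b
  have h : galRestrict A K L B (σ * τ) b - b =
      (galRestrict A K L B σ (galRestrict A K L B τ b) - galRestrict A K L B τ b)
        + (galRestrict A K L B τ b - b) := by
    rw [galRestrict_mul_apply, sub_add_sub_cancel]
  rw [h]
  exact le_trans (min_le_min (iG_le σ _) (iG_le τ b)) addVal_add

theorem iG_inv (σ : L ≃ₐ[K] L) : iG A K L B σ⁻¹ = iG A K L B σ := by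
  unfold iG
  congr 1
  funext b
  have h : galRestrict A K L B σ⁻¹ b - b =
      galRestrict A K L B σ⁻¹ (b - galRestrict A K L B σ b) := by
    rw [map_sub, galRestrict_inv_apply_self]
  rw [h, addVal_algEquiv, addVal_sub_comm]

theorem iG_conj (σ τ : L ≃ₐ[K] L) : iG A K L B (τ * σ * τ⁻¹) = iG A K L B σ := by
  unfold iG
  apply le_antisymm
  · rw [le_iInf_iff]
    intro c
    refine (iInf_le _ (galRestrict A K L B τ c)).trans_eq ?_
    have h : galRestrict A K L B (τ * σ * τ⁻¹) (galRestrict A K L B τ c) - galRestrict A K L B τ c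
        = galRestrict A K L B τ (galRestrict A K L B σ c - c) := by
      rw [map_sub, galRestrict_mul_apply, galRestrict_mul_apply, galRestrict_inv_apply_self]
    rw [h, addVal_algEquiv]
  · rw [le_iInf_iff]
    intro b
    refine (iInf_le _ (galRestrict A K L B τ⁻¹ b)).trans_eq ?_
    have h : galRestrict A K L B (τ * σ * τ⁻¹) b - b
        = galRestrict A K L B τ (galRestrict A K L B σ (galRestrict A K L B τ⁻¹ b)
            - galRestrict A K L B τ⁻¹ b) := by
      rw [map_sub, galRestrict_mul_apply, galRestrict_mul_apply, galRestrict_apply_inv_self]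
    rw [h, addVal_algEquiv]

variable (A K L B) in
/-- The lower numbering of `Gal(L/K)` attached to the discrete valuation ring `B`. -/
noncomputable def lowerNumbering : LowerNumbering (L ≃ₐ[K] L) where
  i := iG A K L B
  i_eq_top := iG_eq_top_iff
  i_mul := iG_mul
  i_inv := iG_inv
  i_conj := iG_conj

@[simp] theorem lowerNumbering_i (σ : L ≃ₐ[K] L) :
    (lowerNumbering A K L B).i σ = iG A K L B σ := rfl

/-- If `B = A[x]` then `i_G(σ) = v_L(σ x - x)`. -/
theorem iG_eq_addVal_of_adjoin (x : B) (hx : Algebra.adjoin A {x} = ⊤) (σ : L ≃ₐ[K] L) :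
    iG A K L B σ = addVal B (galRestrict A K L B σ x - x) := by
  apply le_antisymm (iG_le σ x)
  rw [le_iG_iff]
  intro b
  rw [addVal_le_iff_dvd]
  have hb : b ∈ (Polynomial.aeval x : Polynomial A →ₐ[A] B).range := by
    rw [← Algebra.adjoin_singleton_eq_range_aeval, hx]; trivial
  obtain ⟨p, rfl⟩ := hb
  have h1 : galRestrict A K L B σ (Polynomial.aeval x p)
      = Polynomial.aeval (galRestrict A K L B σ x) p :=
    (Polynomial.aeval_algHom_apply ((galRestrict A K L B σ : B ≃ₐ[A] B) : B →ₐ[A] B) x p).symm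
  show _ ∣ galRestrict A K L B σ (Polynomial.aeval x p) - Polynomial.aeval x p
  rw [h1, Polynomial.aeval_def, Polynomial.aeval_def, Polynomial.eval₂_eq_eval_map,
    Polynomial.eval₂_eq_eval_map]
  exact Polynomial.sub_dvd_eval_sub _ _ _


/-- `σ ∈ G_n ↔ σ` acts trivially on `B / 𝔪_B^(n+1)` (Serre's definition of `G_n`). -/
theorem mem_lowerGroup_natCast_iff (σ : L ≃ₐ[K] L) (n : ℕ) :
    σ ∈ (lowerNumbering A K L B).lowerGroup (n : ℝ) ↔
      ∀ b : B, galRestrict A K L B σ b - b ∈ IsLocalRing.maximalIdeal B ^ (n + 1) := by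
  rw [← natCast_le_iG_iff, LowerNumbering.mem_lowerGroup, lowerNumbering_i]
  induction h : iG A K L B σ using ENat.recTopCoe with
  | top => simp [leENat_top]
  | coe m =>
    rw [leENat_coe]
    constructor
    · intro hm
      have : (n : ℝ) + 1 = ((n + 1 : ℕ) : ℝ) := by push_cast; ring
      rw [this] at hm
      exact_mod_cast hm
    · intro hm
      have : n + 1 ≤ m := by exact_mod_cast hm
      have : ((n + 1 : ℕ) : ℝ) ≤ m := by exact_mod_cast this
      push_cast at this
      exact this

/-- The inertia group: `σ ∈ G_0 ↔ σ` acts trivially on the residue field of `B`. -/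
theorem mem_lowerGroup_zero_iff (σ : L ≃ₐ[K] L) :
    σ ∈ (lowerNumbering A K L B).lowerGroup 0 ↔
      ∀ b : B, galRestrict A K L B σ b - b ∈ IsLocalRing.maximalIdeal B := by
  have := mem_lowerGroup_natCast_iff (A := A) (K := K) (L := L) (B := B) σ 0
  simpa using this

/-- `i_G` only depends on the action on `B`: change of the base (`A, K`) does not matter.  In
particular, for an intermediate field `F` with ring of integers `A'`, the lower numbering of
`Gal(L/F)` is the restriction of the lower numbering of `Gal(L/K)`. -/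
theorem iG_congr {A' K' : Type*} [CommRing A'] [Field K'] [Algebra A' K'] [IsFractionRing A' K']
    [Algebra K' L] [Algebra.IsAlgebraic K' L] [Algebra A' L] [IsScalarTower A' K' L]
    [Algebra A' B] [IsScalarTower A' B L] [IsIntegralClosure B A' L]
    (σ : L ≃ₐ[K] L) (σ' : L ≃ₐ[K'] L) (h : ∀ x : L, σ x = σ' x) :
    iG A K L B σ = iG A' K' L B σ' := by
  unfold iG
  congr 1
  funext b
  have hb : galRestrict A K L B σ b = galRestrict A' K' L B σ' b := by
    apply IsIntegralClosure.algebraMap_injective B A L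
    rw [algebraMap_galRestrict_apply, algebraMap_galRestrict_apply, h]
  rw [hb]

end AKLB

end Fermat.Agent.Lib.Ram.GaloisLower
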