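/-
P-S56 block (A), ramification (helper12): RAMIFICATION INDEX = ORDER OF INERTIA, in the AKLB
formalism of `Lib/Ram/GaloisLower` (sub-lemmas of Serre IV Prop. 3 for `Lib/Ram/Prop3Hom`).

For a tower `K ≤ L ≤ M` with DVRs `A ⊆ B ⊆ C`:
* `addVal_algebraMap` : `v_C(b) = e(C/B) · v_B(b)`;
* `restrict_ker_e0`   : `e_0` of the lower numbering of `Gal(M/K)` restricted to the kernel of
  `Gal(M/K) → Gal(L/K)` is `e(C/B)`.
-/
import Fermat.Agent.Lib.Ram.GaloisLower
import Fermat.Agent.Lib.CFT.Local.DVRVal

set_option autoImplicit false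
set_option linter.unusedSectionVars false

namespace Fermat.Agent.Lib.Ram.RamIdxInertia

open IsLocalRing IsDiscreteValuationRing Fermat.Agent.Lib.Ram Fermat.Agent.Lib.Ram.GaloisLower

section Val

variable {B C : Type*} [CommRing B] [IsDomain B] [IsDiscreteValuationRing B]
  [CommRing C] [IsDomain C] [IsDiscreteValuationRing C] [Algebra B C]
  [Module.Finite B C] [Module.IsTorsionFree B C]

/-- A uniformiser of `B` has valuation `e(C/B)` in `C`. -/
theorem addVal_algebraMap_irreducible {ϖ : B} (hϖ : Irreducible ϖ) :
    addVal C (algebraMap B C ϖ) = ((IsLocalRing.maximalIdeal C).ramificationIdx B : ℕ∞) := by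
  obtain ⟨π, hπ⟩ := exists_irreducible C
  have h1 := Fermat.Agent.Lib.CFT.Local.map_maximalIdeal_eq_pow B C
  rw [hϖ.maximalIdeal_eq, hπ.maximalIdeal_eq, Ideal.map_span, Set.image_singleton,
    Ideal.span_singleton_pow, Ideal.span_singleton_eq_span_singleton] at h1
  rw [(addVal_eq_iff_associated _ _).2 h1, hπ.addVal_pow]
  rfl

/-- **`v_C(b) = e(C/B) · v_B(b)`.** -/
theorem addVal_algebraMap (b : B) :
    addVal C (algebraMap B C b)
      = ((IsLocalRing.maximalIdeal C).ramificationIdx B : ℕ∞) * addVal B b := by
  have he : 0 < (IsLocalRing.maximalIdeal C).ramificationIdx B :=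
    Fermat.Agent.Lib.CFT.Local.ramIdx_pos B C
  by_cases hb : b = 0
  · subst hb
    rw [map_zero, addVal_zero, addVal_zero, ENat.mul_top]
    exact_mod_cast he.ne'
  obtain ⟨ϖ, hϖ⟩ := exists_irreducible B
  obtain ⟨n, u, rfl⟩ := eq_unit_mul_pow_irreducible hb hϖ
  have hu : addVal C (algebraMap B C (u : B)) = 0 := by
    rw [addVal_eq_zero_iff]; exact u.isUnit.map _
  rw [map_mul, map_pow, addVal_mul, addVal_pow, hu, zero_add, addVal_algebraMap_irreducible hϖ,
    addVal_mul, addVal_pow, addVal_eq_zero_of_unit, zero_add, addVal_uniformizer hϖ]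
  simp [mul_comm]

end Val

section Ker

variable {K L M : Type*} [Field K] [Field L] [Field M] [Algebra K L] [Algebra K M] [Algebra L M]
  [IsScalarTower K L M] [Normal K L]

/-- The kernel of `Gal(M/K) → Gal(L/K)` consists of the automorphisms fixing `L`. -/
theorem restrictNormalHom_eq_one_iff (σ : M ≃ₐ[K] M) :
    AlgEquiv.restrictNormalHom L σ = 1 ↔ ∀ x : L, σ (algebraMap L M x) = algebraMap L M x := by
  constructor
  · intro h x
    rw [← AlgEquiv.restrictNormal_commutes σ L x]
    have : σ.restrictNormal L = 1 := h
    rw [this]; rfl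
  · intro h
    apply AlgEquiv.ext
    intro x
    apply (algebraMap L M).injective
    have : AlgEquiv.restrictNormalHom L σ = σ.restrictNormal L := rfl
    rw [this, AlgEquiv.restrictNormal_commutes, h]; rfl

/-- `Gal(M/L) → ker (Gal(M/K) → Gal(L/K))`. -/
noncomputable def toKer (τ : M ≃ₐ[L] M) :
    (AlgEquiv.restrictNormalHom (F := K) (K₁ := M) L).ker :=
  ⟨τ.restrictScalars K, by
    rw [MonoidHom.mem_ker, restrictNormalHom_eq_one_iff]
    intro x
    exact τ.commutes x⟩

@[simp] theorem toKer_coe (τ : M ≃ₐ[L] M) :
    ((toKer (K := K) τ : (AlgEquiv.restrictNormalHom (F := K) (K₁ := M) L).ker) : M ≃ₐ[K] M)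
      = τ.restrictScalars K := rfl

theorem toKer_bijective : Function.Bijective (toKer (K := K) (L := L) (M := M)) := by
  constructor
  · intro τ τ' h
    have h1 : τ.restrictScalars K = τ'.restrictScalars K := congrArg Subtype.val h
    exact AlgEquiv.restrictScalars_injective K h1
  · rintro ⟨σ, hσ⟩
    rw [MonoidHom.mem_ker, restrictNormalHom_eq_one_iff] at hσ
    refine ⟨AlgEquiv.ofRingEquiv (f := σ.toRingEquiv) hσ, ?_⟩
    apply Subtype.ext
    apply AlgEquiv.ext
    intro x
    rfl

end Ker

section E0

variable {G : Type*} [Group G] [Fintype G]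

/-- `e0` as a `Nat.card`. -/
theorem e0_eq_natCard (I : LowerNumbering G) : I.e0 = Nat.card {s : G // 1 ≤ I.i s} := by
  classical
  unfold LowerNumbering.e0
  rw [Nat.card_eq_fintype_card, Fintype.card_subtype]

end E0

section Tower

variable {A K L B M C : Type*} [CommRing A] [IsDomain A] [Field K] [Algebra A K]
  [IsFractionRing A K]
  [Field L] [Algebra K L] [Algebra A L] [IsScalarTower A K L]
  [CommRing B] [IsDomain B] [IsDiscreteValuationRing B] [Algebra A B] [Algebra B L]
  [IsScalarTower A B L] [IsIntegralClosure B A L]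
  [Field M] [Algebra K M] [Algebra A M] [IsScalarTower A K M]
  [CommRing C] [IsDomain C] [IsDiscreteValuationRing C] [Algebra A C] [Algebra C M]
  [IsScalarTower A C M] [IsIntegralClosure C A M]
  [Algebra L M] [IsScalarTower K L M] [Algebra B C] [Algebra B M] [IsScalarTower B C M]
  [IsScalarTower B L M]

section Compat

variable [Algebra.IsAlgebraic K M] [Algebra.IsAlgebraic L M] [IsFractionRing B L]
  [IsIntegralClosure C B M]

/-- The two restrictions of `τ ∈ Gal(M/L)` to `C` agree. -/
theorem galRestrict_restrictScalars (τ : M ≃ₐ[L] M) (c : C) :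
    galRestrict A K M C (τ.restrictScalars K) c = galRestrict B L M C τ c := by
  apply IsIntegralClosure.algebraMap_injective C A M
  rw [algebraMap_galRestrict_apply, algebraMap_galRestrict_apply]
  rfl

end Compat

variable [FiniteDimensional K L] [FiniteDimensional K M] [IsGalois K M] [Normal K L]

/-- `A → B → M` is a tower. -/
theorem isScalarTower_bot_mid_top (A K L B M : Type*) [CommRing A] [Field K] [Algebra A K]
    [Field L] [Algebra K L] [Algebra A L] [IsScalarTower A K L]
    [CommRing B] [Algebra A B] [Algebra B L] [IsScalarTower A B L]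
    [Field M] [Algebra K M] [Algebra A M] [IsScalarTower A K M]
    [Algebra L M] [IsScalarTower K L M] [Algebra B M] [IsScalarTower B L M] :
    IsScalarTower A B M := by
  refine IsScalarTower.of_algebraMap_eq fun a => ?_
  rw [IsScalarTower.algebraMap_apply A K M, IsScalarTower.algebraMap_apply K L M,
    ← IsScalarTower.algebraMap_apply A K L, IsScalarTower.algebraMap_apply A B L,
    ← IsScalarTower.algebraMap_apply B L M]

/-- `B → C` is injective. -/
theorem algebraMap_injective_tower (A L B M C : Type*) [CommRing A]
    [Field L] [Algebra A L] [CommRing B] [Algebra A B] [Algebra B L]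
    [IsIntegralClosure B A L] [Field M] [CommRing C] [Algebra C M]
    [Algebra L M] [Algebra B C] [Algebra B M] [IsScalarTower B C M] [IsScalarTower B L M] :
    Function.Injective (algebraMap B C) := by
  have h : Function.Injective (algebraMap B M) := by
    rw [IsScalarTower.algebraMap_eq B L M]
    exact (algebraMap L M).injective.comp (IsIntegralClosure.algebraMap_injective B A L)
  rw [IsScalarTower.algebraMap_eq B C M] at h
  exact Function.Injective.of_comp h

/-- `C` is a finite `B`-module. -/
theorem finite_tower (A K L B M C : Type*) [CommRing A] [IsDomain A] [Field K] [Algebra A K]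
    [IsFractionRing A K]
    [Field L] [Algebra K L] [Algebra A L] [IsScalarTower A K L]
    [CommRing B] [IsDomain B] [IsDiscreteValuationRing B] [Algebra A B] [Algebra B L]
    [IsScalarTower A B L] [IsIntegralClosure B A L]
    [Field M] [Algebra K M] [Algebra A M] [IsScalarTower A K M]
    [CommRing C] [Algebra A C] [Algebra C M]
    [IsScalarTower A C M] [IsIntegralClosure C A M]
    [Algebra L M] [IsScalarTower K L M] [Algebra B C] [Algebra B M] [IsScalarTower B C M]
    [IsScalarTower B L M] [FiniteDimensional K L] [FiniteDimensional K M] [IsGalois K M] :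
    Module.Finite B C := by
  have : IsScalarTower A B M := isScalarTower_bot_mid_top A K L B M
  have : Algebra.IsIntegral A B := IsIntegralClosure.isIntegral_algebra A L
  have : IsIntegralClosure C B M := IsIntegralClosure.tower_top (R := A) (A := B)
  have : IsFractionRing B L := IsIntegralClosure.isFractionRing_of_finite_extension A K L B
  have : FiniteDimensional L M := FiniteDimensional.right K L M
  have : IsGalois L M := IsGalois.tower_top_of_isGalois K L M
  exact IsIntegralClosure.finite B L M C

/-- **`v_C(b) = e(C/B) · v_B(b)`** in the tower context. -/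
theorem addVal_algebraMap_tower (A K L M : Type*) {B C : Type*} [CommRing A] [IsDomain A]
    [Field K] [Algebra A K] [IsFractionRing A K]
    [Field L] [Algebra K L] [Algebra A L] [IsScalarTower A K L]
    [CommRing B] [IsDomain B] [IsDiscreteValuationRing B] [Algebra A B] [Algebra B L]
    [IsScalarTower A B L] [IsIntegralClosure B A L]
    [Field M] [Algebra K M] [Algebra A M] [IsScalarTower A K M]
    [CommRing C] [IsDomain C] [IsDiscreteValuationRing C] [Algebra A C] [Algebra C M]
    [IsScalarTower A C M] [IsIntegralClosure C A M]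
    [Algebra L M] [IsScalarTower K L M] [Algebra B C] [Algebra B M] [IsScalarTower B C M]
    [IsScalarTower B L M] [FiniteDimensional K L] [FiniteDimensional K M] [IsGalois K M] (b : B) :
    addVal C (algebraMap B C b)
      = ((IsLocalRing.maximalIdeal C).ramificationIdx B : ℕ∞) * addVal B b := by
  have : Module.Finite B C := finite_tower A K L B M C
  have : FaithfulSMul B C :=
    (faithfulSMul_iff_algebraMap_injective B C).2 (algebraMap_injective_tower A L B M C)
  exact addVal_algebraMap b

/-- **The inertia subgroup of `Gal(M/L)` inside `Gal(M/K)` has order `e(C/B)`.** -/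
theorem restrict_ker_e0 [PerfectField (IsLocalRing.maximalIdeal B).ResidueField]
    [Fintype (M ≃ₐ[K] M)] [Fintype (AlgEquiv.restrictNormalHom (F := K) (K₁ := M) L).ker] :
    ((lowerNumbering A K M C).restrict (AlgEquiv.restrictNormalHom (F := K) (K₁ := M) L).ker).e0
      = (IsLocalRing.maximalIdeal C).ramificationIdx B := by
  have : IsScalarTower A B M := isScalarTower_bot_mid_top A K L B M
  have : Algebra.IsIntegral A B := IsIntegralClosure.isIntegral_algebra A L
  have : IsIntegralClosure C B M := IsIntegralClosure.tower_top (R := A) (A := B)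
  have : IsFractionRing B L := IsIntegralClosure.isFractionRing_of_finite_extension A K L B
  have : FiniteDimensional L M := FiniteDimensional.right K L M
  have : IsGalois L M := IsGalois.tower_top_of_isGalois K L M
  have : IsFractionRing C M := IsIntegralClosure.isFractionRing_of_finite_extension B L M C
  have : Module.Finite B C := IsIntegralClosure.finite B L M C
  have : Algebra.IsIntegral B C := IsIntegralClosure.isIntegral_algebra B M
  have hinj : Function.Injective (algebraMap B C) := by
    have h : Function.Injective (algebraMap B M) := by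
      rw [IsScalarTower.algebraMap_eq B L M]
      exact (algebraMap L M).injective.comp (IsIntegralClosure.algebraMap_injective B A L)
    rw [IsScalarTower.algebraMap_eq B C M] at h
    exact Function.Injective.of_comp h
  have : FaithfulSMul B C := (faithfulSMul_iff_algebraMap_injective B C).2 hinj
  let : MulSemiringAction (M ≃ₐ[L] M) C := IsIntegralClosure.MulSemiringAction B L M C
  have : IsGaloisGroup (M ≃ₐ[L] M) B C := IsGaloisGroup.of_isFractionRing _ _ _ L M
  have hsmul : ∀ (τ : M ≃ₐ[L] M) (c : C), τ • c = galRestrict B L M C τ c := fun _ _ => rfl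
  have h1 := Ideal.card_inertia_eq_ramificationIdxIn (G := M ≃ₐ[L] M)
    (IsLocalRing.maximalIdeal B) (IsLocalRing.maximalIdeal C)
  rw [Ideal.ramificationIdxIn_eq_ramificationIdx (IsLocalRing.maximalIdeal B)
    (IsLocalRing.maximalIdeal C) (M ≃ₐ[L] M)] at h1
  rw [← h1, e0_eq_natCard]
  -- the two descriptions of the inertia condition
  have key : ∀ τ : M ≃ₐ[L] M,
      (1 : ℕ∞) ≤ ((lowerNumbering A K M C).restrict
          (AlgEquiv.restrictNormalHom (F := K) (K₁ := M) L).ker).i (toKer τ) ↔
        τ ∈ (IsLocalRing.maximalIdeal C).inertia (M ≃ₐ[L] M) := by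
    intro τ
    rw [LowerNumbering.restrict_i, lowerNumbering_i, toKer_coe, AddSubgroup.mem_inertia]
    have h2 := natCast_le_iG_iff (A := A) (K := K) (L := M) (B := C) (τ.restrictScalars K) 1
    rw [Nat.cast_one, pow_one] at h2
    rw [h2]
    refine forall_congr' fun c => ?_
    rw [galRestrict_restrictScalars (A := A) (K := K) (B := B) (L := L) τ c, hsmul]
    rfl
  symm
  refine Nat.card_eq_of_bijective
    (fun τ : (IsLocalRing.maximalIdeal C).inertia (M ≃ₐ[L] M) =>
      (⟨toKer τ.1, (key τ.1).2 τ.2⟩ : {s : (AlgEquiv.restrictNormalHom (F := K) (K₁ := M) L).ker //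
        1 ≤ ((lowerNumbering A K M C).restrict _).i s})) ⟨?_, ?_⟩
  · intro τ τ' h
    apply Subtype.ext
    exact toKer_bijective.1 (congrArg Subtype.val h)
  · rintro ⟨s, hs⟩
    obtain ⟨τ, rfl⟩ := toKer_bijective.2 s
    exact ⟨⟨τ, (key τ).1 hs⟩, rfl⟩

end Tower

end Fermat.Agent.Lib.Ram.RamIdxInertia
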