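/-
P-S56 block (A), ramification (helper12): `e₀ = e(B/A)` for the AKLB lower numbering of
`Lib/Ram/GaloisLower` (base case of `Lib/Ram/RamIdxInertia.restrict_ker_e0`), and
`v_B(a) = e₀ · v_A(a)`.
-/
import Fermat.Agent.Lib.Ram.RamIdxInertia

set_option autoImplicit false
set_option linter.unusedSectionVars false

namespace Fermat.Agent.Lib.Ram.E0RamIdx

open IsLocalRing IsDiscreteValuationRing Fermat.Agent.Lib.Ram Fermat.Agent.Lib.Ram.GaloisLower
  Fermat.Agent.Lib.Ram.RamIdxInertia

variable {A K L B : Type*} [CommRing A] [IsDomain A] [IsDiscreteValuationRing A]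
  [Field K] [Algebra A K] [IsFractionRing A K]
  [Field L] [Algebra K L] [Algebra A L] [IsScalarTower A K L]
  [CommRing B] [IsDomain B] [IsDiscreteValuationRing B] [Algebra A B] [Algebra B L]
  [IsScalarTower A B L] [IsIntegralClosure B A L] [FiniteDimensional K L] [IsGalois K L]

/-- `A → B` is injective. -/
theorem algebraMap_injective_base (A K L B : Type*) [CommRing A]
    [Field K] [Algebra A K] [IsFractionRing A K]
    [Field L] [Algebra K L] [Algebra A L] [IsScalarTower A K L]
    [CommRing B] [Algebra A B] [Algebra B L] [IsScalarTower A B L] :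
    Function.Injective (algebraMap A B) := by
  have h : Function.Injective (algebraMap A L) := by
    rw [IsScalarTower.algebraMap_eq A K L]
    exact (algebraMap K L).injective.comp (IsFractionRing.injective A K)
  rw [IsScalarTower.algebraMap_eq A B L] at h
  exact Function.Injective.of_comp h

/-- **`e₀ = e(B/A)`**: the order of the inertia group is the ramification index. -/
theorem e0_eq_ramificationIdx [PerfectField (IsLocalRing.maximalIdeal A).ResidueField]
    [Fintype (L ≃ₐ[K] L)] :
    (lowerNumbering A K L B).e0 = (IsLocalRing.maximalIdeal B).ramificationIdx A := by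
  have : IsFractionRing B L := IsIntegralClosure.isFractionRing_of_finite_extension A K L B
  have : Module.Finite A B := IsIntegralClosure.finite A K L B
  have : Algebra.IsIntegral A B := IsIntegralClosure.isIntegral_algebra A L
  have : FaithfulSMul A B :=
    (faithfulSMul_iff_algebraMap_injective A B).2 (algebraMap_injective_base A K L B)
  let : MulSemiringAction (L ≃ₐ[K] L) B := IsIntegralClosure.MulSemiringAction A K L B
  have : IsGaloisGroup (L ≃ₐ[K] L) A B := IsGaloisGroup.of_isFractionRing _ _ _ K L
  have hsmul : ∀ (τ : L ≃ₐ[K] L) (b : B), τ • b = galRestrict A K L B τ b := fun _ _ => rfl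
  have h1 := Ideal.card_inertia_eq_ramificationIdxIn (G := L ≃ₐ[K] L)
    (IsLocalRing.maximalIdeal A) (IsLocalRing.maximalIdeal B)
  rw [Ideal.ramificationIdxIn_eq_ramificationIdx (IsLocalRing.maximalIdeal A)
    (IsLocalRing.maximalIdeal B) (L ≃ₐ[K] L)] at h1
  rw [← h1, e0_eq_natCard]
  have key : ∀ τ : L ≃ₐ[K] L, (1 : ℕ∞) ≤ (lowerNumbering A K L B).i τ ↔
      τ ∈ (IsLocalRing.maximalIdeal B).inertia (L ≃ₐ[K] L) := by
    intro τ
    rw [lowerNumbering_i, AddSubgroup.mem_inertia]
    have h2 := natCast_le_iG_iff (A := A) (K := K) (L := L) (B := B) τ 1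
    rw [Nat.cast_one, pow_one] at h2
    rw [h2]
    refine forall_congr' fun b => ?_
    rw [hsmul]
    rfl
  exact Nat.card_congr (Equiv.subtypeEquivRight key)

/-- **`v_B(a) = e₀ · v_A(a)`.** -/
theorem addVal_algebraMap_eq [PerfectField (IsLocalRing.maximalIdeal A).ResidueField]
    [Fintype (L ≃ₐ[K] L)] (a : A) :
    addVal B (algebraMap A B a) = ((lowerNumbering A K L B).e0 : ℕ∞) * addVal A a := by
  have : Module.Finite A B := IsIntegralClosure.finite A K L B
  have : FaithfulSMul A B :=
    (faithfulSMul_iff_algebraMap_injective A B).2 (algebraMap_injective_base A K L B)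
  rw [e0_eq_ramificationIdx]
  exact addVal_algebraMap a

/-- A uniformiser of `A` has valuation `e₀` in `B`. -/
theorem addVal_algebraMap_irreducible_eq [PerfectField (IsLocalRing.maximalIdeal A).ResidueField]
    [Fintype (L ≃ₐ[K] L)] {ϖ : A} (hϖ : Irreducible ϖ) :
    addVal B (algebraMap A B ϖ) = ((lowerNumbering A K L B).e0 : ℕ∞) := by
  rw [addVal_algebraMap_eq (K := K) (L := L), addVal_uniformizer hϖ, mul_one]

end Fermat.Agent.Lib.Ram.E0RamIdx
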