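import Fermat.Agent.Lib.Ram.HerbrandCor

/-!
helper74 (P-S56, block (A) LOCAL).  The largest breaks of an abstract lower numbering
(Serre's normalisation, `Lib/Ram/Herbrand.lean`):

* `iMax I = max_{s ≠ 1} i s` (`0` for the trivial group), `uMax I = φ(iMax - 1)` : the largest
  upper break (`-1` for the trivial group);
* `upperBounded_iff_uMax_le : I.UpperBounded v₀ ↔ I.uMax ≤ v₀` (`v₀ ≥ -1`),
  `upperGroup_eq_bot_iff : I.upperGroup v = ⊥ ↔ I.uMax < v` (`v > -1`);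
* quotients `uMax_quotient_le`, towers `uMax_eq_max_tower`
  (`u_{L/K} = max (u_{K'/K}, φ_{K'/K}(u_{L/K'}))`), compositum `uMax_eq_max_of_inf_eq_bot` and
  `UpperBounded.of_inf_eq_bot`, tame `IsTame.uMax_le`, `uMax_eq_div_of_tame`.
-/

set_option autoImplicit false
set_option linter.unusedSectionVars false

open Finset

namespace Fermat.Agent.Lib.Ram

namespace LowerNumbering

variable {G : Type*} [Group G] (I : LowerNumbering G)

section Max

variable [Fintype G]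

/-- `max_{s ≠ 1} i s` (`0` for the trivial group; note `(⊤ : ℕ∞).toNat = 0`). -/
noncomputable def iMax : ℝ :=
  Finset.univ.sup' ⟨(1 : G), Finset.mem_univ 1⟩ fun s => ((I.i s).toNat : ℝ)

/-- the largest upper break (Serre's numbering; `-1` for the trivial group). -/
noncomputable def uMax : ℝ := I.phi (I.iMax - 1)

theorem toNat_i_le_iMax (s : G) : ((I.i s).toNat : ℝ) ≤ I.iMax :=
  Finset.le_sup' (fun s => ((I.i s).toNat : ℝ)) (Finset.mem_univ s)

theorem iMax_nonneg : 0 ≤ I.iMax := (Nat.cast_nonneg _).trans (I.toNat_i_le_iMax 1)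

theorem neg_one_le_uMax : -1 ≤ I.uMax := by
  unfold uMax
  rw [← I.phi_neg_one]
  exact I.phi_strictMono.monotone (by linarith [I.iMax_nonneg])

theorem iMax_le_iff {c : ℝ} (hc : 0 ≤ c) :
    I.iMax ≤ c ↔ ∀ s : G, s ≠ 1 → ((I.i s).toNat : ℝ) ≤ c := by
  constructor
  · intro h s _
    exact (I.toNat_i_le_iMax s).trans h
  · intro h
    apply Finset.sup'_le
    intro s _
    by_cases hs : s = 1
    · rw [hs, I.i_one, ENat.toNat_top, Nat.cast_zero]
      exact hc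
    · exact h s hs

theorem neg_one_le_psi {v : ℝ} (hv : -1 ≤ v) : -1 ≤ I.psi v := by
  rw [← I.psi_neg_one]
  exact I.psi_strictMono.monotone hv

/-- `G^v = 1` for all `v > v₀` iff `u_{L/K} ≤ v₀`. -/
theorem upperBounded_iff_uMax_le {v₀ : ℝ} (hv : -1 ≤ v₀) : I.UpperBounded v₀ ↔ I.uMax ≤ v₀ := by
  have h1 := I.neg_one_le_psi hv
  unfold uMax
  rw [upperBounded_iff, lowerBounded_iff, I.phi_le_iff, sub_le_iff_le_add,
    I.iMax_le_iff (by linarith)]

theorem upperBounded_uMax : I.UpperBounded I.uMax :=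
  (I.upperBounded_iff_uMax_le I.neg_one_le_uMax).2 le_rfl

theorem upperGroup_eq_bot_of_lt {v : ℝ} (hv : I.uMax < v) : I.upperGroup v = ⊥ :=
  I.upperBounded_uMax v hv

theorem upperGroup_eq_bot_iff {v : ℝ} (hv : -1 < v) : I.upperGroup v = ⊥ ↔ I.uMax < v := by
  refine ⟨fun h => ?_, I.upperGroup_eq_bot_of_lt⟩
  by_contra hle
  rw [not_lt] at hle
  obtain ⟨s, _, hs⟩ := Finset.exists_mem_eq_sup' ⟨(1 : G), Finset.mem_univ 1⟩
    fun s => ((I.i s).toNat : ℝ)
  have hs' : ((I.i s).toNat : ℝ) = I.iMax := hs.symm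
  have hpsi : I.psi v ≤ I.iMax - 1 := I.le_phi_iff.1 hle
  by_cases hs1 : s = 1
  · -- `s = 1` forces `iMax = 0`, `uMax = -1 < v`
    rw [hs1, I.i_one, ENat.toNat_top, Nat.cast_zero] at hs'
    have : I.uMax = -1 := by
      unfold uMax
      rw [← hs', zero_sub, I.phi_neg_one]
    linarith
  · have hmem : s ∈ I.upperGroup v := by
      rw [mem_upperGroup, mem_lowerGroup]
      right
      linarith
    rw [h, Subgroup.mem_bot] at hmem
    exact hs1 hmem

end Max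

section Tower

variable [Fintype G] (H : Subgroup G) [H.Normal] [Fintype H] [Fintype (G ⧸ H)]
  (IQ : LowerNumbering (G ⧸ H))

variable {H IQ}

/-- `u_{K'/K} ≤ u_{L/K}`. -/
theorem uMax_quotient_le (hq : QuotientFormula I H IQ) : IQ.uMax ≤ I.uMax :=
  (IQ.upperBounded_iff_uMax_le I.neg_one_le_uMax).1 (I.upperBounded_uMax.quotient I hq)

/-- bounds in a tower, as an equivalence. -/
theorem upperBounded_tower_iff (hq : QuotientFormula I H IQ) {v₀ : ℝ} :
    I.UpperBounded v₀ ↔ IQ.UpperBounded v₀ ∧ (I.restrict H).UpperBounded (IQ.psi v₀) :=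
  ⟨fun h => ⟨h.quotient I hq, upperBounded_restrict I hq h⟩,
    fun h => UpperBounded.of_tower I hq h.1 h.2⟩

/-- **the largest upper break in a tower**: `u_{L/K} = max (u_{K'/K}, φ_{K'/K}(u_{L/K'}))`. -/
theorem uMax_eq_max_tower (hq : QuotientFormula I H IQ) :
    I.uMax = max IQ.uMax (IQ.phi (I.restrict H).uMax) := by
  have key : ∀ v₀ : ℝ, -1 ≤ v₀ →
      (I.uMax ≤ v₀ ↔ max IQ.uMax (IQ.phi (I.restrict H).uMax) ≤ v₀) := by
    intro v₀ hv
    rw [← I.upperBounded_iff_uMax_le hv, upperBounded_tower_iff I hq,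
      IQ.upperBounded_iff_uMax_le hv, (I.restrict H).upperBounded_iff_uMax_le (IQ.neg_one_le_psi hv),
      ← IQ.phi_le_iff, max_le_iff]
  apply le_antisymm
  · exact (key _ (IQ.neg_one_le_uMax.trans (le_max_left _ _))).2 le_rfl
  · exact (key _ I.neg_one_le_uMax).1 le_rfl

/-- tame quotient: `u_{L/K} = u_{L/K'} / e_{K'/K}` as soon as `L/K'` is ramified
(`u_{L/K'} ≥ 0`). -/
theorem uMax_eq_div_of_tame (hq : QuotientFormula I H IQ) (ht : IQ.IsTame)
    (h0 : 0 ≤ (I.restrict H).uMax) : I.uMax = (I.restrict H).uMax / IQ.e0 := by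
  have he : (0 : ℝ) < IQ.e0 := Nat.cast_pos.2 IQ.e0_pos
  rw [uMax_eq_max_tower I hq, ht.phi IQ h0]
  apply max_eq_right
  have h1 : IQ.uMax ≤ 0 := (IQ.upperBounded_iff_uMax_le (by norm_num)).1 (ht.upperBounded IQ)
  exact h1.trans (div_nonneg h0 he.le)

theorem IsTame.uMax_le (ht : I.IsTame) : I.uMax ≤ 0 :=
  (I.upperBounded_iff_uMax_le (by norm_num)).1 (ht.upperBounded I)

end Tower

section Compositum

variable [Fintype G] (N₁ N₂ : Subgroup G) [N₁.Normal] [N₂.Normal] [Fintype N₁] [Fintype N₂]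
  [Fintype (G ⧸ N₁)] [Fintype (G ⧸ N₂)] {I₁ : LowerNumbering (G ⧸ N₁)}
  {I₂ : LowerNumbering (G ⧸ N₂)}

variable {N₁ N₂}

/-- **compositum**: if `L = K₁ K₂` (`N₁ ⊓ N₂ = ⊥`) and both `K₁/K`, `K₂/K` are bounded by `v₀`,
so is `L/K`. -/
theorem UpperBounded.of_inf_eq_bot (h12 : N₁ ⊓ N₂ = ⊥) (hq₁ : QuotientFormula I N₁ I₁)
    (hq₂ : QuotientFormula I N₂ I₂) {v₀ : ℝ} (h₁ : I₁.UpperBounded v₀) (h₂ : I₂.UpperBounded v₀) :
    I.UpperBounded v₀ := by
  intro v hv
  rw [eq_bot_iff, ← h12]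
  exact le_inf (upperGroup_le_of_quotient I hq₁ (h₁ v hv))
    (upperGroup_le_of_quotient I hq₂ (h₂ v hv))

/-- **compositum**: `u_{K₁K₂/K} = max (u_{K₁/K}, u_{K₂/K})`. -/
theorem uMax_eq_max_of_inf_eq_bot (h12 : N₁ ⊓ N₂ = ⊥) (hq₁ : QuotientFormula I N₁ I₁)
    (hq₂ : QuotientFormula I N₂ I₂) : I.uMax = max I₁.uMax I₂.uMax := by
  apply le_antisymm
  · have h0 : -1 ≤ max I₁.uMax I₂.uMax := I₁.neg_one_le_uMax.trans (le_max_left _ _)
    rw [← I.upperBounded_iff_uMax_le h0]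
    exact UpperBounded.of_inf_eq_bot I h12 hq₁ hq₂
      (I₁.upperBounded_uMax.mono I₁ (le_max_left _ _))
      (I₂.upperBounded_uMax.mono I₂ (le_max_right _ _))
  · exact max_le (uMax_quotient_le I hq₁) (uMax_quotient_le I hq₂)

end Compositum

end LowerNumbering

end Fermat.Agent.Lib.Ram
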