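import Mathlib
import Fermat.Agent.Lib.Ram.Herbrand

/-!
helper6 (P-S56, block (A) LOCAL, ramification layer).  **Lemma A** of Fontaine's Prop. 1.5
(note 1366): if `P = ∏ₛ (X - aₛ)` and `s₀` is an index for which `β - a s₀` is closest to `β`,
then for every `s`
`v (β - a s) = max (v (β - a s₀)) (v (a s₀ - a s))`   (multiplicative valuations), hence
`v (P(β)) = ∏ₛ max (v (β - a s₀)) (v (a s₀ - a s))`.

In the Galois situation (`a s = s α`, `v (a s - a t) = j (s⁻¹ t)`), and in logarithmic form for a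
`LowerNumbering` `I` (Serre's convention, `Lib/Ram/Herbrand`): if `‖a s - a t‖ = c ^ i (s⁻¹ t)`
(`0 < c < 1`, `c ^ ⊤ = 0`) and `‖β - a s₀‖ = c ^ r` then `‖P(β)‖ = c ^ (trSum I r)`
(`trSum I r = ∑ₛ min (i s) r = e₀ (φ (r - 1) + 1)`).

Everything is valuation-generic: no completeness, no fields of definition.  The consumers are
Krasner-type arguments (`norm_sub_lt_of_norm_eval_lt`: a small value of `P(β)` forces `β` to be
closer to one conjugate than all the others are) and the converse direction of Fontaine's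
Prop. 1.5 (`rpow_eq_of_norm_eval_eq`: the distance is determined by `‖P(β)‖`).
-/

set_option autoImplicit false

open Polynomial Finset

namespace Fermat.Agent.Lib.Ram.LemmaA

/-! ### Multiplicative valuations -/

section Valuation

variable {Ω Γ₀ : Type*} [CommRing Ω] [LinearOrderedCommGroupWithZero Γ₀] (v : Valuation Ω Γ₀)
variable {ι : Type*} (a : ι → Ω) (β : Ω)

/-- The ultrametric "isosceles" principle for the closest conjugate. -/
theorem val_sub_eq_max {s₀ : ι} (hmin : ∀ s, v (β - a s₀) ≤ v (β - a s)) (s : ι) :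
    v (β - a s) = max (v (β - a s₀)) (v (a s₀ - a s)) := by
  have hdecomp : β - a s = (β - a s₀) + (a s₀ - a s) := by ring
  rcases lt_or_ge (v (β - a s₀)) (v (a s₀ - a s)) with h | h
  · rw [hdecomp, max_eq_right h.le]
    exact v.map_add_eq_of_lt_right h
  · rw [max_eq_left h]
    refine le_antisymm ?_ (hmin s)
    rw [hdecomp]
    exact (v.map_add _ _).trans (max_le le_rfl h)

/-- **Lemma A**, multiplicative form. -/
theorem val_eval_prod [Fintype ι] {s₀ : ι} (hmin : ∀ s, v (β - a s₀) ≤ v (β - a s)) :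
    v ((∏ s, (X - C (a s))).eval β) = ∏ s, max (v (β - a s₀)) (v (a s₀ - a s)) := by
  rw [eval_prod, map_prod]
  refine Finset.prod_congr rfl fun s _ => ?_
  rw [eval_sub, eval_X, eval_C]
  exact val_sub_eq_max v a β hmin s

/-- A closest conjugate exists. -/
theorem exists_min [Finite ι] [Nonempty ι] : ∃ s₀ : ι, ∀ s, v (β - a s₀) ≤ v (β - a s) :=
  Finite.exists_min fun s => v (β - a s)

variable {G : Type*} [Group G] [Fintype G]

/-- **Lemma A**, Galois form: `a s = s α` and `v (a s - a t)` only depends on `s⁻¹ t`. -/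
theorem val_eval_prod_group (a : G → Ω) (j : G → Γ₀) (hj : ∀ s t, v (a s - a t) = j (s⁻¹ * t))
    {s₀ : G} (hmin : ∀ s, v (β - a s₀) ≤ v (β - a s)) :
    v ((∏ s, (X - C (a s))).eval β) = ∏ t, max (v (β - a s₀)) (j t) := by
  rw [val_eval_prod v a β hmin]
  rw [← Equiv.prod_comp (Equiv.mulLeft s₀)]
  refine Finset.prod_congr rfl fun t _ => ?_
  rw [hj, Equiv.coe_mulLeft, inv_mul_cancel_left]

end Valuation

/-! ### Ultrametric norms -/

section Norm

variable {Ω : Type*} [NormedField Ω] [IsUltrametricDist Ω]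
variable {ι : Type*} (a : ι → Ω) (β : Ω)

theorem norm_sub_eq_max {s₀ : ι} (hmin : ∀ s, ‖β - a s₀‖ ≤ ‖β - a s‖) (s : ι) :
    ‖β - a s‖ = max ‖β - a s₀‖ ‖a s₀ - a s‖ := by
  have h := val_sub_eq_max (NormedField.valuation (K := Ω)) a β (s₀ := s₀)
    (fun s => by
      rw [NormedField.valuation_apply, NormedField.valuation_apply]
      exact_mod_cast hmin s) s
  rw [NormedField.valuation_apply, NormedField.valuation_apply, NormedField.valuation_apply] at h
  have h' := congrArg (fun x : NNReal => (x : ℝ)) h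
  simpa using h'

/-- **Lemma A**, norm form. -/
theorem norm_eval_prod [Fintype ι] {s₀ : ι} (hmin : ∀ s, ‖β - a s₀‖ ≤ ‖β - a s‖) :
    ‖(∏ s, (X - C (a s))).eval β‖ = ∏ s, max ‖β - a s₀‖ ‖a s₀ - a s‖ := by
  rw [eval_prod, norm_prod]
  refine Finset.prod_congr rfl fun s _ => ?_
  rw [eval_sub, eval_X, eval_C]
  exact norm_sub_eq_max a β hmin s

omit [IsUltrametricDist Ω] in
theorem exists_norm_min [Finite ι] [Nonempty ι] : ∃ s₀ : ι, ∀ s, ‖β - a s₀‖ ≤ ‖β - a s‖ :=
  Finite.exists_min fun s => ‖β - a s‖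

variable {G : Type*} [Group G] [Fintype G]

theorem norm_eval_prod_group (a : G → Ω) (j : G → ℝ) (hj : ∀ s t, ‖a s - a t‖ = j (s⁻¹ * t))
    {s₀ : G} (hmin : ∀ s, ‖β - a s₀‖ ≤ ‖β - a s‖) :
    ‖(∏ s, (X - C (a s))).eval β‖ = ∏ t, max ‖β - a s₀‖ (j t) := by
  rw [norm_eval_prod a β hmin]
  rw [← Equiv.prod_comp (Equiv.mulLeft s₀)]
  refine Finset.prod_congr rfl fun t _ => ?_
  rw [hj, Equiv.coe_mulLeft, inv_mul_cancel_left]

end Norm

/-! ### Logarithmic form: the link with Herbrand's function -/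

section Log

/-- `c ^ a` for `a : ℕ∞`, with `c ^ ⊤ = 0`. -/
noncomputable def epow (c : ℝ) (a : ℕ∞) : ℝ := if a = ⊤ then 0 else c ^ a.toNat

theorem epow_top (c : ℝ) : epow c ⊤ = 0 := if_pos rfl

theorem epow_coe (c : ℝ) (n : ℕ) : epow c (n : ℕ∞) = c ^ n := by
  unfold epow
  rw [if_neg (ENat.natCast_ne_top n), ENat.toNat_natCast]

variable {c : ℝ}

/-- `max (c ^ r) (c ^ a) = c ^ min a r` for `0 < c < 1`. -/
theorem max_rpow_epow (hc0 : 0 < c) (hc1 : c < 1) (r : ℝ) (a : ℕ∞) :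
    max (c ^ r) (epow c a) = c ^ tr a r := by
  induction a using ENat.recTopCoe with
  | top =>
    rw [epow_top, tr_top]
    exact max_eq_left (Real.rpow_pos_of_pos hc0 r).le
  | coe n =>
    rw [epow_coe, tr_coe, ← Real.rpow_natCast]
    rcases le_total (n : ℝ) r with h | h
    · rw [min_eq_left h]
      exact max_eq_right (Real.rpow_le_rpow_of_exponent_ge hc0 hc1.le h)
    · rw [min_eq_right h]
      exact max_eq_left (Real.rpow_le_rpow_of_exponent_ge hc0 hc1.le h)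

variable {Ω : Type*} [NormedField Ω] [IsUltrametricDist Ω]
variable {G : Type*} [Group G] [Fintype G] (I : LowerNumbering G)

/-- **Lemma A**, logarithmic form: `‖P(β)‖ = c ^ (∑ₛ min (i s) r)` when `‖β - a s₀‖ = c ^ r` is
the smallest distance from `β` to a conjugate. -/
theorem norm_eval_eq_rpow_trSum (hc0 : 0 < c) (hc1 : c < 1) (a : G → Ω) (β : Ω)
    (hi : ∀ s t, ‖a s - a t‖ = epow c (I.i (s⁻¹ * t)))
    {s₀ : G} (hmin : ∀ s, ‖β - a s₀‖ ≤ ‖β - a s‖) {r : ℝ} (hr : ‖β - a s₀‖ = c ^ r) :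
    ‖(∏ s, (X - C (a s))).eval β‖ = c ^ I.trSum r := by
  rw [norm_eval_prod_group β a (fun t => epow c (I.i t)) hi hmin, hr]
  unfold LowerNumbering.trSum
  rw [Real.rpow_sum_of_pos hc0]
  exact Finset.prod_congr rfl fun t _ => max_rpow_epow hc0 hc1 r (I.i t)

omit [IsUltrametricDist Ω] [Group G] in
/-- If `β` is one of the conjugates then `P(β) = 0`. -/
theorem eval_eq_zero_of_eq (a : G → Ω) (β : Ω) {s₀ : G} (h : β = a s₀) :
    (∏ s, (X - C (a s))).eval β = 0 := by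
  rw [eval_prod]
  exact Finset.prod_eq_zero (Finset.mem_univ s₀) (by simp [h])

/-- Every positive real is `c ^ r`. -/
theorem exists_rpow_eq (hc0 : 0 < c) (hc1 : c < 1) {x : ℝ} (hx : 0 < x) : ∃ r : ℝ, x = c ^ r :=
  ⟨Real.logb c x, (Real.rpow_logb hc0 hc1.ne hx).symm⟩

/-- `‖P(β)‖` determines the distance of `β` to the set of conjugates. -/
theorem rpow_eq_of_norm_eval_eq (hc0 : 0 < c) (hc1 : c < 1) (a : G → Ω) (β : Ω)
    (hi : ∀ s t, ‖a s - a t‖ = epow c (I.i (s⁻¹ * t)))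
    {s₀ : G} (hmin : ∀ s, ‖β - a s₀‖ ≤ ‖β - a s‖) {r₀ : ℝ}
    (h : ‖(∏ s, (X - C (a s))).eval β‖ = c ^ I.trSum r₀) : ‖β - a s₀‖ = c ^ r₀ := by
  have hne : β - a s₀ ≠ 0 := by
    intro h0
    rw [eval_eq_zero_of_eq a β (sub_eq_zero.1 h0), norm_zero] at h
    exact (Real.rpow_pos_of_pos hc0 _).ne h
  obtain ⟨r, hr⟩ := exists_rpow_eq hc0 hc1 (norm_pos_iff.2 hne)
  rw [norm_eval_eq_rpow_trSum I hc0 hc1 a β hi hmin hr] at h
  have h1 : I.trSum r = I.trSum r₀ := by
    rcases lt_trichotomy (I.trSum r) (I.trSum r₀) with hlt | heq | hgt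
    · exact absurd h (Real.rpow_lt_rpow_of_exponent_gt hc0 hc1 hlt).ne'
    · exact heq
    · exact absurd h (Real.rpow_lt_rpow_of_exponent_gt hc0 hc1 hgt).ne
  rw [hr, I.trSum_strictMono.injective h1]

/-- **Krasner input**: if `‖P(β)‖ < c ^ trSum m` where `m` bounds all finite `i t`, then `β` is
strictly closer to its closest conjugate `a s₀` than any other conjugate is to `a s₀`. -/
theorem norm_sub_lt_of_norm_eval_lt (hc0 : 0 < c) (hc1 : c < 1) (a : G → Ω) (β : Ω)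
    (hi : ∀ s t, ‖a s - a t‖ = epow c (I.i (s⁻¹ * t)))
    {s₀ : G} (hmin : ∀ s, ‖β - a s₀‖ ≤ ‖β - a s‖) {m : ℝ}
    (hm : ∀ t : G, t ≠ 1 → ((I.i t).toNat : ℝ) ≤ m)
    (h : ‖(∏ s, (X - C (a s))).eval β‖ < c ^ I.trSum m) :
    ∀ s, s ≠ s₀ → ‖β - a s₀‖ < ‖a s₀ - a s‖ := by
  intro s hs
  have hts : s₀⁻¹ * s ≠ 1 := by
    intro h1
    exact hs (by rw [← mul_one s₀, ← h1, mul_inv_cancel_left])
  have hitop : I.i (s₀⁻¹ * s) ≠ ⊤ := fun h1 => hts ((I.i_eq_top _).1 h1)
  have hpos : 0 < ‖a s₀ - a s‖ := by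
    rw [hi]
    unfold epow
    rw [if_neg hitop]
    exact pow_pos hc0 _
  by_cases h0 : β - a s₀ = 0
  · rw [h0, norm_zero]
    exact hpos
  obtain ⟨r, hr⟩ := exists_rpow_eq hc0 hc1 (norm_pos_iff.2 h0)
  rw [norm_eval_eq_rpow_trSum I hc0 hc1 a β hi hmin hr] at h
  have h1 : I.trSum m < I.trSum r := by
    by_contra hle
    exact absurd h (not_lt.2 (Real.rpow_le_rpow_of_exponent_ge hc0 hc1.le (not_lt.1 hle)))
  have hmr : m < r := I.trSum_strictMono.lt_iff_lt.1 h1
  rw [hr, hi]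
  unfold epow
  rw [if_neg hitop, ← Real.rpow_natCast]
  exact Real.rpow_lt_rpow_of_exponent_gt hc0 hc1 (lt_of_le_of_lt (hm _ hts) hmr)

end Log

end Fermat.Agent.Lib.Ram.LemmaA
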