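import Mathlib

/-!
helper61 (P-S56, block (A) LOCAL, ramification layer).  **Fontaine's property `(P_m)`** in norm
form: the ONE definition shared by `Lib/Ram/Krasner` (direction (i)), `Lib/Ram/PmSharp` /
`Lib/Ram/PmConverse` (direction (ii)) and `S56x/Fontaine/PmOfLift` ((L3) of note 1366).

SETTING.  `K` a normed field, `Ω` a normed field which is a normed `K`-algebra (think: `K` finite
over `ℚ_[p]`, `Ω = PadicAlgCl p`); all finite extensions `E` of `K` are intermediate fields of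
`Ω/K`.  `𝓞_E = {x ∈ E | ‖x‖ ≤ 1}`, and for a threshold `ρ : ℝ≥0` (Fontaine's `a_E^m` with
`ρ = ‖π_K‖ ^ m`, i.e. `ρ = p ^ (-m)` for `K = ℚ_[p]`) `a_E(ρ) = {x ∈ 𝓞_E | ‖x‖ ≤ ρ}`.

* `PropertyP K Ω L ρ` (HOM FORM, Fontaine's definition): for every finite `E/K`, if there is an
  `𝓞_K`-algebra hom `𝓞_L → 𝓞_E / a_E(ρ)` then there is a `K`-embedding `L → E`.
* `PropertyPRoot K Ω L α ρ` (ROOT FORM, for `𝓞_L = 𝓞_K[α]`): for every `β` with `‖β‖ ≤ 1` and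
  `‖P(β)‖ ≤ ρ` (`P` the minimal polynomial of `α` over `K`) there is a `K`-embedding
  `L → K(β)`.
* `PropertyP.propertyPRoot_of_hom`: hom form ⟹ root form, given the "hom of a root"
  construction (a hypothesis here; it holds when `𝓞_L = 𝓞_K[α]`).

Smaller `ρ` = larger `m`: `(P_m)` for all `m > m₀` is `∀ ρ < ρ₀, PropertyP K Ω L ρ`.
-/

set_option autoImplicit false

open scoped NNReal
open Polynomial IntermediateField

namespace Fermat.Agent.Lib.Ram.PropertyPm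

section Defs

variable (K : Type*) [NormedField K] [IsUltrametricDist K]
variable (Ω : Type*) [NormedField Ω] [IsUltrametricDist Ω] [NormedAlgebra K Ω]

/-- The valuation ring `𝓞_K = {x | ‖x‖ ≤ 1}` of an ultrametric normed field. -/
def intK : Subring K where
  carrier := {x | ‖x‖ ≤ 1}
  mul_mem' {x y} hx hy := by
    change ‖x * y‖ ≤ 1
    rw [norm_mul]
    exact mul_le_one₀ hx (norm_nonneg y) hy
  one_mem' := by
    change ‖(1 : K)‖ ≤ 1
    rw [norm_one]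
  add_mem' {x y} hx hy := (IsUltrametricDist.norm_add_le_max x y).trans (max_le hx hy)
  zero_mem' := by
    change ‖(0 : K)‖ ≤ 1
    rw [norm_zero]
    exact zero_le_one
  neg_mem' {x} hx := by
    change ‖-x‖ ≤ 1
    rw [norm_neg]
    exact hx

variable {K} in
theorem mem_intK {x : K} : x ∈ intK K ↔ ‖x‖ ≤ 1 := Iff.rfl

variable {K Ω}

/-- The valuation ring `𝓞_E = {x ∈ E | ‖x‖ ≤ 1}` of an intermediate field `E` of `Ω/K`, as an
`𝓞_K`-subalgebra of `Ω`. -/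
def intE (E : IntermediateField K Ω) : Subalgebra (intK K) Ω where
  carrier := {x | x ∈ E ∧ ‖x‖ ≤ 1}
  mul_mem' {x y} hx hy := by
    refine ⟨E.mul_mem hx.1 hy.1, ?_⟩
    rw [norm_mul]
    exact mul_le_one₀ hx.2 (norm_nonneg y) hy.2
  add_mem' {x y} hx hy :=
    ⟨E.add_mem hx.1 hy.1, (IsUltrametricDist.norm_add_le_max x y).trans (max_le hx.2 hy.2)⟩
  algebraMap_mem' r := by
    refine ⟨E.algebraMap_mem (r : K), ?_⟩
    change ‖algebraMap K Ω (r : K)‖ ≤ 1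
    rw [norm_algebraMap']
    exact r.2

theorem mem_intE {E : IntermediateField K Ω} {x : Ω} : x ∈ intE E ↔ x ∈ E ∧ ‖x‖ ≤ 1 := Iff.rfl

/-- The ideal `a_E(ρ) = {x ∈ 𝓞_E | ‖x‖ ≤ ρ}` (Fontaine's `a_E^m`, `ρ = ‖π_K‖ ^ m`). -/
def idealLE (E : IntermediateField K Ω) (ρ : ℝ≥0) : Ideal (intE E) where
  carrier := {x | ‖(x : Ω)‖ ≤ ρ}
  add_mem' {x y} hx hy := (IsUltrametricDist.norm_add_le_max (x : Ω) y).trans (max_le hx hy)
  zero_mem' := by
    change ‖((0 : intE E) : Ω)‖ ≤ ρ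
    rw [ZeroMemClass.coe_zero, norm_zero]
    exact ρ.2
  smul_mem' c x hx := by
    change ‖((c * x : intE E) : Ω)‖ ≤ ρ
    rw [MulMemClass.coe_mul, norm_mul]
    calc ‖(c : Ω)‖ * ‖(x : Ω)‖ ≤ 1 * ‖(x : Ω)‖ :=
          mul_le_mul_of_nonneg_right c.2.2 (norm_nonneg _)
      _ = ‖(x : Ω)‖ := one_mul _
      _ ≤ ρ := hx

theorem mem_idealLE {E : IntermediateField K Ω} {ρ : ℝ≥0} {x : intE E} :
    x ∈ idealLE E ρ ↔ ‖(x : Ω)‖ ≤ ρ := Iff.rfl

variable (K Ω)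

/-- **Fontaine's property `(P_m)`**, hom form (`ρ = ‖π_K‖ ^ m`): for every finite `E/K` inside
`Ω`, an `𝓞_K`-algebra hom `𝓞_L → 𝓞_E / a_E(ρ)` forces a `K`-embedding `L → E`. -/
def PropertyP (L : IntermediateField K Ω) (ρ : ℝ≥0) : Prop :=
  ∀ E : IntermediateField K Ω, FiniteDimensional K E →
    Nonempty (intE L →ₐ[intK K] (intE E ⧸ idealLE E ρ)) → Nonempty (L →ₐ[K] E)

/-- **Property `(P_m)`**, root form, for `𝓞_L = 𝓞_K[α]` and `P = minpoly K α`: every integral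
`β` with `‖P(β)‖ ≤ ρ` generates a field into which `L` embeds. -/
def PropertyPRoot (L : IntermediateField K Ω) (α : Ω) (ρ : ℝ≥0) : Prop :=
  ∀ β : Ω, ‖β‖ ≤ 1 → ‖aeval β (minpoly K α)‖ ≤ ρ → Nonempty (L →ₐ[K] K⟮β⟯)

variable {K Ω}

theorem PropertyP.mono {L : IntermediateField K Ω} {ρ ρ' : ℝ≥0} (h : PropertyP K Ω L ρ')
    (hρ : ρ ≤ ρ') : PropertyP K Ω L ρ := by
  intro E hE ⟨f⟩
  refine h E hE ⟨(Ideal.Quotient.factorₐ (intK K) ?_).comp f⟩
  intro x hx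
  exact le_trans (mem_idealLE.1 hx) (by exact_mod_cast hρ)

omit [IsUltrametricDist K] [IsUltrametricDist Ω] in
theorem PropertyPRoot.mono {L : IntermediateField K Ω} {α : Ω} {ρ ρ' : ℝ≥0}
    (h : PropertyPRoot K Ω L α ρ') (hρ : ρ ≤ ρ') : PropertyPRoot K Ω L α ρ :=
  fun β hβ hP => h β hβ (hP.trans (by exact_mod_cast hρ))

/-- Hom form ⟹ root form, given the "hom of a root" construction: for `𝓞_L = 𝓞_K[α]` every
integral `β` with `‖P(β)‖ ≤ ρ` defines `𝓞_L → 𝓞_{K(β)} / a(ρ)`, `α ↦ β`. -/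
theorem PropertyP.propertyPRoot_of_hom {L : IntermediateField K Ω} {α : Ω} {ρ : ℝ≥0}
    (h : PropertyP K Ω L ρ)
    (hfin : ∀ β : Ω, ‖β‖ ≤ 1 → ‖aeval β (minpoly K α)‖ ≤ ρ → FiniteDimensional K K⟮β⟯)
    (hhom : ∀ β : Ω, ‖β‖ ≤ 1 → ‖aeval β (minpoly K α)‖ ≤ ρ →
      Nonempty (intE L →ₐ[intK K] (intE K⟮β⟯ ⧸ idealLE K⟮β⟯ ρ))) :
    PropertyPRoot K Ω L α ρ :=
  fun β hβ hP => h K⟮β⟯ (hfin β hβ hP) (hhom β hβ hP)

end Defs

end Fermat.Agent.Lib.Ram.PropertyPm
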