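import Mathlib
import Fermat.Agent.Lib.Ram.LemmaA
import Fermat.Agent.Lib.Ram.PropertyPm

/-!
helper6 (P-S56, block (A) LOCAL, ramification layer).  **Fontaine's Prop. 1.5, direction (i)**:
`m > u_{L/K} ⟹ (P_m)`, in the normed setting of `Lib/Ram/PropertyPm` (root form), via Mathlib's
Krasner lemma (`IsKrasner`) and `Lib/Ram/LemmaA`.

SETTING.  `K` complete nontrivially normed ultrametric, `Ω` an algebraic normed extension.
`G` a finite group, `a : G → Ω` the conjugates of `α = a 1`: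
`hP : (minpoly K α).map (algebraMap K Ω) = ∏ s, (X - C (a s))`, `hsep : (minpoly K α).Separable`,
`hj : ∀ s t, ‖a s - a t‖ = j (s⁻¹ * t)` and `dmin ≤ j t` for all `t ≠ 1`
(`dmin = ‖π_L‖ ^ i_max`: the smallest distance between two conjugates).

* `exists_mem_adjoin` : `‖P(β)‖ < ∏ t, max dmin (j t)` (`= ‖π_K‖ ^ u_{L/K}`) implies that some
  conjugate `a s` lies in `K⟮β⟯`.
* `nonempty_algHom`, `propertyPRoot` : hence `L = K⟮α⟯` embeds into `K⟮β⟯`, i.e.
  `PropertyPRoot K Ω L α ρ` for every `ρ < ∏ t, max dmin (j t)`.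
* `propertyPRoot_of_lowerNumbering` : the same in logarithmic form for a `LowerNumbering` `I`:
  `ρ < c ^ I.trSum m`, where `m` bounds the finite values of `I.i`.
-/

set_option autoImplicit false

open Polynomial IntermediateField
open scoped NNReal

namespace Fermat.Agent.Lib.Ram.Krasner

open Fermat.Agent.Lib.Ram Fermat.Agent.Lib.Ram.LemmaA Fermat.Agent.Lib.Ram.PropertyPm

variable {K : Type*} [NontriviallyNormedField K] [CompleteSpace K] [IsUltrametricDist K]
variable {Ω : Type*} [NormedField Ω] [IsUltrametricDist Ω] [NormedAlgebra K Ω]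
  [Algebra.IsAlgebraic K Ω]
variable {G : Type*} [Group G] [Fintype G]

omit [CompleteSpace K] [IsUltrametricDist K] [IsUltrametricDist Ω] [Algebra.IsAlgebraic K Ω]
  [Group G] in
/-- The roots of the minimal polynomial are the `a s`. -/
theorem exists_eq_of_aeval_eq_zero {a : G → Ω} {α : Ω}
    (hP : (minpoly K α).map (algebraMap K Ω) = ∏ s, (X - C (a s))) {y : Ω}
    (hy : aeval y (minpoly K α) = 0) : ∃ s, y = a s := by
  rw [aeval_def, ← eval_map, hP, eval_prod, Finset.prod_eq_zero_iff] at hy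
  obtain ⟨s, -, hs⟩ := hy
  rw [eval_sub, eval_X, eval_C, sub_eq_zero] at hs
  exact ⟨s, hs⟩

omit [CompleteSpace K] [IsUltrametricDist K] [IsUltrametricDist Ω] [Algebra.IsAlgebraic K Ω]
  [Group G] in
theorem aeval_eq_zero {a : G → Ω} {α : Ω}
    (hP : (minpoly K α).map (algebraMap K Ω) = ∏ s, (X - C (a s))) (s : G) :
    aeval (a s) (minpoly K α) = 0 := by
  rw [aeval_def, ← eval_map, hP, eval_prod]
  exact Finset.prod_eq_zero (Finset.mem_univ s) (by simp)

/-- **Direction (i), core**: a small value of `P(β)` forces a conjugate of `α` into `K⟮β⟯`. -/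
theorem exists_mem_adjoin {a : G → Ω} {α : Ω}
    (hP : (minpoly K α).map (algebraMap K Ω) = ∏ s, (X - C (a s)))
    (hsep : (minpoly K α).Separable) {j : G → ℝ} (hj : ∀ s t, ‖a s - a t‖ = j (s⁻¹ * t))
    {dmin : ℝ} (hd : ∀ t : G, t ≠ 1 → dmin ≤ j t) {β : Ω}
    (hβ : ‖aeval β (minpoly K α)‖ < ∏ t : G, max dmin (j t)) : ∃ s, a s ∈ K⟮β⟯ := by
  classical
  obtain ⟨s₀, hmin⟩ := exists_norm_min a β
  have hval : ‖aeval β (minpoly K α)‖ = ∏ t : G, max ‖β - a s₀‖ (j t) := by
    rw [aeval_def, ← eval_map, hP]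
    exact norm_eval_prod_group β a j hj hmin
  -- the distance to the closest conjugate is `< dmin`
  have hr : ‖β - a s₀‖ < dmin := by
    by_contra hge
    rw [not_lt] at hge
    have : ∏ t : G, max dmin (j t) ≤ ∏ t : G, max ‖β - a s₀‖ (j t) :=
      Finset.prod_le_prod
        (fun t _ => le_max_of_le_right (by
          have h1 := hj 1 t
          rw [inv_one, one_mul] at h1
          rw [← h1]
          exact norm_nonneg _))
        (fun t _ => max_le_max hge le_rfl)
    rw [hval] at hβ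
    exact absurd hβ (not_lt.2 this)
  have hαint : IsIntegral K α := Algebra.IsIntegral.isIntegral α
  have hxint : IsIntegral K (a s₀) := Algebra.IsIntegral.isIntegral _
  have hmp : minpoly K (a s₀) = minpoly K α :=
    (isConjRoot_of_aeval_eq_zero hαint (aeval_eq_zero hP s₀)).symm
  refine ⟨s₀, IsKrasner.krasner (K := K) (L := Ω) ?_ ?_ (Algebra.IsIntegral.isIntegral β) ?_⟩
  · rw [hmp]; exact hsep
  · rw [hmp, hP]
    exact Polynomial.Splits.prod fun s _ => Polynomial.Splits.X_sub_C _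
  · intro x' hx' hne
    have h0 : aeval x' (minpoly K α) = 0 := by
      rw [← hmp]
      exact hx'.aeval_eq_zero
    obtain ⟨s, rfl⟩ := exists_eq_of_aeval_eq_zero hP h0
    have hs : s₀⁻¹ * s ≠ 1 := by
      intro h1
      apply hne
      rw [← mul_one s₀, ← h1, mul_inv_cancel_left]
    rw [norm_sub_rev, hj s₀ s]
    exact lt_of_lt_of_le hr (hd _ hs)

/-- **Direction (i)**: `L = K⟮α⟯` embeds into `K⟮β⟯` as soon as `‖P(β)‖ < ∏ t, max dmin (j t)`. -/
theorem nonempty_algHom {a : G → Ω} {α : Ω}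
    (hP : (minpoly K α).map (algebraMap K Ω) = ∏ s, (X - C (a s)))
    (hsep : (minpoly K α).Separable) {j : G → ℝ} (hj : ∀ s t, ‖a s - a t‖ = j (s⁻¹ * t))
    {dmin : ℝ} (hd : ∀ t : G, t ≠ 1 → dmin ≤ j t) {L : IntermediateField K Ω} (hL : L = K⟮α⟯)
    {β : Ω} (hβ : ‖aeval β (minpoly K α)‖ < ∏ t : G, max dmin (j t)) :
    Nonempty (L →ₐ[K] K⟮β⟯) := by
  obtain ⟨s, hs⟩ := exists_mem_adjoin hP hsep hj hd hβ
  have hαint : IsIntegral K α := Algebra.IsIntegral.isIntegral α
  let pb := IntermediateField.adjoin.powerBasis hαint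
  let y : K⟮β⟯ := ⟨a s, hs⟩
  have hy : aeval y (minpoly K pb.gen) = 0 := by
    rw [IntermediateField.adjoin.powerBasis_gen, IntermediateField.minpoly_gen]
    apply Subtype.ext
    have h1 : ((aeval y (minpoly K α) : K⟮β⟯) : Ω) = aeval (a s) (minpoly K α) := by
      rw [← IntermediateField.coe_val, ← aeval_algHom_apply]
      rfl
    rw [h1, aeval_eq_zero hP s]
    rfl
  exact ⟨(pb.lift y hy).comp (IntermediateField.equivOfEq hL).toAlgHom⟩

/-- **Direction (i)** as `PropertyPRoot`. -/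
theorem propertyPRoot {a : G → Ω} {α : Ω}
    (hP : (minpoly K α).map (algebraMap K Ω) = ∏ s, (X - C (a s)))
    (hsep : (minpoly K α).Separable) {j : G → ℝ} (hj : ∀ s t, ‖a s - a t‖ = j (s⁻¹ * t))
    {dmin : ℝ} (hd : ∀ t : G, t ≠ 1 → dmin ≤ j t) {L : IntermediateField K Ω} (hL : L = K⟮α⟯)
    {ρ : ℝ≥0} (hρ : (ρ : ℝ) < ∏ t : G, max dmin (j t)) : PropertyPRoot K Ω L α ρ :=
  fun _ _ hPβ => nonempty_algHom hP hsep hj hd hL (lt_of_le_of_lt hPβ hρ)

/-- **Direction (i)**, logarithmic form: for a `LowerNumbering` `I` with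
`‖a s - a t‖ = c ^ I.i (s⁻¹ t)` and `m` a bound for the finite values of `I.i`
(`m = i_max`, so that `c ^ I.trSum m = ‖π_K‖ ^ u_{L/K}` in Fontaine's normalisation):
`PropertyPRoot K Ω L α ρ` for all `ρ < c ^ I.trSum m`. -/
theorem propertyPRoot_of_lowerNumbering (I : LowerNumbering G) {c : ℝ} (hc0 : 0 < c) (hc1 : c < 1)
    {a : G → Ω} {α : Ω}
    (hP : (minpoly K α).map (algebraMap K Ω) = ∏ s, (X - C (a s)))
    (hsep : (minpoly K α).Separable)
    (hi : ∀ s t, ‖a s - a t‖ = epow c (I.i (s⁻¹ * t)))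
    {m : ℝ} (hm : ∀ t : G, t ≠ 1 → ((I.i t).toNat : ℝ) ≤ m)
    {L : IntermediateField K Ω} (hL : L = K⟮α⟯)
    {ρ : ℝ≥0} (hρ : (ρ : ℝ) < c ^ I.trSum m) : PropertyPRoot K Ω L α ρ := by
  have hd : ∀ t : G, t ≠ 1 → c ^ m ≤ epow c (I.i t) := by
    intro t ht
    have htop : I.i t ≠ ⊤ := fun h => ht ((I.i_eq_top t).1 h)
    unfold epow
    rw [if_neg htop, ← Real.rpow_natCast]
    exact Real.rpow_le_rpow_of_exponent_ge hc0 hc1.le (hm t ht)
  have hU : ∏ t : G, max (c ^ m) (epow c (I.i t)) = c ^ I.trSum m := by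
    unfold LowerNumbering.trSum
    rw [Real.rpow_sum_of_pos hc0]
    exact Finset.prod_congr rfl fun t _ => max_rpow_epow hc0 hc1 m (I.i t)
  exact propertyPRoot hP hsep hi hd hL (by rw [hU]; exact hρ)

end Fermat.Agent.Lib.Ram.Krasner
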