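import Mathlib
import Fermat.Agent.Lib.Ram.GaloisLower
import Fermat.Agent.Lib.Ram.LemmaA

/-!
helper6 (P-S56, block (A) LOCAL, ramification layer).  GLUE between the two languages used in the
ramification files:

* the DVR language (`IsDiscreteValuationRing.addVal B`, `GaloisLower.iG`), and
* the normed-field language (Mathlib's `IsKrasner`, `LemmaA`).

`IsUnitBall φ` : a ring hom `φ : B → Ω` from a discrete valuation ring to a normed field is
injective, lands in the unit ball, and only units have norm one (e.g. `B` the integral closure of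
a complete DVR in `L ⊆ Ω` with the spectral norm).  Then `‖φ b‖ = c ^ addVal b` with
`c = ‖φ π‖ ∈ (0, 1)`.

In the AKLB setting of `GaloisLower` with `B = A[x]` this yields the hypothesis `hi` of
`LemmaA.norm_eval_eq_rpow_trSum` etc. for the conjugates `a σ = ι (σ x)`:
`‖a σ - a τ‖ = epow c (iG (σ⁻¹ τ))`; and `∏_σ (X - σ x)` is the minimal polynomial of `x`.
-/

set_option autoImplicit false

open Polynomial IsDiscreteValuationRing

namespace Fermat.Agent.Lib.Ram.NormAddVal

open Fermat.Agent.Lib.Ram Fermat.Agent.Lib.Ram.LemmaA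

section DVR

variable {B Ω : Type*} [CommRing B] [IsDomain B] [IsDiscreteValuationRing B] [NormedField Ω]

/-- `φ : B → Ω` identifies the discrete valuation ring `B` with (a subring of) the unit ball of a
normed field in such a way that exactly the units of `B` have norm one. -/
structure IsUnitBall (φ : B →+* Ω) : Prop where
  inj : Function.Injective φ
  le_one : ∀ b, ‖φ b‖ ≤ 1
  isUnit_of_norm_eq_one : ∀ b, ‖φ b‖ = 1 → IsUnit b

namespace IsUnitBall

variable {φ : B →+* Ω} (h : IsUnitBall φ)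
include h

omit [IsDomain B] [IsDiscreteValuationRing B] in
theorem norm_unit (u : Bˣ) : ‖φ u‖ = 1 := by
  have h1 := h.le_one u
  have h2 := h.le_one ((u⁻¹ : Bˣ) : B)
  have h3 : ‖φ u‖ * ‖φ ((u⁻¹ : Bˣ) : B)‖ = 1 := by
    rw [← norm_mul, ← map_mul, Units.mul_inv, map_one, norm_one]
  nlinarith [norm_nonneg (φ u), norm_nonneg (φ ((u⁻¹ : Bˣ) : B))]

omit [IsDomain B] [IsDiscreteValuationRing B] in
theorem norm_eq_one_iff (b : B) : ‖φ b‖ = 1 ↔ IsUnit b :=
  ⟨h.isUnit_of_norm_eq_one b, fun hb => by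
    obtain ⟨u, rfl⟩ := hb
    exact h.norm_unit u⟩

omit [IsDomain B] [IsDiscreteValuationRing B] in
theorem norm_pos {b : B} (hb : b ≠ 0) : 0 < ‖φ b‖ :=
  norm_pos_iff.2 fun h0 => hb (h.inj (by rw [h0, map_zero]))

omit [IsDomain B] [IsDiscreteValuationRing B] in
theorem norm_irreducible_lt_one {ϖ : B} (hϖ : Irreducible ϖ) : ‖φ ϖ‖ < 1 :=
  lt_of_le_of_ne (h.le_one ϖ) fun h1 => hϖ.not_isUnit (h.isUnit_of_norm_eq_one ϖ h1)

omit [IsDomain B] [IsDiscreteValuationRing B] in
theorem norm_irreducible_pos {ϖ : B} (hϖ : Irreducible ϖ) : 0 < ‖φ ϖ‖ :=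
  h.norm_pos hϖ.ne_zero

/-- **norm = `c ^ addVal`**. -/
theorem norm_eq_epow_addVal {ϖ : B} (hϖ : Irreducible ϖ) (b : B) :
    ‖φ b‖ = epow ‖φ ϖ‖ (addVal B b) := by
  by_cases hb : b = 0
  · subst hb
    rw [map_zero, norm_zero, addVal_zero, epow_top]
  obtain ⟨n, u, rfl⟩ := eq_unit_mul_pow_irreducible hb hϖ
  rw [addVal_def' u hϖ n, epow_coe, map_mul, map_pow, norm_mul, norm_pow, h.norm_unit u, one_mul]

/-- All uniformizers have the same norm. -/
theorem norm_irreducible_eq {ϖ ϖ' : B} (hϖ : Irreducible ϖ) (hϖ' : Irreducible ϖ') :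
    ‖φ ϖ'‖ = ‖φ ϖ‖ := by
  rw [h.norm_eq_epow_addVal hϖ ϖ', addVal_uniformizer hϖ']
  have : ((1 : ℕ) : ℕ∞) = 1 := rfl
  rw [← this, epow_coe, pow_one]

theorem norm_lt_one_iff (b : B) : ‖φ b‖ < 1 ↔ b ∈ IsLocalRing.maximalIdeal B := by
  rw [IsLocalRing.mem_maximalIdeal, mem_nonunits_iff, ← h.norm_eq_one_iff]
  exact ⟨fun hlt => hlt.ne, fun hne => lt_of_le_of_ne (h.le_one b) hne⟩

/-- `‖φ b‖ ≤ c ^ n ↔ b ∈ 𝔪 ^ n`. -/
theorem norm_le_pow_iff {ϖ : B} (hϖ : Irreducible ϖ) (b : B) (n : ℕ) :
    ‖φ b‖ ≤ ‖φ ϖ‖ ^ n ↔ b ∈ IsLocalRing.maximalIdeal B ^ n := by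
  rw [← GaloisLower.natCast_le_addVal_iff, h.norm_eq_epow_addVal hϖ b]
  have hc0 := h.norm_irreducible_pos hϖ
  have hc1 := h.norm_irreducible_lt_one hϖ
  induction hv : addVal B b using ENat.recTopCoe with
  | top =>
    rw [epow_top]
    exact ⟨fun _ => le_top, fun _ => (pow_pos hc0 n).le⟩
  | coe m =>
    rw [epow_coe, Nat.cast_le]
    exact pow_le_pow_iff_right_of_lt_one₀ hc0 hc1

end IsUnitBall

end DVR

section AKLB

variable {A K L B : Type*} [CommRing A] [Field K] [Algebra A K] [IsFractionRing A K]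
  [Field L] [Algebra K L] [Algebra.IsAlgebraic K L] [Algebra A L] [IsScalarTower A K L]
  [CommRing B] [IsDomain B] [IsDiscreteValuationRing B] [Algebra A B] [Algebra B L]
  [IsScalarTower A B L] [IsIntegralClosure B A L]
  {Ω : Type*} [NormedField Ω]

/-- The hypothesis `hi` of `LemmaA` for the conjugates `a σ = ι (σ x)` of a generator `x` of `B`
over `A`, in terms of the lower numbering `GaloisLower.lowerNumbering`. -/
theorem norm_conj_sub_conj (ι : L →+* Ω) (h : IsUnitBall (ι.comp (algebraMap B L)))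
    {ϖ : B} (hϖ : Irreducible ϖ) (x : B) (hx : Algebra.adjoin A {x} = ⊤) (σ τ : L ≃ₐ[K] L) :
    ‖ι (σ (algebraMap B L x)) - ι (τ (algebraMap B L x))‖ =
      epow ‖ι (algebraMap B L ϖ)‖ ((GaloisLower.lowerNumbering A K L B).i (σ⁻¹ * τ)) := by
  have key : ι (σ (algebraMap B L x)) - ι (τ (algebraMap B L x)) =
      (ι.comp (algebraMap B L)) (galRestrict A K L B σ x - galRestrict A K L B τ x) := by
    rw [RingHom.comp_apply, map_sub, map_sub, algebraMap_galRestrict_apply,
      algebraMap_galRestrict_apply]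
  rw [key, h.norm_eq_epow_addVal hϖ, RingHom.comp_apply]
  congr 1
  rw [GaloisLower.lowerNumbering_i, GaloisLower.iG_eq_addVal_of_adjoin x hx]
  have h2 : galRestrict A K L B σ x - galRestrict A K L B τ x =
      galRestrict A K L B σ (x - galRestrict A K L B (σ⁻¹ * τ) x) := by
    rw [map_sub, GaloisLower.galRestrict_mul_apply, GaloisLower.galRestrict_apply_inv_self]
  rw [h2, GaloisLower.addVal_algEquiv, GaloisLower.addVal_sub_comm]

end AKLB

section Minpoly

variable {K L : Type*} [Field K] [Field L] [Algebra K L] [FiniteDimensional K L] [IsGalois K L]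

omit [FiniteDimensional K L] [IsGalois K L] in
/-- For a primitive element `x` of a finite Galois extension, `σ ↦ σ x` is injective. -/
theorem algEquiv_apply_injective {x : L} (hx : IntermediateField.adjoin K {x} = ⊤) :
    Function.Injective fun σ : L ≃ₐ[K] L => σ x := by
  intro σ τ hστ
  have hfix : ∀ y ∈ IntermediateField.adjoin K {x}, σ y = τ y := by
    intro y hy
    induction hy using IntermediateField.adjoin_induction with
    | mem z hz =>
      rw [Set.mem_singleton_iff] at hz
      subst hz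
      exact hστ
    | algebraMap z => rw [AlgEquiv.commutes, AlgEquiv.commutes]
    | add a b _ _ ha hb => rw [map_add, map_add, ha, hb]
    | inv a _ ha => rw [map_inv₀, map_inv₀, ha]
    | mul a b _ _ ha hb => rw [map_mul, map_mul, ha, hb]
  exact AlgEquiv.ext fun y => hfix y (by rw [hx]; trivial)

/-- The minimal polynomial of a primitive element of a finite Galois extension is
`∏_σ (X - σ x)`. -/
theorem minpoly_map_eq_prod {x : L} (hx : IntermediateField.adjoin K {x} = ⊤) :
    (minpoly K x).map (algebraMap K L) = ∏ σ : L ≃ₐ[K] L, (X - C (σ x)) := by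
  classical
  have hint : IsIntegral K x := Algebra.IsIntegral.isIntegral x
  have hinj := algEquiv_apply_injective hx
  symm
  apply Polynomial.eq_of_dvd_of_natDegree_le_of_leadingCoeff
  · refine Finset.prod_dvd_of_coprime ?_ ?_
    · intro σ _ τ _ hne
      exact Polynomial.pairwise_coprime_X_sub_C hinj hne
    · intro σ _
      have h1 := Polynomial.aeval_algHom_apply (σ : L →ₐ[K] L) x (minpoly K x)
      rw [minpoly.aeval, map_zero] at h1
      rw [Polynomial.dvd_iff_isRoot, IsRoot.def, eval_map, ← aeval_def]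
      exact h1
  · rw [natDegree_map, natDegree_prod_of_monic _ _ fun σ _ => monic_X_sub_C _]
    simp only [natDegree_X_sub_C, Finset.sum_const, Finset.card_univ, smul_eq_mul, mul_one]
    rw [← Nat.card_eq_fintype_card, IsGalois.card_aut_eq_finrank,
      ← IntermediateField.adjoin.finrank hint, hx, IntermediateField.finrank_top']
  · rw [(monic_prod_of_monic _ _ fun σ _ => monic_X_sub_C _).leadingCoeff,
      ((minpoly.monic hint).map _).leadingCoeff]

end Minpoly

end Fermat.Agent.Lib.Ram.NormAddVal
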