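import Mathlib
import Fermat.Agent.Lib.Ram.NormAddVal

/-!
helper6 (P-S56, block (A) LOCAL, ramification layer).  **Unit ball = integral closure** for
algebraic normed extensions of a complete ultrametric field:

`K` a complete nontrivially normed ultrametric field, `A → K` a ring whose image is the unit ball
of `K` (e.g. `A = ℤ_[p]`, `K = ℚ_[p]`), `Ω` an algebraic normed field extension of `K`
(`NormedAlgebra K Ω`, e.g. `PadicAlgCl p`, or any finite extension with its unique norm).  Then for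
`x : Ω`:   `‖x‖ ≤ 1 ↔ IsIntegral A x`.

Consequence (`isUnitBall_of_isIntegralClosure`): in an AKLB setting with `B` a DVR and a
`K`-embedding `ι : L → Ω`, the composite `B → L → Ω` satisfies `NormAddVal.IsUnitBall`, hence
`‖ι b‖ = c ^ addVal b`: this connects `GaloisLower` (DVR language) with `LemmaA`/`IsKrasner`
(normed language) unconditionally.
-/

set_option autoImplicit false

open Polynomial

namespace Fermat.Agent.Lib.Ram.NormIntegral

open Fermat.Agent.Lib.Ram.NormAddVal

section Integral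

variable {A K Ω : Type*} [CommRing A] [NontriviallyNormedField K] [IsUltrametricDist K]
  [NormedField Ω] [NormedAlgebra K Ω] [Algebra A K] [Algebra A Ω] [IsScalarTower A K Ω]

omit [IsUltrametricDist K] in
theorem norm_algebraMap_le_one (hA : ∀ a : A, ‖algebraMap A K a‖ ≤ 1) (a : A) :
    ‖algebraMap A Ω a‖ ≤ 1 := by
  rw [IsScalarTower.algebraMap_apply A K Ω, norm_algebraMap']
  exact hA a

/-- Integral elements over the unit ball have norm at most one (no completeness needed). -/
theorem norm_le_one_of_isIntegral (hA : ∀ a : A, ‖algebraMap A K a‖ ≤ 1) {x : Ω}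
    (hx : IsIntegral A x) : ‖x‖ ≤ 1 := by
  have : IsUltrametricDist Ω := IsUltrametricDist.of_normedAlgebra K
  by_contra hlt
  rw [not_le] at hlt
  obtain ⟨p, hp, hpx⟩ := hx
  have hsum : x ^ p.natDegree =
      -∑ i ∈ Finset.range p.natDegree, algebraMap A Ω (p.coeff i) * x ^ i := by
    have h1 := hpx
    rw [hp.as_sum, eval₂_add, eval₂_pow, eval₂_X, eval₂_finsetSum] at h1
    simp only [eval₂_mul, eval₂_C, eval₂_pow, eval₂_X] at h1
    exact eq_neg_of_add_eq_zero_left h1
  have hx0 : 0 < ‖x‖ := lt_trans zero_lt_one hlt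
  rcases Nat.eq_zero_or_pos p.natDegree with hn | hn
  · rw [hn, pow_zero, Finset.range_zero, Finset.sum_empty, neg_zero] at hsum
    exact one_ne_zero hsum
  · have hbound : ‖∑ i ∈ Finset.range p.natDegree, algebraMap A Ω (p.coeff i) * x ^ i‖ ≤
        ‖x‖ ^ (p.natDegree - 1) := by
      refine IsUltrametricDist.norm_sum_le_of_forall_le_of_nonneg (pow_nonneg hx0.le _)
        fun i hi => ?_
      rw [Finset.mem_range] at hi
      rw [norm_mul, norm_pow]
      calc ‖algebraMap A Ω (p.coeff i)‖ * ‖x‖ ^ i ≤ 1 * ‖x‖ ^ i :=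
            mul_le_mul_of_nonneg_right (norm_algebraMap_le_one hA _) (pow_nonneg hx0.le _)
        _ = ‖x‖ ^ i := one_mul _
        _ ≤ ‖x‖ ^ (p.natDegree - 1) := pow_le_pow_right₀ hlt.le (by omega)
    have h2 : ‖x‖ ^ p.natDegree ≤ ‖x‖ ^ (p.natDegree - 1) := by
      rw [← norm_pow, hsum, norm_neg]
      exact hbound
    have h3 : ‖x‖ ^ (p.natDegree - 1) < ‖x‖ ^ p.natDegree :=
      pow_lt_pow_right₀ hlt (by omega)
    exact absurd h2 (not_le.2 h3)

/-- Elements of norm at most one are integral over the unit ball (`K` complete). -/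
theorem isIntegral_of_norm_le_one [CompleteSpace K] [Algebra.IsAlgebraic K Ω]
    (hA : ∀ k : K, ‖k‖ ≤ 1 → k ∈ (algebraMap A K).range) {x : Ω} (hx : ‖x‖ ≤ 1) :
    IsIntegral A x := by
  have hint : IsIntegral K x := Algebra.IsIntegral.isIntegral x
  have hmonic : (minpoly K x).Monic := minpoly.monic hint
  rw [NormedAlgebra.norm_eq_spectralNorm K x] at hx
  have hcoeff : ∀ n, ‖(minpoly K x).coeff n‖ ≤ 1 := (spectralValue_le_one_iff hmonic).1 hx
  have hlifts : minpoly K x ∈ Polynomial.lifts (algebraMap A K) := by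
    rw [Polynomial.lifts_iff_coeff_lifts]
    intro n
    obtain ⟨a, ha⟩ := hA _ (hcoeff n)
    exact ⟨a, ha⟩
  obtain ⟨q, hq, -, hqm⟩ := Polynomial.lifts_and_natDegree_eq_and_monic hlifts hmonic
  refine ⟨q, hqm, ?_⟩
  have h1 : eval₂ (algebraMap A Ω) x q = aeval x (q.map (algebraMap A K)) := by
    rw [aeval_def, eval₂_map, IsScalarTower.algebraMap_eq A K Ω]
  rw [h1, hq, minpoly.aeval]

/-- **Unit ball = integral closure.** -/
theorem norm_le_one_iff_isIntegral [CompleteSpace K] [Algebra.IsAlgebraic K Ω]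
    (hA : ∀ k : K, ‖k‖ ≤ 1 ↔ k ∈ (algebraMap A K).range) (x : Ω) :
    ‖x‖ ≤ 1 ↔ IsIntegral A x :=
  ⟨isIntegral_of_norm_le_one fun k hk => (hA k).1 hk,
    norm_le_one_of_isIntegral fun a => (hA _).2 ⟨a, rfl⟩⟩

end Integral

section AKLB

variable {A K L B Ω : Type*} [CommRing A] [NontriviallyNormedField K] [IsUltrametricDist K]
  [CompleteSpace K] [Algebra A K]
  [Field L] [Algebra K L] [Algebra A L] [IsScalarTower A K L]
  [CommRing B] [IsDomain B] [IsDiscreteValuationRing B] [Algebra A B] [Algebra B L]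
  [IsScalarTower A B L] [IsIntegralClosure B A L]
  [NormedField Ω] [NormedAlgebra K Ω] [Algebra.IsAlgebraic K Ω] [Algebra A Ω]
  [IsScalarTower A K Ω]

omit [IsDomain B] [IsDiscreteValuationRing B] [Algebra A B] [IsScalarTower A B L] in
/-- In the AKLB setting with `A →` unit ball of the complete field `K`, `B` the integral closure
of `A` in `L` and `ι : L → Ω` a `K`-embedding into an algebraic normed extension of `K`: the
composite `B → Ω` identifies `B` with the unit ball of `ι L`. -/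
theorem isUnitBall_of_isIntegralClosure
    (hA : ∀ k : K, ‖k‖ ≤ 1 ↔ k ∈ (algebraMap A K).range) (ι : L →ₐ[K] Ω) :
    IsUnitBall ((ι : L →+* Ω).comp (algebraMap B L)) := by
  have hιA : ∀ a : A, ι (algebraMap A L a) = algebraMap A Ω a := fun a => by
    rw [IsScalarTower.algebraMap_apply A K L, ι.commutes, ← IsScalarTower.algebraMap_apply]
  -- `ι` as an `A`-algebra hom
  let ιA : L →ₐ[A] Ω := { (ι : L →+* Ω) with commutes' := hιA }
  have hιA_apply : ∀ y : L, ιA y = ι y := fun _ => rfl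
  have hιinj : Function.Injective ιA := (ι : L →+* Ω).injective
  refine ⟨?_, ?_, ?_⟩
  · exact (ι : L →+* Ω).injective.comp (IsIntegralClosure.algebraMap_injective B A L)
  · intro b
    have hb : IsIntegral A (algebraMap B L b) :=
      (IsIntegralClosure.isIntegral_iff (A := B)).2 ⟨b, rfl⟩
    have hb' : IsIntegral A (ιA (algebraMap B L b)) := hb.map ιA
    exact norm_le_one_of_isIntegral (fun a => (hA _).2 ⟨a, rfl⟩) hb'
  · intro b hb
    have hb1 : ‖ι (algebraMap B L b)‖ = 1 := hb
    have hne : algebraMap B L b ≠ 0 := by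
      intro h0
      rw [h0, map_zero, norm_zero] at hb1
      exact zero_ne_one hb1
    have hinv : ‖ι (algebraMap B L b)⁻¹‖ ≤ 1 := by
      rw [map_inv₀, norm_inv, hb1, inv_one]
    have hint : IsIntegral A (ιA (algebraMap B L b)⁻¹) :=
      isIntegral_of_norm_le_one (fun k hk => (hA k).1 hk) hinv
    rw [isIntegral_algHom_iff ιA hιinj] at hint
    obtain ⟨c, hc⟩ := (IsIntegralClosure.isIntegral_iff (A := B)).1 hint
    refine IsUnit.of_mul_eq_one c ?_
    apply IsIntegralClosure.algebraMap_injective B A L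
    rw [map_mul, hc, map_one, mul_inv_cancel₀ hne]

variable [IsFractionRing A K] [Algebra.IsAlgebraic K L]

/-- **Unconditional hypothesis `hi` of `LemmaA`** in the complete AKLB setting with `B = A[x]`:
the distances between the conjugates `ι (σ x)` are `c ^ i_G(σ⁻¹ τ)`, `c = ‖ι ϖ‖ ∈ (0,1)`. -/
theorem norm_conj_sub_conj_of_complete
    (hA : ∀ k : K, ‖k‖ ≤ 1 ↔ k ∈ (algebraMap A K).range) (ι : L →ₐ[K] Ω)
    {ϖ : B} (hϖ : Irreducible ϖ) (x : B) (hx : Algebra.adjoin A {x} = ⊤) (σ τ : L ≃ₐ[K] L) :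
    ‖ι (σ (algebraMap B L x)) - ι (τ (algebraMap B L x))‖ =
      LemmaA.epow ‖ι (algebraMap B L ϖ)‖
        ((GaloisLower.lowerNumbering A K L B).i (σ⁻¹ * τ)) :=
  norm_conj_sub_conj (ι : L →+* Ω) (isUnitBall_of_isIntegralClosure hA ι) hϖ x hx σ τ

theorem norm_uniformizer_pos
    (hA : ∀ k : K, ‖k‖ ≤ 1 ↔ k ∈ (algebraMap A K).range) (ι : L →ₐ[K] Ω)
    {ϖ : B} (hϖ : Irreducible ϖ) : 0 < ‖ι (algebraMap B L ϖ)‖ := by
  have h := isUnitBall_of_isIntegralClosure (B := B) hA ι
  exact h.norm_irreducible_pos hϖ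

theorem norm_uniformizer_lt_one
    (hA : ∀ k : K, ‖k‖ ≤ 1 ↔ k ∈ (algebraMap A K).range) (ι : L →ₐ[K] Ω)
    {ϖ : B} (hϖ : Irreducible ϖ) : ‖ι (algebraMap B L ϖ)‖ < 1 := by
  have h := isUnitBall_of_isIntegralClosure (B := B) hA ι
  exact h.norm_irreducible_lt_one hϖ

end AKLB

end Fermat.Agent.Lib.Ram.NormIntegral
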