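import Mathlib

/-!
helper6 (P-S56, block (A) LOCAL, ramification layer).  The dictionary between the two forms of the
hypothesis of Fontaine's property `(P_m)`:

* `O_K`-algebra homomorphisms `O_L → O_E / 𝔞` (`O_L = O_K[α]`, i.e. `O_L` has a power basis), and
* elements `β ∈ O_E` with `P(β) ∈ 𝔞` (`P` the minimal polynomial of `α`),

and between the two forms of its conclusion: `K`-embeddings `L → E` and roots of `P` in `E`.
Pure algebra (Mathlib `PowerBasis.liftEquiv`), no valuations.
-/

set_option autoImplicit false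

open Polynomial

namespace Fermat.Agent.Lib.Ram.HomOfRoot

section Quotient

variable {A B C : Type*} [CommRing A] [CommRing B] [Algebra A B] [CommRing C] [Algebra A C]

/-- An `A`-algebra hom `B = A[α] → C ⧸ I` from an approximate root `β` of the minimal polynomial
of the generator `α`. -/
noncomputable def homOfRoot (pb : PowerBasis A B) (I : Ideal C) (β : C)
    (hβ : aeval β (minpoly A pb.gen) ∈ I) : B →ₐ[A] C ⧸ I :=
  pb.lift (Ideal.Quotient.mk I β) (by
    rw [← Ideal.Quotient.algebraMap_eq, aeval_algebraMap_apply, Ideal.Quotient.algebraMap_eq,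
      Ideal.Quotient.eq_zero_iff_mem]
    exact hβ)

@[simp]
theorem homOfRoot_gen (pb : PowerBasis A B) (I : Ideal C) (β : C)
    (hβ : aeval β (minpoly A pb.gen) ∈ I) :
    homOfRoot pb I β hβ pb.gen = Ideal.Quotient.mk I β :=
  pb.lift_gen _ _

theorem homOfRoot_aeval (pb : PowerBasis A B) (I : Ideal C) (β : C)
    (hβ : aeval β (minpoly A pb.gen) ∈ I) (f : A[X]) :
    homOfRoot pb I β hβ (aeval pb.gen f) = Ideal.Quotient.mk I (aeval β f) := by
  unfold homOfRoot
  rw [pb.lift_aeval, ← Ideal.Quotient.algebraMap_eq, aeval_algebraMap_apply]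

/-- Every lift `β` of the image of the generator under an `A`-algebra hom `B → C ⧸ I` is an
approximate root. -/
theorem aeval_mem_of_algHom (pb : PowerBasis A B) (I : Ideal C) (f : B →ₐ[A] C ⧸ I) (β : C)
    (hβ : Ideal.Quotient.mk I β = f pb.gen) : aeval β (minpoly A pb.gen) ∈ I := by
  rw [← Ideal.Quotient.eq_zero_iff_mem, ← Ideal.Quotient.algebraMap_eq, ← aeval_algebraMap_apply,
    Ideal.Quotient.algebraMap_eq, hβ, aeval_algHom_apply, minpoly.aeval, map_zero]

theorem eq_homOfRoot (pb : PowerBasis A B) (I : Ideal C) (f : B →ₐ[A] C ⧸ I) (β : C)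
    (hβ : Ideal.Quotient.mk I β = f pb.gen) :
    f = homOfRoot pb I β (aeval_mem_of_algHom pb I f β hβ) :=
  pb.algHom_ext (by rw [homOfRoot_gen, hβ])

/-- **The hypothesis of `(P_m)` in root form.** -/
theorem nonempty_algHom_quotient_iff (pb : PowerBasis A B) (I : Ideal C) :
    Nonempty (B →ₐ[A] C ⧸ I) ↔ ∃ β : C, aeval β (minpoly A pb.gen) ∈ I := by
  constructor
  · rintro ⟨f⟩
    obtain ⟨β, hβ⟩ := Ideal.Quotient.mk_surjective (f pb.gen)
    exact ⟨β, aeval_mem_of_algHom pb I f β hβ⟩
  · rintro ⟨β, hβ⟩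
    exact ⟨homOfRoot pb I β hβ⟩

/-- Ring-hom form (the structure maps `A → B`, `A → C ⧸ I` are respected). -/
theorem exists_ringHom_quotient_iff (pb : PowerBasis A B) (I : Ideal C) :
    (∃ f : B →+* C ⧸ I, ∀ a : A, f (algebraMap A B a) = Ideal.Quotient.mk I (algebraMap A C a)) ↔
      ∃ β : C, aeval β (minpoly A pb.gen) ∈ I := by
  rw [← nonempty_algHom_quotient_iff pb I]
  constructor
  · rintro ⟨f, hf⟩
    refine ⟨{ toRingHom := f, commutes' := fun a => ?_ }⟩
    rw [← Ideal.Quotient.mk_algebraMap]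
    exact hf a
  · rintro ⟨f⟩
    refine ⟨f.toRingHom, fun a => ?_⟩
    rw [Ideal.Quotient.mk_algebraMap]
    exact f.commutes a

end Quotient

section Field

variable {K L E : Type*} [Field K] [Field L] [Algebra K L] [Field E] [Algebra K E]

/-- **The conclusion of `(P_m)` in root form**: for `L = K(α)` (a power basis of `L / K`),
`K`-embeddings `L → E` correspond to roots of the minimal polynomial in `E`. -/
theorem nonempty_algHom_iff (pb : PowerBasis K L) :
    Nonempty (L →ₐ[K] E) ↔ ∃ y : E, aeval y (minpoly K pb.gen) = 0 := by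
  constructor
  · rintro ⟨f⟩
    exact ⟨f pb.gen, by rw [aeval_algHom_apply, minpoly.aeval, map_zero]⟩
  · rintro ⟨y, hy⟩
    exact ⟨pb.lift y hy⟩

/-- Same with a primitive element given by `K⟮α⟯ = ⊤`. -/
theorem nonempty_algHom_iff_of_adjoin_eq_top {α : L} (hα : IsIntegral K α)
    (htop : IntermediateField.adjoin K {α} = ⊤) :
    Nonempty (L →ₐ[K] E) ↔ ∃ y : E, aeval y (minpoly K α) = 0 := by
  constructor
  · rintro ⟨f⟩
    exact ⟨f α, by rw [aeval_algHom_apply, minpoly.aeval, map_zero]⟩
  · rintro ⟨y, hy⟩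
    have e : (IntermediateField.adjoin K {α}) ≃ₐ[K] L :=
      (IntermediateField.equivOfEq htop).trans IntermediateField.topEquiv
    let pb := IntermediateField.adjoin.powerBasis hα
    have hy' : aeval y (minpoly K pb.gen) = 0 := by
      rw [IntermediateField.adjoin.powerBasis_gen, IntermediateField.minpoly_gen]
      exact hy
    exact ⟨(pb.lift y hy').comp e.symm.toAlgHom⟩

end Field

/-! For the comparison of the minimal polynomials over `A` and over `K = Frac A` use Mathlib's
`minpoly.isIntegrallyClosed_eq_field_fractions K L hs :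
  minpoly K (algebraMap S L s) = (minpoly R s).map (algebraMap R K)`. -/

end Fermat.Agent.Lib.Ram.HomOfRoot
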