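import Mathlib
import Fermat.Agent.Lib.Ram.HomOfRoot
import Fermat.Agent.Lib.Ram.PropertyPm

/-!
helper6 (P-S56, block (A) LOCAL, ramification layer).  **Hom form ⟺ root form of Fontaine's
property `(P_m)`** for a monogenic ring of integers `𝓞_L = 𝓞_K[α]`, in the normed setting of
`Lib/Ram/PropertyPm` (`intK K`, `intE E`, `idealLE E ρ`, `PropertyP`, `PropertyPRoot`).

* `integers_intK`, `isFractionRing_intK`, `isIntegrallyClosed_intK`, `isDomain_intK`:
  `intK K` is the ring of integers of the valuation `NormedField.valuation`.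
* `coe_aeval` : evaluation of `f : (intK K)[X]` inside `intE E` is evaluation in `Ω`.
* `minpoly_map_eq` : `(minpoly 𝓞_K x).map _ = minpoly K x` for integral `x : intE L`.
* `nonempty_hom_of_root` : the "hom of a root" `𝓞_L → 𝓞_{K(β)} / a(ρ)`, `α ↦ β`, discharging
  the hypotheses `hfin`, `hhom` of `PropertyP.propertyPRoot_of_hom`.
* `propertyPRoot_of_propertyP`, `propertyP_of_propertyPRoot`, `propertyP_iff_propertyPRoot`
  (for a power basis `pb` of `intE L` over `intK K`), and the versions `…_of_adjoin_eq_top` for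
  a generator `x` with `Algebra.adjoin (intK K) {x} = ⊤` (as produced by `Lib/Ram/Monogenic`).
-/

set_option autoImplicit false

open Polynomial IntermediateField
open scoped NNReal

namespace Fermat.Agent.Lib.Ram.PmForms

open Fermat.Agent.Lib.Ram Fermat.Agent.Lib.Ram.PropertyPm

variable {K : Type*} [NormedField K] [IsUltrametricDist K]
variable {Ω : Type*} [NormedField Ω] [IsUltrametricDist Ω] [NormedAlgebra K Ω]

/-! ### `intK K` as a ring of integers -/

/-- `intK K` is the ring of integers of the norm valuation. -/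
theorem integers_intK : (NormedField.valuation (K := K)).Integers (intK K) where
  hom_inj := Subtype.coe_injective
  map_le_one x := by
    rw [← NNReal.coe_le_coe]
    exact x.2
  exists_of_le_one r hr := by
    refine ⟨⟨r, ?_⟩, rfl⟩
    rw [mem_intK]
    rw [← NNReal.coe_le_coe] at hr
    exact hr

theorem isFractionRing_intK : IsFractionRing (intK K) K :=
  (integers_intK (K := K)).isFractionRing

theorem isIntegrallyClosed_intK : IsIntegrallyClosed (intK K) :=
  (integers_intK (K := K)).isIntegrallyClosed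

/-! ### Evaluation in `intE E` -/

/-- `β` with `‖β‖ ≤ 1` as an element of the ring of integers of `K⟮β⟯`. -/
def genInt (β : Ω) (hβ : ‖β‖ ≤ 1) : intE (K := K) K⟮β⟯ :=
  ⟨β, mem_adjoin_simple_self K β, hβ⟩

@[simp]
theorem coe_genInt (β : Ω) (hβ : ‖β‖ ≤ 1) : ((genInt (K := K) β hβ : intE K⟮β⟯) : Ω) = β := rfl

/-- Evaluating `f : 𝓞_K[X]` at a point of `𝓞_E` and viewing the result in `Ω`. -/
theorem coe_aeval (E : IntermediateField K Ω) (x : intE E) (f : (intK K)[X]) :
    ((aeval x f : intE E) : Ω) = aeval (x : Ω) (f.map (algebraMap (intK K) K)) := by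
  rw [aeval_map_algebraMap]
  exact (aeval_algHom_apply (intE E).val x f).symm

theorem isIntegral_coe_iff {E : IntermediateField K Ω} (x : intE E) :
    IsIntegral (intK K) (x : Ω) ↔ IsIntegral (intK K) x :=
  isIntegral_algHom_iff (intE E).val Subtype.coe_injective

/-- The minimal polynomial over `𝓞_K` of an integral element of `𝓞_L` maps to its minimal
polynomial over `K`. -/
theorem minpoly_map_eq {L : IntermediateField K Ω} {x : intE L} (hx : IsIntegral (intK K) x) :
    (minpoly (intK K) x).map (algebraMap (intK K) K) = minpoly K (x : Ω) := by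
  have := isFractionRing_intK (K := K)
  have := isIntegrallyClosed_intK (K := K)
  exact (minpoly.isIntegrallyClosed_eq_field_fractions K Ω hx).symm

/-! ### The hom of a root -/

section HomOfRoot

variable {L : IntermediateField K Ω} {α : Ω} {ρ : ℝ≥0}

theorem aeval_genInt_mem (pb : PowerBasis (intK K) (intE L))
    (hmin : (minpoly (intK K) pb.gen).map (algebraMap (intK K) K) = minpoly K α)
    {β : Ω} (hβ : ‖β‖ ≤ 1) (hP : ‖aeval β (minpoly K α)‖ ≤ ρ) :
    aeval (genInt (K := K) β hβ) (minpoly (intK K) pb.gen) ∈ idealLE K⟮β⟯ ρ := by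
  rw [mem_idealLE, coe_aeval, hmin]
  exact hP

/-- **The hom of a root**: for `𝓞_L = 𝓞_K[α]` every integral `β` with `‖P(β)‖ ≤ ρ` defines
`𝓞_L → 𝓞_{K(β)} / a(ρ)`, `α ↦ β`. -/
theorem nonempty_hom_of_root (pb : PowerBasis (intK K) (intE L))
    (hmin : (minpoly (intK K) pb.gen).map (algebraMap (intK K) K) = minpoly K α)
    {β : Ω} (hβ : ‖β‖ ≤ 1) (hP : ‖aeval β (minpoly K α)‖ ≤ ρ) :
    Nonempty (intE L →ₐ[intK K] (intE K⟮β⟯ ⧸ idealLE K⟮β⟯ ρ)) :=
  ⟨HomOfRoot.homOfRoot pb (idealLE K⟮β⟯ ρ) (genInt β hβ) (aeval_genInt_mem pb hmin hβ hP)⟩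

/-- **Hom form ⟹ root form** for `𝓞_L = 𝓞_K[α]`. -/
theorem propertyPRoot_of_propertyP [Algebra.IsAlgebraic K Ω]
    (pb : PowerBasis (intK K) (intE L))
    (hmin : (minpoly (intK K) pb.gen).map (algebraMap (intK K) K) = minpoly K α)
    (h : PropertyP K Ω L ρ) : PropertyPRoot K Ω L α ρ :=
  h.propertyPRoot_of_hom
    (fun β _ _ => IntermediateField.adjoin.finiteDimensional (Algebra.IsIntegral.isIntegral β))
    (fun _ hβ hP => nonempty_hom_of_root pb hmin hβ hP)

/-- **Root form ⟹ hom form** for `𝓞_L = 𝓞_K[α]`. -/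
theorem propertyP_of_propertyPRoot (pb : PowerBasis (intK K) (intE L))
    (hmin : (minpoly (intK K) pb.gen).map (algebraMap (intK K) K) = minpoly K α)
    (h : PropertyPRoot K Ω L α ρ) : PropertyP K Ω L ρ := by
  rintro E - ⟨f⟩
  obtain ⟨b, hb⟩ := Ideal.Quotient.mk_surjective (f pb.gen)
  have hmem := HomOfRoot.aeval_mem_of_algHom pb (idealLE E ρ) f b hb
  rw [mem_idealLE, coe_aeval, hmin] at hmem
  obtain ⟨g⟩ := h (b : Ω) b.2.2 hmem
  have hle : K⟮(b : Ω)⟯ ≤ E := adjoin_simple_le_iff.2 b.2.1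
  exact ⟨(IntermediateField.inclusion hle).comp g⟩

theorem propertyP_iff_propertyPRoot [Algebra.IsAlgebraic K Ω]
    (pb : PowerBasis (intK K) (intE L))
    (hmin : (minpoly (intK K) pb.gen).map (algebraMap (intK K) K) = minpoly K α) :
    PropertyP K Ω L ρ ↔ PropertyPRoot K Ω L α ρ :=
  ⟨propertyPRoot_of_propertyP pb hmin, propertyP_of_propertyPRoot pb hmin⟩

end HomOfRoot

/-! ### From a generator `x` with `𝓞_K[x] = 𝓞_L` -/

section Generator

variable {L : IntermediateField K Ω} {ρ : ℝ≥0}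

/-- A power basis of `𝓞_L` over `𝓞_K` from a generator. -/
theorem exists_powerBasis {x : intE L} (hx : Algebra.adjoin (intK K) {x} = ⊤)
    (hint : IsIntegral (intK K) x) :
    ∃ pb : PowerBasis (intK K) (intE L), pb.gen = x := by
  have := isIntegrallyClosed_intK (K := K)
  let e : Algebra.adjoin (intK K) {x} ≃ₐ[intK K] intE L :=
    (Subalgebra.equivOfEq _ _ hx).trans Subalgebra.topEquiv
  refine ⟨(Algebra.adjoin.powerBasis' hint).map e, ?_⟩
  rw [PowerBasis.map_gen, Algebra.adjoin.powerBasis'_gen]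
  rfl

theorem propertyPRoot_of_adjoin_eq_top [Algebra.IsAlgebraic K Ω] {x : intE L}
    (hx : Algebra.adjoin (intK K) {x} = ⊤) (hint : IsIntegral (intK K) x)
    (h : PropertyP K Ω L ρ) : PropertyPRoot K Ω L (x : Ω) ρ := by
  obtain ⟨pb, rfl⟩ := exists_powerBasis hx hint
  exact propertyPRoot_of_propertyP pb (minpoly_map_eq hint) h

theorem propertyP_of_adjoin_eq_top {x : intE L}
    (hx : Algebra.adjoin (intK K) {x} = ⊤) (hint : IsIntegral (intK K) x)
    (h : PropertyPRoot K Ω L (x : Ω) ρ) : PropertyP K Ω L ρ := by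
  obtain ⟨pb, rfl⟩ := exists_powerBasis hx hint
  exact propertyP_of_propertyPRoot pb (minpoly_map_eq hint) h

theorem propertyP_iff_of_adjoin_eq_top [Algebra.IsAlgebraic K Ω] {x : intE L}
    (hx : Algebra.adjoin (intK K) {x} = ⊤) (hint : IsIntegral (intK K) x) :
    PropertyP K Ω L ρ ↔ PropertyPRoot K Ω L (x : Ω) ρ :=
  ⟨propertyPRoot_of_adjoin_eq_top hx hint, propertyP_of_adjoin_eq_top hx hint⟩

end Generator

end Fermat.Agent.Lib.Ram.PmForms
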