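import Mathlib
import Fermat.Agent.Lib.Ram.HerbrandMax
import Fermat.Agent.Lib.Ram.GaloisLower
import Fermat.Agent.Lib.Ram.NormAddVal
import Fermat.Agent.Lib.Ram.NormIntegral
import Fermat.Agent.Lib.Ram.Krasner
import Fermat.Agent.Lib.Ram.PmForms

/-!
helper6 (P-S56, block (A) LOCAL, ramification layer).  **Instantiation of Fontaine's Prop. 1.5**
(`Lib/Ram/{LemmaA, Krasner, PmForms, PropertyPm}`) against the arithmetic lower numbering
`GaloisLower.lowerNumbering A K L B` (`Lib/Ram/{GaloisLower, NormAddVal, NormIntegral}`).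

SETTING.  `K` a complete nontrivially normed ultrametric field, `Ω` an algebraic normed extension,
`L : IntermediateField K Ω` finite Galois over `K`.  `(A, B)` is ANY model of the rings of
integers: `A → K` with image the closed unit ball (`hA`), `B` a discrete valuation ring which is
the integral closure of `A` in `L` (AKLB).  `x : B` with `B = A[x]` (`Lib/Ram/Monogenic`),
`ϖ : B` a uniformiser, `I = lowerNumbering A K L B`, `c = ‖ϖ‖`.

* `adjoin_simple_eq_top` : `B = A[x] ⟹ L = K(x)` (generic AKLB).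
* `toIntE`, `adjoin_toIntE_eq_top`, `isIntegral_toIntE` : the generator transferred to
  `PropertyPm.intE L`, where it generates over `PropertyPm.intK K`.
* `conj`, `minpoly_map_eq_prod_conj`, `separable_minpoly`, `norm_conj_sub_conj`, `eq_adjoin` :
  the data of the conjugates `a σ = σ x ∈ Ω` (hypotheses `hP, hsep, hi, hL` of `Lib/Ram/Krasner`
  and of the converse direction).
* `propertyPRoot_of_lt`, `propertyP_of_lt` : **direction (i)**: `(P_m)` holds for
  `ρ < c ^ I.trSum I.iMax` (`= ‖π_K‖ ^ (u_{L/K} + 1)`, Serre's upper numbering).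
* `propertyPRoot_of_propertyP` : reduction of **direction (ii)** to the root form.
* `rpow_trSum_iMax` : `c ^ I.trSum I.iMax = (c ^ I.e0) ^ (I.uMax + 1)`.
-/

set_option autoImplicit false

open Polynomial IntermediateField
open scoped NNReal

namespace Fermat.Agent.Lib.Ram.PmInst

open Fermat.Agent.Lib.Ram Fermat.Agent.Lib.Ram.PropertyPm

/-! ### `B = A[x] ⟹ L = K(x)` -/

section Field

variable {A K L B : Type*} [CommRing A] [Field K] [Algebra A K] [IsFractionRing A K]
  [Field L] [Algebra K L] [Algebra.IsAlgebraic K L] [Algebra A L] [IsScalarTower A K L]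
  [CommRing B] [Algebra A B] [Algebra B L] [IsScalarTower A B L] [IsIntegralClosure B A L]

omit [IsFractionRing A K] [Algebra.IsAlgebraic K L] in
/-- A polynomial expression with coefficients in `A` in `x` lies in `K(x)`. -/
theorem aeval_mem_adjoin_simple (y : L) (f : A[X]) : aeval y f ∈ K⟮y⟯ := by
  rw [← aeval_map_algebraMap K]
  have h1 : aeval y (f.map (algebraMap A K)) ∈ Algebra.adjoin K {y} := by
    rw [Algebra.adjoin_singleton_eq_range_aeval]
    exact ⟨_, rfl⟩
  exact IntermediateField.algebra_adjoin_le_adjoin K {y} h1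

theorem adjoin_simple_eq_top (x : B) (hx : Algebra.adjoin A {x} = ⊤) :
    K⟮algebraMap B L x⟯ = ⊤ := by
  have hdom : IsDomain A := (IsFractionRing.injective A K).isDomain (algebraMap A K)
  rw [eq_top_iff]
  intro y _
  have hy : IsAlgebraic A y :=
    (IsFractionRing.isAlgebraic_iff A K L).2 (Algebra.IsAlgebraic.isAlgebraic y)
  obtain ⟨a, ha, hint⟩ := hy.exists_integral_multiple
  obtain ⟨b, hb⟩ := (IsIntegralClosure.isIntegral_iff (A := B)).1 hint
  have hbx : b ∈ Algebra.adjoin A {x} := by rw [hx]; trivial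
  rw [Algebra.adjoin_singleton_eq_range_aeval] at hbx
  obtain ⟨f, hf⟩ := hbx
  have hf' : aeval x f = b := hf
  have hmem : a • y ∈ K⟮algebraMap B L x⟯ := by
    rw [← hb, ← hf', ← aeval_algebraMap_apply]
    exact aeval_mem_adjoin_simple (algebraMap B L x) f
  have ha' : algebraMap K L (algebraMap A K a) ≠ 0 := by
    intro h0
    apply ha
    apply IsFractionRing.injective A K
    apply (algebraMap K L).injective
    rw [h0, map_zero, map_zero]
  have hy' : y = (algebraMap K L (algebraMap A K a))⁻¹ * a • y := by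
    rw [Algebra.smul_def, IsScalarTower.algebraMap_apply A K L, inv_mul_cancel_left₀ ha']
  rw [hy']
  exact mul_mem (inv_mem (IntermediateField.algebraMap_mem _ _)) hmem

end Field

/-! ### The normed setting -/

section Normed

variable {A K Ω B : Type*} [CommRing A] [NontriviallyNormedField K] [IsUltrametricDist K]
  [CompleteSpace K] [Algebra A K] [IsFractionRing A K]
  [NormedField Ω] [IsUltrametricDist Ω] [NormedAlgebra K Ω] [Algebra.IsAlgebraic K Ω]
  [Algebra A Ω] [IsScalarTower A K Ω]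
  {L : IntermediateField K Ω} [FiniteDimensional K L] [IsGalois K L]
  [Algebra A L] [IsScalarTower A K L]
  [CommRing B] [IsDomain B] [IsDiscreteValuationRing B] [Algebra A B] [Algebra B L]
  [IsScalarTower A B L] [IsIntegralClosure B A L]

/-- The image of `b : B` in `Ω`. -/
def emb (b : B) : Ω := ((algebraMap B L b : L) : Ω)

omit [IsUltrametricDist K] [CompleteSpace K] [IsFractionRing A K] [IsUltrametricDist Ω]
  [Algebra.IsAlgebraic K Ω] [Algebra A Ω] [IsScalarTower A K Ω] [FiniteDimensional K L]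
  [IsGalois K L] [IsScalarTower A K L] [IsDomain B] [IsDiscreteValuationRing B]
  [IsScalarTower A B L] [IsIntegralClosure B A L] [Algebra A B] [Algebra A K] [Algebra A L] in
theorem emb_mem (b : B) : emb (L := L) b ∈ L := (algebraMap B L b).2

omit [IsFractionRing A K] [FiniteDimensional K L] [IsGalois K L] [IsUltrametricDist Ω]
  [IsDomain B] [IsDiscreteValuationRing B] [Algebra A B] [IsScalarTower A B L] in
theorem norm_emb_le_one (hA : ∀ k : K, ‖k‖ ≤ 1 ↔ k ∈ (algebraMap A K).range) (b : B) :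
    ‖emb (L := L) b‖ ≤ 1 :=
  (NormIntegral.isUnitBall_of_isIntegralClosure (B := B) hA L.val).le_one b

/-- `b : B` as an element of the unit ball `intE L`. -/
def toIntE (hA : ∀ k : K, ‖k‖ ≤ 1 ↔ k ∈ (algebraMap A K).range) (b : B) : intE L :=
  ⟨emb b, emb_mem b, norm_emb_le_one hA b⟩

omit [IsFractionRing A K] [FiniteDimensional K L] [IsGalois K L] [IsDomain B]
  [IsDiscreteValuationRing B] [Algebra A B] [IsScalarTower A B L] in
@[simp]
theorem coe_toIntE (hA : ∀ k : K, ‖k‖ ≤ 1 ↔ k ∈ (algebraMap A K).range) (b : B) :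
    ((toIntE (L := L) hA b : intE L) : Ω) = emb (L := L) b := rfl

/-- `A → intK K`. -/
def toIntK (hA : ∀ k : K, ‖k‖ ≤ 1 ↔ k ∈ (algebraMap A K).range) : A →+* intK K :=
  (algebraMap A K).codRestrict (intK K) fun a => (hA _).2 ⟨a, rfl⟩

omit [CompleteSpace K] [IsFractionRing A K] in
theorem algebraMap_comp_toIntK (hA : ∀ k : K, ‖k‖ ≤ 1 ↔ k ∈ (algebraMap A K).range) :
    (algebraMap (intK K) K).comp (toIntK hA) = algebraMap A K := rfl

omit [IsFractionRing A K] [FiniteDimensional K L] [IsGalois K L] [IsUltrametricDist Ω]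
  [IsDomain B] [IsDiscreteValuationRing B] [IsIntegralClosure B A L] [CompleteSpace K]
  [Algebra.IsAlgebraic K Ω] [IsUltrametricDist K] [Algebra A Ω] [IsScalarTower A K Ω] in
/-- Polynomial expressions with coefficients in `A`, evaluated in `B` and viewed in `Ω`. -/
theorem emb_aeval (x : B) (f : A[X]) :
    emb (L := L) (aeval x f) = aeval (emb (L := L) x) (f.map (algebraMap A K)) := by
  unfold emb
  rw [← aeval_algebraMap_apply, ← aeval_map_algebraMap K, ← IntermediateField.coe_val,
    ← aeval_algHom_apply]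

omit [IsFractionRing A K] [FiniteDimensional K L] [IsGalois K L] [IsDomain B]
  [IsDiscreteValuationRing B] in
theorem coe_aeval_toIntE (hA : ∀ k : K, ‖k‖ ≤ 1 ↔ k ∈ (algebraMap A K).range) (x : B) (f : A[X]) :
    ((aeval (toIntE (L := L) hA x) (f.map (toIntK hA)) : intE L) : Ω) =
      emb (L := L) (aeval x f) := by
  rw [PmForms.coe_aeval, Polynomial.map_map, algebraMap_comp_toIntK, coe_toIntE, emb_aeval]

omit [IsFractionRing A K] [FiniteDimensional K L] [IsGalois K L] [IsDomain B]
  [IsDiscreteValuationRing B] in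
/-- **The generator transferred to `intE L`**: `B = A[x] ⟹ 𝓞_L = 𝓞_K[x]`. -/
theorem adjoin_toIntE_eq_top (hA : ∀ k : K, ‖k‖ ≤ 1 ↔ k ∈ (algebraMap A K).range) (x : B)
    (hx : Algebra.adjoin A {x} = ⊤) :
    Algebra.adjoin (intK K) {toIntE (L := L) hA x} = ⊤ := by
  rw [eq_top_iff]
  intro y _
  -- `y` comes from `B`
  have hyint : IsIntegral A (y : Ω) :=
    NormIntegral.isIntegral_of_norm_le_one (fun k hk => (hA k).1 hk) y.2.2
  let ιA : L →ₐ[A] Ω :=
    { (L.val : L →+* Ω) with
      commutes' := fun a => by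
        show ((algebraMap A L a : L) : Ω) = algebraMap A Ω a
        rw [IsScalarTower.algebraMap_apply A K L, IsScalarTower.algebraMap_apply A K Ω]
        rfl }
  have hyL : IsIntegral A (⟨(y : Ω), y.2.1⟩ : L) := by
    rw [← isIntegral_algHom_iff ιA Subtype.coe_injective]
    exact hyint
  obtain ⟨b, hb⟩ := (IsIntegralClosure.isIntegral_iff (A := B)).1 hyL
  have hbx : b ∈ Algebra.adjoin A {x} := by rw [hx]; trivial
  rw [Algebra.adjoin_singleton_eq_range_aeval] at hbx
  obtain ⟨f, hf⟩ := hbx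
  have hf' : aeval x f = b := hf
  rw [Algebra.adjoin_singleton_eq_range_aeval]
  refine ⟨f.map (toIntK hA), Subtype.ext ?_⟩
  show ((aeval (toIntE (L := L) hA x) (f.map (toIntK hA)) : intE L) : Ω) = (y : Ω)
  rw [coe_aeval_toIntE, hf']
  unfold emb
  rw [hb]

omit [IsFractionRing A K] [FiniteDimensional K L] [IsGalois K L] [IsDomain B]
  [IsDiscreteValuationRing B] [Algebra A B] [IsScalarTower A B L] [Algebra A Ω]
  [IsScalarTower A K Ω] [Algebra A L] [IsScalarTower A K L] [IsIntegralClosure B A L] in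
theorem isIntegral_intE (y : intE L) : IsIntegral (intK K) y := by
  rw [← PmForms.isIntegral_coe_iff]
  exact NormIntegral.isIntegral_of_norm_le_one (A := intK K) (fun k hk => ⟨⟨k, hk⟩, rfl⟩) y.2.2

/-! ### The conjugates -/

/-- The conjugates `a σ = σ x ∈ Ω` of (the image of) `x : B`. -/
def conj (x : B) (σ : L ≃ₐ[K] L) : Ω := ((σ (algebraMap B L x) : L) : Ω)

omit [IsUltrametricDist K] [CompleteSpace K] [IsFractionRing A K] [IsUltrametricDist Ω]
  [Algebra.IsAlgebraic K Ω] [Algebra A Ω] [IsScalarTower A K Ω] [FiniteDimensional K L]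
  [IsGalois K L] [IsScalarTower A K L] [IsDomain B] [IsDiscreteValuationRing B]
  [IsScalarTower A B L] [IsIntegralClosure B A L] [Algebra A B] [Algebra A K] [Algebra A L] in
theorem conj_one (x : B) : conj (L := L) x 1 = emb (L := L) x := rfl

omit [IsUltrametricDist K] [CompleteSpace K] [IsUltrametricDist Ω] [Algebra.IsAlgebraic K Ω]
  [Algebra A Ω] [IsScalarTower A K Ω] [IsDomain B] [IsDiscreteValuationRing B] in
/-- Hypothesis `hP`: the minimal polynomial of `x` splits as `∏ σ, (X - σ x)`. -/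
theorem minpoly_map_eq_prod_conj (x : B) (hx : Algebra.adjoin A {x} = ⊤) :
    (minpoly K (emb (L := L) x)).map (algebraMap K Ω) =
      ∏ σ : L ≃ₐ[K] L, (X - C (conj (L := L) x σ)) := by
  have h1 : minpoly K (emb (L := L) x) = minpoly K (algebraMap B L x) :=
    minpoly.algHom_eq L.val Subtype.coe_injective (algebraMap B L x)
  have h2 := NormAddVal.minpoly_map_eq_prod (K := K) (L := L)
    (adjoin_simple_eq_top (A := A) (K := K) x hx)
  rw [h1, IsScalarTower.algebraMap_eq K L Ω, ← Polynomial.map_map, h2, Polynomial.map_prod]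
  refine Finset.prod_congr rfl fun σ _ => ?_
  rw [Polynomial.map_sub, Polynomial.map_X, Polynomial.map_C]
  rfl

omit [IsUltrametricDist K] [CompleteSpace K] [IsFractionRing A K] [IsUltrametricDist Ω]
  [Algebra.IsAlgebraic K Ω] [Algebra A Ω] [IsScalarTower A K Ω] [FiniteDimensional K L]
  [IsScalarTower A K L] [IsDomain B] [IsDiscreteValuationRing B]
  [IsScalarTower A B L] [IsIntegralClosure B A L] [Algebra A B] [Algebra A K] [Algebra A L] in
/-- Hypothesis `hsep`. -/
theorem separable_minpoly (x : B) : (minpoly K (emb (L := L) x)).Separable := by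
  have h1 : minpoly K (emb (L := L) x) = minpoly K (algebraMap B L x) :=
    minpoly.algHom_eq L.val Subtype.coe_injective (algebraMap B L x)
  rw [h1]
  exact Algebra.IsSeparable.isSeparable K (algebraMap B L x)

omit [FiniteDimensional K L] [IsGalois K L] [IsUltrametricDist Ω] in
/-- Hypothesis `hi`: the distances between the conjugates are given by the lower numbering. -/
theorem norm_conj_sub_conj (hA : ∀ k : K, ‖k‖ ≤ 1 ↔ k ∈ (algebraMap A K).range) 
    {ϖ : B} (hϖ : Irreducible ϖ) (x : B) (hx : Algebra.adjoin A {x} = ⊤)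
    (σ τ : L ≃ₐ[K] L) :
    ‖conj (L := L) x σ - conj (L := L) x τ‖ =
      LemmaA.epow ‖emb (L := L) ϖ‖ ((GaloisLower.lowerNumbering A K L B).i (σ⁻¹ * τ)) :=
  NormIntegral.norm_conj_sub_conj_of_complete hA L.val hϖ x hx σ τ

omit [IsUltrametricDist K] [CompleteSpace K] [IsUltrametricDist Ω] [Algebra.IsAlgebraic K Ω]
  [Algebra A Ω] [IsScalarTower A K Ω] [IsDomain B] [IsDiscreteValuationRing B]
  [IsGalois K L] in
/-- Hypothesis `hL`: `L = K(x)`. -/
theorem eq_adjoin (x : B) (hx : Algebra.adjoin A {x} = ⊤) : L = K⟮emb (L := L) x⟯ := by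
  have h := adjoin_simple_eq_top (A := A) (K := K) (L := L) x hx
  have h2 := IntermediateField.lift_adjoin_simple K L (algebraMap B L x)
  rw [h, IntermediateField.lift_top] at h2
  exact h2

omit [FiniteDimensional K L] [IsGalois K L] [IsUltrametricDist Ω] in
theorem norm_emb_uniformizer_pos (hA : ∀ k : K, ‖k‖ ≤ 1 ↔ k ∈ (algebraMap A K).range) 
    {ϖ : B} (hϖ : Irreducible ϖ) : 0 < ‖emb (L := L) ϖ‖ :=
  NormIntegral.norm_uniformizer_pos hA L.val hϖ

omit [FiniteDimensional K L] [IsGalois K L] [IsUltrametricDist Ω] in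
theorem norm_emb_uniformizer_lt_one (hA : ∀ k : K, ‖k‖ ≤ 1 ↔ k ∈ (algebraMap A K).range) 
    {ϖ : B} (hϖ : Irreducible ϖ) : ‖emb (L := L) ϖ‖ < 1 :=
  NormIntegral.norm_uniformizer_lt_one hA L.val hϖ

/-! ### Direction (i) -/

/-- **Fontaine 1.5 (i)**, root form, for the arithmetic lower numbering: `(P_m)` holds for
`ρ < ‖ϖ_L‖ ^ I.trSum I.iMax`. -/
theorem propertyPRoot_of_lt (hA : ∀ k : K, ‖k‖ ≤ 1 ↔ k ∈ (algebraMap A K).range) 
    {ϖ : B} (hϖ : Irreducible ϖ) (x : B)
    (hx : Algebra.adjoin A {x} = ⊤) {ρ : ℝ≥0}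
    (hρ : (ρ : ℝ) < ‖emb (L := L) ϖ‖ ^
      (GaloisLower.lowerNumbering A K L B).trSum (GaloisLower.lowerNumbering A K L B).iMax) :
    PropertyPRoot K Ω L (emb (L := L) x) ρ :=
  Krasner.propertyPRoot_of_lowerNumbering (GaloisLower.lowerNumbering A K L B)
    (norm_emb_uniformizer_pos hA hϖ) (norm_emb_uniformizer_lt_one hA hϖ)
    (minpoly_map_eq_prod_conj x hx) (separable_minpoly x)
    (norm_conj_sub_conj hA hϖ x hx)
    (fun t _ => (GaloisLower.lowerNumbering A K L B).toNat_i_le_iMax t)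
    (eq_adjoin x hx) hρ

/-- **Fontaine 1.5 (i)**, hom form. -/
theorem propertyP_of_lt (hA : ∀ k : K, ‖k‖ ≤ 1 ↔ k ∈ (algebraMap A K).range) 
    {ϖ : B} (hϖ : Irreducible ϖ) (x : B)
    (hx : Algebra.adjoin A {x} = ⊤) {ρ : ℝ≥0}
    (hρ : (ρ : ℝ) < ‖emb (L := L) ϖ‖ ^
      (GaloisLower.lowerNumbering A K L B).trSum (GaloisLower.lowerNumbering A K L B).iMax) :
    PropertyP K Ω L ρ :=
  PmForms.propertyP_of_adjoin_eq_top (adjoin_toIntE_eq_top hA x hx) (isIntegral_intE _)
    (propertyPRoot_of_lt hA hϖ x hx hρ)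

/-! ### Direction (ii): reduction to the root form -/

omit [IsFractionRing A K] [FiniteDimensional K L] [IsGalois K L] in
/-- Hom form ⟹ root form for the generator `x` of `B` over `A`. -/
theorem propertyPRoot_of_propertyP (hA : ∀ k : K, ‖k‖ ≤ 1 ↔ k ∈ (algebraMap A K).range) 
    (x : B) (hx : Algebra.adjoin A {x} = ⊤) {ρ : ℝ≥0}
    (h : PropertyP K Ω L ρ) : PropertyPRoot K Ω L (emb (L := L) x) ρ :=
  PmForms.propertyPRoot_of_adjoin_eq_top (adjoin_toIntE_eq_top hA x hx) (isIntegral_intE _) h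

omit [IsFractionRing A K] [FiniteDimensional K L] [IsGalois K L] in
theorem propertyP_iff_propertyPRoot (hA : ∀ k : K, ‖k‖ ≤ 1 ↔ k ∈ (algebraMap A K).range) 
    (x : B) (hx : Algebra.adjoin A {x} = ⊤) {ρ : ℝ≥0} :
    PropertyP K Ω L ρ ↔ PropertyPRoot K Ω L (emb (L := L) x) ρ :=
  PmForms.propertyP_iff_of_adjoin_eq_top (adjoin_toIntE_eq_top hA x hx) (isIntegral_intE _)

end Normed

/-! ### Numerics -/

section Numerics

variable {G : Type*} [Group G] [Fintype G] (I : LowerNumbering G)

/-- `trSum iMax = e₀ (uMax + 1)` (Serre's `φ`). -/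
theorem trSum_iMax : I.trSum I.iMax = I.e0 * (I.uMax + 1) := by
  have he : (I.e0 : ℝ) ≠ 0 := by exact_mod_cast I.e0_pos.ne'
  unfold LowerNumbering.uMax LowerNumbering.phi
  rw [sub_add_cancel, sub_add_cancel, mul_div_cancel₀ _ he]

/-- `c ^ trSum iMax = (c ^ e₀) ^ (uMax + 1)`: with `c = ‖ϖ_L‖`, `c ^ e₀ = ‖π_K‖`, this is
`‖π_K‖ ^ (u_{L/K} + 1)`. -/
theorem rpow_trSum_iMax {c : ℝ} (hc : 0 ≤ c) :
    c ^ I.trSum I.iMax = (c ^ I.e0) ^ (I.uMax + 1) := by
  rw [trSum_iMax, Real.rpow_mul hc, Real.rpow_natCast]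

end Numerics

end Fermat.Agent.Lib.Ram.PmInst
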