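import Mathlib
import Fermat.Agent.Lib.Ram.LemmaA
import Fermat.Agent.Lib.Ram.PropertyPm
import Fermat.Agent.Lib.Ram.NormAddVal

/-!
helper61 (P-S56, block (A) LOCAL, ramification layer).  **SHARP converse of Fontaine's Prop. 1.5**
for FINITE residue fields (note 1396): `(P_m)` fails for `m = u_{L/K}` (no `1/e_L` slack).

MAIN RESULTS: `exists_bad_point`, `not_propertyPRoot`, `le_threshold_of_forall_propertyPRoot`
(the sharp `uMax_le_of_forall_Pm` in the norm language of `Lib/Ram/PropertyPm`).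

CORE (this file, first part).  `L` an ultrametric normed field, `H` a finite group acting on `L`
by isometries with fixed field `F` (`[IsGaloisGroup H F L]`), `α : L` with `‖t • α - α‖ = d > 0`
for all `t ≠ 1` (`H` = a subgroup of the last ramification group), the residue ring of `L` FINITE
and `F → k_L` surjective (`L/F` totally ramified).  Then there is a constant `c : F`, `‖c‖ = d ^ #H`,
such that `P₀ + c`, `P₀ = ∏ t, (X - t • α)`, has NO root in `L` (`exists_const_no_root`: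
pigeonhole on the finite residue field); consequently (`exists_const_not_mem_adjoin`) for every
root `β` of `P₀ + c` in an extension `Ω`: `α ∉ F⟮β⟯` (degree count), while some conjugate `t₀ • α`
is at distance `≤ d` from `β` (`exists_norm_sub_le`).
-/

set_option autoImplicit false

open Polynomial IntermediateField

namespace Fermat.Agent.Lib.Ram.PmSharp

open Fermat.Agent.Lib.Ram Fermat.Agent.Lib.Ram.PropertyPm

/-! ### Pigeonhole on a finite residue ring -/

section Pigeonhole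

/-- If `B ⧸ m` is finite and two of the `ε t` are incongruent mod `m`, the map
`w ↦ η * ∏ t, (w - ε t)` misses a residue class. -/
theorem exists_avoid {B : Type*} [CommRing B] (m : Ideal B) [Finite (B ⧸ m)] {ι : Type*}
    [Fintype ι] (ε : ι → B) {t₁ t₂ : ι} (h12 : ε t₁ - ε t₂ ∉ m) (η : B) :
    ∃ y : B, ∀ w : B, η * ∏ t, (w - ε t) - y ∉ m := by
  classical
  let f : B ⧸ m → B ⧸ m := fun x =>
    Ideal.Quotient.mk m η * ∏ t, (x - Ideal.Quotient.mk m (ε t))
  have hf : ∀ t, f (Ideal.Quotient.mk m (ε t)) = 0 := fun t => by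
    change Ideal.Quotient.mk m η * ∏ t', (Ideal.Quotient.mk m (ε t) - Ideal.Quotient.mk m (ε t')) = 0
    rw [Finset.prod_eq_zero (Finset.mem_univ t) (sub_self _), mul_zero]
  have hne : Ideal.Quotient.mk m (ε t₁) ≠ Ideal.Quotient.mk m (ε t₂) := fun h =>
    h12 ((Ideal.Quotient.eq).1 h)
  have hninj : ¬ Function.Injective f := fun hinj => hne (hinj ((hf t₁).trans (hf t₂).symm))
  have hnsurj : ¬ Function.Surjective f := fun hs => hninj (Finite.injective_iff_surjective.2 hs)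
  obtain ⟨ybar, hy⟩ := not_forall.1 hnsurj
  replace hy : ∀ x, f x ≠ ybar := fun x hx => hy ⟨x, hx⟩
  obtain ⟨y, rfl⟩ := Ideal.Quotient.mk_surjective ybar
  refine ⟨y, fun w hw => hy (Ideal.Quotient.mk m w) ?_⟩
  change Ideal.Quotient.mk m η * ∏ t, (Ideal.Quotient.mk m w - Ideal.Quotient.mk m (ε t)) = _
  have h1 : Ideal.Quotient.mk m η * ∏ t, (Ideal.Quotient.mk m w - Ideal.Quotient.mk m (ε t)) =
      Ideal.Quotient.mk m (η * ∏ t, (w - ε t)) := by
    rw [map_mul, map_prod]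
    simp only [map_sub]
  rw [h1]
  exact (Ideal.Quotient.eq).2 hw

end Pigeonhole

/-! ### The maximal ideal of the unit ball -/

section MaxIdeal

variable (L : Type*) [NormedField L] [IsUltrametricDist L]

/-- `𝔪_L = {x ∈ 𝓞_L | ‖x‖ < 1}`. -/
def maxIdeal : Ideal (intK L) where
  carrier := {x | ‖(x : L)‖ < 1}
  add_mem' {x y} hx hy :=
    lt_of_le_of_lt (IsUltrametricDist.norm_add_le_max (x : L) y) (max_lt hx hy)
  zero_mem' := by
    change ‖((0 : intK L) : L)‖ < 1
    rw [ZeroMemClass.coe_zero, norm_zero]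
    exact zero_lt_one
  smul_mem' c x hx := by
    change ‖((c * x : intK L) : L)‖ < 1
    rw [MulMemClass.coe_mul, norm_mul]
    calc ‖(c : L)‖ * ‖(x : L)‖ ≤ 1 * ‖(x : L)‖ := mul_le_mul_of_nonneg_right c.2 (norm_nonneg _)
      _ = ‖(x : L)‖ := one_mul _
      _ < 1 := hx

variable {L} in
theorem mem_maxIdeal {x : intK L} : x ∈ maxIdeal L ↔ ‖(x : L)‖ < 1 := Iff.rfl

end MaxIdeal

/-! ### No root in `L` -/

section NoRoot

variable {F L : Type*} [Field F] [NormedField L] [IsUltrametricDist L] [Algebra F L]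
variable {H : Type*} [Group H] [Fintype H] [MulSemiringAction H L] [IsGaloisGroup H F L]

omit [IsGaloisGroup H F L] [Fintype H] [Algebra F L] in
theorem norm_sub_le_max' (x y : L) : ‖x - y‖ ≤ max ‖x‖ ‖y‖ := by
  rw [sub_eq_add_neg, ← norm_neg y]
  exact IsUltrametricDist.norm_add_le_max x (-y)

/-- an auxiliary real-number fact -/
theorem eq_of_mul_max_pow {r d : ℝ} (hr : 0 ≤ r) (hd : 0 < d) {n : ℕ}
    (h : r * (max r d) ^ n = d ^ (n + 1)) : r = d := by
  rcases le_or_gt r d with hle | hgt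
  · rw [max_eq_right hle, pow_succ'] at h
    exact mul_right_cancel₀ (pow_ne_zero n hd.ne') h
  · rw [max_eq_left hgt.le, ← pow_succ'] at h
    exact (pow_left_inj₀ hr hd.le (Nat.succ_ne_zero n)).1 h

/-- **Claim 1 of note 1396.**  There is a constant `c ∈ F` of norm `d ^ #H` such that
`∏ t, (X - t • α) + c` has no root in `L`. -/
theorem exists_const_no_root (hinv : ∀ (t : H) (x : L), ‖t • x‖ = ‖x‖) (α : L) {d : ℝ}
    (hd0 : 0 < d) (hd : ∀ t : H, t ≠ 1 → ‖t • α - α‖ = d) (hH : ∃ t : H, t ≠ 1)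
    [Finite (intK L ⧸ maxIdeal L)]
    (hres : ∀ x : L, ‖x‖ ≤ 1 → ∃ y : F, ‖x - algebraMap F L y‖ < 1) :
    ∃ c : F, ‖algebraMap F L c‖ = d ^ Fintype.card H ∧
      ∀ β : L, ∏ t : H, (β - t • α) + algebraMap F L c ≠ 0 := by
  classical
  obtain ⟨t₁, ht₁⟩ := hH
  have hq : Fintype.card H = (Fintype.card H - 1) + 1 := by
    have : 0 < Fintype.card H := Fintype.card_pos
    omega
  set δ : L := t₁ • α - α with hδ
  have hδn : ‖δ‖ = d := hd t₁ ht₁
  have hδ0 : δ ≠ 0 := fun h => by rw [h, norm_zero] at hδn; exact hd0.ne hδn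
  have hpair : ∀ t t' : H, t ≠ t' → ‖t • α - t' • α‖ = d := by
    intro t t' htt'
    have h1 : t • α - t' • α = t' • ((t'⁻¹ * t) • α - α) := by
      rw [smul_sub, smul_smul, mul_inv_cancel_left]
    rw [h1, hinv, hd]
    intro h
    exact htt' (inv_mul_eq_one.1 h).symm
  let ε : H → L := fun t => (t • α - α) / δ
  have hεn : ∀ t, ‖ε t‖ ≤ 1 := by
    intro t
    by_cases ht : t = 1
    · change ‖(t • α - α) / δ‖ ≤ 1
      rw [ht, one_smul, sub_self, zero_div, norm_zero]
      exact zero_le_one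
    · change ‖(t • α - α) / δ‖ ≤ 1
      rw [norm_div, hd t ht, hδn, div_self hd0.ne']
  have hεsub : ∀ t t', t ≠ t' → ‖ε t - ε t'‖ = 1 := by
    intro t t' h
    have h1 : ε t - ε t' = (t • α - t' • α) / δ := by
      change (t • α - α) / δ - (t' • α - α) / δ = _
      rw [← sub_div, sub_sub_sub_cancel_right]
    rw [h1, norm_div, hpair t t' h, hδn, div_self hd0.ne']
  let εB : H → intK L := fun t => ⟨ε t, hεn t⟩
  -- the norm of `δ`
  let c₁ : L := ∏ t : H, t • δ
  have hc₁inv : ∀ g : H, g • c₁ = c₁ := fun g => Finset.smul_prod_perm δ g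
  obtain ⟨c₁F, hc₁F⟩ := Algebra.IsInvariant.isInvariant (A := F) c₁ hc₁inv
  have hc₁n : ‖c₁‖ = d ^ Fintype.card H := by
    change ‖∏ t : H, t • δ‖ = _
    rw [norm_prod]
    simp only [hinv, hδn]
    rw [Finset.prod_const, Finset.card_univ]
  have hc₁0 : c₁ ≠ 0 := fun h => by
    rw [h, norm_zero] at hc₁n
    exact (pow_pos hd0 _).ne hc₁n
  let η : L := δ ^ Fintype.card H / c₁
  have hηn : ‖η‖ = 1 := by
    change ‖δ ^ Fintype.card H / c₁‖ = 1
    rw [norm_div, norm_pow, hδn, hc₁n, div_self (pow_ne_zero _ hd0.ne')]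
  let ηB : intK L := ⟨η, hηn.le⟩
  have h12 : εB t₁ - εB 1 ∉ maxIdeal L := by
    intro h
    have h' : ‖ε t₁ - ε 1‖ < 1 := h
    rw [hεsub t₁ 1 ht₁] at h'
    exact lt_irrefl _ h'
  obtain ⟨y, hy⟩ := exists_avoid (maxIdeal L) εB h12 ηB
  obtain ⟨c', hc'⟩ := hres (y : L) y.2
  have key : ∀ w : L, ‖w‖ ≤ 1 → ¬ ‖η * ∏ t, (w - ε t) - algebraMap F L c'‖ < 1 := by
    intro w hw hlt
    apply hy ⟨w, hw⟩
    change ‖((ηB * ∏ t, ((⟨w, hw⟩ : intK L) - εB t) - y : intK L) : L)‖ < 1
    have h1 : ((ηB * ∏ t, ((⟨w, hw⟩ : intK L) - εB t) - y : intK L) : L) =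
        (η * ∏ t, (w - ε t) - algebraMap F L c') - ((y : L) - algebraMap F L c') := by
      rw [AddSubgroupClass.coe_sub, MulMemClass.coe_mul, SubmonoidClass.coe_finsetProd]
      simp only [AddSubgroupClass.coe_sub]
      ring
    rw [h1]
    exact lt_of_le_of_lt (norm_sub_le_max' _ _) (max_lt hlt hc')
  have hc'n : ‖algebraMap F L c'‖ = 1 := by
    apply le_antisymm
    · have h1 : algebraMap F L c' = (y : L) - ((y : L) - algebraMap F L c') := by ring
      rw [h1]
      exact (norm_sub_le_max' _ _).trans (max_le y.2 hc'.le)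
    · by_contra hlt
      rw [not_le] at hlt
      apply key (ε 1) (hεn 1)
      rw [Finset.prod_eq_zero (Finset.mem_univ 1) (sub_self _), mul_zero, zero_sub, norm_neg]
      exact hlt
  refine ⟨-(c₁F * c'), ?_, ?_⟩
  · rw [map_neg, norm_neg, map_mul, norm_mul, hc₁F, hc₁n, hc'n, mul_one]
  · intro β hβ
    have hβ' : ∏ t : H, (β - t • α) = c₁ * algebraMap F L c' := by
      rw [map_neg, map_mul, hc₁F] at hβ
      exact eq_neg_of_add_eq_zero_left hβ |>.trans (neg_neg _)
    -- the closest conjugate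
    obtain ⟨t₀, ht₀⟩ := LemmaA.exists_norm_min (fun t : H => t • α) β
    have hj : ∀ s t : H, ‖s • α - t • α‖ = (fun u : H => if u = 1 then (0 : ℝ) else d) (s⁻¹ * t) := by
      intro s t
      change _ = if s⁻¹ * t = 1 then (0 : ℝ) else d
      by_cases hst : s = t
      · rw [hst, sub_self, norm_zero, inv_mul_cancel, if_pos rfl]
      · rw [hpair s t hst, if_neg]
        intro h
        exact hst (inv_mul_eq_one.1 h)
    have hA := LemmaA.norm_eval_prod_group β (fun t : H => t • α)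
      (fun u : H => if u = 1 then (0 : ℝ) else d) hj ht₀
    have hr : ‖β - t₀ • α‖ = d := by
      have hev : (∏ s : H, (X - C (s • α))).eval β = ∏ t : H, (β - t • α) := by
        rw [eval_prod]
        exact Finset.prod_congr rfl fun s _ => by rw [eval_sub, eval_X, eval_C]
      rw [hev, hβ', norm_mul, hc₁n, hc'n, mul_one,
        Fintype.prod_eq_mul_prod_compl (1 : H), if_pos rfl,
        max_eq_left (norm_nonneg _)] at hA
      have h2 : ∏ t ∈ ({1}ᶜ : Finset H), max ‖β - t₀ • α‖ (if t = 1 then (0 : ℝ) else d) =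
          (max ‖β - t₀ • α‖ d) ^ (Fintype.card H - 1) := by
        rw [Finset.prod_congr rfl (fun t ht => by
          rw [if_neg (by simpa using ht)] :
          ∀ t ∈ ({1}ᶜ : Finset H), max ‖β - t₀ • α‖ (if t = 1 then (0 : ℝ) else d) =
            max ‖β - t₀ • α‖ d), Finset.prod_const, Finset.card_compl, Finset.card_singleton]
      rw [h2, hq, Nat.add_sub_cancel] at hA
      exact eq_of_mul_max_pow (norm_nonneg _) hd0 hA.symm
    -- translate by `t₀⁻¹`
    set β' : L := t₀⁻¹ • β with hβ'def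
    have hfac : ∀ t : H, β' - t • α = t₀⁻¹ • (β - (t₀ * t) • α) := by
      intro t
      rw [smul_sub, smul_smul, inv_mul_cancel_left]
    have hprod' : ∏ t : H, (β' - t • α) = c₁ * algebraMap F L c' := by
      rw [Finset.prod_congr rfl fun t _ => hfac t, ← Finset.smul_prod',
        Fintype.prod_equiv (Equiv.mulLeft t₀) (fun t => β - (t₀ * t) • α) (fun t => β - t • α)
          (fun t => rfl), hβ', smul_mul', smul_algebraMap, hc₁inv]
    have hβ'n : ‖β' - α‖ = d := by
      have h1 : β' - α = t₀⁻¹ • (β - t₀ • α) := by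
        rw [smul_sub, smul_smul, inv_mul_cancel, one_smul]
      rw [h1, hinv, hr]
    set w : L := (β' - α) / δ with hw
    have hwn : ‖w‖ ≤ 1 := by
      rw [hw, norm_div, hβ'n, hδn, div_self hd0.ne']
    have hfac2 : ∀ t : H, β' - t • α = δ * (w - ε t) := by
      intro t
      change β' - t • α = δ * ((β' - α) / δ - (t • α - α) / δ)
      field_simp
      ring
    have hfin : η * ∏ t, (w - ε t) = algebraMap F L c' := by
      have h1 : δ ^ Fintype.card H * ∏ t, (w - ε t) = c₁ * algebraMap F L c' := by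
        rw [← hprod', Finset.prod_congr rfl fun t _ => hfac2 t, Finset.prod_mul_distrib,
          Finset.prod_const, Finset.card_univ]
      change δ ^ Fintype.card H / c₁ * ∏ t, (w - ε t) = _
      rw [div_mul_eq_mul_div, h1, mul_div_cancel_left₀ _ hc₁0]
    apply key w hwn
    rw [hfin, sub_self, norm_zero]
    exact zero_lt_one

end NoRoot

/-! ### The degree argument -/

section Degree

variable {F L Ω : Type*} [Field F] [Field L] [Field Ω] [Algebra F L] [Algebra L Ω] [Algebra F Ω]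
  [IsScalarTower F L Ω]
variable {H : Type*} [Group H] [Fintype H] [MulSemiringAction H L] [IsGaloisGroup H F L]

omit [Field Ω] [Algebra L Ω] [Algebra F Ω] [IsScalarTower F L Ω] in
/-- `P₀ = ∏ t, (X - t • α)` has coefficients in `F`. -/
theorem exists_poly (α : L) : ∃ P₀ : F[X], P₀.Monic ∧ P₀.natDegree = Fintype.card H ∧
    P₀.map (algebraMap F L) = ∏ t : H, (X - C (t • α)) := by
  obtain ⟨p, hp1, hp2, hp3⟩ := Polynomial.lifts_and_natDegree_eq_and_monic
    (Algebra.IsInvariant.charpoly_mem_lifts F L H α) (MulSemiringAction.monic_charpoly H α)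
  refine ⟨p, hp3, ?_, hp1⟩
  rw [hp2, MulSemiringAction.charpoly_eq,
    natDegree_prod_of_monic _ _ (fun t _ => monic_X_sub_C _)]
  simp

omit [Field Ω] [Algebra L Ω] [Algebra F Ω] [IsScalarTower F L Ω] in
/-- If the stabiliser of `α` is trivial then `[F(α) : F] ≥ #H`. -/
theorem card_le_natDegree_minpoly (α : L) (hα : ∀ t : H, t ≠ 1 → t • α ≠ α) :
    Fintype.card H ≤ (minpoly F α).natDegree := by
  classical
  have hint : IsIntegral F α := (Algebra.IsInvariant.isIntegral F L H).isIntegral α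
  have hμ0 : (minpoly F α).map (algebraMap F L) ≠ 0 :=
    Polynomial.map_ne_zero (minpoly.ne_zero hint)
  have hroots : ∀ t : H, t • α ∈ ((minpoly F α).map (algebraMap F L)).roots.toFinset := by
    intro t
    rw [Multiset.mem_toFinset, mem_roots hμ0, IsRoot.def, eval_map, ← aeval_def]
    have h1 : aeval (t • α) (minpoly F α) = t • aeval α (minpoly F α) :=
      aeval_algHom_apply (MulSemiringAction.toAlgHom F L t) α (minpoly F α)
    rw [h1, minpoly.aeval, smul_zero]
  have hinj : Set.InjOn (fun t : H => t • α) ((Finset.univ : Finset H) : Set H) := by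
    intro t _ t' _ h
    by_contra hne
    apply hα (t'⁻¹ * t) (fun h1 => hne (inv_mul_eq_one.1 h1).symm)
    have h' : t • α = t' • α := h
    rw [mul_smul, h', smul_smul, inv_mul_cancel, one_smul]
  calc Fintype.card H = (Finset.univ : Finset H).card := Finset.card_univ.symm
    _ ≤ ((minpoly F α).map (algebraMap F L)).roots.toFinset.card :=
        Finset.card_le_card_of_injOn _ (fun t _ => hroots t) hinj
    _ ≤ Multiset.card ((minpoly F α).map (algebraMap F L)).roots := Multiset.toFinset_card_le _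
    _ ≤ ((minpoly F α).map (algebraMap F L)).natDegree := card_roots' _
    _ = (minpoly F α).natDegree := natDegree_map _

/-- **Claim 2 of note 1396** (degree count): if `α ∈ F(β)` for a root `β` of `P₀ + c`
then `β ∈ L`. -/
theorem mem_range_of_mem_adjoin (α : L) (hα : ∀ t : H, t ≠ 1 → t • α ≠ α) (c : F) (β : Ω)
    (hβ : ∏ t : H, (β - algebraMap L Ω (t • α)) + algebraMap F Ω c = 0)
    (hmem : algebraMap L Ω α ∈ F⟮β⟯) : β ∈ Set.range (algebraMap L Ω) := by
  obtain ⟨P₀, hmon, hdeg, hmap⟩ := exists_poly (F := F) (H := H) α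
  have hcdeg : (C c).degree < P₀.degree := by
    rw [degree_eq_natDegree hmon.ne_zero, hdeg]
    exact lt_of_le_of_lt degree_C_le (by exact_mod_cast Fintype.card_pos)
  have hQm : (P₀ + C c).Monic := hmon.add_of_left hcdeg
  have hQdeg : (P₀ + C c).natDegree = Fintype.card H := by
    rw [natDegree_add_eq_left_of_degree_lt hcdeg, hdeg]
  have h1 : aeval β P₀ = ∏ t : H, (β - algebraMap L Ω (t • α)) := by
    rw [aeval_def, ← eval_map, IsScalarTower.algebraMap_eq F L Ω, ← Polynomial.map_map, hmap,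
      Polynomial.map_prod, eval_prod]
    exact Finset.prod_congr rfl fun t _ => by
      rw [Polynomial.map_sub, map_X, map_C, eval_sub, eval_X, eval_C]
  have hroot : aeval β (P₀ + C c) = 0 := by
    rw [map_add, aeval_C, h1]
    exact hβ
  have hintβ : IsIntegral F β := ⟨_, hQm, hroot⟩
  have hfrβ : Module.finrank F F⟮β⟯ ≤ Fintype.card H := by
    rw [IntermediateField.adjoin.finrank hintβ, ← hQdeg]
    exact natDegree_le_of_dvd (minpoly.dvd F β hroot) hQm.ne_zero
  have hintα : IsIntegral F (algebraMap L Ω α) :=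
    ((Algebra.IsInvariant.isIntegral F L H).isIntegral α).map (IsScalarTower.toAlgHom F L Ω)
  have hfrα : Fintype.card H ≤ Module.finrank F F⟮algebraMap L Ω α⟯ := by
    rw [IntermediateField.adjoin.finrank hintα,
      minpoly.algebraMap_eq (algebraMap L Ω).injective]
    exact card_le_natDegree_minpoly α hα
  have hle : F⟮algebraMap L Ω α⟯ ≤ F⟮β⟯ := by
    rw [adjoin_simple_le_iff]
    exact hmem
  have : FiniteDimensional F F⟮β⟯ := adjoin.finiteDimensional hintβ
  have heq := IntermediateField.eq_of_le_of_finrank_le hle (hfrβ.trans hfrα)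
  have hβmem : β ∈ F⟮algebraMap L Ω α⟯ := by
    rw [heq]
    exact mem_adjoin_simple_self F β
  have hle2 : F⟮algebraMap L Ω α⟯ ≤ (IsScalarTower.toAlgHom F L Ω).fieldRange := by
    rw [adjoin_simple_le_iff]
    exact ⟨α, rfl⟩
  obtain ⟨x, hx⟩ := hle2 hβmem
  exact ⟨x, hx⟩

end Degree

/-! ### The bad point -/

section BadPoint

/-- Some conjugate is at distance `≤ d` from a root of `∏ (X - a t) + c`, `‖c‖ = d ^ #ι`. -/
theorem exists_norm_sub_le {Ω : Type*} [NormedField Ω] {ι : Type*} [Fintype ι] [Nonempty ι]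
    (a : ι → Ω) (β c : Ω) {d : ℝ} (hd : 0 < d) (hc : ‖c‖ = d ^ Fintype.card ι)
    (hβ : ∏ t, (β - a t) + c = 0) : ∃ t₀, ‖β - a t₀‖ ≤ d := by
  by_contra hcon
  have hall : ∀ t, d < ‖β - a t‖ := fun t => not_le.1 fun h => hcon ⟨t, h⟩
  have h1 : ∏ _t : ι, d < ∏ t, ‖β - a t‖ :=
    Finset.prod_lt_prod_of_nonempty (fun _ _ => hd) (fun t _ => hall t) Finset.univ_nonempty
  rw [Finset.prod_const, Finset.card_univ, ← norm_prod, eq_neg_of_add_eq_zero_left hβ, norm_neg,
    hc] at h1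
  exact lt_irrefl _ h1

variable {F L Ω : Type*} [Field F] [NormedField L] [IsUltrametricDist L] [NormedField Ω]
  [Algebra F L] [NormedAlgebra L Ω] [Algebra F Ω] [IsScalarTower F L Ω]
variable {H : Type*} [Group H] [Fintype H] [MulSemiringAction H L] [IsGaloisGroup H F L]

/-- **The bad constant** (note 1396): `c ∈ F`, `‖c‖ = d ^ #H`, such that for every root `β` (in
any normed extension `Ω` of `L`) of `∏ t, (X - t • α) + c` the field `F(β)` does not contain `α`,
although some conjugate `t₀ • α` is at distance `≤ d` from `β`. -/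
theorem exists_const_not_mem_adjoin (hinv : ∀ (t : H) (x : L), ‖t • x‖ = ‖x‖) (α : L) {d : ℝ}
    (hd0 : 0 < d) (hd : ∀ t : H, t ≠ 1 → ‖t • α - α‖ = d) (hH : ∃ t : H, t ≠ 1)
    [Finite (intK L ⧸ maxIdeal L)]
    (hres : ∀ x : L, ‖x‖ ≤ 1 → ∃ y : F, ‖x - algebraMap F L y‖ < 1) :
    ∃ c : F, ‖algebraMap F L c‖ = d ^ Fintype.card H ∧
      ∀ β : Ω, ∏ t : H, (β - algebraMap L Ω (t • α)) + algebraMap F Ω c = 0 →
        algebraMap L Ω α ∉ F⟮β⟯ ∧ ∃ t₀ : H, ‖β - algebraMap L Ω (t₀ • α)‖ ≤ d := by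
  obtain ⟨c, hcn, hc⟩ := exists_const_no_root (F := F) hinv α hd0 hd hH hres
  refine ⟨c, hcn, fun β hβ => ⟨fun hmem => ?_, ?_⟩⟩
  · have hα : ∀ t : H, t ≠ 1 → t • α ≠ α := fun t ht h => by
      have h1 := hd t ht
      rw [h, sub_self, norm_zero] at h1
      exact hd0.ne h1
    obtain ⟨x, rfl⟩ := mem_range_of_mem_adjoin α hα c _ hβ hmem
    apply hc x
    apply (algebraMap L Ω).injective
    rw [map_add, map_prod, map_zero, ← IsScalarTower.algebraMap_apply]
    simp only [map_sub]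
    exact hβ
  · refine exists_norm_sub_le (fun t : H => algebraMap L Ω (t • α)) β (algebraMap F Ω c) hd0 ?_ hβ
    rw [IsScalarTower.algebraMap_apply F L Ω, norm_algebraMap', hcn]

end BadPoint

/-! ### Two generic estimates -/

section Estimates

variable {Ω : Type*} [NormedField Ω] [IsUltrametricDist Ω]

/-- A root of a monic polynomial `∏ (X - a t) + c` with integral `a t`, `c` is integral. -/
theorem norm_le_one_of_root {ι : Type*} [Fintype ι] [Nonempty ι] (a : ι → Ω) (β c : Ω)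
    (ha : ∀ t, ‖a t‖ ≤ 1) (hc : ‖c‖ ≤ 1) (hβ : ∏ t, (β - a t) + c = 0) : ‖β‖ ≤ 1 := by
  by_contra hcon
  rw [not_le] at hcon
  have h1 : ∀ t, ‖β - a t‖ = ‖β‖ := fun t => by
    rw [sub_eq_add_neg]
    apply IsUltrametricDist.norm_add_eq_max_of_norm_ne_norm _ |>.trans
    · rw [norm_neg]
      exact max_eq_left ((ha t).trans hcon.le)
    · rw [norm_neg]
      exact ((ha t).trans_lt hcon).ne'
  have h2 : ‖c‖ = ‖β‖ ^ Fintype.card ι := by
    have h0 : c = -∏ t, (β - a t) := eq_neg_of_add_eq_zero_right hβ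
    rw [h0, norm_neg, norm_prod,
      Finset.prod_congr rfl fun t _ => h1 t, Finset.prod_const, Finset.card_univ]
  have h3 : 1 < ‖β‖ ^ Fintype.card ι := one_lt_pow₀ hcon Fintype.card_ne_zero
  rw [← h2] at h3
  exact absurd hc (not_le.2 h3)

/-- **Lemma A as an upper bound**: if some conjugate is at distance `≤ d` from `β` then
`‖P(β)‖ ≤ ∏ t, max d (j t)`. -/
theorem norm_prod_sub_le {G : Type*} [Group G] [Fintype G] (a : G → Ω) (j : G → ℝ)
    (hj : ∀ s t, ‖a s - a t‖ = j (s⁻¹ * t)) (β : Ω) {d : ℝ} {t₀ : G} (ht₀ : ‖β - a t₀‖ ≤ d) :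
    ‖∏ s, (β - a s)‖ ≤ ∏ t, max d (j t) := by
  obtain ⟨s₀, hs₀⟩ := LemmaA.exists_norm_min a β
  have hA := LemmaA.norm_eval_prod_group β a j hj hs₀
  have hev : (∏ s : G, (X - C (a s))).eval β = ∏ s, (β - a s) := by
    rw [eval_prod]
    exact Finset.prod_congr rfl fun s _ => by rw [eval_sub, eval_X, eval_C]
  rw [hev] at hA
  rw [hA]
  refine Finset.prod_le_prod (fun t _ => le_max_of_le_left (norm_nonneg _)) fun t _ => ?_
  exact max_le_max ((hs₀ t₀).trans ht₀) le_rfl

end Estimates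

/-! ### The concrete statement: `(P_m)` fails at `m = u_{L/K}` -/

section Concrete

variable {K : Type*} [NormedField K] {Ω : Type*} [NormedField Ω] [IsUltrametricDist Ω]
  [NormedAlgebra K Ω]

/-- `Ω` as a normed algebra over an intermediate field (with the induced norm). -/
noncomputable abbrev normedAlgebraIF (L : IntermediateField K Ω) : NormedAlgebra L Ω :=
  { (inferInstance : Algebra L Ω) with
    norm_smul_le := fun r x => by
      rw [Algebra.smul_def, norm_mul]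
      exact le_rfl }

/-- Descent of the non-membership to a smaller base field. -/
theorem not_mem_adjoin_of_tower' {K F Ω : Type*} [Field K] [Field F] [Field Ω] [Algebra K F]
    [Algebra K Ω] [Algebra F Ω] [IsScalarTower K F Ω] {x y : Ω} (h : x ∉ F⟮y⟯) : x ∉ K⟮y⟯ := by
  intro hx
  apply h
  have hle : K⟮y⟯ ≤ (F⟮y⟯).restrictScalars K := by
    rw [IntermediateField.adjoin_simple_le_iff]
    exact IntermediateField.mem_adjoin_simple_self F y
  exact hle hx

variable (L : IntermediateField K Ω) [FiniteDimensional K L] [IsGalois K L]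

/-- The threshold `U = ∏ σ, max d ‖σ α - α‖`, `d = ‖s₁ α - α‖` the minimal distance between
conjugates: `U = ‖π_K‖ ^ u_{L/K}` (Fontaine's `u_{L/K} = Φ(i_max)`). -/
noncomputable def threshold (α : L) (s₁ : L ≃ₐ[K] L) : NNReal :=
  ∏ σ : L ≃ₐ[K] L, max ‖((s₁ α : L) : Ω) - α‖₊ ‖((σ α : L) : Ω) - α‖₊

omit [IsUltrametricDist Ω] [IsGalois K L] in
theorem coe_threshold (α : L) (s₁ : L ≃ₐ[K] L) :
    (threshold L α s₁ : ℝ) =
      ∏ σ : L ≃ₐ[K] L, max ‖((s₁ α : L) : Ω) - α‖ ‖((σ α : L) : Ω) - α‖ := by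
  unfold threshold
  rw [NNReal.coe_prod]
  exact Finset.prod_congr rfl fun σ _ => by rw [NNReal.coe_max, coe_nnnorm, coe_nnnorm]

/-- **The bad point** (note 1396).  `L/K` finite Galois inside `Ω` (algebraically closed),
`α` a primitive element with `‖α‖ ≤ 1`, the norm Galois-invariant on `L`, `s₁ ≠ 1` realising the
minimal distance `d` between conjugates of `α`; the residue ring of `L` finite; every integer of
`L` congruent to an element fixed by `s₁` (i.e. `s₁` in the inertia group, `k_L` perfect).  Then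
there is an integral `β ∈ Ω` with `‖P(β)‖ ≤ U` and `α ∉ K(β)`. -/
theorem exists_bad_point [IsAlgClosed Ω] (α : L) (hα : IntermediateField.adjoin K {α} = ⊤)
    (hα1 : ‖(α : Ω)‖ ≤ 1)
    (hinv : ∀ (σ : L ≃ₐ[K] L) (x : L), ‖((σ x : L) : Ω)‖ = ‖(x : Ω)‖)
    (s₁ : L ≃ₐ[K] L) (hs₁ : s₁ ≠ 1)
    (hmin : ∀ σ : L ≃ₐ[K] L, σ ≠ 1 → ‖((s₁ α : L) : Ω) - α‖ ≤ ‖((σ α : L) : Ω) - α‖)
    [Finite (intK L ⧸ maxIdeal L)]
    (hres : ∀ x : L, ‖(x : Ω)‖ ≤ 1 →
      ∃ y : L, (∀ t ∈ Subgroup.zpowers s₁, t y = y) ∧ ‖(x : Ω) - y‖ < 1) :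
    ∃ β : Ω, ‖β‖ ≤ 1 ∧ ‖aeval β (minpoly K (α : Ω))‖ ≤ threshold L α s₁ ∧
      (α : Ω) ∉ K⟮β⟯ := by
  classical
  let _ := normedAlgebraIF L
  let H : Subgroup (L ≃ₐ[K] L) := Subgroup.zpowers s₁
  let _ : Fintype H := Fintype.ofFinite H
  let F : IntermediateField K L := FixedPoints.intermediateField H
  set d : ℝ := ‖((s₁ α : L) : Ω) - α‖ with hd
  have hinj := NormAddVal.algEquiv_apply_injective hα
  have hd0 : 0 < d := by
    rw [hd, norm_pos_iff, sub_ne_zero]
    intro h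
    exact hs₁ (hinj (Subtype.ext h))
  -- the function `j`
  let j : (L ≃ₐ[K] L) → ℝ := fun σ => ‖((σ α : L) : Ω) - α‖
  have hjinv : ∀ σ : L ≃ₐ[K] L, j σ⁻¹ = j σ := by
    intro σ
    change ‖((σ⁻¹ α : L) : Ω) - α‖ = ‖((σ α : L) : Ω) - α‖
    have h1 : ((σ α : L) : Ω) - α = -(((σ (σ⁻¹ α - α) : L)) : Ω) := by
      rw [map_sub, ← AlgEquiv.mul_apply, mul_inv_cancel, AlgEquiv.one_apply]
      push_cast
      ring
    rw [h1, norm_neg, hinv]
    push_cast
    rfl
  have hjmul : ∀ σ τ : L ≃ₐ[K] L, j (σ * τ) ≤ max (j σ) (j τ) := by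
    intro σ τ
    change ‖(((σ * τ) α : L) : Ω) - α‖ ≤ max ‖((σ α : L) : Ω) - α‖ ‖((τ α : L) : Ω) - α‖
    have h1 : (((σ * τ) α : L) : Ω) - α = ((σ (τ α - α) : L) : Ω) + (((σ α : L) : Ω) - α) := by
      rw [AlgEquiv.mul_apply, map_sub]
      push_cast
      ring
    rw [h1]
    refine (IsUltrametricDist.norm_add_le_max _ _).trans ?_
    rw [hinv σ (τ α - α), max_comm]
    push_cast
    exact le_rfl
  -- all non-trivial elements of `H` are at distance exactly `d`
  have hHle : ∀ t ∈ H, j t ≤ d := by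
    let S : Subgroup (L ≃ₐ[K] L) :=
      { carrier := {σ | j σ ≤ d}
        mul_mem' := fun {σ τ} hσ hτ => (hjmul σ τ).trans (max_le hσ hτ)
        one_mem' := by
          change ‖(((1 : L ≃ₐ[K] L) α : L) : Ω) - α‖ ≤ d
          rw [AlgEquiv.one_apply, sub_self, norm_zero]
          exact hd0.le
        inv_mem' := fun {σ} hσ => by
          change j σ⁻¹ ≤ d
          rw [hjinv]
          exact hσ }
    have hle : H ≤ S := (Subgroup.zpowers_le).2 (le_refl d)
    exact fun t ht => hle ht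
  have hHd : ∀ t : H, t ≠ 1 → ‖t • α - α‖ = d := by
    intro t ht
    have ht' : (t : L ≃ₐ[K] L) ≠ 1 := fun h => ht (Subtype.ext h)
    exact le_antisymm (hHle t t.2) (hmin t ht')
  have hinvH : ∀ (t : H) (x : L), ‖t • x‖ = ‖x‖ := fun t x => hinv (t : L ≃ₐ[K] L) x
  have hHne : ∃ t : H, t ≠ 1 :=
    ⟨⟨s₁, Subgroup.mem_zpowers s₁⟩, fun h => hs₁ (congrArg Subtype.val h)⟩
  have hresF : ∀ x : L, ‖x‖ ≤ 1 → ∃ y : F, ‖x - algebraMap F L y‖ < 1 := by
    intro x hx
    obtain ⟨y, hy1, hy2⟩ := hres x hx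
    exact ⟨⟨y, fun t => hy1 t t.2⟩, hy2⟩
  obtain ⟨c, hcn, hc⟩ := exists_const_not_mem_adjoin (F := F) (Ω := Ω) hinvH α hd0 hHd hHne hresF
  -- a root of `P₀ + c`
  let a : H → Ω := fun t => algebraMap L Ω (t • α)
  have hQdeg : ((∏ t : H, (X - C (a t))) + C (algebraMap F Ω c)).degree ≠ 0 := by
    have hmon : (∏ t : H, (X - C (a t))).Monic := monic_prod_of_monic _ _ fun t _ => monic_X_sub_C _
    have hnat : (∏ t : H, (X - C (a t))).natDegree = Fintype.card H := by
      rw [natDegree_prod_of_monic _ _ fun t _ => monic_X_sub_C _]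
      simp
    have hlt : (C (algebraMap F Ω c)).degree < (∏ t : H, (X - C (a t))).degree := by
      rw [degree_eq_natDegree hmon.ne_zero, hnat]
      exact lt_of_le_of_lt degree_C_le (by exact_mod_cast Fintype.card_pos)
    rw [degree_add_eq_left_of_degree_lt hlt, degree_eq_natDegree hmon.ne_zero, hnat]
    exact_mod_cast Fintype.card_ne_zero
  obtain ⟨β, hβ⟩ := IsAlgClosed.exists_root _ hQdeg
  have hβ' : ∏ t : H, (β - a t) + algebraMap F Ω c = 0 := by
    rw [IsRoot.def, eval_add, eval_C, eval_prod] at hβ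
    rw [← hβ]
    congr 1
    exact Finset.prod_congr rfl fun t _ => by rw [eval_sub, eval_X, eval_C]
  obtain ⟨hnot, t₀, ht₀⟩ := hc β hβ'
  have hd1 : d ≤ 1 := by
    rw [hd]
    refine (norm_sub_le_max' _ _).trans (max_le ?_ hα1)
    rw [hinv]
    exact hα1
  have hcΩ : ‖algebraMap F Ω c‖ = d ^ Fintype.card H := by
    rw [IsScalarTower.algebraMap_apply F L Ω, norm_algebraMap', hcn]
  refine ⟨β, ?_, ?_, ?_⟩
  · refine norm_le_one_of_root a β (algebraMap F Ω c) (fun t => ?_) ?_ hβ'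
    · change ‖(((t : L ≃ₐ[K] L) α : L) : Ω)‖ ≤ 1
      rw [hinv]
      exact hα1
    · rw [hcΩ]
      exact pow_le_one₀ hd0.le hd1
  · -- Lemma A for the full group
    have hP : (minpoly K (α : Ω)).map (algebraMap K Ω) =
        ∏ σ : L ≃ₐ[K] L, (X - C (((σ α : L) : Ω))) := by
      have h1 : minpoly K (α : Ω) = minpoly K α :=
        (minpoly.algebraMap_eq (algebraMap L Ω).injective α)
      rw [h1, IsScalarTower.algebraMap_eq K L Ω, ← Polynomial.map_map,
        NormAddVal.minpoly_map_eq_prod hα, Polynomial.map_prod]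
      exact Finset.prod_congr rfl fun σ _ => by
        rw [Polynomial.map_sub, map_X, map_C]
        rfl
    have hev : aeval β (minpoly K (α : Ω)) = ∏ σ : L ≃ₐ[K] L, (β - ((σ α : L) : Ω)) := by
      rw [aeval_def, ← eval_map, hP, eval_prod]
      exact Finset.prod_congr rfl fun σ _ => by rw [eval_sub, eval_X, eval_C]
    have hj : ∀ σ τ : L ≃ₐ[K] L, ‖((σ α : L) : Ω) - ((τ α : L) : Ω)‖ = j (σ⁻¹ * τ) := by
      intro σ τ
      change _ = ‖(((σ⁻¹ * τ) α : L) : Ω) - α‖
      have h1 : ((σ α : L) : Ω) - ((τ α : L) : Ω) = -((σ ((σ⁻¹ * τ) α - α) : L) : Ω) := by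
        rw [map_sub, ← AlgEquiv.mul_apply, mul_inv_cancel_left]
        push_cast
        ring
      rw [h1, norm_neg, hinv]
      push_cast
      rfl
    rw [hev, coe_threshold]
    exact norm_prod_sub_le (fun σ : L ≃ₐ[K] L => ((σ α : L) : Ω)) j hj β
      (t₀ := (t₀ : L ≃ₐ[K] L)) ht₀
  · exact not_mem_adjoin_of_tower' (K := K) (F := F) hnot

/-- **Sharp converse of Fontaine's Prop. 1.5**: `(P_m)` (root form) FAILS at the threshold
`U = ‖π_K‖ ^ u_{L/K}`, i.e. at `m = u_{L/K}`. -/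
theorem not_propertyPRoot [IsAlgClosed Ω] (α : L) (hα : IntermediateField.adjoin K {α} = ⊤)
    (hα1 : ‖(α : Ω)‖ ≤ 1)
    (hinv : ∀ (σ : L ≃ₐ[K] L) (x : L), ‖((σ x : L) : Ω)‖ = ‖(x : Ω)‖)
    (s₁ : L ≃ₐ[K] L) (hs₁ : s₁ ≠ 1)
    (hmin : ∀ σ : L ≃ₐ[K] L, σ ≠ 1 → ‖((s₁ α : L) : Ω) - α‖ ≤ ‖((σ α : L) : Ω) - α‖)
    [Finite (intK L ⧸ maxIdeal L)]
    (hres : ∀ x : L, ‖(x : Ω)‖ ≤ 1 →
      ∃ y : L, (∀ t ∈ Subgroup.zpowers s₁, t y = y) ∧ ‖(x : Ω) - y‖ < 1) :
    ¬ PropertyPRoot K Ω L (α : Ω) (threshold L α s₁) := by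
  intro h
  obtain ⟨β, hβ1, hβ2, hβ3⟩ := exists_bad_point L α hα hα1 hinv s₁ hs₁ hmin hres
  obtain ⟨φ⟩ := h β hβ1 hβ2
  apply hβ3
  have hrange : ((K⟮β⟯).val.comp φ).fieldRange = L := AlgHom.fieldRange_of_normal _
  have hmem : (α : Ω) ∈ ((K⟮β⟯).val.comp φ).fieldRange := by
    rw [hrange]
    exact α.2
  obtain ⟨x, hx⟩ := hmem
  rw [← hx]
  exact (φ x).2

/-- **`uMax_le_of_forall_Pm`, sharp form** (norm language): if `(P_m)` holds for all `m > m₀`
(`∀ ρ < ρ₀`) then `u_{L/K} ≤ m₀` (`ρ₀ ≤ U`).  No `1/e_L` slack. -/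
theorem le_threshold_of_forall_propertyPRoot [IsAlgClosed Ω] (α : L)
    (hα : IntermediateField.adjoin K {α} = ⊤) (hα1 : ‖(α : Ω)‖ ≤ 1)
    (hinv : ∀ (σ : L ≃ₐ[K] L) (x : L), ‖((σ x : L) : Ω)‖ = ‖(x : Ω)‖)
    (s₁ : L ≃ₐ[K] L) (hs₁ : s₁ ≠ 1)
    (hmin : ∀ σ : L ≃ₐ[K] L, σ ≠ 1 → ‖((s₁ α : L) : Ω) - α‖ ≤ ‖((σ α : L) : Ω) - α‖)
    [Finite (intK L ⧸ maxIdeal L)]
    (hres : ∀ x : L, ‖(x : Ω)‖ ≤ 1 →
      ∃ y : L, (∀ t ∈ Subgroup.zpowers s₁, t y = y) ∧ ‖(x : Ω) - y‖ < 1)
    {ρ₀ : NNReal} (h : ∀ ρ < ρ₀, PropertyPRoot K Ω L (α : Ω) ρ) :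
    ρ₀ ≤ threshold L α s₁ := by
  by_contra hlt
  exact not_propertyPRoot L α hα hα1 hinv s₁ hs₁ hmin hres (h _ (not_le.1 hlt))

end Concrete

end Fermat.Agent.Lib.Ram.PmSharp
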