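import Mathlib
import Fermat.Agent.Lib.Ram.PropertyPm

/-!
helper79 (P-S56, block (A) LOCAL, ramification layer).  RESIDUE FACTS needed by the sharp converse
of Fontaine's Prop. 1.5 (`Lib/Ram/PmSharp`, helper61), in the normed setting of
`Lib/Ram/PropertyPm` (`K` complete ultrametric, `Ω` a normed `K`-algebra):

* (R3) `norm_eq_of_minpoly_eq`, `norm_algEquiv_apply`, `norm_algHom_apply`: `K`-conjugate algebraic
  elements of `Ω` have the same norm (`K` complete: the norm is the spectral norm).
* (R1) `exists_finite_reps`: for `K` locally compact and `E/K` finite, the unit ball of `E` has a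
  finite set of representatives modulo the open unit ball (the residue field of `E` is finite).
* (R2) `exists_fixed_near`: if a finite group `H` acts on an ultrametric normed field `L` of
  residue characteristic `p` trivially modulo the open unit ball ("`H` is inside inertia") and the
  `H`-fixed unit ball has a finite set of representatives, then every `x` in the unit ball of `L`
  is congruent to an `H`-fixed element (`k_{L^H} = k_L`).
-/

set_option autoImplicit false

open IntermediateField

namespace Fermat.Agent.Lib.Ram.ResidueFacts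

/-! ### (R3) conjugate elements have the same norm -/

section R3

variable {K : Type*} [NontriviallyNormedField K] [CompleteSpace K] [IsUltrametricDist K]
variable {Ω : Type*} [NormedField Ω] [NormedAlgebra K Ω]

/-- Over a complete ultrametric field the norm of an algebraic element is the spectral value of
its minimal polynomial. -/
theorem norm_eq_spectralValue {x : Ω} (hx : IsAlgebraic K x) :
    ‖x‖ = spectralValue (minpoly K x) := by
  have hxA : x ∈ algebraicClosure K Ω := (mem_algebraicClosure_iff).2 hx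
  have h := NormedAlgebra.norm_eq_spectralNorm K (⟨x, hxA⟩ : algebraicClosure K Ω)
  have h2 : minpoly K (⟨x, hxA⟩ : algebraicClosure K Ω) = minpoly K x :=
    (minpoly.algebraMap_eq (A := K) (algebraMap (algebraicClosure K Ω) Ω).injective
      (⟨x, hxA⟩ : algebraicClosure K Ω)).symm
  rw [spectralNorm, h2] at h
  exact h

/-- `K`-conjugate algebraic elements have the same norm. -/
theorem norm_eq_of_minpoly_eq {x y : Ω} (hx : IsAlgebraic K x) (h : minpoly K x = minpoly K y) :
    ‖x‖ = ‖y‖ := by
  have hy : IsAlgebraic K y := by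
    have hxi : IsIntegral K x := hx.isIntegral
    by_contra hy
    have h0 : minpoly K y = 0 := minpoly.eq_zero fun hyi => hy hyi.isAlgebraic
    rw [h0] at h
    exact minpoly.ne_zero hxi h
  rw [norm_eq_spectralValue hx, norm_eq_spectralValue hy, h]

/-- `K`-embeddings of an algebraic intermediate field are isometric. -/
theorem norm_algHom_apply (L : IntermediateField K Ω) [Algebra.IsAlgebraic K L]
    (σ : L →ₐ[K] Ω) (x : L) : ‖σ x‖ = ‖(x : Ω)‖ := by
  have hx : IsAlgebraic K (x : Ω) := by
    have := Algebra.IsAlgebraic.isAlgebraic (R := K) x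
    exact (isAlgebraic_algebraMap_iff (algebraMap L Ω).injective).2 this
  refine (norm_eq_of_minpoly_eq hx ?_).symm
  have h1 : minpoly K (σ x) = minpoly K x := minpoly.algHom_eq σ σ.injective x
  have h2 : minpoly K (x : Ω) = minpoly K x :=
    (minpoly.algebraMap_eq (A := K) (algebraMap L Ω).injective x)
  rw [h1, h2]

/-- `K`-automorphisms of an algebraic intermediate field are isometric. -/
theorem norm_algEquiv_apply (L : IntermediateField K Ω) [Algebra.IsAlgebraic K L]
    (σ : L ≃ₐ[K] L) (x : L) : ‖((σ x : L) : Ω)‖ = ‖(x : Ω)‖ :=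
  norm_algHom_apply L (L.val.comp σ.toAlgHom) x

end R3

/-! ### (R1) finitely many residue classes -/

section R1

variable {K : Type*} [NontriviallyNormedField K] [LocallyCompactSpace K]
variable {Ω : Type*} [NormedField Ω] [NormedAlgebra K Ω]

/-- For `K` locally compact and `E/K` finite the residue field of `E` is finite: the unit ball of
`E` is covered by finitely many open unit balls centred in it. -/
theorem exists_finite_reps (E : IntermediateField K Ω) [FiniteDimensional K E] :
    ∃ S : Finset Ω, (∀ y ∈ S, y ∈ E ∧ ‖y‖ ≤ 1) ∧ ∀ x ∈ E, ‖x‖ ≤ 1 → ∃ y ∈ S, ‖x - y‖ < 1 := by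
  classical
  have : ProperSpace E := FiniteDimensional.proper K E
  obtain ⟨t, hts, htfin, hcov⟩ :=
    finite_cover_balls_of_compact (isCompact_closedBall (0 : E) 1) one_pos
  refine ⟨htfin.toFinset.image (fun y : E => (y : Ω)), ?_, ?_⟩
  · intro y hy
    obtain ⟨z, hz, rfl⟩ := Finset.mem_image.1 hy
    have hz' := hts (htfin.mem_toFinset.1 hz)
    rw [mem_closedBall_zero_iff] at hz'
    exact ⟨z.2, hz'⟩
  · intro x hxE hx
    have hmem : (⟨x, hxE⟩ : E) ∈ Metric.closedBall (0 : E) 1 := by
      rw [mem_closedBall_zero_iff]; exact hx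
    have := hcov hmem
    simp only [Set.mem_iUnion, Metric.mem_ball, exists_prop] at this
    obtain ⟨z, hz, hdist⟩ := this
    refine ⟨(z : Ω), Finset.mem_image.2 ⟨z, htfin.mem_toFinset.2 hz, rfl⟩, ?_⟩
    rw [dist_eq_norm] at hdist
    exact hdist

end R1

/-! ### (R2) the fixed field of a group inside inertia has the same residue field -/

section R2

open Fermat.Agent.Lib.Ram.PropertyPm Finset

variable {L : Type*} [NormedField L] [IsUltrametricDist L]

/-- The maximal ideal `{‖x‖ < 1}` of the unit ball `intK L`. -/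
def maxI (L : Type*) [NormedField L] [IsUltrametricDist L] : Ideal (intK L) where
  carrier := {x | ‖(x : L)‖ < 1}
  add_mem' {x y} hx hy :=
    lt_of_le_of_lt (IsUltrametricDist.norm_add_le_max (x : L) y) (max_lt hx hy)
  zero_mem' := by
    change ‖((0 : intK L) : L)‖ < 1
    rw [ZeroMemClass.coe_zero, norm_zero]
    exact one_pos
  smul_mem' c x hx := by
    change ‖((c * x : intK L) : L)‖ < 1
    rw [MulMemClass.coe_mul, norm_mul]
    calc ‖(c : L)‖ * ‖(x : L)‖ ≤ 1 * ‖(x : L)‖ :=
          mul_le_mul_of_nonneg_right c.2 (norm_nonneg _)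
      _ = ‖(x : L)‖ := one_mul _
      _ < 1 := hx

/-- The residue ring `𝓞_L / 𝔪_L`. -/
abbrev resK (L : Type*) [NormedField L] [IsUltrametricDist L] : Type _ := intK L ⧸ maxI L

/-- The reduction map. -/
def red (L : Type*) [NormedField L] [IsUltrametricDist L] : intK L →+* resK L :=
  Ideal.Quotient.mk (maxI L)

theorem red_eq_zero_iff {x : intK L} : red L x = 0 ↔ ‖(x : L)‖ < 1 :=
  Ideal.Quotient.eq_zero_iff_mem

theorem red_eq_red_iff {x y : intK L} : red L x = red L y ↔ ‖(x : L) - y‖ < 1 := by
  unfold red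
  rw [Ideal.Quotient.eq]
  rfl

theorem red_surjective : Function.Surjective (red L) := Ideal.Quotient.mk_surjective

instance : Nontrivial (resK L) := by
  refine ⟨⟨0, 1, fun h => ?_⟩⟩
  have h1 : red L (1 : intK L) = 0 := by rw [map_one]; exact h.symm
  rw [red_eq_zero_iff, OneMemClass.coe_one, norm_one] at h1
  exact lt_irrefl _ h1

/-- The residue ring is reduced. -/
theorem resK_pow_eq_zero {y : resK L} {n : ℕ} (h : y ^ n = 0) : y = 0 := by
  obtain ⟨x, rfl⟩ := red_surjective y
  rw [← map_pow, red_eq_zero_iff, SubmonoidClass.coe_pow, norm_pow] at h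
  rw [red_eq_zero_iff]
  by_contra hx
  exact absurd h (not_lt.2 (one_le_pow₀ (not_lt.1 hx)))

theorem resK_natCast_eq_zero {p : ℕ} (hp : ‖(p : L)‖ < 1) : (p : resK L) = 0 := by
  have : red L (p : intK L) = 0 := by
    rw [red_eq_zero_iff]
    simpa using hp
  simpa using this

theorem resK_charP (p : ℕ) [hp : Fact p.Prime] (hpL : ‖(p : L)‖ < 1) : CharP (resK L) p :=
  (CharP.charP_iff_prime_eq_zero hp.out).2 (resK_natCast_eq_zero hpL)

variable {H : Type*} [Group H] [MulSemiringAction H L]

omit [IsUltrametricDist L] in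
theorem norm_smul_le_one [IsUltrametricDist L]
    (hin : ∀ (t : H) (x : L), ‖x‖ ≤ 1 → ‖t • x - x‖ < 1) (t : H) {x : L} (hx : ‖x‖ ≤ 1) :
    ‖t • x‖ ≤ 1 := by
  have : t • x = (t • x - x) + x := by ring
  rw [this]
  exact (IsUltrametricDist.norm_add_le_max _ _).trans (max_le (hin t x hx).le hx)

variable (H) in
/-- The `H`-fixed elements of the unit ball. -/
def fixedO : Subring (intK L) where
  carrier := {x | ∀ t : H, t • (x : L) = x}
  mul_mem' {x y} hx hy t := by
    rw [MulMemClass.coe_mul, smul_mul', hx t, hy t]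
  one_mem' t := by rw [OneMemClass.coe_one, smul_one]
  add_mem' {x y} hx hy t := by
    rw [AddMemClass.coe_add, smul_add, hx t, hy t]
  zero_mem' t := by rw [ZeroMemClass.coe_zero, smul_zero]
  neg_mem' {x} hx t := by
    rw [NegMemClass.coe_neg, smul_neg, hx t]

theorem mem_fixedO {x : intK L} : x ∈ fixedO H ↔ ∀ t : H, t • (x : L) = x := Iff.rfl

variable (H) in
/-- The image of the fixed unit ball in the residue ring (`= k_{L^H}`). -/
def kF : Subring (resK L) := (fixedO H).map (red L)

theorem finite_kF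
    (hfin : ∃ S : Finset L, ∀ y : L, (∀ t : H, t • y = y) → ‖y‖ ≤ 1 →
      ∃ s ∈ S, (∀ t : H, t • s = s) ∧ ‖s‖ ≤ 1 ∧ ‖y - s‖ < 1) :
    Finite (kF (L := L) H) := by
  classical
  obtain ⟨S, hS⟩ := hfin
  let g : L → resK L := fun s => if h : ‖s‖ ≤ 1 then red L ⟨s, h⟩ else 0
  have hsub : ((kF (L := L) H : Subring (resK L)) : Set (resK L)) ⊆ g '' (S : Set L) := by
    rintro _ ⟨z, hz, rfl⟩
    obtain ⟨s, hsS, -, hs1, hzs⟩ := hS (z : L) hz z.2
    refine ⟨s, hsS, ?_⟩
    show (if h : ‖s‖ ≤ 1 then red L ⟨s, h⟩ else 0) = red L z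
    rw [dif_pos hs1, red_eq_red_iff]
    rw [norm_sub_rev]
    exact hzs
  exact ((S.finite_toSet.image g).subset hsub).to_subtype

/-- **(R2)** If a finite group `H` acts trivially on the residue ring of `L` (i.e. `H` is inside
inertia), the residue characteristic is `p`, and the `H`-fixed unit ball has finitely many residue
classes, then every element of the unit ball is congruent to an `H`-fixed one: `k_{L^H} = k_L`. -/
theorem exists_fixed_near [Fintype H] (p : ℕ) [hp : Fact p.Prime] (hpL : ‖(p : L)‖ < 1)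
    (hin : ∀ (t : H) (x : L), ‖x‖ ≤ 1 → ‖t • x - x‖ < 1)
    (hfin : ∃ S : Finset L, ∀ y : L, (∀ t : H, t • y = y) → ‖y‖ ≤ 1 →
      ∃ s ∈ S, (∀ t : H, t • s = s) ∧ ‖s‖ ≤ 1 ∧ ‖y - s‖ < 1)
    (x : L) (hx : ‖x‖ ≤ 1) :
    ∃ y : L, (∀ t : H, t • y = y) ∧ ‖y‖ ≤ 1 ∧ ‖x - y‖ < 1 := by
  classical
  have : CharP (resK L) p := resK_charP p hpL
  have : Finite (kF (L := L) H) := finite_kF hfin
  -- `#H = p ^ a * m`, `p ∤ m`
  obtain ⟨a, m, hm, hcard⟩ := Nat.exists_eq_pow_mul_and_not_dvd
    (Fintype.card_ne_zero : Fintype.card H ≠ 0) p hp.out.ne_one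
  -- the conjugates in the unit ball
  let xt : H → intK L := fun t => ⟨t • x, norm_smul_le_one hin t hx⟩
  let x0 : intK L := ⟨x, hx⟩
  have hxt : ∀ t, red L (xt t) = red L x0 := fun t => red_eq_red_iff.2 (hin t x hx)
  -- the elementary symmetric function of degree `p ^ a`
  let c : intK L := ∑ T ∈ powersetCard (p ^ a) (univ : Finset H), ∏ t ∈ T, xt t
  have hc_fixed : c ∈ fixedO H := by
    intro s
    have hcoe : (c : L) = ∑ T ∈ powersetCard (p ^ a) (univ : Finset H), ∏ t ∈ T, t • x := by
      simp only [c, xt, AddSubmonoidClass.coe_finsetSum, SubmonoidClass.coe_finsetProd]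
    rw [hcoe]
    change MulSemiringAction.toRingHom H L s _ = _
    rw [map_sum]
    simp_rw [map_prod]
    refine Finset.sum_bij (fun T _ => T.map (Equiv.mulLeft s).toEmbedding) ?_ ?_ ?_ ?_
    · intro T hT
      rw [mem_powersetCard_univ] at hT ⊢
      rw [card_map, hT]
    · intro T₁ _ T₂ _ h
      exact Finset.map_injective _ h
    · intro T' hT'
      refine ⟨T'.map (Equiv.mulLeft s⁻¹).toEmbedding, ?_, ?_⟩
      · rw [mem_powersetCard_univ] at hT' ⊢
        rw [card_map, hT']
      · rw [Finset.map_map]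
        convert Finset.map_refl using 2
        ext t
        simp
    · intro T _
      rw [Finset.prod_map]
      refine Finset.prod_congr rfl fun t _ => ?_
      simp [MulSemiringAction.toRingHom_apply, mul_smul]
  -- its reduction
  have hc_red : red L c = (m : resK L) * red L x0 ^ p ^ a := by
    have h1 : red L c = ∑ _T ∈ powersetCard (p ^ a) (univ : Finset H), red L x0 ^ p ^ a := by
      simp only [c, map_sum, map_prod]
      refine Finset.sum_congr rfl fun T hT => ?_
      rw [Finset.prod_congr rfl fun t _ => hxt t, Finset.prod_const,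
        (mem_powersetCard_univ.1 hT)]
    rw [h1, Finset.sum_const, card_powersetCard, card_univ, hcard, nsmul_eq_mul]
    congr 1
    rw [CharP.natCast_eq_natCast (resK L) p]
    have := Choose.choose_pow_mul_pow_mul_modEq_choose_nat (p := p) (k := a) (a := m) (b := 1)
    rwa [mul_one, Nat.choose_one_right] at this
  -- `m` is invertible in the prime ring
  obtain ⟨u, hu⟩ : ∃ u : ℕ, (u : resK L) * (m : resK L) = 1 := by
    have hcop : Nat.Coprime m p := (Nat.Prime.coprime_iff_not_dvd hp.out).2 hm |>.symm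
    obtain ⟨u, -, hu⟩ := Nat.exists_mul_mod_eq_one_of_coprime hcop hp.out.one_lt
    refine ⟨u, ?_⟩
    rw [← Nat.cast_mul, mul_comm, ← Nat.cast_one (R := resK L),
      CharP.natCast_eq_natCast (resK L) p]
    show m * u % p = 1 % p
    rw [hu, Nat.mod_eq_of_lt hp.out.one_lt]
  have hpow_mem : red L x0 ^ p ^ a ∈ kF (L := L) H := by
    have : red L x0 ^ p ^ a = (u : resK L) * red L c := by
      rw [hc_red, ← mul_assoc, hu, one_mul]
    rw [this]
    exact Subring.mul_mem _ (natCast_mem _ u) ⟨c, hc_fixed, rfl⟩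
  -- Frobenius^a is injective, hence surjective, on the finite ring `kF`
  let frob : kF (L := L) H → kF (L := L) H := fun y => ⟨(y : resK L) ^ p ^ a, pow_mem y.2 _⟩
  have hinj : Function.Injective frob := by
    intro y₁ y₂ h
    have h1 : ((y₁ : resK L) - y₂) ^ p ^ a = 0 := by
      rw [sub_pow_char_pow, sub_eq_zero]
      exact congrArg Subtype.val h
    exact Subtype.ext (sub_eq_zero.1 (resK_pow_eq_zero h1))
  obtain ⟨⟨ybar, hybar⟩, hy⟩ := (Finite.injective_iff_surjective.1 hinj) ⟨_, hpow_mem⟩
  have hy' : ybar ^ p ^ a = red L x0 ^ p ^ a := congrArg Subtype.val hy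
  have hyx : ybar = red L x0 := by
    have h1 : (ybar - red L x0) ^ p ^ a = 0 := by rw [sub_pow_char_pow, hy', sub_self]
    exact sub_eq_zero.1 (resK_pow_eq_zero h1)
  obtain ⟨z, hz, hzy⟩ := hybar
  refine ⟨(z : L), hz, z.2, ?_⟩
  have : red L x0 = red L z := by rw [hzy, hyx]
  exact red_eq_red_iff.1 this

end R2

/-! ### (R2) in the `PropertyPm` setting -/

section R2Field

variable {K : Type*} [NontriviallyNormedField K] [LocallyCompactSpace K]
variable {Ω : Type*} [NormedField Ω] [IsUltrametricDist Ω] [NormedAlgebra K Ω]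

/-- **(R2)** for a subgroup `H` of `Gal(L/K)` inside inertia, `K` locally compact, `L/K` finite:
every element of the unit ball of `L` is congruent modulo the open unit ball to an `H`-fixed
element of the unit ball. -/
theorem exists_fixed_near_of_subgroup (L : IntermediateField K Ω) [FiniteDimensional K L]
    (H : Subgroup (L ≃ₐ[K] L)) (p : ℕ) [Fact p.Prime] (hpΩ : ‖(p : Ω)‖ < 1)
    (hin : ∀ t ∈ H, ∀ x : L, ‖(x : Ω)‖ ≤ 1 → ‖((t x : L) : Ω) - x‖ < 1)
    (x : L) (hx : ‖(x : Ω)‖ ≤ 1) :
    ∃ y : L, (∀ t ∈ H, t y = y) ∧ ‖(y : Ω)‖ ≤ 1 ∧ ‖(x : Ω) - y‖ < 1 := by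
  classical
  have : Finite (L ≃ₐ[K] L) := inferInstance
  have : Fintype H := Fintype.ofFinite H
  have hpL : ‖((p : ℕ) : L)‖ < 1 := by
    have : ‖(((p : ℕ) : L) : Ω)‖ < 1 := by simpa using hpΩ
    exact this
  have hin' : ∀ (t : H) (x : L), ‖x‖ ≤ 1 → ‖t • x - x‖ < 1 := fun t x hx => hin t.1 t.2 x hx
  -- finitely many residue classes in the fixed field
  have hfin : ∃ S : Finset L, ∀ y : L, (∀ t : H, t • y = y) → ‖y‖ ≤ 1 →
      ∃ s ∈ S, (∀ t : H, t • s = s) ∧ ‖s‖ ≤ 1 ∧ ‖y - s‖ < 1 := by
    let F0 : IntermediateField K L := IntermediateField.fixedField H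
    let F' : IntermediateField K Ω := IntermediateField.lift F0
    have hF'fin : FiniteDimensional K F' := by
      have hle : F' ≤ L := IntermediateField.lift_le F0
      exact Module.Finite.of_injective (IntermediateField.inclusion hle).toLinearMap
        (IntermediateField.inclusion hle).injective
    obtain ⟨S, hS1, hS2⟩ := exists_finite_reps F'
    refine ⟨S.image (fun y : Ω => if h : y ∈ L then (⟨y, h⟩ : L) else 0), ?_⟩
    intro y hy hy1
    have hyF' : (y : Ω) ∈ F' := by
      rw [IntermediateField.mem_lift]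
      intro t
      exact hy t
    obtain ⟨s, hsS, hs⟩ := hS2 (y : Ω) hyF' hy1
    obtain ⟨hsF', hs1⟩ := hS1 s hsS
    have hsL : s ∈ L := IntermediateField.lift_le F0 hsF'
    refine ⟨⟨s, hsL⟩, Finset.mem_image.2 ⟨s, hsS, dif_pos hsL⟩, ?_, hs1, hs⟩
    intro t
    have := (IntermediateField.mem_lift (E := F0) (⟨s, hsL⟩ : L)).1 hsF'
    exact this t
  obtain ⟨y, hy1, hy2, hy3⟩ := exists_fixed_near (H := H) p hpL hin' hfin x hx
  exact ⟨y, fun t ht => hy1 ⟨t, ht⟩, hy2, hy3⟩

end R2Field

end Fermat.Agent.Lib.Ram.ResidueFacts
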