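import Mathlib
import Fermat.Agent.Lib.Ram.PmSharp
import Fermat.Agent.Lib.Ram.PmForms
import Fermat.Agent.Lib.Ram.ResidueFacts
import Fermat.Agent.Lib.Ram.NormIntegral

/-!
helper61 (P-S56, block (A) LOCAL).  **Fontaine's Prop. 1.5 (ii), SHARP and UNCONDITIONAL** for a
locally compact base field (finite residue field), in the norm language of `Lib/Ram/PropertyPm`:

`K` complete, locally compact, ultrametric (e.g. a finite extension of `ℚ_[p]`), `Ω` an
algebraically closed algebraic normed extension (e.g. `PadicAlgCl p`), residue characteristic `p`,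
`L/K` finite Galois inside `Ω`, `L ≠ K`, with monogenic ring of integers `𝓞_L = 𝓞_K[x]`.  Then

`le_threshold_of_forall_propertyP : (∀ ρ < ρ₀, PropertyP K Ω L ρ) → ρ₀ ≤ threshold L α s₁`

(`threshold = ‖π_K‖ ^ u_{L/K}`), i.e. `(P_m)` for all `m > m₀` implies `u_{L/K} ≤ m₀`.
All hypotheses of `PmSharp.le_threshold_of_forall_propertyPRoot` are discharged here:
(R3) Galois invariance of the norm and (R1) finiteness of the residue ring from
`Lib/Ram/ResidueFacts`; (R2) from `ResidueFacts.exists_fixed_near_of_subgroup` + monogenicity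
(`⟨s₁⟩` is inside inertia as soon as `‖s₁ x - x‖ < 1`); the unramified case `‖s₁ x - x‖ = 1`
directly (`β = 0`).
-/

set_option autoImplicit false

open Polynomial IntermediateField
open scoped NNReal

namespace Fermat.Agent.Lib.Ram.PmSharpFinal

open Fermat.Agent.Lib.Ram Fermat.Agent.Lib.Ram.PropertyPm Fermat.Agent.Lib.Ram.PmSharp

section Monogenic

variable {K : Type*} [NormedField K] [IsUltrametricDist K] {Ω : Type*} [NormedField Ω]
  [IsUltrametricDist Ω] [NormedAlgebra K Ω] (L : IntermediateField K Ω)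

/-- An element of `𝓞_L`, viewed in `L`. -/
def toL (z : intE L) : L := ⟨(z : Ω), z.2.1⟩

theorem coe_toL (z : intE L) : ((toL L z : L) : Ω) = z := rfl

/-- `‖t y - y‖ ≤ ‖t x - x‖` for every `y ∈ 𝓞_K[x]`. -/
theorem norm_apply_sub_le_of_mem_adjoin (x : intE L)
    (hinv : ∀ (σ : L ≃ₐ[K] L) (y : L), ‖((σ y : L) : Ω)‖ = ‖(y : Ω)‖) (t : L ≃ₐ[K] L)
    {z : intE L} (hz : z ∈ Algebra.adjoin (intK K) {x}) :
    ‖((t (toL L z) : L) : Ω) - z‖ ≤ ‖((t (toL L x) : L) : Ω) - x‖ := by
  induction hz using Algebra.adjoin_induction with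
  | mem y hy =>
    rw [Set.mem_singleton_iff] at hy
    rw [hy]
  | algebraMap r =>
    have h1 : toL L (algebraMap (intK K) (intE L) r) = algebraMap K L (r : K) := rfl
    rw [h1, AlgEquiv.commutes]
    have h2 : ((algebraMap K L (r : K) : L) : Ω) = ((algebraMap (intK K) (intE L) r : intE L) : Ω) :=
      rfl
    rw [h2, sub_self, norm_zero]
    exact norm_nonneg _
  | add y w _ _ hy hw =>
    have h1 : toL L (y + w) = toL L y + toL L w := rfl
    have h2 : ((t (toL L (y + w)) : L) : Ω) - ((y + w : intE L) : Ω) =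
        (((t (toL L y) : L) : Ω) - y) + (((t (toL L w) : L) : Ω) - w) := by
      rw [h1, map_add]
      push_cast
      ring
    rw [h2]
    exact (IsUltrametricDist.norm_add_le_max _ _).trans (max_le hy hw)
  | mul y w _ _ hy hw =>
    have h1 : toL L (y * w) = toL L y * toL L w := rfl
    have h2 : ((t (toL L (y * w)) : L) : Ω) - ((y * w : intE L) : Ω) =
        ((t (toL L y) : L) : Ω) * (((t (toL L w) : L) : Ω) - w) +
          (((t (toL L y) : L) : Ω) - y) * (w : Ω) := by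
      rw [h1, map_mul]
      push_cast
      ring
    rw [h2]
    refine (IsUltrametricDist.norm_add_le_max _ _).trans (max_le ?_ ?_)
    · rw [norm_mul, hinv]
      calc ‖((toL L y : L) : Ω)‖ * ‖((t (toL L w) : L) : Ω) - w‖
          ≤ 1 * ‖((t (toL L w) : L) : Ω) - w‖ :=
            mul_le_mul_of_nonneg_right y.2.2 (norm_nonneg _)
        _ = ‖((t (toL L w) : L) : Ω) - w‖ := one_mul _
        _ ≤ _ := hw
    · rw [norm_mul]
      calc ‖((t (toL L y) : L) : Ω) - y‖ * ‖(w : Ω)‖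
          ≤ ‖((t (toL L y) : L) : Ω) - y‖ * 1 :=
            mul_le_mul_of_nonneg_left w.2.2 (norm_nonneg _)
        _ = ‖((t (toL L y) : L) : Ω) - y‖ := mul_one _
        _ ≤ _ := hy

/-- `𝓞_K[x] ⊆ K(x)`. -/
theorem toL_mem_adjoin_of_mem_adjoin (x : intE L) {z : intE L}
    (hz : z ∈ Algebra.adjoin (intK K) {x}) : toL L z ∈ IntermediateField.adjoin K {toL L x} := by
  induction hz using Algebra.adjoin_induction with
  | mem y hy =>
    rw [Set.mem_singleton_iff] at hy
    rw [hy]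
    exact IntermediateField.mem_adjoin_simple_self K _
  | algebraMap r =>
    have h1 : toL L (algebraMap (intK K) (intE L) r) = algebraMap K L (r : K) := rfl
    rw [h1]
    exact IntermediateField.algebraMap_mem _ _
  | add y w _ _ hy hw => exact add_mem hy hw
  | mul y w _ _ hy hw => exact mul_mem hy hw

end Monogenic

section Main

variable {K : Type*} [NontriviallyNormedField K] [CompleteSpace K] [IsUltrametricDist K]
  [LocallyCompactSpace K]
variable {Ω : Type*} [NormedField Ω] [IsUltrametricDist Ω] [NormedAlgebra K Ω]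
variable (L : IntermediateField K Ω) [FiniteDimensional K L]

omit [CompleteSpace K] [LocallyCompactSpace K] [FiniteDimensional K L] in
/-- If `𝓞_L = 𝓞_K[x]` then `L = K(x)`. -/
theorem adjoin_toL_eq_top (x : intE L) (hx : Algebra.adjoin (intK K) {x} = ⊤) :
    IntermediateField.adjoin K {toL L x} = ⊤ := by
  rw [eq_top_iff]
  intro y _
  by_cases hy0 : (y : Ω) = 0
  · have : y = 0 := Subtype.ext hy0
    rw [this]
    exact zero_mem _
  obtain ⟨k, hk0, hk⟩ := NormedField.exists_norm_lt K (inv_pos.2 (norm_pos_iff.2 hy0))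
  have hk0' : k ≠ 0 := norm_pos_iff.1 hk0
  have hky : ‖((algebraMap K L k * y : L) : Ω)‖ ≤ 1 := by
    have h1 : ((algebraMap K L k * y : L) : Ω) = algebraMap K Ω k * (y : Ω) := rfl
    rw [h1, norm_mul, norm_algebraMap']
    have := mul_lt_mul_of_pos_right hk (norm_pos_iff.2 hy0)
    rw [inv_mul_cancel₀ (norm_pos_iff.2 hy0).ne'] at this
    exact this.le
  let z : intE L := ⟨((algebraMap K L k * y : L) : Ω), (algebraMap K L k * y).2, hky⟩
  have hz : z ∈ Algebra.adjoin (intK K) {x} := by rw [hx]; trivial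
  have h2 := toL_mem_adjoin_of_mem_adjoin L x hz
  have h3 : toL L z = algebraMap K L k * y := rfl
  rw [h3] at h2
  have h4 : y = (algebraMap K L k)⁻¹ * (algebraMap K L k * y) := by
    rw [inv_mul_cancel_left₀]
    exact (_root_.map_ne_zero _).2 hk0'
  rw [h4]
  exact mul_mem (inv_mem (IntermediateField.algebraMap_mem _ _)) h2

omit [CompleteSpace K] [IsUltrametricDist K] in
/-- (R1): the residue ring of `L` is finite. -/
theorem finite_residue : Finite (intK L ⧸ maxIdeal L) := by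
  classical
  obtain ⟨S, hS1, hS2⟩ := ResidueFacts.exists_finite_reps L
  let f : {y // y ∈ S} → intK L ⧸ maxIdeal L := fun y =>
    Ideal.Quotient.mk _ (⟨⟨(y : Ω), (hS1 y y.2).1⟩, (hS1 y y.2).2⟩ : intK L)
  refine Finite.of_surjective f fun q => ?_
  obtain ⟨z, rfl⟩ := Ideal.Quotient.mk_surjective q
  obtain ⟨y, hyS, hy⟩ := hS2 ((z : L) : Ω) (z : L).2 z.2
  refine ⟨⟨y, hyS⟩, ?_⟩
  rw [Ideal.Quotient.eq, mem_maxIdeal]
  change ‖y - ((z : L) : Ω)‖ < 1
  rw [norm_sub_rev]
  exact hy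

variable [IsGalois K L]

omit [CompleteSpace K] [IsUltrametricDist K] [LocallyCompactSpace K] [IsUltrametricDist Ω]
  [IsGalois K L] in
/-- A non-trivial conjugate at minimal distance exists as soon as `L ≠ K`. -/
theorem exists_min_conj (α : L) (h : ∃ σ : L ≃ₐ[K] L, σ ≠ 1) :
    ∃ s₁ : L ≃ₐ[K] L, s₁ ≠ 1 ∧
      ∀ σ : L ≃ₐ[K] L, σ ≠ 1 → ‖((s₁ α : L) : Ω) - α‖ ≤ ‖((σ α : L) : Ω) - α‖ := by
  classical
  have : Fintype (L ≃ₐ[K] L) := Fintype.ofFinite _
  obtain ⟨σ₀, hσ₀⟩ := h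
  obtain ⟨s₁, hs₁, hmin⟩ := Finset.exists_min_image
    (Finset.univ.filter fun σ : L ≃ₐ[K] L => σ ≠ 1)
    (fun σ => ‖((σ α : L) : Ω) - α‖) ⟨σ₀, by simp [hσ₀]⟩
  refine ⟨s₁, (Finset.mem_filter.1 hs₁).2, fun σ hσ => hmin σ (by simp [hσ])⟩

/-- **Fontaine Prop. 1.5 (ii), sharp, root form, unconditional.** -/
theorem le_threshold_of_forall_propertyPRoot [IsAlgClosed Ω] [Algebra.IsAlgebraic K Ω]
    (p : ℕ) [Fact p.Prime] (hp : ‖(p : Ω)‖ < 1)
    (x : intE L) (hx : Algebra.adjoin (intK K) {x} = ⊤)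
    (s₁ : L ≃ₐ[K] L) (hs₁ : s₁ ≠ 1)
    (hmin : ∀ σ : L ≃ₐ[K] L, σ ≠ 1 →
      ‖((s₁ (toL L x) : L) : Ω) - x‖ ≤ ‖((σ (toL L x) : L) : Ω) - x‖)
    {ρ₀ : ℝ≥0} (h : ∀ ρ < ρ₀, PropertyPRoot K Ω L (x : Ω) ρ) :
    ρ₀ ≤ threshold L (toL L x) s₁ := by
  have hinv : ∀ (σ : L ≃ₐ[K] L) (y : L), ‖((σ y : L) : Ω)‖ = ‖(y : Ω)‖ :=
    ResidueFacts.norm_algEquiv_apply L
  have hα := adjoin_toL_eq_top L x hx
  have hα1 : ‖((toL L x : L) : Ω)‖ ≤ 1 := x.2.2
  have := finite_residue L
  have hd1 : ‖((s₁ (toL L x) : L) : Ω) - (toL L x : L)‖ ≤ 1 := by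
    refine (norm_sub_le_max' _ _).trans (max_le ?_ hα1)
    rw [hinv]
    exact hα1
  rcases lt_or_eq_of_le hd1 with hlt | heq
  · -- ramified case
    refine PmSharp.le_threshold_of_forall_propertyPRoot L (toL L x) hα hα1 hinv s₁ hs₁ hmin ?_ h
    intro y hy
    have hin : ∀ t ∈ Subgroup.zpowers s₁, ∀ w : L, ‖(w : Ω)‖ ≤ 1 → ‖((t w : L) : Ω) - w‖ < 1 := by
      -- the set of such `t` is a subgroup containing `s₁`
      let S : Subgroup (L ≃ₐ[K] L) :=
        { carrier := {t | ∀ w : L, ‖(w : Ω)‖ ≤ 1 → ‖((t w : L) : Ω) - w‖ < 1}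
          mul_mem' := fun {a b} ha hb w hw => by
            have h1 : (((a * b) w : L) : Ω) - w =
                (((a (b w)) : L) : Ω) - (b w : L) + (((b w : L) : Ω) - w) := by
              rw [AlgEquiv.mul_apply]
              ring
            rw [h1]
            refine lt_of_le_of_lt (IsUltrametricDist.norm_add_le_max _ _) (max_lt ?_ (hb w hw))
            exact ha (b w) (by rw [hinv]; exact hw)
          one_mem' := fun w _ => by
            rw [AlgEquiv.one_apply, sub_self, norm_zero]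
            exact zero_lt_one
          inv_mem' := fun {a} ha w hw => by
            have h1 : ((a⁻¹ w : L) : Ω) - w = -((((a (a⁻¹ w)) : L) : Ω) - (a⁻¹ w : L)) := by
              rw [← AlgEquiv.mul_apply, mul_inv_cancel, AlgEquiv.one_apply]
              ring
            rw [h1, norm_neg]
            exact ha (a⁻¹ w) (by rw [hinv]; exact hw) }
      have hs₁S : s₁ ∈ S := by
        intro w hw
        let z : intE L := ⟨(w : Ω), w.2, hw⟩
        have hz : z ∈ Algebra.adjoin (intK K) {x} := by rw [hx]; trivial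
        exact lt_of_le_of_lt (norm_apply_sub_le_of_mem_adjoin L x hinv s₁ hz) hlt
      exact fun t ht => (Subgroup.zpowers_le.2 hs₁S) ht
    obtain ⟨y', hy'1, -, hy'3⟩ :=
      ResidueFacts.exists_fixed_near_of_subgroup L (Subgroup.zpowers s₁) p hp hin y hy
    exact ⟨y', hy'1, hy'3⟩
  · -- unramified case: `β = 0`
    by_contra hcon
    rw [not_le] at hcon
    have hP := h _ hcon
    have hj : ∀ σ τ : L ≃ₐ[K] L, ‖((σ (toL L x) : L) : Ω) - ((τ (toL L x) : L) : Ω)‖ =
        (fun u : L ≃ₐ[K] L => ‖((u (toL L x) : L) : Ω) - (toL L x : L)‖) (σ⁻¹ * τ) := by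
      intro σ τ
      change _ = ‖(((σ⁻¹ * τ) (toL L x) : L) : Ω) - (toL L x : L)‖
      have h1 : ((σ (toL L x) : L) : Ω) - ((τ (toL L x) : L) : Ω) =
          -((σ ((σ⁻¹ * τ) (toL L x) - toL L x) : L) : Ω) := by
        rw [map_sub, ← AlgEquiv.mul_apply, mul_inv_cancel_left]
        push_cast
        ring
      rw [h1, norm_neg, hinv]
      push_cast
      rfl
    have hPmap : (minpoly K (x : Ω)).map (algebraMap K Ω) =
        ∏ σ : L ≃ₐ[K] L, (X - C (((σ (toL L x) : L) : Ω))) := by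
      have h1 : minpoly K (x : Ω) = minpoly K (toL L x) :=
        (minpoly.algebraMap_eq (algebraMap L Ω).injective (toL L x))
      rw [h1, IsScalarTower.algebraMap_eq K L Ω, ← Polynomial.map_map,
        NormAddVal.minpoly_map_eq_prod hα, Polynomial.map_prod]
      refine Finset.prod_congr rfl fun σ _ => ?_
      rw [Polynomial.map_sub, map_X, map_C]
      rfl
    have hev : aeval (0 : Ω) (minpoly K (x : Ω)) =
        ∏ σ : L ≃ₐ[K] L, ((0 : Ω) - ((σ (toL L x) : L) : Ω)) := by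
      rw [aeval_def, ← eval_map, hPmap, eval_prod]
      exact Finset.prod_congr rfl fun σ _ => by rw [eval_sub, eval_X, eval_C]
    have hbound : ‖aeval (0 : Ω) (minpoly K (x : Ω))‖ ≤ threshold L (toL L x) s₁ := by
      rw [hev, coe_threshold]
      have h0 : ‖(0 : Ω) - (((1 : L ≃ₐ[K] L) (toL L x) : L) : Ω)‖ ≤
          ‖((s₁ (toL L x) : L) : Ω) - (toL L x : L)‖ := by
        rw [heq, AlgEquiv.one_apply, zero_sub, norm_neg]
        exact hα1
      exact norm_prod_sub_le (fun σ : L ≃ₐ[K] L => ((σ (toL L x) : L) : Ω))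
        (fun u : L ≃ₐ[K] L => ‖((u (toL L x) : L) : Ω) - (toL L x : L)‖) hj (0 : Ω) h0
    obtain ⟨φ⟩ := hP 0 (by rw [norm_zero]; exact zero_le_one) hbound
    -- `L` embeds into `K(0) = K`
    have hrange : ((K⟮(0 : Ω)⟯).val.comp φ).fieldRange = L := AlgHom.fieldRange_of_normal _
    have hmem : ((toL L x : L) : Ω) ∈ ((K⟮(0 : Ω)⟯).val.comp φ).fieldRange := by
      rw [hrange]
      exact (toL L x).2
    obtain ⟨w, hw⟩ := hmem
    have hgen : ∀ (E : IntermediateField K Ω) (e : E), E = ⊥ →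
        (e : Ω) ∈ (⊥ : IntermediateField K Ω) := by
      intro E e hE
      subst hE
      exact e.2
    have hbot : ((toL L x : L) : Ω) ∈ (⊥ : IntermediateField K Ω) := by
      rw [← hw]
      exact hgen _ (φ w) IntermediateField.adjoin_zero
    obtain ⟨k, hk⟩ := IntermediateField.mem_bot.1 hbot
    apply hs₁
    apply NormAddVal.algEquiv_apply_injective hα
    change s₁ (toL L x) = (1 : L ≃ₐ[K] L) (toL L x)
    have h3 : toL L x = algebraMap K L k := Subtype.ext hk.symm
    rw [h3, AlgEquiv.commutes, AlgEquiv.commutes]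

/-- **Fontaine Prop. 1.5 (ii), sharp, hom form, unconditional**: if `(P_m)` holds for all
`m > m₀` then `u_{L/K} ≤ m₀`. -/
theorem le_threshold_of_forall_propertyP [IsAlgClosed Ω] [Algebra.IsAlgebraic K Ω]
    (p : ℕ) [Fact p.Prime] (hp : ‖(p : Ω)‖ < 1)
    (x : intE L) (hx : Algebra.adjoin (intK K) {x} = ⊤)
    (s₁ : L ≃ₐ[K] L) (hs₁ : s₁ ≠ 1)
    (hmin : ∀ σ : L ≃ₐ[K] L, σ ≠ 1 →
      ‖((s₁ (toL L x) : L) : Ω) - x‖ ≤ ‖((σ (toL L x) : L) : Ω) - x‖)
    {ρ₀ : ℝ≥0} (h : ∀ ρ < ρ₀, PropertyP K Ω L ρ) :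
    ρ₀ ≤ threshold L (toL L x) s₁ := by
  have hint : IsIntegral (intK K) x := by
    rw [← PmForms.isIntegral_coe_iff]
    refine NormIntegral.isIntegral_of_norm_le_one (A := intK K) (K := K) (fun k hk => ?_) x.2.2
    exact ⟨⟨k, hk⟩, rfl⟩
  exact le_threshold_of_forall_propertyPRoot L p hp x hx s₁ hs₁ hmin fun ρ hρ =>
    PmForms.propertyPRoot_of_adjoin_eq_top hx hint (h ρ hρ)

end Main

end Fermat.Agent.Lib.Ram.PmSharpFinal
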