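/-
P-S56, block (A), ramification layer (helper42): **monogenicity** (Serre, Local Fields III §6
Prop. 12).  A finite extension `B / A` of discrete valuation rings with separable residue field
extension is generated by one element: `B = A[x]`.  No completeness is needed once `B` is a
discrete valuation ring, finite over `A`.

Mathlib only.
-/
import Mathlib

set_option autoImplicit false

namespace Fermat.Agent.Lib.Ram.Monogenic

open IsLocalRing Polynomial IntermediateField

section

variable {A B : Type*} [CommRing A] [IsLocalRing A] [CommRing B] [IsLocalRing B] [Algebra A B]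
  [IsLocalHom (algebraMap A B)]

/-- reduction of a polynomial expression modulo the maximal ideals. -/
theorem residue_aeval (x : B) (g : A[X]) :
    residue B (aeval x g) = aeval (residue B x) (g.map (residue A)) := by
  rw [aeval_def, aeval_def, hom_eval₂, eval₂_map]
  congr 1

end

/-- for a group acting `A`-linearly on `B = A[x]`, the element `σ x - x` divides `σ y - y` for
every `y` (so that `i_G(σ) = v_B(σ x - x)`). -/
theorem sub_dvd_of_adjoin_eq_top {A B G : Type*} [CommRing A] [CommRing B] [Algebra A B]
    [Group G] [MulSemiringAction G B] [SMulCommClass G A B] {x : B} (hx : Algebra.adjoin A {x} = ⊤) (σ : G) (y : B) :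
    σ • x - x ∣ σ • y - y := by
  have hy : y ∈ Algebra.adjoin A {x} := by rw [hx]; exact Algebra.mem_top
  rw [Algebra.adjoin_singleton_eq_range_aeval] at hy
  obtain ⟨P, rfl⟩ := hy
  show _ ∣ σ • aeval x P - aeval x P
  have h1 : σ • (aeval x P) = aeval (σ • x) P := by
    have := aeval_algHom_apply (MulSemiringAction.toAlgHom A B σ) x P
    simpa using this.symm
  rw [h1, aeval_def, aeval_def, eval₂_eq_eval_map, eval₂_eq_eval_map]
  exact sub_dvd_eval_sub _ _ _

variable (A B : Type*) [CommRing A] [IsDomain A] [IsDiscreteValuationRing A]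
  [CommRing B] [IsDomain B] [IsDiscreteValuationRing B] [Algebra A B] [Module.Finite A B]
  [IsLocalHom (algebraMap A B)]
  [Algebra.IsSeparable (ResidueField A) (ResidueField B)]

/-- **the good generator**: there are `x : B` and a monic `f : A[X]` such that the reduction of `x`
generates the residue field extension and `f(x)` is a uniformiser of `B`. -/
theorem exists_irreducible_aeval :
    ∃ (x : B) (f : A[X]), (ResidueField A)⟮residue B x⟯ = ⊤ ∧ Irreducible (aeval x f) := by
  classical
  obtain ⟨α, hα⟩ := Field.exists_primitive_element (ResidueField A) (ResidueField B)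
  have hαint : IsIntegral (ResidueField A) α := Algebra.IsIntegral.isIntegral α
  obtain ⟨f, hfmap⟩ := Polynomial.map_surjective (residue A) residue_surjective
    (minpoly (ResidueField A) α)
  obtain ⟨x₀, hx₀⟩ := residue_surjective (R := B) α
  obtain ⟨ϖ, hϖ⟩ := IsDiscreteValuationRing.exists_irreducible B
  have hϖm : ϖ ∈ maximalIdeal B := by
    rw [mem_maximalIdeal, mem_nonunits_iff]; exact hϖ.not_isUnit
  -- `f(x₀)` lies in the maximal ideal
  have h0 : aeval x₀ f ∈ maximalIdeal B := by
    rw [← residue_eq_zero_iff, residue_aeval, hx₀, hfmap, minpoly.aeval]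
  -- `f'(x₀)` is a unit
  have hder : IsUnit (aeval x₀ (derivative f)) := by
    rw [← residue_ne_zero_iff_isUnit, residue_aeval, hx₀, ← derivative_map, hfmap]
    exact (Algebra.IsSeparable.isSeparable (ResidueField A) α).aeval_derivative_ne_zero
      (minpoly.aeval _ α)
  -- write `f(x₀) = ϖ d`
  rw [hϖ.maximalIdeal_eq, Ideal.mem_span_singleton] at h0
  obtain ⟨d, hd⟩ := h0
  by_cases hdu : IsUnit d
  · -- `f(x₀)` is already a uniformiser
    refine ⟨x₀, f, by rw [hx₀]; exact hα, ?_⟩
    rw [hd]
    exact (associated_mul_unit_right ϖ d hdu).irreducible hϖ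
  · -- replace `x₀` by `x₀ + ϖ`
    have hdm : d ∈ maximalIdeal B := by rwa [mem_maximalIdeal, mem_nonunits_iff]
    rw [hϖ.maximalIdeal_eq, Ideal.mem_span_singleton] at hdm
    obtain ⟨d', hd'⟩ := hdm
    refine ⟨x₀ + ϖ, f, ?_, ?_⟩
    · rw [map_add, hx₀, (residue_eq_zero_iff ϖ).mpr hϖm, add_zero]
      exact hα
    · obtain ⟨c, hc⟩ := binomExpansion (f.map (algebraMap A B)) x₀ ϖ
      have e1 : ∀ (y : B) (g : A[X]), aeval y g = eval y (g.map (algebraMap A B)) := by
        intro y g
        rw [aeval_def, eval₂_eq_eval_map]
      rw [← e1, ← e1, derivative_map, ← e1] at hc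
      have hfac : aeval (x₀ + ϖ) f = ϖ * (aeval x₀ (derivative f) + ϖ * (d' + c)) := by
        rw [hc, hd, hd']
        ring
      have hu : IsUnit (aeval x₀ (derivative f) + ϖ * (d' + c)) := by
        have hsum : IsUnit ((aeval x₀ (derivative f) + ϖ * (d' + c)) + -(ϖ * (d' + c))) := by
          rw [add_neg_cancel_right]
          exact hder
        rcases isUnit_or_isUnit_of_isUnit_add hsum with h | h
        · exact h
        · exfalso
          have hmem : -(ϖ * (d' + c)) ∈ maximalIdeal B :=
            (maximalIdeal B).neg_mem ((maximalIdeal B).mul_mem_right _ hϖm)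
          rw [mem_maximalIdeal, mem_nonunits_iff] at hmem
          exact hmem h
      rw [hfac]
      exact (associated_mul_unit_right ϖ _ hu).irreducible hϖ

/-- **Serre III §6 Prop. 12**: a finite extension of discrete valuation rings with separable
residue field extension is monogenic. -/
theorem exists_adjoin_eq_top (hinj : Function.Injective (algebraMap A B)) :
    ∃ x : B, Algebra.adjoin A {x} = ⊤ := by
  classical
  obtain ⟨x, f, hgen, hirr⟩ := exists_irreducible_aeval A B
  refine ⟨x, ?_⟩
  set S : Subalgebra A B := Algebra.adjoin A {x} with hS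
  have hxS : ∀ g : A[X], aeval x g ∈ S := fun g => aeval_mem_adjoin_singleton A x
  -- the residue field is generated by the reduction of `x`
  have hres : ∀ c : B, ∃ g : A[X], ∃ c' : B, c = aeval x g + aeval x f * c' := by
    intro c
    have hc : residue B c ∈ (ResidueField A)⟮residue B x⟯ := by rw [hgen]; trivial
    rw [← IntermediateField.mem_toSubalgebra,
      IntermediateField.adjoin_simple_toSubalgebra_of_isAlgebraic
        (Algebra.IsAlgebraic.isAlgebraic _),
      Algebra.adjoin_singleton_eq_range_aeval] at hc
    obtain ⟨gbar, hgbar⟩ := hc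
    obtain ⟨g, hg⟩ := Polynomial.map_surjective (residue A) residue_surjective gbar
    have h1 : residue B (c - aeval x g) = 0 := by
      rw [map_sub, residue_aeval, hg]
      exact sub_eq_zero.mpr hgbar.symm
    rw [residue_eq_zero_iff, hirr.maximalIdeal_eq, Ideal.mem_span_singleton] at h1
    obtain ⟨c', hc'⟩ := h1
    exact ⟨g, c', by rw [← hc']; ring⟩
  -- successive approximation
  have happrox : ∀ (j : ℕ) (b : B), ∃ s ∈ S, ∃ c : B, b = s + aeval x f ^ j * c := by
    intro j
    induction j with
    | zero => intro b; exact ⟨0, S.zero_mem, b, by simp⟩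
    | succ j ih =>
      intro b
      obtain ⟨s, hs, c, hb⟩ := ih b
      obtain ⟨g, c', hc⟩ := hres c
      refine ⟨s + aeval x f ^ j * aeval x g, S.add_mem hs (S.mul_mem (S.pow_mem (hxS f) j) (hxS g)),
        c', ?_⟩
      rw [hb, hc]
      ring
  -- the image of the maximal ideal of `A` generates a power of the maximal ideal of `B`
  have hmap_ne : Ideal.map (algebraMap A B) (maximalIdeal A) ≠ ⊥ := by
    obtain ⟨π, hπ⟩ := IsDiscreteValuationRing.exists_irreducible A
    intro h
    have h1 : algebraMap A B π ∈ Ideal.map (algebraMap A B) (maximalIdeal A) :=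
      Ideal.mem_map_of_mem _ (by rw [mem_maximalIdeal, mem_nonunits_iff]; exact hπ.not_isUnit)
    rw [h, Ideal.mem_bot] at h1
    exact hπ.ne_zero (hinj (by rw [h1, map_zero]))
  obtain ⟨e, he⟩ := IsDiscreteValuationRing.ideal_eq_span_pow_irreducible hmap_ne hirr
  -- Nakayama
  have hle : (⊤ : Submodule A B) ≤ Subalgebra.toSubmodule S ⊔ maximalIdeal A • ⊤ := by
    intro b _
    obtain ⟨s, hs, c, hb⟩ := happrox e b
    rw [hb]
    refine Submodule.add_mem_sup hs ?_
    rw [Ideal.smul_top_eq_map, Submodule.restrictScalars_mem, he, Ideal.mem_span_singleton]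
    exact Dvd.intro _ rfl
  have hN : (⊤ : Submodule A B) ≤ Subalgebra.toSubmodule S :=
    Submodule.le_of_le_smul_of_le_jacobson_bot Module.Finite.fg_top
      (jacobson_eq_maximalIdeal ⊥ bot_ne_top).ge hle
  exact Algebra.toSubmodule_eq_top.mp (top_le_iff.mp hN)

/-- **monogenic generator for the ramification filtration**: there is `x` with `B = A[x]`, and
then `σ x - x ∣ σ y - y` for every `A`-linear ring automorphism action. -/
theorem exists_generator (hinj : Function.Injective (algebraMap A B)) (G : Type*) [Group G]
    [MulSemiringAction G B] [SMulCommClass G A B] :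
    ∃ x : B, Algebra.adjoin A {x} = ⊤ ∧ ∀ (σ : G) (y : B), σ • x - x ∣ σ • y - y := by
  obtain ⟨x, hx⟩ := exists_adjoin_eq_top A B hinj
  exact ⟨x, hx, fun σ y => sub_dvd_of_adjoin_eq_top hx σ y⟩

end Fermat.Agent.Lib.Ram.Monogenic
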