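import Mathlib

/-!
helper47 (P-S56, block (A) LOCAL, Mathlib-only leaf).  THE ALGEBRAIC CORE OF SERRE, *Local Fields*
IV Prop. 3 (`i_{G/H}(σ) = (1/e') ∑_{s ↦ σ} i_G(s)`).

`B` is a domain (think `O_L`) with an action of a group `G` by ring automorphisms, `H ≤ G` a finite
subgroup, `x : B` a generator of `B` over the invariants, `y : B` an `H`-invariant element which
generates the `H`-invariants over the `G`-invariants (think `O_L = O_K[x]`, `O_{L^H} = O_K[y]`).
Then for every `s₀ : G` the elements

  `s₀ • y - y`   and   `∏_{t ∈ H} (x - (s₀ t) • x)`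

are associated in `B` (`associated_smul_sub_prod`).  Taking valuations gives Serre's formula
`v_L (σ y - y) = ∑_{s ↦ σ} v_L (s x - x)`.

No valuation, no completeness, no field: the arithmetic enters only through the two generation
hypotheses.
-/

set_option autoImplicit false

open Polynomial

namespace Fermat.Agent.Lib.Ram.QuotientCore

variable {B : Type*} [CommRing B] {G : Type*} [Group G] [MulSemiringAction G B]

/-- a polynomial with `G`-invariant coefficients. -/
def InvCoeff (G : Type*) [Group G] [MulSemiringAction G B] (Q : B[X]) : Prop :=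
  ∀ (n : ℕ) (s : G), s • Q.coeff n = Q.coeff n

theorem InvCoeff.smul_eq {Q : B[X]} (hQ : InvCoeff G Q) (s : G) : s • Q = Q := by
  ext n
  rw [coeff_smul, hQ n s]

theorem InvCoeff.smul_eval {Q : B[X]} (hQ : InvCoeff G Q) (s : G) (b : B) :
    s • Q.eval b = Q.eval (s • b) := by
  rw [← smul_eval_smul, hQ.smul_eq]

/-- `s • Q(y) - Q(y)` is divisible by `s • y - y` when `Q` has invariant coefficients. -/
theorem InvCoeff.sub_dvd {Q : B[X]} (hQ : InvCoeff G Q) (s : G) (y : B) :
    s • y - y ∣ s • Q.eval y - Q.eval y := by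
  rw [hQ.smul_eval]
  exact sub_dvd_eval_sub _ _ _

variable (H : Subgroup G) [Fintype H]

/-- the polynomial `∏_{t ∈ H} (X - t • x)`. -/
noncomputable def orbitPoly (x : B) : B[X] := ∏ t : H, (X - C ((t : G) • x))

theorem orbitPoly_monic (x : B) : (orbitPoly H x).Monic :=
  monic_prod_of_monic _ _ fun _ _ => monic_X_sub_C _

theorem smul_orbitPoly (s : G) (x : B) :
    s • orbitPoly H x = ∏ t : H, (X - C ((s * (t : G)) • x)) := by
  unfold orbitPoly
  rw [Finset.smul_prod']
  refine Finset.prod_congr rfl fun t _ => ?_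
  rw [smul_sub, smul_X, smul_C, mul_smul]

theorem eval_smul_orbitPoly (s : G) (x : B) :
    (s • orbitPoly H x).eval x = ∏ t : H, (x - (s * (t : G)) • x) := by
  rw [smul_orbitPoly, eval_prod]
  refine Finset.prod_congr rfl fun t _ => ?_
  rw [eval_sub, eval_X, eval_C]

/-- the orbit polynomial is `H`-invariant. -/
theorem smul_orbitPoly_of_mem (t' : H) (x : B) : (t' : G) • orbitPoly H x = orbitPoly H x := by
  rw [smul_orbitPoly]
  unfold orbitPoly
  exact Fintype.prod_equiv (Equiv.mulLeft t') _ _ fun t => rfl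

theorem smul_coeff_orbitPoly (t' : H) (x : B) (n : ℕ) :
    (t' : G) • (orbitPoly H x).coeff n = (orbitPoly H x).coeff n := by
  rw [← coeff_smul, smul_orbitPoly_of_mem]

theorem eval_orbitPoly_smul (t : H) (x : B) : (orbitPoly H x).eval ((t : G) • x) = 0 := by
  unfold orbitPoly
  rw [eval_prod]
  refine Finset.prod_eq_zero (Finset.mem_univ t) ?_
  rw [eval_sub, eval_X, eval_C, sub_self]

theorem eval_orbitPoly_self (x : B) : (orbitPoly H x).eval x = 0 := by
  have h := eval_orbitPoly_smul H (1 : H) x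
  rwa [Subgroup.coe_one, one_smul] at h

/-- if `a` divides all the coefficients of `p`, it divides its values. -/
theorem dvd_eval_of_dvd_coeff {a : B} {p : B[X]} (h : ∀ n, a ∣ p.coeff n) (b : B) :
    a ∣ p.eval b := by
  obtain ⟨q, rfl⟩ := (C_dvd_iff_dvd_coeff a p).2 h
  rw [eval_mul, eval_C]
  exact dvd_mul_right _ _

/-- **First divisibility**: `s₀ y - y ∣ ∏_{t ∈ H} (x - s₀ t x)` if the `H`-invariants are
polynomials in `y` with `G`-invariant coefficients. -/
theorem smul_sub_dvd_prod (x y : B)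
    (hgen : ∀ b : B, (∀ t : H, (t : G) • b = b) → ∃ Q : B[X], InvCoeff G Q ∧ Q.eval y = b)
    (s₀ : G) : s₀ • y - y ∣ ∏ t : H, (x - (s₀ * (t : G)) • x) := by
  rw [← eval_smul_orbitPoly]
  have h1 : (s₀ • orbitPoly H x).eval x = (s₀ • orbitPoly H x - orbitPoly H x).eval x := by
    rw [eval_sub, eval_orbitPoly_self, sub_zero]
  rw [h1]
  apply dvd_eval_of_dvd_coeff
  intro n
  rw [coeff_sub, coeff_smul]
  obtain ⟨Q, hQ, hQy⟩ := hgen ((orbitPoly H x).coeff n) fun t => smul_coeff_orbitPoly H t x n
  rw [← hQy]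
  exact hQ.sub_dvd s₀ y

variable [IsDomain B]

/-- the orbit polynomial divides every polynomial vanishing on the (free) orbit. -/
theorem orbitPoly_dvd (x : B) (hinj : Function.Injective fun t : H => (t : G) • x) {P : B[X]}
    (hP : ∀ t : H, P.eval ((t : G) • x) = 0) : orbitPoly H x ∣ P := by
  classical
  rcases eq_or_ne P 0 with rfl | hP0
  · exact dvd_zero _
  have h1 : orbitPoly H x =
      (((Finset.univ : Finset H).val.map fun t : H => (t : G) • x).map
        (fun a => X - C a)).prod := by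
    unfold orbitPoly
    rw [Multiset.map_map]
    rfl
  rw [h1, Multiset.prod_X_sub_C_dvd_iff_le_roots hP0]
  rw [Multiset.le_iff_subset (Multiset.Nodup.map hinj Finset.univ.nodup)]
  intro a ha
  rw [Multiset.mem_map] at ha
  obtain ⟨t, _, rfl⟩ := ha
  exact (mem_roots hP0).2 (hP t)

/-- **Second divisibility**: `∏_{t ∈ H} (x - s₀ t x) ∣ y - s₀ y` if `y = g(x)` with `g` of
`G`-invariant coefficients, `y` is `H`-invariant and `H` acts freely on `x`. -/
theorem prod_dvd_sub_smul (x y : B) (hy : ∀ t : H, (t : G) • y = y)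
    (hinj : Function.Injective fun t : H => (t : G) • x)
    {g : B[X]} (hg : InvCoeff G g) (hgx : g.eval x = y) (s₀ : G) :
    ∏ t : H, (x - (s₀ * (t : G)) • x) ∣ y - s₀ • y := by
  have hroots : ∀ t : H, (g - C y).eval ((t : G) • x) = 0 := by
    intro t
    rw [eval_sub, eval_C, ← hg.smul_eval, hgx, hy t, sub_self]
  obtain ⟨h, hh⟩ := orbitPoly_dvd H x hinj hroots
  have h2 := congrArg (fun p : B[X] => (s₀ • p).eval x) hh
  simp only [smul_sub, smul_mul', smul_C, hg.smul_eq, eval_sub, eval_mul, eval_C, hgx] at h2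
  rw [← eval_smul_orbitPoly, h2]
  exact dvd_mul_right _ _

/-- **The algebraic core of Serre IV Prop. 3.** -/
theorem associated_smul_sub_prod (x y : B) (hy : ∀ t : H, (t : G) • y = y)
    (hinj : Function.Injective fun t : H => (t : G) • x)
    {g : B[X]} (hg : InvCoeff G g) (hgx : g.eval x = y)
    (hgen : ∀ b : B, (∀ t : H, (t : G) • b = b) → ∃ Q : B[X], InvCoeff G Q ∧ Q.eval y = b)
    (s₀ : G) : Associated (s₀ • y - y) (∏ t : H, (x - (s₀ * (t : G)) • x)) := by
  refine associated_of_dvd_dvd (smul_sub_dvd_prod H x y hgen s₀) ?_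
  have h := prod_dvd_sub_smul H x y hy hinj hg hgx s₀
  rwa [← neg_sub (s₀ • y) y, dvd_neg] at h

end Fermat.Agent.Lib.Ram.QuotientCore
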