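import Fermat.Agent.Lib.Ram.Herbrand

/-!
helper74 (P-S56, block (A) LOCAL).  Corollaries of the abstract Herbrand theory of
`Lib/Ram/Herbrand.lean`, in the shape needed for Fontaine's ramification bound and the tame Kummer
computation:

* `phi_of_le_zero`-type normalisations (`φ(u) = u` on `[-1, 0]`, `φ(u) ≤ u` for `u ≥ 0`);
* `LowerBounded u₀` / `UpperBounded v₀` : all ramification groups beyond `u₀` (`v₀`) are trivial;
  behaviour under quotients (`UpperBounded.quotient`), subgroups (`upperBounded_restrict`) and in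
  towers (`UpperBounded.of_tower`);
* `upperGroup_restrict` : `H^{ψ_{G/H}(v)} = H ∩ G^v`;
* tame numberings: `IsTame.phi` (`φ(u) = u / e`), `IsTame.psi`, and the rescaling for a tame
  quotient: `upperGroup_restrict_of_tame` (`H^{e v} = H ∩ G^v`), `upperGroup_le_of_tame`
  (`G^v ≤ H` for `v > 0`), `upperBounded_iff_of_tame`;
* single break: `phi_eq_self_of_forall_le`, `break_le_of_upperBounded`.

Fontaine's numbering is `G^{(u)} = G^{u-1}` (`upperGroup (u - 1)`), `G_{(i)} = G_{e i - 1}`.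
-/

set_option autoImplicit false
set_option linter.unusedSectionVars false

open Finset

namespace Fermat.Agent.Lib.Ram

theorem tr_eq_of_le {a : ℕ∞} {n : ℕ} (ha : a ≤ n) {x y : ℝ} (hx : (n : ℝ) ≤ x) (hy : (n : ℝ) ≤ y) :
    tr a x = tr a y := by
  lift a to ℕ using ne_top_of_le_ne_top (ENat.natCast_ne_top n) ha
  have h : (a : ℝ) ≤ n := by exact_mod_cast ha
  rw [tr_coe, tr_coe, min_eq_left (h.trans hx), min_eq_left (h.trans hy)]

namespace LowerNumbering

variable {G : Type*} [Group G] (I : LowerNumbering G)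

section Basic

variable [Fintype G]

theorem mem_upperGroup {v : ℝ} {s : G} : s ∈ I.upperGroup v ↔ s ∈ I.lowerGroup (I.psi v) :=
  Iff.rfl

/-- on `[0, 1]` the sum `∑_s min (i s, x)` is `e x`. -/
theorem trSum_of_le_one {x : ℝ} (h0 : 0 ≤ x) (h1 : x ≤ 1) : I.trSum x = I.e0 * x := by
  classical
  unfold trSum e0
  rw [Finset.card_filter, Nat.cast_sum, Finset.sum_mul]
  refine Finset.sum_congr rfl fun s _ => ?_
  induction h : I.i s using ENat.recTopCoe with
  | top => simp [tr_top]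
  | coe n =>
    rw [tr_coe]
    by_cases hn : 1 ≤ n
    · have h2 : (1 : ℕ∞) ≤ (n : ℕ∞) := by exact_mod_cast hn
      have h3 : (1 : ℝ) ≤ n := by exact_mod_cast hn
      rw [if_pos h2, min_eq_right (h1.trans h3)]
      simp
    · have h2 : ¬ (1 : ℕ∞) ≤ (n : ℕ∞) := by exact_mod_cast hn
      rw [if_neg h2]
      have hn0 : n = 0 := by omega
      subst hn0
      simp [h0]

/-- for `x ≥ 0` the sum `∑_s min (i s, x)` is at most `e x`. -/
theorem trSum_le {x : ℝ} (h0 : 0 ≤ x) : I.trSum x ≤ I.e0 * x := by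
  classical
  unfold trSum e0
  rw [Finset.card_filter, Nat.cast_sum, Finset.sum_mul]
  refine Finset.sum_le_sum fun s _ => ?_
  induction h : I.i s using ENat.recTopCoe with
  | top => simp [tr_top]
  | coe n =>
    rw [tr_coe]
    by_cases hn : 1 ≤ n
    · have h2 : (1 : ℕ∞) ≤ (n : ℕ∞) := by exact_mod_cast hn
      rw [if_pos h2]
      simp
    · have h2 : ¬ (1 : ℕ∞) ≤ (n : ℕ∞) := by exact_mod_cast hn
      rw [if_neg h2]
      have hn0 : n = 0 := by omega
      subst hn0
      simp [h0]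

/-- Serre's normalisation: `φ(u) = u` for `-1 ≤ u ≤ 0`. -/
theorem phi_of_mem_Icc {u : ℝ} (h1 : -1 ≤ u) (h0 : u ≤ 0) : I.phi u = u := by
  have he : (I.e0 : ℝ) ≠ 0 := Nat.cast_ne_zero.2 I.e0_pos.ne'
  unfold phi
  rw [I.trSum_of_le_one (by linarith) (by linarith), mul_div_cancel_left₀ _ he]
  ring

theorem phi_le_self {u : ℝ} (hu : 0 ≤ u) : I.phi u ≤ u := by
  have he : (0 : ℝ) < I.e0 := Nat.cast_pos.2 I.e0_pos
  unfold phi
  have h := I.trSum_le (show (0 : ℝ) ≤ u + 1 by linarith)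
  have h2 : I.trSum (u + 1) / I.e0 ≤ u + 1 := by
    rw [div_le_iff₀ he]
    linarith
  linarith

theorem phi_nonneg {u : ℝ} (hu : 0 ≤ u) : 0 ≤ I.phi u := by
  rw [← I.phi_zero]
  exact I.phi_strictMono.monotone hu

theorem psi_nonneg {v : ℝ} (hv : 0 ≤ v) : 0 ≤ I.psi v := by
  rw [← I.psi_zero]
  exact I.psi_strictMono.monotone hv

theorem self_le_psi {v : ℝ} (hv : 0 ≤ v) : v ≤ I.psi v := by
  have h := I.phi_le_self (I.psi_nonneg hv)
  rwa [phi_psi] at h

theorem psi_of_mem_Icc {v : ℝ} (h1 : -1 ≤ v) (h0 : v ≤ 0) : I.psi v = v := by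
  apply I.phi_strictMono.injective
  rw [phi_psi, I.phi_of_mem_Icc h1 h0]

theorem psi_neg_one : I.psi (-1) = -1 := I.psi_of_mem_Icc le_rfl (by norm_num)

theorem upperGroup_eq_top {v : ℝ} (hv : v ≤ -1) : I.upperGroup v = ⊤ := by
  unfold upperGroup
  apply I.lowerGroup_eq_top
  rw [← I.psi_neg_one]
  exact I.psi_strictMono.monotone hv

theorem upperGroup_zero : I.upperGroup 0 = I.lowerGroup 0 := by
  unfold upperGroup
  rw [I.psi_zero]

theorem upperGroup_of_mem_Icc {v : ℝ} (h1 : -1 ≤ v) (h0 : v ≤ 0) :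
    I.upperGroup v = I.lowerGroup v := by
  unfold upperGroup
  rw [I.psi_of_mem_Icc h1 h0]

/-- Fontaine's normalisation: `G^{(φ_F(x))} = G_{(x)}` with `φ_F(x) = (1/e) ∑_s min (i s, x)`,
`G^{(u)} = G^{u-1}` and `G_{(x)} = {s | x ≤ i s}`. -/
theorem upperGroup_trSum (x : ℝ) : I.upperGroup (I.trSum x / I.e0 - 1) = I.lowerGroup (x - 1) := by
  have h := I.upperGroup_phi (x - 1)
  unfold phi at h
  rwa [sub_add_cancel] at h

end Basic

/-! ### Bounds on the breaks -/

/-- all lower numbering ramification groups beyond `u₀` are trivial. -/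
def LowerBounded (u₀ : ℝ) : Prop := ∀ u, u₀ < u → I.lowerGroup u = ⊥

theorem LowerBounded.mono {u₀ u₁ : ℝ} (h : I.LowerBounded u₀) (h01 : u₀ ≤ u₁) :
    I.LowerBounded u₁ := fun u hu => h u (h01.trans_lt hu)

theorem lowerBounded_iff {u₀ : ℝ} :
    I.LowerBounded u₀ ↔ ∀ s : G, s ≠ 1 → ((I.i s).toNat : ℝ) ≤ u₀ + 1 := by
  constructor
  · intro h s hs
    by_contra hlt
    rw [not_le] at hlt
    have h1 : s ∈ I.lowerGroup (((I.i s).toNat : ℝ) - 1) := by
      rw [mem_lowerGroup, sub_add_cancel]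
      exact Or.inr le_rfl
    rw [h _ (by linarith), Subgroup.mem_bot] at h1
    exact hs h1
  · intro h u hu
    rw [eq_bot_iff]
    intro s hs
    rw [Subgroup.mem_bot]
    by_contra hs1
    rw [mem_lowerGroup] at hs
    rcases hs with hs | hs
    · exact hs1 ((I.i_eq_top s).1 hs)
    · have := h s hs1
      linarith

theorem exists_lowerBounded [Fintype G] : ∃ u₀ : ℝ, 0 ≤ u₀ ∧ I.LowerBounded u₀ := by
  refine ⟨∑ s : G, ((I.i s).toNat : ℝ), Finset.sum_nonneg fun s _ => Nat.cast_nonneg _, ?_⟩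
  rw [lowerBounded_iff]
  intro s _
  have := Finset.single_le_sum (f := fun s : G => ((I.i s).toNat : ℝ))
    (fun s _ => Nat.cast_nonneg _) (Finset.mem_univ s)
  linarith

section Upper

variable [Fintype G]

/-- all upper numbering ramification groups beyond `v₀` are trivial. -/
def UpperBounded (v₀ : ℝ) : Prop := ∀ v, v₀ < v → I.upperGroup v = ⊥

theorem UpperBounded.mono {v₀ v₁ : ℝ} (h : I.UpperBounded v₀) (h01 : v₀ ≤ v₁) :
    I.UpperBounded v₁ := fun v hv => h v (h01.trans_lt hv)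

theorem upperBounded_iff {v₀ : ℝ} : I.UpperBounded v₀ ↔ I.LowerBounded (I.psi v₀) := by
  constructor
  · intro h u hu
    rw [← I.upperGroup_phi]
    apply h
    rw [← I.phi_psi v₀]
    exact I.phi_strictMono hu
  · intro h v hv
    exact h _ (I.psi_strictMono hv)

theorem upperBounded_phi_iff {u₀ : ℝ} : I.UpperBounded (I.phi u₀) ↔ I.LowerBounded u₀ := by
  rw [upperBounded_iff, psi_phi]

theorem exists_upperBounded : ∃ v₀ : ℝ, 0 ≤ v₀ ∧ I.UpperBounded v₀ := by
  obtain ⟨u₀, h0, h⟩ := I.exists_lowerBounded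
  exact ⟨I.phi u₀, I.phi_nonneg h0, I.upperBounded_phi_iff.2 h⟩

/-- a non-trivial element forces a break: `φ(i s - 1) ≤ v₀`. -/
theorem phi_le_of_upperBounded {v₀ : ℝ} (h : I.UpperBounded v₀) {s : G} (hs : s ≠ 1) :
    I.phi (((I.i s).toNat : ℝ) - 1) ≤ v₀ := by
  by_contra hlt
  rw [not_le] at hlt
  have h1 : s ∈ I.lowerGroup (((I.i s).toNat : ℝ) - 1) := by
    rw [mem_lowerGroup, sub_add_cancel]
    exact Or.inr le_rfl
  rw [← I.upperGroup_phi, h _ hlt, Subgroup.mem_bot] at h1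
  exact hs h1

/-- if `G = G_b` then `φ(u) = u` for `u ≤ b` (`b ≥ 0`). -/
theorem phi_eq_self_of_forall_le {b : ℝ} (hb : 0 ≤ b) (hall : ∀ s : G, leENat (b + 1) (I.i s))
    {u : ℝ} (hu : u ≤ b) : I.phi u = u := by
  have hsum : ∀ x : ℝ, x ≤ b + 1 → I.trSum x = Fintype.card G * x := by
    intro x hx
    unfold trSum
    rw [Finset.sum_congr rfl fun s _ =>
      (tr_eq_self_iff (I.i s) x).2 (leENat_mono hx le_rfl (hall s)),
      Finset.sum_const, Finset.card_univ, nsmul_eq_mul]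
  have he : (I.e0 : ℝ) = Fintype.card G := by
    rw [← I.trSum_one, hsum 1 (by linarith), mul_one]
  have hc : (Fintype.card G : ℝ) ≠ 0 := Nat.cast_ne_zero.2 Fintype.card_ne_zero
  unfold phi
  rw [hsum (u + 1) (by linarith), he, mul_div_cancel_left₀ _ hc]
  ring

/-- **single break**: if `G = G_b`, some `s ≠ 1` has `i s = b + 1`, and the upper numbering is
bounded by `v₀`, then `b ≤ v₀`. -/
theorem break_le_of_upperBounded {b : ℕ} (hall : ∀ s : G, ((b + 1 : ℕ) : ℕ∞) ≤ I.i s)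
    {s : G} (hs : s ≠ 1) (hsb : I.i s = ((b + 1 : ℕ) : ℕ∞)) {v₀ : ℝ} (h : I.UpperBounded v₀) :
    (b : ℝ) ≤ v₀ := by
  have h1 := I.phi_le_of_upperBounded h hs
  rw [hsb, ENat.toNat_natCast] at h1
  have h2 : (((b + 1 : ℕ) : ℝ) - 1) = b := by push_cast; ring
  rw [h2] at h1
  rwa [I.phi_eq_self_of_forall_le (Nat.cast_nonneg b) (fun t => ?_) le_rfl] at h1
  have h3 : leENat ((b : ℝ) + 1) (((b + 1 : ℕ) : ℕ∞)) := by
    rw [leENat_coe]; push_cast; exact le_rfl
  exact leENat_mono le_rfl (hall t) h3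

end Upper

/-! ### Tame numberings -/

/-- the wild ramification group is trivial: `i s ≤ 1` for `s ≠ 1`. -/
def IsTame : Prop := ∀ s : G, s ≠ 1 → I.i s ≤ 1

theorem isTame_iff_lowerBounded : I.IsTame ↔ I.LowerBounded 0 := by
  rw [lowerBounded_iff]
  refine forall_congr' fun s => forall_congr' fun hs => ?_
  have hn : I.i s ≠ ⊤ := fun h => hs ((I.i_eq_top s).1 h)
  lift I.i s to ℕ using hn with n
  rw [ENat.toNat_natCast, zero_add]
  constructor
  · intro h; exact_mod_cast h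
  · intro h; exact_mod_cast h

section Tame

variable [Fintype G]

theorem IsTame.trSum (ht : I.IsTame) {x : ℝ} (hx : 1 ≤ x) : I.trSum x = I.e0 + (x - 1) := by
  rw [← I.trSum_one, ← sub_eq_iff_eq_add']
  unfold LowerNumbering.trSum
  rw [← Finset.sum_sub_distrib, Finset.sum_eq_single (1 : G)]
  · rw [I.i_one, tr_top, tr_top]
  · intro s _ hs
    rw [sub_eq_zero]
    exact tr_eq_of_le (n := 1) (by exact_mod_cast ht s hs) (by exact_mod_cast hx) (by norm_num)
  · intro h
    exact absurd (Finset.mem_univ _) h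

/-- **tame Herbrand function**: `φ(u) = u / e` for `u ≥ 0`. -/
theorem IsTame.phi (ht : I.IsTame) {u : ℝ} (hu : 0 ≤ u) : I.phi u = u / I.e0 := by
  have he : (I.e0 : ℝ) ≠ 0 := Nat.cast_ne_zero.2 I.e0_pos.ne'
  unfold LowerNumbering.phi
  rw [ht.trSum I (by linarith)]
  field_simp
  ring

theorem IsTame.psi (ht : I.IsTame) {v : ℝ} (hv : 0 ≤ v) : I.psi v = I.e0 * v := by
  have he : (I.e0 : ℝ) ≠ 0 := Nat.cast_ne_zero.2 I.e0_pos.ne'
  apply I.phi_strictMono.injective
  rw [phi_psi, ht.phi I (mul_nonneg (Nat.cast_nonneg _) hv), mul_div_cancel_left₀ _ he]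

theorem IsTame.upperBounded (ht : I.IsTame) : I.UpperBounded 0 := by
  rw [upperBounded_iff, I.psi_zero]
  exact I.isTame_iff_lowerBounded.1 ht

end Tame

/-! ### Towers -/

section Tower

variable [Fintype G] (H : Subgroup G) [H.Normal] [Fintype H] [Fintype (G ⧸ H)]
  (IQ : LowerNumbering (G ⧸ H))

variable {H IQ}

/-- the upper numbering of a quotient is bounded by that of the group. -/
theorem UpperBounded.quotient (hq : QuotientFormula I H IQ) {v₀ : ℝ} (h : I.UpperBounded v₀) :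
    IQ.UpperBounded v₀ := by
  intro v hv
  rw [← map_upperGroup I hq, h v hv, Subgroup.map_bot]

/-- `H^{ψ_{G/H}(v)} = H ∩ G^v`. -/
theorem upperGroup_restrict (hq : QuotientFormula I H IQ) (v : ℝ) :
    (I.restrict H).upperGroup (IQ.psi v) = (I.upperGroup v).subgroupOf H := by
  unfold upperGroup
  rw [← psi_eq_comp I hq, lowerGroup_restrict]

/-- `H^w = H ∩ G^{φ_{G/H}(w)}`. -/
theorem upperGroup_restrict' (hq : QuotientFormula I H IQ) (w : ℝ) :
    (I.restrict H).upperGroup w = (I.upperGroup (IQ.phi w)).subgroupOf H := by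
  rw [← upperGroup_restrict I hq, psi_phi]

theorem upperGroup_le_of_quotient (hq : QuotientFormula I H IQ) {v : ℝ}
    (h : IQ.upperGroup v = ⊥) : I.upperGroup v ≤ H := by
  rw [← map_upperGroup I hq, Subgroup.map_eq_bot_iff, QuotientGroup.ker_mk'] at h
  exact h

theorem upperBounded_restrict (hq : QuotientFormula I H IQ) {v₀ : ℝ} (h : I.UpperBounded v₀) :
    (I.restrict H).UpperBounded (IQ.psi v₀) := by
  intro w hw
  rw [upperGroup_restrict' I hq, h, Subgroup.bot_subgroupOf]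
  rw [← IQ.phi_psi v₀]
  exact IQ.phi_strictMono hw

/-- bounds in a tower: `G/H` bounded by `v₀` and `H` bounded by `ψ_{G/H}(v₀)` give `G` bounded by
`v₀`. -/
theorem UpperBounded.of_tower (hq : QuotientFormula I H IQ) {v₀ : ℝ} (hQ : IQ.UpperBounded v₀)
    (hH : (I.restrict H).UpperBounded (IQ.psi v₀)) : I.UpperBounded v₀ := by
  intro v hv
  have h1 : I.upperGroup v ≤ H := upperGroup_le_of_quotient I hq (hQ v hv)
  have h2 : (I.upperGroup v).subgroupOf H = ⊥ := by
    rw [← upperGroup_restrict I hq]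
    exact hH _ (IQ.psi_strictMono hv)
  rw [Subgroup.subgroupOf_eq_bot] at h2
  exact h2.eq_bot_of_le h1

/-- **tame rescaling of Herbrand's function**: `φ_G(u) = φ_H(u) / e_{G/H}` for `u ≥ 0`. -/
theorem phi_eq_div_of_tame (hq : QuotientFormula I H IQ) (ht : IQ.IsTame) {u : ℝ} (hu : 0 ≤ u) :
    I.phi u = (I.restrict H).phi u / IQ.e0 := by
  rw [phi_eq_comp I hq, ht.phi IQ ((I.restrict H).phi_nonneg hu)]

/-- **tame rescaling of the upper numbering**: `H^{e v} = H ∩ G^v` for `v ≥ 0`. -/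
theorem upperGroup_restrict_of_tame (hq : QuotientFormula I H IQ) (ht : IQ.IsTame) {v : ℝ}
    (hv : 0 ≤ v) : (I.restrict H).upperGroup (IQ.e0 * v) = (I.upperGroup v).subgroupOf H := by
  rw [← ht.psi IQ hv, upperGroup_restrict I hq]

/-- for a tame quotient `G/H`, `G^v ≤ H` for `v > 0`. -/
theorem upperGroup_le_of_tame (hq : QuotientFormula I H IQ) (ht : IQ.IsTame) {v : ℝ}
    (hv : 0 < v) : I.upperGroup v ≤ H :=
  upperGroup_le_of_quotient I hq (ht.upperBounded IQ v hv)

/-- for a tame quotient `G/H`: `G` is bounded by `v₀` iff `H` is bounded by `e_{G/H} v₀`. -/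
theorem upperBounded_iff_of_tame (hq : QuotientFormula I H IQ) (ht : IQ.IsTame) {v₀ : ℝ}
    (hv : 0 ≤ v₀) : I.UpperBounded v₀ ↔ (I.restrict H).UpperBounded (IQ.e0 * v₀) := by
  rw [← ht.psi IQ hv]
  exact ⟨upperBounded_restrict I hq, UpperBounded.of_tower I hq ((ht.upperBounded IQ).mono IQ hv)⟩

end Tower

end LowerNumbering

end Fermat.Agent.Lib.Ram
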