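/-
P-S56 block (A), ramification utilities (helper12): TRANSPORT of lower numberings along group
isomorphisms, and Herbrand's theorem / the tame tower in "HOM FORM"
(`f : G →* Q` surjective, think of the restriction `Gal(M/K) → Gal(L/K)`; `H = f.ker = Gal(M/L)`),
so that arithmetic instances never have to talk about the abstract quotient `G ⧸ H`.

On top of helper74's `Lib/Ram/Herbrand` + `Lib/Ram/HerbrandCor` (SERRE numbering).
-/
import Fermat.Agent.Lib.Ram.HerbrandCor

set_option autoImplicit false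

namespace Fermat.Agent.Lib.Ram.Transport

open Fermat.Agent.Lib.Ram Fermat.Agent.Lib.Ram.LowerNumbering

section Comap

variable {G G' : Type*} [Group G] [Group G']

/-- Transport of a lower numbering along a group isomorphism `e : G' ≃* G`. -/
def comap (I : LowerNumbering G) (e : G' ≃* G) : LowerNumbering G' where
  i s := I.i (e s)
  i_eq_top s := by rw [I.i_eq_top]; exact e.map_eq_one_iff
  i_mul s t := by rw [map_mul]; exact I.i_mul _ _
  i_inv s := by rw [map_inv]; exact I.i_inv _
  i_conj s t := by rw [map_mul, map_mul, map_inv]; exact I.i_conj _ _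

variable (I : LowerNumbering G) (e : G' ≃* G)

@[simp] theorem comap_i (s : G') : (comap I e).i s = I.i (e s) := rfl

theorem mem_comap_lowerGroup {u : ℝ} {s : G'} :
    s ∈ (comap I e).lowerGroup u ↔ e s ∈ I.lowerGroup u := Iff.rfl

theorem comap_lowerGroup (u : ℝ) :
    (comap I e).lowerGroup u = (I.lowerGroup u).comap e.toMonoidHom := by
  ext s; rfl

theorem comap_isTame_iff : (comap I e).IsTame ↔ I.IsTame := by
  constructor
  · intro h s hs
    have := h (e.symm s) (by simpa using hs)
    simpa using this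
  · intro h s hs
    exact h (e s) (by simpa using hs)

variable [Fintype G] [Fintype G']

theorem comap_trSum (x : ℝ) : (comap I e).trSum x = I.trSum x := by
  unfold trSum
  exact Fintype.sum_equiv e.toEquiv _ _ fun s => rfl

theorem comap_e0 : (comap I e).e0 = I.e0 := by
  have h1 : ((comap I e).e0 : ℝ) = I.e0 := by
    rw [← trSum_one, ← trSum_one, comap_trSum]
  exact_mod_cast h1

theorem comap_phi (u : ℝ) : (comap I e).phi u = I.phi u := by
  unfold phi
  rw [comap_trSum, comap_e0]

theorem comap_psi (v : ℝ) : (comap I e).psi v = I.psi v := by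
  apply I.phi_strictMono.injective
  rw [phi_psi, ← comap_phi I e, phi_psi]

theorem mem_comap_upperGroup {v : ℝ} {s : G'} :
    s ∈ (comap I e).upperGroup v ↔ e s ∈ I.upperGroup v := by
  unfold upperGroup
  rw [comap_psi]
  exact Iff.rfl

theorem comap_upperGroup (v : ℝ) :
    (comap I e).upperGroup v = (I.upperGroup v).comap e.toMonoidHom := by
  ext s
  exact mem_comap_upperGroup I e

theorem comap_upperBounded_iff {v₀ : ℝ} : (comap I e).UpperBounded v₀ ↔ I.UpperBounded v₀ := by
  unfold UpperBounded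
  refine forall₂_congr fun v _ => ?_
  rw [comap_upperGroup, Subgroup.eq_bot_iff_forall, Subgroup.eq_bot_iff_forall]
  constructor
  · intro h s hs
    have := h (e.symm s) (by simpa [Subgroup.mem_comap] using hs)
    simpa using this
  · intro h s hs
    have := h (e s) (by simpa [Subgroup.mem_comap] using hs)
    simpa using this

end Comap

section HomForm

variable {G Q : Type*} [Group G] [Group Q] [Fintype G] [Fintype Q]
  (I : LowerNumbering G) (f : G →* Q) (IQ : LowerNumbering Q) [Fintype f.ker]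

/-- **Serre IV Prop. 3 in hom form**: for a surjective `f : G →* Q` (restriction
`Gal(M/K) → Gal(L/K)`) with kernel `H = Gal(M/L)`:
`e_H · i_Q(σ) = ∑_{f s = σ} i_G(s)` for `σ ≠ 1`. -/
def HomFormula : Prop :=
  ∀ σ : Q, σ ≠ 1 → open Classical in
    ((IQ.i σ).toNat : ℝ) * (I.restrict f.ker).e0
      = ∑ s ∈ Finset.univ.filter (fun s : G => f s = σ), ((I.i s).toNat : ℝ)

variable {I f IQ} [Fintype (G ⧸ f.ker)]

omit [Fintype Q] in
/-- The hom form implies the quotient form, for the numbering transported to `G ⧸ ker f`. -/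
theorem HomFormula.quotientFormula (h : HomFormula I f IQ) (hf : Function.Surjective f) :
    QuotientFormula I f.ker (comap IQ (QuotientGroup.quotientKerEquivOfSurjective f hf)) := by
  classical
  intro σ hσ
  set e := QuotientGroup.quotientKerEquivOfSurjective f hf with he
  have hσ' : e σ ≠ 1 := by
    intro h1; exact hσ (e.map_eq_one_iff.mp h1)
  have h1 := h (e σ) hσ'
  rw [comap_i, h1]
  apply Finset.sum_congr _ fun _ _ => rfl
  ext s
  rw [Finset.mem_filter, mem_fiber]
  constructor
  · rintro ⟨-, hs⟩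
    apply e.injective
    rw [← hs]
    rfl
  · intro hs
    refine ⟨Finset.mem_univ _, ?_⟩
    rw [← hs]
    rfl

variable (hf : Function.Surjective f)

include hf in
/-- Herbrand in hom form: `f (G^v) = Q^v`. -/
theorem HomFormula.map_upperGroup (h : HomFormula I f IQ) (v : ℝ) :
    (I.upperGroup v).map f = IQ.upperGroup v := by
  set e := QuotientGroup.quotientKerEquivOfSurjective f hf with he
  have h1 := LowerNumbering.map_upperGroup I (h.quotientFormula hf) v
  have hfe : f = e.toMonoidHom.comp (QuotientGroup.mk' f.ker) := by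
    ext s; rfl
  conv_lhs => rw [hfe, ← Subgroup.map_map, h1, comap_upperGroup]
  exact Subgroup.map_comap_eq_self_of_surjective e.surjective _

include hf in
theorem HomFormula.upperBounded (h : HomFormula I f IQ) {v₀ : ℝ} (hb : I.UpperBounded v₀) :
    IQ.UpperBounded v₀ := by
  intro v hv
  rw [← h.map_upperGroup hf, hb v hv, Subgroup.map_bot]

include hf in
theorem HomFormula.e0_eq_mul (h : HomFormula I f IQ) :
    I.e0 = IQ.e0 * (I.restrict f.ker).e0 := by
  rw [LowerNumbering.e0_eq_mul I (h.quotientFormula hf), comap_e0]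

include hf in
/-- Tame rescaling in hom form: for `Q` tame, `G` is bounded by `v₀` iff `ker f` is bounded by
`e_Q · v₀`. -/
theorem HomFormula.upperBounded_iff_of_tame (h : HomFormula I f IQ) (ht : IQ.IsTame) {v₀ : ℝ}
    (hv : 0 ≤ v₀) : I.UpperBounded v₀ ↔ (I.restrict f.ker).UpperBounded (IQ.e0 * v₀) := by
  have := LowerNumbering.upperBounded_iff_of_tame I (h.quotientFormula hf)
    ((comap_isTame_iff IQ _).2 ht) hv
  rwa [comap_e0] at this

end HomForm

section Tower

variable {G Q Q' : Type*} [Group G] [Group Q] [Group Q'] [Fintype G] [Fintype Q] [Fintype Q']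
  {I : LowerNumbering G} {f : G →* Q} {IQ : LowerNumbering Q} [Fintype f.ker]
  [Fintype (G ⧸ f.ker)] {g : f.ker →* Q'} {IL : LowerNumbering Q'} [Fintype g.ker]
  [Fintype (f.ker ⧸ g.ker)]

/-- **Tame tower, hom form** (`K ⊆ L ⊆ L' ⊆ M`, `f : Gal(M/K) → Gal(L/K)` tame,
`g : Gal(M/L) → Gal(L'/L)` with a single lower break `b`): if `Gal(M/K)` is upper-bounded by
`v₀ ≥ 0` then `b ≤ e_{L/K} · v₀`. -/
theorem break_le_mul_of_upperBounded (hf : Function.Surjective f) (h : HomFormula I f IQ)
    (ht : IQ.IsTame) (hg : Function.Surjective g) (h' : HomFormula (I.restrict f.ker) g IL)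
    {b : ℕ} (hall : ∀ s : Q', ((b + 1 : ℕ) : ℕ∞) ≤ IL.i s) {s : Q'} (hs : s ≠ 1)
    (hsb : IL.i s = ((b + 1 : ℕ) : ℕ∞)) {v₀ : ℝ} (hv : 0 ≤ v₀) (hb : I.UpperBounded v₀) :
    (b : ℝ) ≤ IQ.e0 * v₀ :=
  IL.break_le_of_upperBounded hall hs hsb
    (h'.upperBounded hg ((h.upperBounded_iff_of_tame hf ht hv).1 hb))

/-- **Fontaine's bound with slack, hom form**: `e_{L/K} = (p-1) m`, the layer `L'/L` ramified with
single break `b`, `Gal(M/K)` upper-bounded by `1/(p-1) + 1/e_{M/K}`  ⟹  `b ≤ m`. -/
theorem break_le_of_fontaine (hf : Function.Surjective f) (h : HomFormula I f IQ)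
    (ht : IQ.IsTame) (hg : Function.Surjective g) (h' : HomFormula (I.restrict f.ker) g IL)
    {b : ℕ} (hall : ∀ s : Q', ((b + 1 : ℕ) : ℕ∞) ≤ IL.i s) {s : Q'} (hs : s ≠ 1)
    (hsb : IL.i s = ((b + 1 : ℕ) : ℕ∞)) {p m : ℕ} (hp : 2 ≤ p) (he : IQ.e0 = (p - 1) * m)
    (hb : I.UpperBounded (1 / ((p : ℝ) - 1) + 1 / I.e0)) : b ≤ m := by
  classical
  have hp1 : (0 : ℝ) < (p : ℝ) - 1 := by
    have : (2 : ℝ) ≤ p := by exact_mod_cast hp
    linarith
  have hI0 : (0 : ℝ) < I.e0 := by exact_mod_cast I.e0_pos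
  have hv : (0 : ℝ) ≤ 1 / ((p : ℝ) - 1) + 1 / I.e0 := by positivity
  have h1 := break_le_mul_of_upperBounded hf h ht hg h' hall hs hsb hv hb
  -- `e_{L/K} < e_{M/K}` because the layer is ramified
  have h2 : 2 ≤ IL.e0 := by
    unfold LowerNumbering.e0
    have hsub : ({1, s} : Finset Q') ⊆ Finset.univ.filter fun t : Q' => 1 ≤ IL.i t := by
      intro t ht'
      rw [Finset.mem_insert, Finset.mem_singleton] at ht'
      rw [Finset.mem_filter]
      refine ⟨Finset.mem_univ _, ?_⟩
      rcases ht' with rfl | rfl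
      · rw [IL.i_one]; exact le_top
      · rw [hsb]; exact_mod_cast Nat.le_add_left 1 b
    have hcard : ({1, s} : Finset Q').card = 2 := Finset.card_pair (Ne.symm hs)
    exact hcard ▸ Finset.card_le_card hsub
  have h3 : (I.restrict f.ker).e0 = IL.e0 * ((I.restrict f.ker).restrict g.ker).e0 :=
    h'.e0_eq_mul hg
  have h4 : 0 < ((I.restrict f.ker).restrict g.ker).e0 := e0_pos _
  have h5 : 2 ≤ (I.restrict f.ker).e0 := by rw [h3]; nlinarith
  have h6 : 0 < IQ.e0 := e0_pos _
  have hlt' : IQ.e0 < I.e0 := by rw [h.e0_eq_mul hf]; nlinarith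
  have hlt : (IQ.e0 : ℝ) < I.e0 := by exact_mod_cast hlt'
  have heR : (IQ.e0 : ℝ) = ((p : ℝ) - 1) * m := by
    rw [he, Nat.cast_mul, Nat.cast_sub (by omega : 1 ≤ p), Nat.cast_one]
  have h7 : (IQ.e0 : ℝ) * (1 / ((p : ℝ) - 1) + 1 / I.e0) = m + IQ.e0 / I.e0 := by
    rw [mul_add, heR]
    field_simp
  rw [h7] at h1
  have hε : (IQ.e0 : ℝ) / I.e0 < 1 := (div_lt_one hI0).2 hlt
  by_contra hlt2
  rw [not_le] at hlt2
  have : (m : ℝ) + 1 ≤ b := by exact_mod_cast hlt2
  linarith

/-- **Consumer form (Kummer level), hom form**: with the Kummer break formula `b + i = p m`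
(`m = e_L/(p-1)`, `i` the level of the Kummer generator), Fontaine's bound forces `e_L ≤ i`. -/
theorem level_ge_of_fontaine (hf : Function.Surjective f) (h : HomFormula I f IQ)
    (ht : IQ.IsTame) (hg : Function.Surjective g) (h' : HomFormula (I.restrict f.ker) g IL)
    {b : ℕ} (hall : ∀ s : Q', ((b + 1 : ℕ) : ℕ∞) ≤ IL.i s) {s : Q'} (hs : s ≠ 1)
    (hsb : IL.i s = ((b + 1 : ℕ) : ℕ∞)) {p m i : ℕ} (hp : 2 ≤ p) (he : IQ.e0 = (p - 1) * m)
    (hbi : b + i = p * m)
    (hb : I.UpperBounded (1 / ((p : ℝ) - 1) + 1 / I.e0)) : IQ.e0 ≤ i := by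
  have hbm := break_le_of_fontaine hf h ht hg h' hall hs hsb hp he hb
  rw [he]
  have : p * m = (p - 1) * m + m := by
    obtain ⟨q, rfl⟩ : ∃ q, p = q + 1 := ⟨p - 1, by omega⟩
    simp [Nat.add_mul]
  omega

end Tower

end Fermat.Agent.Lib.Ram.Transport
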