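import Fermat.Agent.Lib.Ram.GaloisLower
import Fermat.Agent.Lib.Ram.QuotientCore
import Fermat.Agent.Lib.Ram.Monogenic
import Fermat.Agent.Lib.Ram.Transport
import Fermat.Agent.Lib.CFT.Local.DVRVal

/-!
helper74 (P-S56, block (A) LOCAL).  **Serre, Local Fields IV Prop. 3** for a tower `K ⊆ L ⊆ M` of
finite Galois extensions of the fraction field of a discrete valuation ring `A`, with rings of
integers `B ⊆ C` (discrete valuation rings), in helper12's HOM FORM:

  `HomFormula (lowerNumbering A K M C) (AlgEquiv.restrictNormalHom L) (lowerNumbering A K L B)`,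

i.e. `e_{M/L} · i_{L/K}(σ) = ∑_{s ↦ σ} i_{M/K}(s)`.
-/

set_option autoImplicit false
set_option linter.unusedSectionVars false

open Polynomial IsLocalRing IsDiscreteValuationRing

namespace Fermat.Agent.Lib.Ram.Prop3Hom

open Fermat.Agent.Lib.Ram Fermat.Agent.Lib.Ram.GaloisLower Fermat.Agent.Lib.Ram.QuotientCore
  Fermat.Agent.Lib.Ram.Transport

section AddVal

variable {B : Type*} [CommRing B] [IsDomain B] [IsDiscreteValuationRing B]

theorem addVal_eq_of_associated {a b : B} (h : Associated a b) : addVal B a = addVal B b :=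
  (addVal_eq_iff_associated a b).2 h

theorem addVal_prod {ι : Type*} (s : Finset ι) (f : ι → B) :
    addVal B (∏ i ∈ s, f i) = ∑ i ∈ s, addVal B (f i) := by
  classical
  induction s using Finset.induction_on with
  | empty => simp
  | insert a s ha ih => rw [Finset.prod_insert ha, Finset.sum_insert ha, addVal_mul, ih]

end AddVal

section Tower

variable (A K L M B C : Type*)
  [CommRing A] [IsDomain A] [IsDiscreteValuationRing A]
  [Field K] [Algebra A K] [IsFractionRing A K]
  [Field L] [Algebra K L] [FiniteDimensional K L] [IsGalois K L] [Algebra A L]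
  [IsScalarTower A K L]
  [Field M] [Algebra K M] [FiniteDimensional K M] [IsGalois K M] [Algebra A M]
  [IsScalarTower A K M]
  [Algebra L M] [IsScalarTower K L M]
  [CommRing B] [IsDomain B] [IsDiscreteValuationRing B] [Algebra A B] [Algebra B L]
  [IsScalarTower A B L] [IsIntegralClosure B A L]
  [CommRing C] [IsDomain C] [IsDiscreteValuationRing C] [Algebra A C] [Algebra C M]
  [IsScalarTower A C M] [IsIntegralClosure C A M]
  [Algebra B C] [IsScalarTower A B C] [Algebra B M] [IsScalarTower B C M] [IsScalarTower B L M]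

/-- the restriction map `Gal(M/K) → Gal(L/K)`. -/
noncomputable abbrev res : (M ≃ₐ[K] M) →* (L ≃ₐ[K] L) := AlgEquiv.restrictNormalHom L

variable {A K L M B C}

/-- **compatibility of the actions**: `s (b) = (s|_L)(b)` for `b ∈ B ⊆ C`. -/
theorem galRestrict_algebraMap (s : M ≃ₐ[K] M) (b : B) :
    galRestrict A K M C s (algebraMap B C b) =
      algebraMap B C (galRestrict A K L B (res K L M s) b) := by
  apply IsIntegralClosure.algebraMap_injective C A M
  rw [algebraMap_galRestrict_apply, ← IsScalarTower.algebraMap_apply B C M,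
    ← IsScalarTower.algebraMap_apply B C M, IsScalarTower.algebraMap_apply B L M,
    IsScalarTower.algebraMap_apply B L M, algebraMap_galRestrict_apply]
  exact (AlgEquiv.restrictNormal_commutes s L _).symm


/-- elements of `Gal(M/L) = ker res` fix `B`. -/
theorem galRestrict_algebraMap_of_mem_ker {t : M ≃ₐ[K] M} (ht : t ∈ (res K L M).ker) (b : B) :
    galRestrict A K M C t (algebraMap B C b) = algebraMap B C b := by
  rw [galRestrict_algebraMap (L := L), MonoidHom.mem_ker.1 ht, galRestrict_one_apply]

/-- an automorphism is determined by its value on a generator of `C` over `A`. -/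
theorem eq_of_galRestrict_eq {x : C} (hx : Algebra.adjoin A {x} = ⊤) {s t : M ≃ₐ[K] M}
    (h : galRestrict A K M C s x = galRestrict A K M C t x) : s = t := by
  apply (galRestrict A K M C).injective
  apply AlgEquiv.coe_toAlgHom_injective
  apply AlgHom.ext_of_adjoin_eq_top hx
  intro z hz
  rw [Set.mem_singleton_iff] at hz
  subst hz
  exact h

omit [IsDomain A] [IsDiscreteValuationRing A] in
theorem exists_aeval_eq {R : Type*} [CommRing R] [Algebra A R] {x : R}
    (hx : Algebra.adjoin A {x} = ⊤) (c : R) : ∃ q : A[X], aeval x q = c := by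
  have hc : c ∈ (aeval x : A[X] →ₐ[A] R).range := by
    rw [← Algebra.adjoin_singleton_eq_range_aeval, hx]; trivial
  exact hc

/-- `L`-linear automorphisms of `M` restrict trivially to `L`. -/
theorem restrictScalars_mem_ker (τ : M ≃ₐ[L] M) : τ.restrictScalars K ∈ (res K L M).ker := by
  rw [MonoidHom.mem_ker]
  ext z
  apply (algebraMap L M).injective
  show algebraMap L M ((τ.restrictScalars K).restrictNormal L z) = _
  rw [AlgEquiv.restrictNormal_commutes]
  show τ (algebraMap L M z) = algebraMap L M ((1 : L ≃ₐ[K] L) z)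
  rw [τ.commutes]
  rfl

/-- **the invariants of `Gal(M/L)` in `C` are `B`**. -/
theorem exists_algebraMap_eq_of_fixed (c : C)
    (hc : ∀ t ∈ (res K L M).ker, galRestrict A K M C t c = c) : ∃ b : B, algebraMap B C b = c := by
  have : IsGalois L M := IsGalois.tower_top_of_isGalois K L M
  have : FiniteDimensional L M := FiniteDimensional.right K L M
  have : IsScalarTower A L M := IsScalarTower.of_algebraMap_eq fun a => by
    rw [IsScalarTower.algebraMap_apply A K M, IsScalarTower.algebraMap_apply K L M,
      ← IsScalarTower.algebraMap_apply A K L]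
  have hm : algebraMap C M c ∈ Set.range (algebraMap L M) := by
    rw [IsGalois.mem_range_algebraMap_iff_fixed]
    intro τ
    have h1 := hc _ (restrictScalars_mem_ker (K := K) τ)
    have h2 := algebraMap_galRestrict_apply A (τ.restrictScalars K) c
    rw [h1] at h2
    exact h2.symm
  obtain ⟨z, hz⟩ := hm
  have hint : IsIntegral A z := by
    rw [← isIntegral_algebraMap_iff (algebraMap L M).injective, hz]
    exact (IsIntegralClosure.isIntegral A M c).map (IsScalarTower.toAlgHom A C M)
  obtain ⟨b, hb⟩ := (IsIntegralClosure.isIntegral_iff (A := B)).1 hint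
  refine ⟨b, ?_⟩
  apply IsIntegralClosure.algebraMap_injective C A M
  rw [← IsScalarTower.algebraMap_apply B C M, IsScalarTower.algebraMap_apply B L M, hb, hz]


end Tower

section RamIdx

open Fermat.Agent.Lib.CFT.Local

variable (B C : Type*) [CommRing B] [IsDomain B] [IsDiscreteValuationRing B]
  [CommRing C] [IsDomain C] [IsDiscreteValuationRing C] [Algebra B C]
  [Module.Finite B C] [Module.IsTorsionFree B C]

/-- **valuations in a finite extension of discrete valuation rings**:
`v_C(b) = e(C/B) · v_B(b)`. -/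
theorem addVal_algebraMap (b : B) :
    addVal C (algebraMap B C b) = ramIdx B C • addVal B b := by
  have hloc := isLocalHom_of_finite B C
  have hinj : Function.Injective (algebraMap B C) := FaithfulSMul.algebraMap_injective B C
  by_cases hb : b = 0
  · subst hb
    rw [map_zero, addVal_zero, addVal_zero, nsmul_eq_mul,
      ENat.mul_top (by exact_mod_cast (ramIdx_pos B C).ne')]
  obtain ⟨ϖ, hϖ⟩ := exists_irreducible B
  obtain ⟨ϖ', hϖ'⟩ := exists_irreducible C
  obtain ⟨n, u, rfl⟩ := eq_unit_mul_pow_irreducible hb hϖ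
  -- the uniformiser of `B` has valuation `e` in `C`
  have h1 : addVal C (algebraMap B C ϖ) = (ramIdx B C : ℕ∞) := by
    have h2 := map_maximalIdeal_eq_pow B C
    rw [hϖ.maximalIdeal_eq, hϖ'.maximalIdeal_eq, Ideal.map_span, Set.image_singleton,
      Ideal.span_singleton_pow, Ideal.span_singleton_eq_span_singleton] at h2
    rw [addVal_eq_of_associated h2, addVal_pow, addVal_uniformizer hϖ']
    simp
  rw [map_mul, map_pow, addVal_mul, addVal_mul, addVal_pow, addVal_pow, h1,
    addVal_uniformizer hϖ, addVal_eq_zero_of_unit,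
    show addVal C (algebraMap B C (u : B)) = 0 from
      addVal_eq_zero_of_unit (Units.map (algebraMap B C).toMonoidHom u)]
  simp [mul_comm]

end RamIdx

section Inj

theorem algebraMap_injective_of_tower (A K M C : Type*) [CommRing A] [Field K] [Algebra A K]
    [IsFractionRing A K] [Field M] [Algebra K M] [Algebra A M] [IsScalarTower A K M]
    [CommRing C] [Algebra A C] [Algebra C M] [IsScalarTower A C M] :
    Function.Injective (algebraMap A C) := by
  have h : Function.Injective (algebraMap A M) := by
    rw [IsScalarTower.algebraMap_eq A K M]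
    exact (algebraMap K M).injective.comp (IsFractionRing.injective A K)
  rw [IsScalarTower.algebraMap_eq A C M] at h
  exact Function.Injective.of_comp h

end Inj

section Tower2


open Fermat.Agent.Lib.CFT.Local

variable {A K L M B C : Type*}
  [CommRing A] [IsDomain A] [IsDiscreteValuationRing A]
  [Field K] [Algebra A K] [IsFractionRing A K]
  [Field L] [Algebra K L] [FiniteDimensional K L] [IsGalois K L] [Algebra A L]
  [IsScalarTower A K L]
  [Field M] [Algebra K M] [FiniteDimensional K M] [IsGalois K M] [Algebra A M]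
  [IsScalarTower A K M]
  [Algebra L M] [IsScalarTower K L M]
  [CommRing B] [IsDomain B] [IsDiscreteValuationRing B] [Algebra A B] [Algebra B L]
  [IsScalarTower A B L] [IsIntegralClosure B A L]
  [CommRing C] [IsDomain C] [IsDiscreteValuationRing C] [Algebra A C] [Algebra C M]
  [IsScalarTower A C M] [IsIntegralClosure C A M]
  [Algebra B C] [IsScalarTower A B C] [Algebra B M] [IsScalarTower B C M] [IsScalarTower B L M]
  [Module.Finite B C] [Module.IsTorsionFree B C]

/-- **Serre IV Prop. 3**, `ℕ∞`-form: `e(C/B) · i_{L/K}(s₀|_L) = ∑_{t ∈ Gal(M/L)} i_{M/K}(s₀ t)`. -/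
theorem ramIdx_smul_iG_eq_sum [Fintype (res K L M).ker] {x : C} (hx : Algebra.adjoin A {x} = ⊤)
    {y : B} (hy : Algebra.adjoin A {y} = ⊤) (s₀ : M ≃ₐ[K] M) :
    ramIdx B C • iG A K L B (res K L M s₀) =
      ∑ t : (res K L M).ker, iG A K M C (s₀ * (t : M ≃ₐ[K] M)) := by
  let _ : MulSemiringAction (M ≃ₐ[K] M) C :=
    MulSemiringAction.compHom C (galRestrict A K M C).toMonoidHom
  have hsmul : ∀ (s : M ≃ₐ[K] M) (c : C), s • c = galRestrict A K M C s c := fun _ _ => rfl
  have hInv : ∀ q : A[X], InvCoeff (M ≃ₐ[K] M) (q.map (algebraMap A C)) := by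
    intro q n s
    rw [coeff_map, hsmul]
    exact (galRestrict A K M C s).commutes _
  obtain ⟨q, hq⟩ := exists_aeval_eq hx (algebraMap B C y)
  have key := associated_smul_sub_prod (G := M ≃ₐ[K] M) (res K L M).ker x (algebraMap B C y)
    (fun t => galRestrict_algebraMap_of_mem_ker t.2 y)
    (fun t t' h => Subtype.ext (eq_of_galRestrict_eq hx h))
    (hInv q) (by rw [eval_map_algebraMap]; exact hq)
    (by
      intro c hc
      obtain ⟨b, rfl⟩ := exists_algebraMap_eq_of_fixed (A := A) (K := K) (L := L) (B := B) c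
        (fun t ht => hc ⟨t, ht⟩)
      obtain ⟨q', hq'⟩ := exists_aeval_eq hy b
      refine ⟨q'.map (algebraMap A C), hInv q', ?_⟩
      rw [eval_map_algebraMap, ← hq', aeval_algebraMap_apply])
    s₀
  have h1 := addVal_eq_of_associated key
  rw [addVal_prod, hsmul, galRestrict_algebraMap (L := L), ← map_sub, addVal_algebraMap,
    ← iG_eq_addVal_of_adjoin y hy] at h1
  rw [h1]
  refine Finset.sum_congr rfl fun t _ => ?_
  rw [hsmul, addVal_sub_comm, ← iG_eq_addVal_of_adjoin x hx]


/-- **the ramification index is the order of the inertia group**: `e(C/B) = |Gal(M/L)_0|`. -/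
theorem ramIdx_eq_e0 [Fintype (res K L M).ker] [Finite (ResidueField B)] :
    ramIdx B C = ((lowerNumbering A K M C).restrict (res K L M).ker).e0 := by
  classical
  let _ : MulSemiringAction (M ≃ₐ[K] M) C :=
    MulSemiringAction.compHom C (galRestrict A K M C).toMonoidHom
  have hloc := isLocalHom_of_finite B C
  have hgal : IsGaloisGroup (res K L M).ker B C :=
    { faithful := ⟨fun {t t'} h => Subtype.ext ((galRestrict A K M C).injective
        (AlgEquiv.ext fun c => h c))⟩
      commutes := ⟨fun t b c => by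
        show galRestrict A K M C t (b • c) = b • galRestrict A K M C t c
        rw [Algebra.smul_def, Algebra.smul_def, map_mul,
          galRestrict_algebraMap_of_mem_ker t.2]⟩
      isInvariant := ⟨fun c hc => exists_algebraMap_eq_of_fixed (A := A) (K := K) (L := L)
        (B := B) c (fun t ht => hc ⟨t, ht⟩)⟩ }
  have hfin : Finite (B ⧸ IsLocalRing.maximalIdeal B) :=
    inferInstanceAs (Finite (ResidueField B))
  have h1 := Ideal.card_inertia_eq_ramificationIdxIn (G := (res K L M).ker)
    (IsLocalRing.maximalIdeal B) (IsLocalRing.maximalIdeal C)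
  rw [Ideal.ramificationIdxIn_eq_ramificationIdx (IsLocalRing.maximalIdeal B)
    (IsLocalRing.maximalIdeal C) (res K L M).ker] at h1
  have hmem : ∀ t : (res K L M).ker, t ∈ Ideal.inertia (res K L M).ker (IsLocalRing.maximalIdeal C) ↔
      1 ≤ ((lowerNumbering A K M C).restrict (res K L M).ker).i t := by
    intro t
    rw [LowerNumbering.restrict_i, ← LowerNumbering.mem_lowerGroup_zero, mem_lowerGroup_zero_iff]
    rfl
  unfold ramIdx LowerNumbering.e0
  rw [← h1, Nat.card_eq_fintype_card, Fintype.card_subtype]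
  congr 1
  ext t
  simp only [Finset.mem_filter, Finset.mem_univ, true_and]
  exact hmem t


/-- **Serre, Local Fields IV Prop. 3** (hom form): for `K ⊆ L ⊆ M`, `M/K` and `L/K` Galois, with
monogenic rings of integers `C = A[x]`, `B = A[y]`:
`e_{M/L} · i_{L/K}(σ) = ∑_{s ↦ σ} i_{M/K}(s)`, `e_{M/L} = |Gal(M/L)_0|`. -/
theorem homFormula_of_adjoin [Fintype (M ≃ₐ[K] M)] [Fintype (L ≃ₐ[K] L)]
    [Fintype (res K L M).ker] [Finite (ResidueField B)]
    {x : C} (hx : Algebra.adjoin A {x} = ⊤) {y : B} (hy : Algebra.adjoin A {y} = ⊤) :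
    HomFormula (lowerNumbering A K M C) (res K L M) (lowerNumbering A K L B) := by
  classical
  intro σ hσ
  obtain ⟨s₀, hs₀⟩ := AlgEquiv.restrictNormalHom_surjective (F := K) (K₁ := L) M σ
  have h := ramIdx_smul_iG_eq_sum (A := A) (K := K) (L := L) (M := M) (B := B) (C := C) hx hy s₀
  have hs₀' : res K L M s₀ = σ := hs₀
  rw [hs₀'] at h
  have hres : ∀ t : (res K L M).ker, res K L M (s₀ * (t : M ≃ₐ[K] M)) = σ := by
    intro t
    rw [map_mul, hs₀', MonoidHom.mem_ker.1 t.2, mul_one]
  -- finiteness of all the terms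
  have hL : iG A K L B σ ≠ ⊤ := fun h1 => hσ ((iG_eq_top_iff σ).1 h1)
  have hM : ∀ t : (res K L M).ker, iG A K M C (s₀ * (t : M ≃ₐ[K] M)) ≠ ⊤ := by
    intro t h1
    apply hσ
    rw [← hres t, (iG_eq_top_iff _).1 h1, map_one]
  have h2 : (ramIdx B C * (iG A K L B σ).toNat : ℕ) =
      ∑ t : (res K L M).ker, (iG A K M C (s₀ * (t : M ≃ₐ[K] M))).toNat := by
    have h3 : ((ramIdx B C * (iG A K L B σ).toNat : ℕ) : ℕ∞) =
        ((∑ t : (res K L M).ker, (iG A K M C (s₀ * (t : M ≃ₐ[K] M))).toNat : ℕ) : ℕ∞) := by
      rw [Nat.cast_mul, ENat.natCast_toNat hL, Nat.cast_sum,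
        Finset.sum_congr rfl fun t _ => ENat.natCast_toNat (hM t), ← h, nsmul_eq_mul]
    exact_mod_cast h3
  rw [lowerNumbering_i, ← ramIdx_eq_e0 (A := A) (K := K) (L := L) (M := M) (B := B) (C := C),
    mul_comm]
  have h4 : ((ramIdx B C : ℝ) * ((iG A K L B σ).toNat : ℝ)) =
      ∑ t : (res K L M).ker, ((iG A K M C (s₀ * (t : M ≃ₐ[K] M))).toNat : ℝ) := by
    exact_mod_cast h2
  rw [h4]
  refine Finset.sum_bij (fun (t : (res K L M).ker) _ => s₀ * (t : M ≃ₐ[K] M)) ?_ ?_ ?_ ?_
  · intro t _
    rw [Finset.mem_filter]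
    exact ⟨Finset.mem_univ _, hres t⟩
  · intro t _ t' _ h5
    exact Subtype.ext (mul_left_cancel h5)
  · intro s hs
    rw [Finset.mem_filter] at hs
    have hk : s₀⁻¹ * s ∈ (res K L M).ker := by
      rw [MonoidHom.mem_ker, map_mul, map_inv, hs₀', hs.2, inv_mul_cancel]
    exact ⟨⟨s₀⁻¹ * s, hk⟩, Finset.mem_univ _, by simp⟩
  · intro t _
    rfl


/-- **Serre, Local Fields IV Prop. 3** (hom form), with monogenicity supplied by Serre III §6
Prop. 12 (separable residue field extensions). -/
theorem homFormula [Fintype (M ≃ₐ[K] M)] [Fintype (L ≃ₐ[K] L)]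
    [Fintype (res K L M).ker] [Finite (ResidueField B)]
    [Module.Finite A B] [IsLocalHom (algebraMap A B)]
    [Algebra.IsSeparable (ResidueField A) (ResidueField B)]
    [Module.Finite A C] [IsLocalHom (algebraMap A C)]
    [Algebra.IsSeparable (ResidueField A) (ResidueField C)] :
    HomFormula (lowerNumbering A K M C) (res K L M) (lowerNumbering A K L B) := by
  obtain ⟨x, hx⟩ := Monogenic.exists_adjoin_eq_top A C
    (algebraMap_injective_of_tower A K M C)
  obtain ⟨y, hy⟩ := Monogenic.exists_adjoin_eq_top A B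
    (algebraMap_injective_of_tower A K L B)
  exact homFormula_of_adjoin hx hy

/-- **Herbrand's theorem for Galois groups**: the upper numbering ramification groups of
`Gal(M/K)` map ONTO those of `Gal(L/K)`. -/
theorem map_upperGroup [Fintype (M ≃ₐ[K] M)] [Fintype (L ≃ₐ[K] L)]
    [Fintype (res K L M).ker] [Fintype ((M ≃ₐ[K] M) ⧸ (res K L M).ker)]
    [Finite (ResidueField B)]
    [Module.Finite A B] [IsLocalHom (algebraMap A B)]
    [Algebra.IsSeparable (ResidueField A) (ResidueField B)]
    [Module.Finite A C] [IsLocalHom (algebraMap A C)]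
    [Algebra.IsSeparable (ResidueField A) (ResidueField C)] (v : ℝ) :
    ((lowerNumbering A K M C).upperGroup v).map (res K L M) =
      (lowerNumbering A K L B).upperGroup v :=
  HomFormula.map_upperGroup
    (AlgEquiv.restrictNormalHom_surjective (F := K) (K₁ := L) M) homFormula v

/-- a bound on the upper numbering of `Gal(M/K)` passes to `Gal(L/K)`. -/
theorem upperBounded_of_upperBounded [Fintype (M ≃ₐ[K] M)] [Fintype (L ≃ₐ[K] L)]
    [Fintype (res K L M).ker] [Fintype ((M ≃ₐ[K] M) ⧸ (res K L M).ker)]
    [Finite (ResidueField B)]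
    [Module.Finite A B] [IsLocalHom (algebraMap A B)]
    [Algebra.IsSeparable (ResidueField A) (ResidueField B)]
    [Module.Finite A C] [IsLocalHom (algebraMap A C)]
    [Algebra.IsSeparable (ResidueField A) (ResidueField C)] {v₀ : ℝ}
    (h : (lowerNumbering A K M C).UpperBounded v₀) :
    (lowerNumbering A K L B).UpperBounded v₀ :=
  HomFormula.upperBounded
    (AlgEquiv.restrictNormalHom_surjective (F := K) (K₁ := L) M) homFormula h

end Tower2

end Fermat.Agent.Lib.Ram.Prop3Hom
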