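import Mathlib

/-!
helper79 (P-S56, block (A) LOCAL, Mathlib-only leaf).  FONTAINE, *Il n'y a pas de variété
abélienne sur ℤ*, Prop. 1.5 **direction (ii)**: "`(P_m)` implies `m > u_{L/K} - 1/e_{L/K}`", in a
VALUATION-GENERIC form (no completeness, no Galois group, no field of definition: only a valued
field `Ω` and a finite family of conjugates).

Setting (multiplicative valuation `v : Valuation Ω Γ₀`): `a : ι → Ω` are the conjugates over the
maximal unramified subfield `K₀` of a uniformiser `π_L = a o` of `L`; `q = v π_L` (`0 < q < 1`);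
`S : Finset ι` is the orbit of `a o` under the LAST ramification group `H₀` (`h = #S ≥ 2`):
all mutual distances inside `S` are `q ^ k`, where `k / e_L = i_max` (`k ≥ 2`: WILD case), and
the other conjugates are at distance `q ^ n σ` from `a o`, `n σ < k`.

`y` is a root of `Q + c X ^ (h - 1)`, `Q = ∏ τ ∈ S, (X - a τ)`, `c = (∏ τ ∈ S, a τ) ^ (k - 1)`.

* `val_root` : `v y = q`.
* `val_root_sub` : for `τ ∈ S`: `q ^ k < v (y - a τ) < q ^ (k - 1)` and
  `v (y - a τ) ^ h = q ^ (h * k - 1)`.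
* `val_prod_root_sub` : `v (∏ σ, (y - a σ)) = q ^ (∑ σ ∉ S, n σ + h * k - 1)`
  (additively, `K`-normalised: `v (P₀ y) = u_F - 1 / e_L`).
* `not_mem_adjoin_root` : if `Q` has coefficients in `F` (`= E₀ = L ^ H₀`), `[F(a o) : F] ≥ h` and
  the value group of `F(a o)` is inside `q ^ ℤ`, then `a o ∉ F⟮y⟯`.
* `exists_bad_point` : packaged refutation of `(P_m)` for `q ^ (N - 1) ≤ m`.
-/

set_option autoImplicit false

open Polynomial Finset

namespace Fermat.Agent.Lib.Ram.PmConverse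

variable {Ω Γ₀ : Type*} [Field Ω] [LinearOrderedCommGroupWithZero Γ₀] (v : Valuation Ω Γ₀)

section Core

variable {ι : Type*} (a : ι → Ω) (S : Finset ι) (q : Γ₀) (k : ℕ)

/-- The constant `c = (∏ τ ∈ S, a τ) ^ (k - 1)`. -/
def cst : Ω := (∏ τ ∈ S, a τ) ^ (k - 1)

/-- The defining equation of the bad root `y`. -/
def IsBadRoot (y : Ω) : Prop :=
  (∏ τ ∈ S, (y - a τ)) + cst a S k * y ^ (S.card - 1) = 0

variable {v a S q k}

theorem val_cst (hval : ∀ τ ∈ S, v (a τ) = q) : v (cst a S k) = q ^ (S.card * (k - 1)) := by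
  unfold cst
  rw [map_pow, map_prod, Finset.prod_congr rfl hval, Finset.prod_const, pow_mul]

theorem val_cst_le (hq0 : 0 < q) (hq1 : q < 1) (hval : ∀ τ ∈ S, v (a τ) = q)
    (hS2 : 2 ≤ S.card) (hk : 2 ≤ k) : v (cst a S k) ≤ q := by
  rw [val_cst hval]
  calc q ^ (S.card * (k - 1)) ≤ q ^ 1 := by
        apply pow_le_pow_of_le_one hq0.le hq1.le
        have : 1 ≤ k - 1 := by omega
        nlinarith
    _ = q := pow_one q

theorem val_prod_eq_of_isBadRoot {y : Ω} (hy : IsBadRoot a S k y) :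
    v (∏ τ ∈ S, (y - a τ)) = v (cst a S k) * v y ^ (S.card - 1) := by
  have h : (∏ τ ∈ S, (y - a τ)) = -(cst a S k * y ^ (S.card - 1)) := eq_neg_of_add_eq_zero_left hy
  rw [h, Valuation.map_neg, map_mul, map_pow]

/-- `v y = q` for a bad root. -/
theorem val_root (hq0 : 0 < q) (hq1 : q < 1) (hval : ∀ τ ∈ S, v (a τ) = q)
    (hS2 : 2 ≤ S.card) (hk : 2 ≤ k) {y : Ω} (hy : IsBadRoot a S k y) : v y = q := by
  have hc := val_cst_le (v := v) hq0 hq1 hval hS2 hk
  have hprod := val_prod_eq_of_isBadRoot (v := v) hy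
  have hcard : S.card = (S.card - 1) + 1 := by omega
  rcases lt_trichotomy (v y) q with hlt | heq | hgt
  · -- `v y < q`: every factor has valuation `q`
    exfalso
    have h1 : ∀ τ ∈ S, v (y - a τ) = q := fun τ hτ => by
      rw [Valuation.map_sub_eq_of_lt_right]
      · exact hval τ hτ
      · rw [hval τ hτ]; exact hlt
    rw [map_prod, Finset.prod_congr rfl h1, Finset.prod_const] at hprod
    have h2 : v (cst a S k) * v y ^ (S.card - 1) < q ^ S.card := by
      calc v (cst a S k) * v y ^ (S.card - 1) ≤ q * v y ^ (S.card - 1) :=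
            mul_le_mul_left hc _
        _ < q * q ^ (S.card - 1) := by
            apply mul_lt_mul_of_pos_left _ hq0
            exact pow_lt_pow_left₀ hlt zero_le (by omega)
        _ = q ^ S.card := by rw [← pow_succ', ← hcard]
    exact absurd hprod h2.ne'
  · exact heq
  · -- `q < v y`: every factor has valuation `v y`
    exfalso
    have hy0 : 0 < v y := lt_trans hq0 hgt
    have h1 : ∀ τ ∈ S, v (y - a τ) = v y := fun τ hτ => by
      rw [Valuation.map_sub_eq_of_lt_left]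
      rw [hval τ hτ]; exact hgt
    rw [map_prod, Finset.prod_congr rfl h1, Finset.prod_const] at hprod
    have h2 : v (cst a S k) * v y ^ (S.card - 1) < v y ^ S.card := by
      calc v (cst a S k) * v y ^ (S.card - 1) ≤ q * v y ^ (S.card - 1) :=
            mul_le_mul_left hc _
        _ < v y * v y ^ (S.card - 1) := by
            apply mul_lt_mul_of_pos_right hgt
            exact pow_pos hy0 _
        _ = v y ^ S.card := by rw [← pow_succ', ← hcard]
    exact absurd hprod h2.ne'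

/-- `v (Q y) = q ^ (h k - 1)`. -/
theorem val_prod_S (hq0 : 0 < q) (hq1 : q < 1) (hval : ∀ τ ∈ S, v (a τ) = q)
    (hS2 : 2 ≤ S.card) (hk : 2 ≤ k) {y : Ω} (hy : IsBadRoot a S k y) :
    v (∏ τ ∈ S, (y - a τ)) = q ^ (S.card * k - 1) := by
  rw [val_prod_eq_of_isBadRoot hy, val_root hq0 hq1 hval hS2 hk hy, val_cst hval, ← pow_add]
  congr 1
  have : S.card * k = S.card * (k - 1) + S.card := by
    conv_lhs => rw [show k = (k - 1) + 1 by omega]
    ring
  omega

/-- All distances `v (y - a τ)`, `τ ∈ S`, are equal to the same `ρ` with `q ^ k < ρ`. -/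
theorem exists_val_root_sub (hq0 : 0 < q) (hq1 : q < 1) (hval : ∀ τ ∈ S, v (a τ) = q)
    (hS : ∀ τ ∈ S, ∀ τ' ∈ S, τ ≠ τ' → v (a τ - a τ') = q ^ k)
    (hS2 : 2 ≤ S.card) (hk : 2 ≤ k) {y : Ω} (hy : IsBadRoot a S k y) :
    ∃ ρ : Γ₀, q ^ k < ρ ∧ ∀ τ ∈ S, v (y - a τ) = ρ := by
  have hne : S.Nonempty := Finset.card_pos.1 (by omega)
  obtain ⟨τ₀, hτ₀, hmin⟩ := Finset.exists_min_image S (fun τ => v (y - a τ)) hne
  have hprod := val_prod_S (v := v) hq0 hq1 hval hS2 hk hy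
  have hle : ∀ τ ∈ S, v (y - a τ) ≤ max (v (y - a τ₀)) (q ^ k) := fun τ hτ => by
    by_cases h : τ = τ₀
    · subst h; exact le_max_left _ _
    · have : y - a τ = (y - a τ₀) + (a τ₀ - a τ) := by ring
      rw [this]
      refine (v.map_add _ _).trans ?_
      rw [hS τ₀ hτ₀ τ hτ (Ne.symm h)]
  have hlt : q ^ k < v (y - a τ₀) := by
    by_contra hcon
    replace hcon := not_lt.1 hcon
    have hall : ∀ τ ∈ S, v (y - a τ) ≤ q ^ k := fun τ hτ =>
      (hle τ hτ).trans (max_le hcon le_rfl)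
    have h1 : v (∏ τ ∈ S, (y - a τ)) ≤ q ^ (k * S.card) := by
      rw [map_prod, pow_mul]
      calc ∏ τ ∈ S, v (y - a τ) ≤ ∏ _τ ∈ S, q ^ k :=
            Finset.prod_le_prod' hall
        _ = (q ^ k) ^ S.card := Finset.prod_const _
    rw [hprod] at h1
    have h2 : q ^ (k * S.card) < q ^ (S.card * k - 1) := by
      apply pow_lt_pow_right_of_lt_one₀ hq0 hq1
      have h3 : 0 < S.card * k := by positivity
      have h4 : k * S.card = S.card * k := Nat.mul_comm _ _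
      omega
    exact absurd h1 (not_le.2 h2)
  refine ⟨v (y - a τ₀), hlt, fun τ hτ => ?_⟩
  by_cases h : τ = τ₀
  · subst h; rfl
  · have : y - a τ = (y - a τ₀) + (a τ₀ - a τ) := by ring
    rw [this, Valuation.map_add_eq_of_lt_left]
    rw [hS τ₀ hτ₀ τ hτ (Ne.symm h)]
    exact hlt

/-- For `τ ∈ S`: `q ^ k < v (y - a τ) < q ^ (k - 1)` and `v (y - a τ) ^ h = q ^ (h k - 1)`. -/
theorem val_root_sub (hq0 : 0 < q) (hq1 : q < 1) (hval : ∀ τ ∈ S, v (a τ) = q)
    (hS : ∀ τ ∈ S, ∀ τ' ∈ S, τ ≠ τ' → v (a τ - a τ') = q ^ k)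
    (hS2 : 2 ≤ S.card) (hk : 2 ≤ k) {y : Ω} (hy : IsBadRoot a S k y) {τ : ι} (hτ : τ ∈ S) :
    q ^ k < v (y - a τ) ∧ v (y - a τ) < q ^ (k - 1) ∧
      v (y - a τ) ^ S.card = q ^ (S.card * k - 1) := by
  obtain ⟨ρ, hρ, hall⟩ := exists_val_root_sub (v := v) hq0 hq1 hval hS hS2 hk hy
  have hprod := val_prod_S (v := v) hq0 hq1 hval hS2 hk hy
  rw [map_prod, Finset.prod_congr rfl hall, Finset.prod_const] at hprod
  rw [hall τ hτ]
  refine ⟨hρ, ?_, hprod⟩
  by_contra hcon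
  replace hcon := not_lt.1 hcon
  have h1 : (q ^ (k - 1)) ^ S.card ≤ ρ ^ S.card := pow_le_pow_left₀ zero_le hcon _
  rw [hprod, ← pow_mul] at h1
  have h2 : q ^ (S.card * k - 1) < q ^ ((k - 1) * S.card) := by
    apply pow_lt_pow_right_of_lt_one₀ hq0 hq1
    have : S.card * k = (k - 1) * S.card + S.card := by
      conv_lhs => rw [show k = (k - 1) + 1 by omega]
      ring
    omega
  exact absurd h1 (not_le.2 h2)

/-- The valuation of `P₀ y = ∏ σ, (y - a σ)` over ALL conjugates: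
`q ^ (∑ σ ∉ S, n σ + h k - 1)`, i.e. additively `u_F - 1 / e_L`. -/
theorem val_prod_root_sub [Fintype ι] [DecidableEq ι] (hq0 : 0 < q) (hq1 : q < 1)
    (hval : ∀ τ ∈ S, v (a τ) = q)
    (hS : ∀ τ ∈ S, ∀ τ' ∈ S, τ ≠ τ' → v (a τ - a τ') = q ^ k)
    (hS2 : 2 ≤ S.card) (hk : 2 ≤ k) {o : ι} (ho : o ∈ S) (n : ι → ℕ)
    (hout : ∀ σ, σ ∉ S → v (a σ - a o) = q ^ n σ ∧ n σ < k)
    {y : Ω} (hy : IsBadRoot a S k y) :
    v (∏ σ, (y - a σ)) = q ^ (∑ σ ∈ Sᶜ, n σ + (S.card * k - 1)) := by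
  have hprod := val_prod_S (v := v) hq0 hq1 hval hS2 hk hy
  have ho' := val_root_sub (v := v) hq0 hq1 hval hS hS2 hk hy ho
  have hσ : ∀ σ ∈ Sᶜ, v (y - a σ) = q ^ n σ := fun σ hσ => by
    have hσS : σ ∉ S := Finset.mem_compl.1 hσ
    obtain ⟨h1, h2⟩ := hout σ hσS
    have : y - a σ = (y - a o) - (a σ - a o) := by ring
    rw [this, Valuation.map_sub_eq_of_lt_right, h1]
    rw [h1]
    refine lt_of_lt_of_le ho'.2.1 ?_
    exact pow_le_pow_of_le_one hq0.le hq1.le (by omega)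
  rw [← Finset.prod_mul_prod_compl S, map_mul, hprod, map_prod, Finset.prod_congr rfl hσ,
    Finset.prod_pow_eq_pow_sum, ← pow_add, add_comm]

end Core

section FieldPart

open IntermediateField

variable {v}
variable {ι : Type*} {a : ι → Ω} {S : Finset ι} {q : Γ₀} {k : ℕ}
variable {F : Type*} [Field F] [Algebra F Ω]

/-- The constant `c` comes from `F` as soon as `Q = ∏ τ ∈ S, (X - a τ)` does. -/
theorem cst_mem_range {Q : F[X]} (hQ : Q.map (algebraMap F Ω) = ∏ τ ∈ S, (X - C (a τ))) :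
    algebraMap F Ω (((-1) ^ S.card * Q.coeff 0) ^ (k - 1)) = cst a S k := by
  unfold cst
  rw [map_pow]
  congr 1
  have h0 : (Q.map (algebraMap F Ω)).coeff 0 = algebraMap F Ω (Q.coeff 0) := Polynomial.coeff_map _ _
  rw [map_mul, map_pow, map_neg, map_one, ← h0, hQ, Polynomial.coeff_zero_eq_eval_zero,
    Polynomial.eval_prod]
  simp only [Polynomial.eval_sub, Polynomial.eval_X, Polynomial.eval_C, zero_sub]
  have h1 : ∏ x ∈ S, -a x = (-1) ^ S.card * ∏ x ∈ S, a x := by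
    rw [← Finset.prod_const, ← Finset.prod_mul_distrib]
    exact Finset.prod_congr rfl fun x _ => by ring
  rw [h1, ← mul_assoc, ← pow_add, ← two_mul, pow_mul, neg_one_sq, one_pow, one_mul]

/-- A bad root is integral over `F`, of degree at most `h`. -/
theorem isIntegral_and_finrank_le {Q : F[X]} (hQm : Q.Monic) (hQdeg : Q.natDegree = S.card)
    (hQ : Q.map (algebraMap F Ω) = ∏ τ ∈ S, (X - C (a τ))) (hS1 : 1 ≤ S.card)
    {y : Ω} (hy : IsBadRoot a S k y) :
    IsIntegral F y ∧ Module.finrank F F⟮y⟯ ≤ S.card := by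
  obtain ⟨c', hc'⟩ : ∃ c' : F, algebraMap F Ω c' = cst a S k := ⟨_, cst_mem_range hQ⟩
  set Q' : F[X] := Q + C c' * X ^ (S.card - 1) with hQ'
  have hdeg : (C c' * X ^ (S.card - 1)).degree < Q.degree := by
    rw [Polynomial.degree_eq_natDegree hQm.ne_zero, hQdeg]
    refine lt_of_le_of_lt (Polynomial.degree_C_mul_X_pow_le _ _) ?_
    exact_mod_cast Nat.sub_lt hS1 one_pos
  have hQ'm : Q'.Monic := hQm.add_of_left hdeg
  have hQ'deg : Q'.natDegree = S.card := by
    rw [hQ', Polynomial.natDegree_add_eq_left_of_degree_lt hdeg, hQdeg]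
  have hroot : Polynomial.aeval y Q' = 0 := by
    rw [hQ', map_add, map_mul, map_pow, Polynomial.aeval_X, Polynomial.aeval_C,
      Polynomial.aeval_def, ← Polynomial.eval_map, hQ, Polynomial.eval_prod, hc']
    simp only [Polynomial.eval_sub, Polynomial.eval_X, Polynomial.eval_C]
    exact hy
  have hint : IsIntegral F y := ⟨Q', hQ'm, hroot⟩
  refine ⟨hint, ?_⟩
  rw [IntermediateField.adjoin.finrank hint, ← hQ'deg]
  exact Polynomial.natDegree_le_of_dvd (minpoly.dvd F y hroot) hQ'm.ne_zero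

/-- **The bad root does not generate `a o`**: if `[F(a o) : F] ≥ h` and the value group of
`F(a o)` is contained in `q ^ ℤ`, then `a o ∉ F⟮y⟯`. -/
theorem not_mem_adjoin_root (hq0 : 0 < q) (hq1 : q < 1) (hval : ∀ τ ∈ S, v (a τ) = q)
    (hS : ∀ τ ∈ S, ∀ τ' ∈ S, τ ≠ τ' → v (a τ - a τ') = q ^ k)
    (hS2 : 2 ≤ S.card) (hk : 2 ≤ k) {o : ι} (ho : o ∈ S)
    {Q : F[X]} (hQm : Q.Monic) (hQdeg : Q.natDegree = S.card)
    (hQ : Q.map (algebraMap F Ω) = ∏ τ ∈ S, (X - C (a τ)))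
    (hdeg : S.card ≤ Module.finrank F F⟮a o⟯)
    (hgrp : ∀ x ∈ F⟮a o⟯, x ≠ 0 → ∃ z : ℤ, v x = q ^ z)
    {y : Ω} (hy : IsBadRoot a S k y) : a o ∉ F⟮y⟯ := by
  intro hmem
  obtain ⟨hint, hfr⟩ := isIntegral_and_finrank_le (F := F) hQm hQdeg hQ (by omega) hy
  have hle : F⟮a o⟯ ≤ F⟮y⟯ := by
    rw [IntermediateField.adjoin_simple_le_iff]; exact hmem
  have : FiniteDimensional F F⟮y⟯ := IntermediateField.adjoin.finiteDimensional hint
  have heq : F⟮a o⟯ = F⟮y⟯ :=
    IntermediateField.eq_of_le_of_finrank_le hle (hfr.trans hdeg)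
  have hy_mem : y ∈ F⟮a o⟯ := by
    rw [heq]; exact IntermediateField.mem_adjoin_simple_self F y
  have hsub : y - a o ∈ F⟮a o⟯ :=
    sub_mem hy_mem (IntermediateField.mem_adjoin_simple_self F (a o))
  obtain ⟨h1, h2, -⟩ := val_root_sub (v := v) hq0 hq1 hval hS hS2 hk hy ho
  have hne : y - a o ≠ 0 := by
    intro h0
    rw [h0, map_zero] at h1
    exact absurd h1 (not_lt.2 zero_le)
  obtain ⟨z, hz⟩ := hgrp _ hsub hne
  rw [hz] at h1 h2
  rw [← zpow_natCast] at h1 h2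
  have hz1 : z < (k : ℤ) := by
    by_contra hcon
    exact absurd h1 (not_lt.2 (zpow_le_zpow_right_of_le_one₀ hq0 hq1.le (not_lt.1 hcon)))
  have hz2 : ((k - 1 : ℕ) : ℤ) < z := by
    by_contra hcon
    exact absurd h2 (not_lt.2 (zpow_le_zpow_right_of_le_one₀ hq0 hq1.le (not_lt.1 hcon)))
  omega

/-- Variant of the degree hypothesis: it holds when `Q` is irreducible over `F`. -/
theorem card_le_finrank_of_irreducible {o : ι} (ho : o ∈ S)
    {Q : F[X]} (hQm : Q.Monic) (hQdeg : Q.natDegree = S.card)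
    (hQ : Q.map (algebraMap F Ω) = ∏ τ ∈ S, (X - C (a τ))) (hirr : Irreducible Q) :
    S.card ≤ Module.finrank F F⟮a o⟯ := by
  have hroot : Polynomial.aeval (a o) Q = 0 := by
    rw [Polynomial.aeval_def, ← Polynomial.eval_map, hQ, Polynomial.eval_prod]
    exact Finset.prod_eq_zero ho (by simp)
  have hint : IsIntegral F (a o) := ⟨Q, hQm, hroot⟩
  rw [IntermediateField.adjoin.finrank hint,
    ← minpoly.eq_of_irreducible_of_monic hirr hroot hQm, hQdeg]

/-- In an algebraically closed `Ω` a bad root exists. -/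
theorem exists_isBadRoot [IsAlgClosed Ω] (a : ι → Ω) (S : Finset ι) (k : ℕ) (hS1 : 1 ≤ S.card) :
    ∃ y : Ω, IsBadRoot a S k y := by
  set R : Polynomial Ω := (∏ τ ∈ S, (X - C (a τ))) + C (cst a S k) * X ^ (S.card - 1) with hR
  have hmonic : (∏ τ ∈ S, (X - C (a τ))).Monic := Polynomial.monic_prod_of_monic _ _
    fun τ _ => Polynomial.monic_X_sub_C (a τ)
  have hnat : (∏ τ ∈ S, (X - C (a τ))).natDegree = S.card := by
    rw [Polynomial.natDegree_prod_of_monic _ _ fun τ _ => Polynomial.monic_X_sub_C (a τ)]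
    simp
  have hdeg : (C (cst a S k) * X ^ (S.card - 1)).degree < (∏ τ ∈ S, (X - C (a τ))).degree := by
    rw [Polynomial.degree_eq_natDegree hmonic.ne_zero, hnat]
    refine lt_of_le_of_lt (Polynomial.degree_C_mul_X_pow_le _ _) ?_
    exact_mod_cast Nat.sub_lt hS1 one_pos
  have hRdeg : R.degree ≠ 0 := by
    rw [hR, Polynomial.degree_add_eq_left_of_degree_lt hdeg,
      Polynomial.degree_eq_natDegree hmonic.ne_zero, hnat]
    exact_mod_cast (by omega : S.card ≠ 0)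
  obtain ⟨y, hy⟩ := IsAlgClosed.exists_root R hRdeg
  refine ⟨y, ?_⟩
  unfold IsBadRoot
  rw [Polynomial.IsRoot.def, hR, Polynomial.eval_add, Polynomial.eval_prod] at hy
  simpa using hy

/-- **Fontaine Prop. 1.5 (ii), packaged.**  There is a point `y` with `v y = q`,
`v (P₀ y) = q ^ (N - 1)` (`N = ∑ σ ∉ S, n σ + h k`, i.e. additively `u_F - 1 / e_L`) and
`a o ∉ F⟮y⟯`.  Hence `(P_m)` fails for every `m` with `q ^ (N - 1) ≤ m`. -/
theorem exists_bad_point [Fintype ι] [DecidableEq ι] (hq0 : 0 < q) (hq1 : q < 1)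
    (hval : ∀ τ ∈ S, v (a τ) = q)
    (hS : ∀ τ ∈ S, ∀ τ' ∈ S, τ ≠ τ' → v (a τ - a τ') = q ^ k)
    (hS2 : 2 ≤ S.card) (hk : 2 ≤ k) {o : ι} (ho : o ∈ S) (n : ι → ℕ)
    (hout : ∀ σ, σ ∉ S → v (a σ - a o) = q ^ n σ ∧ n σ < k)
    {Q : F[X]} (hQm : Q.Monic) (hQdeg : Q.natDegree = S.card)
    (hQ : Q.map (algebraMap F Ω) = ∏ τ ∈ S, (X - C (a τ)))
    (hdeg : S.card ≤ Module.finrank F F⟮a o⟯)
    (hgrp : ∀ x ∈ F⟮a o⟯, x ≠ 0 → ∃ z : ℤ, v x = q ^ z)
    (hroot : ∃ y : Ω, IsBadRoot a S k y) :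
    ∃ y : Ω, v y = q ∧ v (∏ σ, (y - a σ)) = q ^ (∑ σ ∈ Sᶜ, n σ + (S.card * k - 1)) ∧
      a o ∉ F⟮y⟯ := by
  obtain ⟨y, hy⟩ := hroot
  exact ⟨y, val_root hq0 hq1 hval hS2 hk hy,
    val_prod_root_sub hq0 hq1 hval hS hS2 hk ho n hout hy,
    not_mem_adjoin_root hq0 hq1 hval hS hS2 hk ho hQm hQdeg hQ hdeg hgrp hy⟩

/-- Descent of the non-membership to a smaller base field `K ⊆ F`. -/
theorem not_mem_adjoin_of_tower {K : Type*} [Field K] [Algebra K F] [Algebra K Ω]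
    [IsScalarTower K F Ω] {x y : Ω} (h : x ∉ F⟮y⟯) : x ∉ K⟮y⟯ := by
  intro hx
  apply h
  have hle : K⟮y⟯ ≤ (F⟮y⟯).restrictScalars K := by
    rw [IntermediateField.adjoin_simple_le_iff]
    exact IntermediateField.mem_adjoin_simple_self F y
  exact hle hx

end FieldPart

end Fermat.Agent.Lib.Ram.PmConverse
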