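import Mathlib
import Fermat.Agent.Lib.Ram.HerbrandMax
import Fermat.Agent.Lib.Ram.LemmaA
import Fermat.Agent.Lib.Ram.PmConverse

/-!
helper79 (P-S56, block (A) LOCAL).  BRIDGE from `Lib/Ram/PmConverse` (Fontaine Prop. 1.5 (ii),
valuation-generic) to the conventions of `Lib/Ram/LemmaA` (ultrametric normed field `Ω`,
`‖a s - a t‖ = epow c (I.i (s⁻¹ * t))` for a `LowerNumbering` `I` in Serre's normalisation) and
of `Lib/Ram/HerbrandMax` (`iMax`, `uMax`).

Main result `exists_bad_point_norm`: in the WILD case `2 ≤ iMax` there is `y` with `‖y‖ = c`,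
`‖P(y)‖ = c ^ (trSum iMax - 1)` and `a 1 ∉ F⟮y⟯` (`F` = fixed field of the last ramification
group).  Moreover `trSum iMax = e0 * (uMax + 1)` (`trSum_iMax`).
-/

set_option autoImplicit false
set_option linter.unusedSectionVars false

open Polynomial Finset NNReal

namespace Fermat.Agent.Lib.Ram.PmConverseSerre

open Fermat.Agent.Lib.Ram Fermat.Agent.Lib.Ram.LemmaA

variable {G : Type*} [Group G] [Fintype G] (I : LowerNumbering G)

/-- `max_{s ≠ 1} i s` as a natural number (`(⊤ : ℕ∞).toNat = 0`). -/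
noncomputable def kMax : ℕ := Finset.univ.sup fun s : G => (I.i s).toNat

theorem toNat_le_kMax (s : G) : (I.i s).toNat ≤ kMax I :=
  Finset.le_sup (f := fun s : G => (I.i s).toNat) (Finset.mem_univ s)

theorem kMax_cast : ((kMax I : ℕ) : ℝ) = I.iMax := by
  unfold kMax LowerNumbering.iMax
  apply le_antisymm
  · obtain ⟨s, -, hs⟩ := Finset.exists_mem_eq_sup Finset.univ ⟨(1 : G), Finset.mem_univ 1⟩
      fun s : G => (I.i s).toNat
    rw [hs]
    exact Finset.le_sup' (fun s => ((I.i s).toNat : ℝ)) (Finset.mem_univ s)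
  · apply Finset.sup'_le
    intro s _
    exact_mod_cast toNat_le_kMax I s

theorem exists_toNat_eq_kMax : ∃ s : G, (I.i s).toNat = kMax I := by
  obtain ⟨s, -, hs⟩ := Finset.exists_mem_eq_sup Finset.univ ⟨(1 : G), Finset.mem_univ 1⟩
    fun s : G => (I.i s).toNat
  exact ⟨s, hs.symm⟩

variable [DecidableEq G]

/-- The last ramification group (as a finset, containing `1`). -/
noncomputable def lastSet : Finset G := Finset.univ.filter fun s => (kMax I : ℕ∞) ≤ I.i s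

theorem mem_lastSet {s : G} : s ∈ lastSet I ↔ (kMax I : ℕ∞) ≤ I.i s := by
  simp [lastSet]

theorem one_mem_lastSet : (1 : G) ∈ lastSet I := by
  rw [mem_lastSet, I.i_one]; exact le_top

theorem i_eq_of_mem_lastSet {s : G} (hs : s ∈ lastSet I) (h1 : s ≠ 1) : I.i s = (kMax I : ℕ∞) := by
  apply le_antisymm _ ((mem_lastSet I).1 hs)
  have hne : I.i s ≠ ⊤ := fun h => h1 ((I.i_eq_top s).1 h)
  lift I.i s to ℕ using hne with n hn
  have := toNat_le_kMax I s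
  rw [← hn, ENat.toNat_natCast] at this
  exact_mod_cast this

theorem inv_mul_mem_lastSet {s t : G} (hs : s ∈ lastSet I) (ht : t ∈ lastSet I) :
    s⁻¹ * t ∈ lastSet I := by
  rw [mem_lastSet] at *
  refine le_trans (le_min ?_ ht) (I.i_mul s⁻¹ t)
  rwa [I.i_inv]

theorem i_lt_of_not_mem_lastSet {s : G} (hs : s ∉ lastSet I) :
    I.i s ≠ ⊤ ∧ (I.i s).toNat < kMax I := by
  rw [mem_lastSet, not_le] at hs
  have hne : I.i s ≠ ⊤ := ne_top_of_lt hs
  refine ⟨hne, ?_⟩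
  lift I.i s to ℕ using hne with n hn
  rw [ENat.toNat_natCast]
  exact_mod_cast hs

theorem two_le_card_lastSet (hk : 1 ≤ kMax I) : 2 ≤ (lastSet I).card := by
  obtain ⟨s, hs⟩ := exists_toNat_eq_kMax I
  have hne : I.i s ≠ ⊤ := by
    intro h
    rw [h] at hs
    simp at hs
    omega
  have hs1 : s ≠ 1 := fun h => hne ((I.i_eq_top s).2 h)
  have hmem : s ∈ lastSet I := by
    rw [mem_lastSet]
    lift I.i s to ℕ using hne with n hn
    rw [ENat.toNat_natCast] at hs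
    rw [hs]
  have : ({1, s} : Finset G) ⊆ lastSet I := by
    intro x hx
    rcases Finset.mem_insert.1 hx with rfl | hx
    · exact one_mem_lastSet I
    · rw [Finset.mem_singleton.1 hx]; exact hmem
  calc 2 = ({1, s} : Finset G).card := (Finset.card_pair (Ne.symm hs1)).symm
    _ ≤ _ := Finset.card_le_card this

/-- `trSum k = ∑ σ ∉ H₀, i σ + #H₀ * k`. -/
theorem trSum_kMax :
    I.trSum (kMax I) = ((∑ σ ∈ (lastSet I)ᶜ, (I.i σ).toNat + (lastSet I).card * kMax I : ℕ) : ℝ) := by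
  unfold LowerNumbering.trSum
  rw [← Finset.sum_add_sum_compl (lastSet I), add_comm]
  push_cast
  congr 1
  · refine Finset.sum_congr rfl fun σ hσ => ?_
    obtain ⟨hne, hlt⟩ := i_lt_of_not_mem_lastSet I (Finset.mem_compl.1 hσ)
    lift I.i σ to ℕ using hne with n hn
    rw [tr_coe, ENat.toNat_natCast] at *
    exact min_eq_left (by exact_mod_cast hlt.le)
  · rw [← nsmul_eq_mul, ← Finset.sum_const]
    refine Finset.sum_congr rfl fun σ hσ => ?_
    rw [mem_lastSet] at hσ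
    exact (tr_eq_self_iff _ _).2 (by
      induction h : I.i σ using ENat.recTopCoe with
      | top => exact leENat_top _
      | coe n =>
        rw [leENat_coe]
        rw [h] at hσ
        exact_mod_cast hσ)

/-- `trSum iMax = e0 * (uMax + 1)`. -/
theorem trSum_iMax : I.trSum I.iMax = I.e0 * (I.uMax + 1) := by
  unfold LowerNumbering.uMax LowerNumbering.phi
  have h0 : (I.e0 : ℝ) ≠ 0 := by exact_mod_cast I.e0_pos.ne'
  rw [sub_add_cancel, sub_add_cancel]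
  field_simp

section Norm

open IntermediateField

variable {Ω : Type*} [NormedField Ω] [IsUltrametricDist Ω]
variable {F : Type*} [Field F] [Algebra F Ω]
variable {c : ℝ}

omit [Fintype G] [DecidableEq G] in
theorem val_eq_pow_iff {q : ℝ≥0} (hqc : (q : ℝ) = c) (x : Ω) (n : ℕ) :
    (NormedField.valuation (K := Ω)) x = q ^ n ↔ ‖x‖ = c ^ n := by
  rw [NormedField.valuation_apply, ← NNReal.coe_inj, coe_nnnorm, NNReal.coe_pow, hqc]

omit [Fintype G] [DecidableEq G] in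
theorem val_eq_zpow_iff {q : ℝ≥0} (hqc : (q : ℝ) = c) (x : Ω) (z : ℤ) :
    (NormedField.valuation (K := Ω)) x = q ^ z ↔ ‖x‖ = c ^ z := by
  rw [NormedField.valuation_apply, ← NNReal.coe_inj, coe_nnnorm, NNReal.coe_zpow, hqc]

/-- **Fontaine Prop. 1.5 (ii)** in the conventions of `Lib/Ram/LemmaA` (WILD case `2 ≤ kMax`):
there is `y` with `‖y‖ = c`, `‖P(y)‖ = c ^ (trSum iMax - 1)` and `a 1 ∉ F⟮y⟯`. -/
theorem exists_bad_point_norm (hc0 : 0 < c) (hc1 : c < 1) (a : G → Ω)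
    (hi : ∀ s t, ‖a s - a t‖ = epow c (I.i (s⁻¹ * t)))
    (hval : ∀ s ∈ lastSet I, ‖a s‖ = c) (hwild : 2 ≤ kMax I)
    {Q : F[X]} (hQm : Q.Monic) (hQdeg : Q.natDegree = (lastSet I).card)
    (hQ : Q.map (algebraMap F Ω) = ∏ τ ∈ lastSet I, (X - C (a τ)))
    (hdeg : (lastSet I).card ≤ Module.finrank F F⟮a 1⟯)
    (hgrp : ∀ x ∈ F⟮a 1⟯, x ≠ 0 → ∃ z : ℤ, ‖x‖ = c ^ z)
    (hroot : ∃ y : Ω, PmConverse.IsBadRoot a (lastSet I) (kMax I) y) :
    ∃ y : Ω, ‖y‖ = c ∧ ‖(∏ s, (X - C (a s))).eval y‖ = c ^ (I.trSum I.iMax - 1) ∧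
      a 1 ∉ F⟮y⟯ := by
  obtain ⟨q, hqc⟩ : ∃ q : ℝ≥0, (q : ℝ) = c := ⟨⟨c, hc0.le⟩, rfl⟩
  obtain ⟨v, hv⟩ : ∃ v : Valuation Ω ℝ≥0, v = NormedField.valuation := ⟨_, rfl⟩
  have hq0 : 0 < q := by rw [← NNReal.coe_pos, hqc]; exact hc0
  have hq1 : q < 1 := by rw [← NNReal.coe_lt_coe, hqc]; exact hc1
  have hval' : ∀ τ ∈ lastSet I, v (a τ) = q := fun τ hτ => by
    have := (val_eq_pow_iff hqc (a τ) 1).2 (by rw [pow_one]; exact hval τ hτ)
    rwa [pow_one, ← hv] at this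
  have hS : ∀ τ ∈ lastSet I, ∀ τ' ∈ lastSet I, τ ≠ τ' → v (a τ - a τ') = q ^ kMax I := by
    intro τ hτ τ' hτ' hne
    rw [hv, val_eq_pow_iff hqc, hi]
    have h1 : τ⁻¹ * τ' ≠ 1 := fun h => hne (by
      have := congrArg (fun x => τ * x) h
      simpa using this.symm)
    rw [i_eq_of_mem_lastSet I (inv_mul_mem_lastSet I hτ hτ') h1, epow_coe]
  have hout : ∀ σ, σ ∉ lastSet I →
      v (a σ - a 1) = q ^ (I.i σ).toNat ∧ (I.i σ).toNat < kMax I := by
    intro σ hσ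
    obtain ⟨hne, hlt⟩ := i_lt_of_not_mem_lastSet I hσ
    refine ⟨?_, hlt⟩
    rw [hv, val_eq_pow_iff hqc, hi, mul_one, I.i_inv]
    lift I.i σ to ℕ using hne with n hn
    rw [epow_coe, ENat.toNat_natCast]
  have hS2 := two_le_card_lastSet I (by omega : 1 ≤ kMax I)
  have hgrp' : ∀ x ∈ F⟮a 1⟯, x ≠ 0 → ∃ z : ℤ, v x = q ^ z := fun x hx h0 => by
    obtain ⟨z, hz⟩ := hgrp x hx h0
    exact ⟨z, by rw [hv]; exact (val_eq_zpow_iff hqc x z).2 hz⟩
  obtain ⟨y, hy1, hy2, hy3⟩ := PmConverse.exists_bad_point (v := v) hq0 hq1 hval' hS hS2 hwild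
    (one_mem_lastSet I) (fun σ => (I.i σ).toNat) hout hQm hQdeg hQ hdeg hgrp' hroot
  refine ⟨y, ?_, ?_, hy3⟩
  · have := (val_eq_pow_iff hqc y 1).1 (by rw [pow_one, ← hv]; exact hy1)
    rwa [pow_one] at this
  · rw [Polynomial.eval_prod]
    simp only [Polynomial.eval_sub, Polynomial.eval_X, Polynomial.eval_C]
    rw [hv] at hy2
    rw [(val_eq_pow_iff hqc _ _).1 hy2, ← Real.rpow_natCast]
    congr 1
    rw [← kMax_cast, trSum_kMax]
    have hpos : 1 ≤ (lastSet I).card * kMax I := by nlinarith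
    have : ∑ σ ∈ (lastSet I)ᶜ, (I.i σ).toNat + ((lastSet I).card * kMax I - 1) =
        (∑ σ ∈ (lastSet I)ᶜ, (I.i σ).toNat + (lastSet I).card * kMax I) - 1 := by omega
    rw [this, Nat.cast_sub (by omega)]
    simp

/-- **`(P_m)` fails for `m ≤ u_F - 1 / e_L`** (norm form, threshold `ρ ≥ c ^ (e0 (uMax + 1) - 1)`):
the property "every integral `β` with `‖P(β)‖ ≤ ρ` generates `a 1` over `K`" is false. -/
theorem not_forall_mem_adjoin {K : Type*} [Field K] [Algebra K F] [Algebra K Ω]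
    [IsScalarTower K F Ω] (hc0 : 0 < c) (hc1 : c < 1) (a : G → Ω)
    (hi : ∀ s t, ‖a s - a t‖ = epow c (I.i (s⁻¹ * t)))
    (hval : ∀ s ∈ lastSet I, ‖a s‖ = c) (hwild : 2 ≤ kMax I)
    {Q : F[X]} (hQm : Q.Monic) (hQdeg : Q.natDegree = (lastSet I).card)
    (hQ : Q.map (algebraMap F Ω) = ∏ τ ∈ lastSet I, (X - C (a τ)))
    (hdeg : (lastSet I).card ≤ Module.finrank F F⟮a 1⟯)
    (hgrp : ∀ x ∈ F⟮a 1⟯, x ≠ 0 → ∃ z : ℤ, ‖x‖ = c ^ z)
    (hroot : ∃ y : Ω, PmConverse.IsBadRoot a (lastSet I) (kMax I) y)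
    {ρ : ℝ} (hρ : c ^ ((I.e0 : ℝ) * (I.uMax + 1) - 1) ≤ ρ) :
    ¬ ∀ β : Ω, ‖β‖ ≤ 1 → ‖(∏ s, (X - C (a s))).eval β‖ ≤ ρ → a 1 ∈ K⟮β⟯ := by
  intro hall
  obtain ⟨y, hy1, hy2, hy3⟩ :=
    exists_bad_point_norm I hc0 hc1 a hi hval hwild hQm hQdeg hQ hdeg hgrp hroot
  refine PmConverse.not_mem_adjoin_of_tower (K := K) hy3 (hall y ?_ ?_)
  · rw [hy1]; exact hc1.le
  · rw [hy2, trSum_iMax]; exact hρ

end Norm

end Fermat.Agent.Lib.Ram.PmConverseSerre
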