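/-
P-S56 block (A), ramification (helper12): BRIDGE from the SHARP norm-form converse of Fontaine's
Prop. 1.5 (`Lib/Ram/PmSharp`, helper61) to Serre's upper numbering (`Lib/Ram/Herbrand*`, helper74).

If the distances between conjugates are `‖σ α - α‖ = c ^ i(σ)` for a `LowerNumbering` `I` of
`Gal(L/K)` (`0 < c < 1`, `c = ‖π_L‖`), then `threshold L α s₁ = c ^ (e₀ (u_max + 1))`, hence
`(∀ ρ < c ^ (e₀ (v₀ + 1)), PropertyPRoot K Ω L α ρ) → I.UpperBounded v₀`: no `1/e_L` slack.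
-/
import Fermat.Agent.Lib.Ram.PmSharp
import Fermat.Agent.Lib.Ram.PmConverseSerre

set_option autoImplicit false

namespace Fermat.Agent.Lib.Ram.SharpSerre

open Fermat.Agent.Lib.Ram Fermat.Agent.Lib.Ram.LemmaA Fermat.Agent.Lib.Ram.PmSharp
  Fermat.Agent.Lib.Ram.PropertyPm Fermat.Agent.Lib.Ram.PmConverseSerre

section Abstract

variable {G : Type*} [Group G] [Fintype G] (I : LowerNumbering G)

/-- `epow c` is antitone-reflecting for `0 < c < 1`: a smaller norm means a larger `i`. -/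
theorem toNat_le_of_epow_le {c : ℝ} (hc0 : 0 < c) (hc1 : c < 1) {a b : ℕ∞} (ha : a ≠ ⊤)
    (hb : b ≠ ⊤) (h : epow c a ≤ epow c b) : b.toNat ≤ a.toNat := by
  lift a to ℕ using ha
  lift b to ℕ using hb
  rw [epow_coe, epow_coe] at h
  rw [ENat.toNat_natCast, ENat.toNat_natCast]
  by_contra hlt
  rw [not_le] at hlt
  exact absurd h (not_le.2 (pow_lt_pow_right_of_lt_one₀ hc0 hc1 hlt))

/-- If `s₁ ≠ 1` realises the minimal distance then `i s₁ = kMax`. -/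
theorem toNat_eq_kMax {c : ℝ} (hc0 : 0 < c) (hc1 : c < 1) {s₁ : G} (hs₁ : s₁ ≠ 1)
    (hmin : ∀ σ : G, σ ≠ 1 → epow c (I.i s₁) ≤ epow c (I.i σ)) :
    (I.i s₁).toNat = kMax I := by
  apply le_antisymm (toNat_le_kMax I s₁)
  unfold kMax
  apply Finset.sup_le
  intro σ _
  by_cases hσ : σ = 1
  · rw [hσ, I.i_one, ENat.toNat_top]; exact Nat.zero_le _
  · exact toNat_le_of_epow_le hc0 hc1 (mt (I.i_eq_top s₁).1 hs₁) (mt (I.i_eq_top σ).1 hσ)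
      (hmin σ hσ)

/-- The product formula: `∏ σ, max (c ^ i s₁) (c ^ i σ) = c ^ (e₀ (u_max + 1))`. -/
theorem prod_max_eq_rpow {c : ℝ} (hc0 : 0 < c) (hc1 : c < 1) {s₁ : G} (hs₁ : s₁ ≠ 1)
    (hmin : ∀ σ : G, σ ≠ 1 → epow c (I.i s₁) ≤ epow c (I.i σ)) :
    ∏ σ : G, max (epow c (I.i s₁)) (epow c (I.i σ)) = c ^ ((I.e0 : ℝ) * (I.uMax + 1)) := by
  classical
  have hk := toNat_eq_kMax I hc0 hc1 hs₁ hmin
  have h1 : epow c (I.i s₁) = c ^ ((kMax I : ℕ) : ℝ) := by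
    have hne : I.i s₁ ≠ ⊤ := mt (I.i_eq_top s₁).1 hs₁
    unfold epow
    rw [if_neg hne, hk, Real.rpow_natCast]
  rw [h1, ← trSum_iMax, ← kMax_cast]
  unfold LowerNumbering.trSum
  rw [Real.rpow_sum_of_pos hc0]
  exact Finset.prod_congr rfl fun σ _ => max_rpow_epow hc0 hc1 _ (I.i σ)

end Abstract

section Concrete

variable {K : Type*} [NormedField K] {Ω : Type*} [NormedField Ω] [IsUltrametricDist Ω]
  [NormedAlgebra K Ω] (L : IntermediateField K Ω) [FiniteDimensional K L] [IsGalois K L]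
  [Fintype (L ≃ₐ[K] L)] (I : LowerNumbering (L ≃ₐ[K] L))

omit [IsUltrametricDist Ω] [IsGalois K L] in
/-- **`U = ‖π_L‖ ^ (e₀ (u_max + 1))`**: helper61's threshold in Serre's numbering. -/
theorem threshold_eq_rpow {c : ℝ} (hc0 : 0 < c) (hc1 : c < 1) (α : L)
    (hi : ∀ σ : L ≃ₐ[K] L, ‖((σ α : L) : Ω) - α‖ = epow c (I.i σ))
    (s₁ : L ≃ₐ[K] L) (hs₁ : s₁ ≠ 1)
    (hmin : ∀ σ : L ≃ₐ[K] L, σ ≠ 1 → ‖((s₁ α : L) : Ω) - α‖ ≤ ‖((σ α : L) : Ω) - α‖) :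
    (threshold L α s₁ : ℝ) = c ^ ((I.e0 : ℝ) * (I.uMax + 1)) := by
  rw [coe_threshold]
  have hmin' : ∀ σ : L ≃ₐ[K] L, σ ≠ 1 → epow c (I.i s₁) ≤ epow c (I.i σ) := by
    intro σ hσ
    rw [← hi, ← hi]; exact hmin σ hσ
  rw [← prod_max_eq_rpow I hc0 hc1 hs₁ hmin']
  refine Finset.prod_congr ?_ fun σ _ => by rw [hi, hi]
  ext σ; simp

/-- **Fontaine's bound in Serre's upper numbering, sharp form.**  If `(P_m)` (root form) holds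
for all `ρ < ρ₀ = c ^ (e₀ (v₀ + 1))` then `G^v = 1` for all `v > v₀`.
(`K = ℚ_p`, `c = ‖π_L‖`, `‖p‖ = c ^ e₀`, `ρ₀ = ‖p‖ ^ (1 + 1/(p-1))`: `v₀ = 1/(p-1)`.) -/
theorem upperBounded_of_forall_propertyPRoot [IsAlgClosed Ω] {c : ℝ} (hc0 : 0 < c) (hc1 : c < 1)
    (α : L) (hi : ∀ σ : L ≃ₐ[K] L, ‖((σ α : L) : Ω) - α‖ = epow c (I.i σ))
    (hα : IntermediateField.adjoin K {α} = ⊤) (hα1 : ‖(α : Ω)‖ ≤ 1)
    (hinv : ∀ (σ : L ≃ₐ[K] L) (x : L), ‖((σ x : L) : Ω)‖ = ‖(x : Ω)‖)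
    (s₁ : L ≃ₐ[K] L) (hs₁ : s₁ ≠ 1)
    (hmin : ∀ σ : L ≃ₐ[K] L, σ ≠ 1 → ‖((s₁ α : L) : Ω) - α‖ ≤ ‖((σ α : L) : Ω) - α‖)
    [Finite (intK L ⧸ maxIdeal L)]
    (hres : ∀ x : L, ‖(x : Ω)‖ ≤ 1 →
      ∃ y : L, (∀ t ∈ Subgroup.zpowers s₁, t y = y) ∧ ‖(x : Ω) - y‖ < 1)
    {v₀ : ℝ} (hv₀ : -1 ≤ v₀) {ρ₀ : NNReal} (hρ₀ : (ρ₀ : ℝ) = c ^ ((I.e0 : ℝ) * (v₀ + 1)))
    (h : ∀ ρ < ρ₀, PropertyPRoot K Ω L (α : Ω) ρ) : I.UpperBounded v₀ := by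
  have h1 := le_threshold_of_forall_propertyPRoot L α hα hα1 hinv s₁ hs₁ hmin hres h
  have h2 : (ρ₀ : ℝ) ≤ (threshold L α s₁ : ℝ) := by exact_mod_cast h1
  rw [hρ₀, threshold_eq_rpow L I hc0 hc1 α hi s₁ hs₁ hmin] at h2
  have h3 : (I.e0 : ℝ) * (I.uMax + 1) ≤ (I.e0 : ℝ) * (v₀ + 1) :=
    (Real.rpow_le_rpow_left_iff_of_base_lt_one hc0 hc1).1 h2
  have he : (0 : ℝ) < I.e0 := by exact_mod_cast I.e0_pos
  have h4 : I.uMax + 1 ≤ v₀ + 1 := le_of_mul_le_mul_left h3 he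
  exact (I.upperBounded_iff_uMax_le hv₀).2 (by linarith)

end Concrete

end Fermat.Agent.Lib.Ram.SharpSerre
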