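import Mathlib
import Fermat.Agent.Lib.Ram.PmInst
import Fermat.Agent.Lib.Ram.Prop3Hom
import Fermat.Agent.Lib.Ram.SharpSerre
import Fermat.Agent.Lib.Ram.PmSharpFinal

/-!
helper6 (P-S56, block (A) LOCAL, ramification layer).  **Fontaine's bound in Serre's upper
numbering, final unconditional form**, for ANY model `(A, B)` of the rings of integers of a finite
Galois extension `L / K` of a complete locally compact ultrametric field (`Lib/Ram/PmInst`).

* `ramIdx_eq_e0` : `e(B/A) = |G₀| = I.e0` for `I = lowerNumbering A K L B`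
  (from `Prop3Hom.ramIdx_eq_e0`, i.e. Mathlib's `Ideal.card_inertia_eq_ramificationIdxIn`).
* `norm_emb_uniformizer_pow_e0` : `‖ϖ_L‖ ^ I.e0 = ‖π_K‖`.
* `upperBounded_of_forall_propertyP` : if `(P_m)` (hom form, `Lib/Ram/PropertyPm`) holds for all
  `ρ < ‖π_K‖ ^ (v₀ + 1)` then `G^v = 1` for all `v > v₀`
  (`PmSharpFinal` + `SharpSerre` + `PmInst` + `Monogenic`).
* `propertyP_of_upperBounded` : the converse (direction (i), Krasner).
-/

set_option autoImplicit false

open Polynomial IntermediateField IsLocalRing IsDiscreteValuationRing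
open scoped NNReal

namespace Fermat.Agent.Lib.Ram.FontaineBound

open Fermat.Agent.Lib.Ram Fermat.Agent.Lib.Ram.PropertyPm Fermat.Agent.Lib.Ram.GaloisLower
  Fermat.Agent.Lib.Ram.PmInst Fermat.Agent.Lib.CFT.Local

/-! ### `e(B/A) = |G₀|` -/

section RamIdx

variable {A K L B : Type*}
  [CommRing A] [IsDomain A] [IsDiscreteValuationRing A]
  [Field K] [Algebra A K] [IsFractionRing A K]
  [Field L] [Algebra K L] [FiniteDimensional K L] [IsGalois K L] [Algebra A L]
  [IsScalarTower A K L]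
  [CommRing B] [IsDomain B] [IsDiscreteValuationRing B] [Algebra A B] [Algebra B L]
  [IsScalarTower A B L] [IsIntegralClosure B A L]
  [Module.Finite A B] [Module.IsTorsionFree A B] [Finite (ResidueField A)]

/-- **The ramification index is the order of the inertia group** `G₀ = {s | 1 ≤ i_G(s)}`. -/
theorem ramIdx_eq_e0 [Fintype (L ≃ₐ[K] L)] : ramIdx A B = (lowerNumbering A K L B).e0 := by
  classical
  let _ : Fintype (Prop3Hom.res K K L).ker := Fintype.ofFinite _
  have h := Prop3Hom.ramIdx_eq_e0 (A := A) (K := K) (L := K) (M := L) (B := A) (C := B)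
  rw [h]
  have hker : ∀ s : L ≃ₐ[K] L, s ∈ (Prop3Hom.res K K L).ker := fun s => by
    rw [MonoidHom.mem_ker]
    exact AlgEquiv.ext fun x => by
      have h1 := (Prop3Hom.res K K L s).commutes x
      simpa using h1
  unfold LowerNumbering.e0
  refine Finset.card_bij (fun t _ => (t : L ≃ₐ[K] L)) ?_ ?_ ?_
  · intro t ht
    rw [Finset.mem_filter] at ht ⊢
    exact ⟨Finset.mem_univ _, ht.2⟩
  · intro t _ t' _ h1
    exact Subtype.ext h1
  · intro s hs
    rw [Finset.mem_filter] at hs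
    exact ⟨⟨s, hker s⟩, Finset.mem_filter.2 ⟨Finset.mem_univ _, hs.2⟩, rfl⟩

/-- `v_B(π_A) = |G₀|`. -/
theorem addVal_algebraMap_uniformizer [Fintype (L ≃ₐ[K] L)] {π : A} (hπ : Irreducible π) :
    addVal B (algebraMap A B π) = ((lowerNumbering A K L B).e0 : ℕ∞) := by
  rw [Prop3Hom.addVal_algebraMap, addVal_uniformizer hπ, nsmul_eq_mul, mul_one,
    ramIdx_eq_e0 (K := K) (L := L)]

end RamIdx

/-! ### The normed setting -/

section Normed

variable {A K Ω B : Type*} [CommRing A] [IsDomain A] [IsDiscreteValuationRing A]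
  [NontriviallyNormedField K] [IsUltrametricDist K]
  [CompleteSpace K] [Algebra A K] [IsFractionRing A K]
  [NormedField Ω] [IsUltrametricDist Ω] [NormedAlgebra K Ω] [Algebra.IsAlgebraic K Ω]
  [Algebra A Ω] [IsScalarTower A K Ω]
  {L : IntermediateField K Ω} [FiniteDimensional K L] [IsGalois K L]
  [Algebra A L] [IsScalarTower A K L]
  [CommRing B] [IsDomain B] [IsDiscreteValuationRing B] [Algebra A B] [Algebra B L]
  [IsScalarTower A B L] [IsIntegralClosure B A L]
  [Module.Finite A B] [Module.IsTorsionFree A B] [Finite (ResidueField A)]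
  [Fintype (L ≃ₐ[K] L)]

omit [IsUltrametricDist Ω] in
/-- **`‖ϖ_L‖ ^ e₀ = ‖π_K‖`.** -/
theorem norm_emb_uniformizer_pow_e0 (hA : ∀ k : K, ‖k‖ ≤ 1 ↔ k ∈ (algebraMap A K).range)
    {ϖ : B} (hϖ : Irreducible ϖ) {π : A} (hπ : Irreducible π) :
    ‖emb (L := L) ϖ‖ ^ (lowerNumbering A K L B).e0 = ‖algebraMap A K π‖ := by
  have h := NormIntegral.isUnitBall_of_isIntegralClosure (B := B) hA L.val
  have h1 := h.norm_eq_epow_addVal hϖ (algebraMap A B π)
  rw [addVal_algebraMap_uniformizer (K := K) (L := L) hπ, LemmaA.epow_coe] at h1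
  have h2 : ((L.val : L →+* Ω).comp (algebraMap B L)) (algebraMap A B π) =
      algebraMap K Ω (algebraMap A K π) := by
    show ((algebraMap B L (algebraMap A B π) : L) : Ω) = algebraMap K Ω (algebraMap A K π)
    rw [← IsScalarTower.algebraMap_apply A B L, IsScalarTower.algebraMap_apply A K L]
    rfl
  rw [h2, norm_algebraMap'] at h1
  exact h1.symm

omit [IsUltrametricDist Ω] in
include L B in
theorem norm_algebraMap_uniformizer_lt_one
    (hA : ∀ k : K, ‖k‖ ≤ 1 ↔ k ∈ (algebraMap A K).range) {π : A} (hπ : Irreducible π) :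
    ‖algebraMap A K π‖ < 1 := by
  obtain ⟨ϖ, hϖ⟩ := exists_irreducible B
  rw [← norm_emb_uniformizer_pow_e0 (L := L) hA hϖ hπ]
  exact pow_lt_one₀ (norm_emb_uniformizer_pos hA hϖ).le (norm_emb_uniformizer_lt_one hA hϖ)
    (lowerNumbering A K L B).e0_pos.ne'

/-- **Fontaine's bound, sharp, unconditional, Serre's upper numbering**: if `(P_m)` holds for all
`ρ < ‖π_K‖ ^ (v₀ + 1)` then the upper ramification groups `G^v`, `v > v₀`, are trivial. -/
theorem upperBounded_of_forall_propertyP [LocallyCompactSpace K] [IsAlgClosed Ω]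
    [IsLocalHom (algebraMap A B)] [Algebra.IsSeparable (ResidueField A) (ResidueField B)]
    (hA : ∀ k : K, ‖k‖ ≤ 1 ↔ k ∈ (algebraMap A K).range)
    (p : ℕ) [Fact p.Prime] (hp : ‖(p : Ω)‖ < 1) {π : A} (hπ : Irreducible π)
    {v₀ : ℝ} (hv₀ : -1 ≤ v₀)
    (h : ∀ ρ : ℝ≥0, (ρ : ℝ) < ‖algebraMap A K π‖ ^ (v₀ + 1) → PropertyP K Ω L ρ) :
    (lowerNumbering A K L B).UpperBounded v₀ := by
  classical
  by_cases htriv : ∃ σ : L ≃ₐ[K] L, σ ≠ 1
  swap
  · intro v _
    rw [eq_bot_iff]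
    intro s _
    rw [Subgroup.mem_bot]
    by_contra hne
    exact htriv ⟨s, hne⟩
  have hinj : Function.Injective (algebraMap A B) :=
    Prop3Hom.algebraMap_injective_of_tower A K L B
  obtain ⟨xB, hxB⟩ := Monogenic.exists_adjoin_eq_top A B hinj
  obtain ⟨ϖ, hϖ⟩ := exists_irreducible B
  have hx := adjoin_toIntE_eq_top (L := L) hA xB hxB
  obtain ⟨s₁, hs₁, hmin⟩ :=
    PmSharpFinal.exists_min_conj L (PmSharpFinal.toL L (toIntE (L := L) hA xB)) htriv
  have hc0 := norm_emb_uniformizer_pos (L := L) hA hϖ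
  have hc1 := norm_emb_uniformizer_lt_one (L := L) hA hϖ
  have hi : ∀ σ : L ≃ₐ[K] L,
      ‖((σ (PmSharpFinal.toL L (toIntE (L := L) hA xB)) : L) : Ω) -
        (PmSharpFinal.toL L (toIntE (L := L) hA xB) : L)‖ =
        LemmaA.epow ‖emb (L := L) ϖ‖ ((lowerNumbering A K L B).i σ) := by
    intro σ
    have h1 := PmInst.norm_conj_sub_conj hA hϖ xB hxB 1 σ
    rw [inv_one, one_mul, norm_sub_rev] at h1
    exact h1
  have hπ0 : 0 < ‖algebraMap A K π‖ := norm_pos_iff.2 fun h0 =>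
    hπ.ne_zero (IsFractionRing.injective A K (by rw [h0, map_zero]))
  have hπ1 := norm_algebraMap_uniformizer_lt_one (Ω := Ω) (L := L) (B := B) hA hπ
  let ρ₀ : ℝ≥0 := ⟨‖algebraMap A K π‖ ^ (v₀ + 1), Real.rpow_nonneg (norm_nonneg _) _⟩
  have h1 := PmSharpFinal.le_threshold_of_forall_propertyP L p hp (toIntE (L := L) hA xB) hx
    s₁ hs₁ hmin (ρ₀ := ρ₀) (fun ρ hρ => h ρ (by exact_mod_cast hρ))
  have h2 : (ρ₀ : ℝ) ≤ (PmSharp.threshold L (PmSharpFinal.toL L (toIntE (L := L) hA xB)) s₁ : ℝ) := by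
    exact_mod_cast h1
  rw [SharpSerre.threshold_eq_rpow L (lowerNumbering A K L B) hc0 hc1 _ hi s₁ hs₁ hmin,
    Real.rpow_mul hc0.le, Real.rpow_natCast, norm_emb_uniformizer_pow_e0 hA hϖ hπ] at h2
  have h3 : (lowerNumbering A K L B).uMax + 1 ≤ v₀ + 1 :=
    (Real.rpow_le_rpow_left_iff_of_base_lt_one hπ0 hπ1).1 h2
  exact ((lowerNumbering A K L B).upperBounded_iff_uMax_le hv₀).2 (by linarith)

end Normed

/-! ### The converse (direction (i)) -/

section Converse

variable {A K Ω B : Type*} [CommRing A] [IsDomain A] [IsDiscreteValuationRing A]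
  [NontriviallyNormedField K] [IsUltrametricDist K]
  [CompleteSpace K] [Algebra A K] [IsFractionRing A K]
  [NormedField Ω] [IsUltrametricDist Ω] [NormedAlgebra K Ω] [Algebra.IsAlgebraic K Ω]
  [Algebra A Ω] [IsScalarTower A K Ω]
  {L : IntermediateField K Ω} [FiniteDimensional K L] [IsGalois K L]
  [Algebra A L] [IsScalarTower A K L]
  [CommRing B] [IsDomain B] [IsDiscreteValuationRing B] [Algebra A B] [Algebra B L]
  [IsScalarTower A B L] [IsIntegralClosure B A L]
  [Module.Finite A B] [Module.IsTorsionFree A B] [Finite (ResidueField A)]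

/-- **Direction (i)** (Krasner): if `G^v = 1` for all `v > v₀` then `(P_m)` holds for all
`ρ < ‖π_K‖ ^ (v₀ + 1)`. -/
theorem propertyP_of_upperBounded
    [IsLocalHom (algebraMap A B)] [Algebra.IsSeparable (ResidueField A) (ResidueField B)]
    (hA : ∀ k : K, ‖k‖ ≤ 1 ↔ k ∈ (algebraMap A K).range) {π : A} (hπ : Irreducible π)
    {v₀ : ℝ} (hv₀ : -1 ≤ v₀) (hb : (lowerNumbering A K L B).UpperBounded v₀)
    {ρ : ℝ≥0} (hρ : (ρ : ℝ) < ‖algebraMap A K π‖ ^ (v₀ + 1)) : PropertyP K Ω L ρ := by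
  have hinj : Function.Injective (algebraMap A B) :=
    Prop3Hom.algebraMap_injective_of_tower A K L B
  obtain ⟨xB, hxB⟩ := Monogenic.exists_adjoin_eq_top A B hinj
  obtain ⟨ϖ, hϖ⟩ := exists_irreducible B
  have hc0 := norm_emb_uniformizer_pos (L := L) hA hϖ
  have hπ0 : 0 < ‖algebraMap A K π‖ := norm_pos_iff.2 fun h0 =>
    hπ.ne_zero (IsFractionRing.injective A K (by rw [h0, map_zero]))
  have hπ1 := norm_algebraMap_uniformizer_lt_one (Ω := Ω) (L := L) (B := B) hA hπ
  have hu : (lowerNumbering A K L B).uMax ≤ v₀ :=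
    ((lowerNumbering A K L B).upperBounded_iff_uMax_le hv₀).1 hb
  apply propertyP_of_lt hA hϖ xB hxB
  rw [rpow_trSum_iMax _ hc0.le, norm_emb_uniformizer_pow_e0 hA hϖ hπ]
  exact lt_of_lt_of_le hρ (Real.rpow_le_rpow_of_exponent_ge hπ0 hπ1.le (by linarith))

end Converse

end Fermat.Agent.Lib.Ram.FontaineBound
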