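import Fermat.Agent.Lib.Ram.HerbrandCor

/-!
helper24 (P-S56, block (A) LOCAL).  Towers `M / L / K` with `L / K` tame, and composita of
single-jump (e.g. degree `p`) extensions, in the ABSTRACT language of `Lib/Ram/Herbrand.lean`
(Serre's numbering; a `LowerNumbering G` plays the role of `i_G` for `G = Gal(M/K)`, a normal
subgroup `N` is `Gal(M/L)`, `I.restrict N` is `i_{Gal(M/L)}`, a numbering `IQ` on `G ⧸ N` with
`QuotientFormula I N IQ` (Serre IV Prop. 3) is `i_{Gal(L/K)}`).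

* `le_i_pow`, `le_i_zpow`, `le_i_of_mem_zpowers` : `i s ≤ i (s ^ k)`.
* `HasJump I c` : every `s ≠ 1` has `i s = c` (`c : ℕ`), i.e. the filtration has its only jump at
  the integer `c - 1` (`c = 0`: unramified, `c = 1`: tame totally ramified, `c ≥ 2`: wild).
  `exists_hasJump_of_card_prime` : a group of prime order has a single jump.
  `HasJump.phi_jump`, `HasJump.psi_jump`, `HasJump.upperGroup_eq_top`, `HasJump.upperGroup_eq_bot`,
  `HasJump.upperBounded_iff` : `UpperBounded v₀ ↔ c - 1 ≤ v₀` (lower break = upper break).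
* tame tower, pointwise: `upperGroup_eq_bot_iff_of_tame` :
  for `v > 0`, `G^v = 1 ↔ N^{e v} = 1` (`e = e_{L/K} = IQ.e0`), and `upperGroup_eq_bot_iff_of_tame'`.
* compositum: for a family of normal subgroups `H j` with quotient numberings,
  `upperGroup_le_iInf`, `upperGroup_eq_bot_iff_of_iInf_eq_bot`, `upperBounded_iff_of_iInf_eq_bot`
  (`⨅ j, H j = ⊥`: `M` is the compositum of the `M^{H j}`), binary version
  `upperBounded_iff_of_inf_eq_bot`.
* `upperBounded_iff_forall_jump_le` : compositum of single-jump extensions: the largest upper break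
  is the maximum of the single (integral) breaks `c j - 1`.
* `upperBounded_iff_of_tame_of_jumps` : `M / L / K`, `L / K` tame, `M / L` compositum of single-jump
  extensions: `G(M/K)` is bounded by `v₀ ≥ 0` iff all breaks `c j - 1` are `≤ e_{L/K} v₀`;
  `upperBounded_floor_of_tame_of_jumps` : integrality: the bound `v₀` may be replaced by
  `⌊e v₀⌋ / e`;  `jump_le_floor_of_upperBounded` (integer form).
-/

set_option autoImplicit false
set_option linter.unusedSectionVars false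

namespace Fermat.Agent.Lib.Ram.TameTower

open Fermat.Agent.Lib.Ram Fermat.Agent.Lib.Ram.LowerNumbering

variable {G : Type*} [Group G] (I : LowerNumbering G)

/-! ### Powers -/

theorem le_i_pow (s : G) (k : ℕ) : I.i s ≤ I.i (s ^ k) := by
  induction k with
  | zero => rw [pow_zero, I.i_one]; exact le_top
  | succ k ih =>
    rw [pow_succ]
    exact (le_min ih le_rfl).trans (I.i_mul _ _)

theorem le_i_zpow (s : G) (k : ℤ) : I.i s ≤ I.i (s ^ k) := by
  cases k with
  | ofNat k => rw [Int.ofNat_eq_natCast, zpow_natCast]; exact le_i_pow I s k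
  | negSucc k => rw [zpow_negSucc, I.i_inv]; exact le_i_pow I s (k + 1)

theorem le_i_of_mem_zpowers {s t : G} (h : t ∈ Subgroup.zpowers s) : I.i s ≤ I.i t := by
  obtain ⟨k, rfl⟩ := Subgroup.mem_zpowers_iff.1 h
  exact le_i_zpow I s k

/-! ### Single jump -/

/-- every non-trivial element has `i s = c`: the ramification filtration jumps only at `c - 1`. -/
def HasJump (c : ℕ) : Prop := ∀ s : G, s ≠ 1 → I.i s = (c : ℕ∞)

/-- **a group of prime order has a single jump** (at an integer). -/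
theorem exists_hasJump_of_card_prime {p : ℕ} [Fact p.Prime] (hG : Nat.card G = p) :
    ∃ c : ℕ, HasJump I c := by
  have hp : 1 < Nat.card G := hG ▸ (Fact.out : p.Prime).one_lt
  have : Finite G := Nat.finite_of_card_ne_zero (by omega)
  obtain ⟨g, hg⟩ : ∃ g : G, g ≠ 1 := by
    have : Nontrivial G := Finite.one_lt_card_iff_nontrivial.1 hp
    exact exists_ne 1
  have hn : I.i g ≠ ⊤ := fun h => hg ((I.i_eq_top g).1 h)
  refine ⟨(I.i g).toNat, fun s hs => ?_⟩
  rw [ENat.natCast_toNat hn]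
  apply le_antisymm
  · apply le_i_of_mem_zpowers
    rw [zpowers_eq_top_of_prime_card hG hs]
    exact Subgroup.mem_top g
  · apply le_i_of_mem_zpowers
    rw [zpowers_eq_top_of_prime_card hG hg]
    exact Subgroup.mem_top s

namespace HasJump

variable {I}
variable [Fintype G] {c : ℕ}

theorem leENat_all (h : HasJump I c) {x : ℝ} (hx : x ≤ c) (s : G) : leENat x (I.i s) := by
  by_cases hs : s = 1
  · rw [hs, I.i_one]; exact leENat_top x
  · rw [h s hs, leENat_coe]; exact hx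

/-- `φ(c - 1) = c - 1`: the lower and the upper break coincide. -/
theorem phi_jump (h : HasJump I c) : I.phi ((c : ℝ) - 1) = (c : ℝ) - 1 := by
  rcases Nat.eq_zero_or_pos c with h0 | h0
  · subst h0
    rw [Nat.cast_zero, zero_sub]
    exact I.phi_neg_one
  · have h1 : (1 : ℝ) ≤ c := by exact_mod_cast h0
    exact I.phi_eq_self_of_forall_le (b := (c : ℝ) - 1) (by linarith)
      (fun s => h.leENat_all (by linarith) s) le_rfl

theorem psi_jump (h : HasJump I c) : I.psi ((c : ℝ) - 1) = (c : ℝ) - 1 := by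
  apply I.phi_strictMono.injective
  rw [phi_psi, h.phi_jump]

/-- `G^v = G` up to the break. -/
theorem upperGroup_eq_top (h : HasJump I c) {v : ℝ} (hv : v ≤ (c : ℝ) - 1) :
    I.upperGroup v = ⊤ := by
  rw [eq_top_iff]
  intro s _
  rw [mem_upperGroup, mem_lowerGroup]
  have h1 : I.psi v ≤ (c : ℝ) - 1 := by
    rw [← h.psi_jump]
    exact I.psi_strictMono.monotone hv
  exact h.leENat_all (by linarith) s

/-- `G^v = 1` beyond the break. -/
theorem upperGroup_eq_bot (h : HasJump I c) {v : ℝ} (hv : (c : ℝ) - 1 < v) :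
    I.upperGroup v = ⊥ := by
  rw [eq_bot_iff]
  intro s hs
  rw [Subgroup.mem_bot]
  by_contra hs1
  rw [mem_upperGroup, mem_lowerGroup, h s hs1, leENat_coe] at hs
  have h1 : (c : ℝ) - 1 < I.psi v := by
    rw [← h.psi_jump]
    exact I.psi_strictMono hv
  linarith

theorem upperBounded (h : HasJump I c) {v₀ : ℝ} (hv : (c : ℝ) - 1 ≤ v₀) : I.UpperBounded v₀ :=
  fun _ hv' => h.upperGroup_eq_bot (lt_of_le_of_lt hv hv')

theorem le_of_upperBounded [Nontrivial G] (h : HasJump I c) {v₀ : ℝ} (hb : I.UpperBounded v₀) :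
    (c : ℝ) - 1 ≤ v₀ := by
  by_contra hlt
  rw [not_le] at hlt
  obtain ⟨s, hs⟩ := exists_ne (1 : G)
  have h1 : s ∈ I.upperGroup ((c : ℝ) - 1) := by
    rw [h.upperGroup_eq_top le_rfl]
    exact Subgroup.mem_top s
  rw [hb _ hlt, Subgroup.mem_bot] at h1
  exact hs h1

/-- for a non-trivial group with a single jump: bounded by `v₀` iff the break `c - 1` is `≤ v₀`. -/
theorem upperBounded_iff [Nontrivial G] (h : HasJump I c) {v₀ : ℝ} :
    I.UpperBounded v₀ ↔ (c : ℝ) - 1 ≤ v₀ :=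
  ⟨h.le_of_upperBounded, h.upperBounded⟩

/-- single jump `c ≤ 1` is tame. -/
theorem isTame (h : HasJump I c) (hc : c ≤ 1) : I.IsTame := by
  intro s hs
  rw [h s hs]
  exact_mod_cast hc

end HasJump

/-! ### Tame towers, pointwise -/

section Tower

variable [Fintype G] {N : Subgroup G} [N.Normal] [Fintype N] [Fintype (G ⧸ N)]
  {IQ : LowerNumbering (G ⧸ N)}

/-- **tame tower**: `M / L / K`, `L / K` tame of ramification index `e`, `v > 0`:
`G(M/K)^v = 1 ↔ G(M/L)^{e v} = 1`. -/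
theorem upperGroup_eq_bot_iff_of_tame (hq : QuotientFormula I N IQ) (ht : IQ.IsTame) {v : ℝ}
    (hv : 0 < v) : I.upperGroup v = ⊥ ↔ (I.restrict N).upperGroup (IQ.e0 * v) = ⊥ := by
  rw [upperGroup_restrict_of_tame I hq ht hv.le, Subgroup.subgroupOf_eq_bot,
    disjoint_of_le_iff_left_eq_bot (upperGroup_le_of_tame I hq ht hv)]

/-- **tame tower**, rescaled: for `w > 0`, `G(M/L)^w = 1 ↔ G(M/K)^{w / e} = 1`. -/
theorem upperGroup_eq_bot_iff_of_tame' (hq : QuotientFormula I N IQ) (ht : IQ.IsTame) {w : ℝ}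
    (hw : 0 < w) : (I.restrict N).upperGroup w = ⊥ ↔ I.upperGroup (w / IQ.e0) = ⊥ := by
  have he : (0 : ℝ) < IQ.e0 := Nat.cast_pos.2 IQ.e0_pos
  rw [upperGroup_eq_bot_iff_of_tame I hq ht (div_pos hw he), mul_div_cancel₀ _ he.ne']

/-- for a tame quotient, in the tower: `G(M/K)^v = G(M/L)^{e v}` as subgroups of `G(M/K)`. -/
theorem upperGroup_eq_map_of_tame (hq : QuotientFormula I N IQ) (ht : IQ.IsTame) {v : ℝ}
    (hv : 0 < v) : I.upperGroup v = ((I.restrict N).upperGroup (IQ.e0 * v)).map N.subtype := by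
  rw [upperGroup_restrict_of_tame I hq ht hv.le, Subgroup.map_subgroupOf_eq_of_le
    (upperGroup_le_of_tame I hq ht hv)]

end Tower

/-! ### Composita -/

section Compositum

variable [Fintype G] {ι : Type*} (H : ι → Subgroup G) [∀ j, (H j).Normal] [∀ j, Fintype (H j)]
  [∀ j, Fintype (G ⧸ H j)] (IQ : ∀ j, LowerNumbering (G ⧸ H j))

variable {H IQ}

theorem upperGroup_le_iInf (hq : ∀ j, QuotientFormula I (H j) (IQ j)) {v : ℝ}
    (h : ∀ j, (IQ j).upperGroup v = ⊥) : I.upperGroup v ≤ ⨅ j, H j :=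
  le_iInf fun j => upperGroup_le_of_quotient I (hq j) (h j)

theorem upperGroup_quotient_eq_bot {H₁ : Subgroup G} [H₁.Normal] [Fintype H₁] [Fintype (G ⧸ H₁)]
    {I₁ : LowerNumbering (G ⧸ H₁)} (hq : QuotientFormula I H₁ I₁) {v : ℝ}
    (h : I.upperGroup v = ⊥) : I₁.upperGroup v = ⊥ := by
  rw [← map_upperGroup I hq, h, Subgroup.map_bot]

/-- **compositum**, pointwise: if `⨅ j, H j = ⊥` then `G^v = 1` iff all `(G ⧸ H j)^v = 1`. -/
theorem upperGroup_eq_bot_iff_of_iInf_eq_bot (hq : ∀ j, QuotientFormula I (H j) (IQ j))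
    (hH : ⨅ j, H j = ⊥) {v : ℝ} :
    I.upperGroup v = ⊥ ↔ ∀ j, (IQ j).upperGroup v = ⊥ := by
  constructor
  · intro h j
    exact upperGroup_quotient_eq_bot I (hq j) h
  · intro h
    rw [eq_bot_iff, ← hH]
    exact upperGroup_le_iInf I hq h

/-- **compositum**: if `⨅ j, H j = ⊥` then `G` is bounded by `v₀` iff all `G ⧸ H j` are. -/
theorem upperBounded_iff_of_iInf_eq_bot (hq : ∀ j, QuotientFormula I (H j) (IQ j))
    (hH : ⨅ j, H j = ⊥) {v₀ : ℝ} :
    I.UpperBounded v₀ ↔ ∀ j, (IQ j).UpperBounded v₀ := by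
  constructor
  · intro h j
    exact h.quotient I (hq j)
  · intro h v hv
    exact (upperGroup_eq_bot_iff_of_iInf_eq_bot I hq hH).2 fun j => h j v hv

/-- **compositum of two extensions**. -/
theorem upperBounded_iff_of_inf_eq_bot {H₁ H₂ : Subgroup G} [H₁.Normal] [H₂.Normal]
    [Fintype H₁] [Fintype H₂] [Fintype (G ⧸ H₁)] [Fintype (G ⧸ H₂)]
    {I₁ : LowerNumbering (G ⧸ H₁)} {I₂ : LowerNumbering (G ⧸ H₂)}
    (hq₁ : QuotientFormula I H₁ I₁) (hq₂ : QuotientFormula I H₂ I₂) (hH : H₁ ⊓ H₂ = ⊥) {v₀ : ℝ} :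
    I.UpperBounded v₀ ↔ I₁.UpperBounded v₀ ∧ I₂.UpperBounded v₀ := by
  constructor
  · intro h
    exact ⟨h.quotient I hq₁, h.quotient I hq₂⟩
  · rintro ⟨h₁, h₂⟩ v hv
    rw [eq_bot_iff, ← hH]
    exact le_inf (upperGroup_le_of_quotient I hq₁ (h₁ v hv))
      (upperGroup_le_of_quotient I hq₂ (h₂ v hv))

theorem nontrivial_quotient_of_ne_top {H₁ : Subgroup G} [H₁.Normal] (h : H₁ ≠ ⊤) :
    Nontrivial (G ⧸ H₁) := by
  obtain ⟨s, hs⟩ : ∃ s : G, s ∉ H₁ := by
    by_contra hall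
    exact h (eq_top_iff.2 fun s _ => by_contra fun hs => hall ⟨s, hs⟩)
  exact ⟨⟨(s : G ⧸ H₁), 1, fun h1 => hs ((QuotientGroup.eq_one_iff s).1 h1)⟩⟩

/-- **compositum of single-jump extensions** (e.g. an elementary abelian `p`-extension as the
compositum of its degree `p` subextensions): the largest upper break is the maximum of the single
breaks `c j - 1`, which are integers. -/
theorem upperBounded_iff_forall_jump_le (hq : ∀ j, QuotientFormula I (H j) (IQ j))
    (hH : ⨅ j, H j = ⊥) (hnt : ∀ j, H j ≠ ⊤) {c : ι → ℕ} (hc : ∀ j, HasJump (IQ j) (c j))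
    {v₀ : ℝ} : I.UpperBounded v₀ ↔ ∀ j, (c j : ℝ) - 1 ≤ v₀ := by
  rw [upperBounded_iff_of_iInf_eq_bot I hq hH]
  refine forall_congr' fun j => ?_
  have := nontrivial_quotient_of_ne_top (hnt j)
  exact (hc j).upperBounded_iff

/-- quotients of prime order have a single jump. -/
theorem exists_hasJump_of_index_prime {H₁ : Subgroup G} [H₁.Normal] {p : ℕ} [Fact p.Prime]
    (hp : H₁.index = p) (I₁ : LowerNumbering (G ⧸ H₁)) : ∃ c : ℕ, HasJump I₁ c :=
  exists_hasJump_of_card_prime I₁ (by rw [← Subgroup.index_eq_card, hp])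

end Compositum

/-! ### Tame tower with a compositum of single-jump extensions on top -/

section TameCompositum

variable [Fintype G] {N : Subgroup G} [N.Normal] [Fintype N] [Fintype (G ⧸ N)]
  {IQ : LowerNumbering (G ⧸ N)}
  {ι : Type*} {H : ι → Subgroup N} [∀ j, (H j).Normal] [∀ j, Fintype (H j)]
  [∀ j, Fintype (N ⧸ H j)] {IN : ∀ j, LowerNumbering (N ⧸ H j)}

/-- `M / L / K` with `L / K` tame of ramification index `e = IQ.e0` and `M / L` the compositum of
single-jump extensions `L_j / L` (lower = upper break `c j - 1 ∈ ℤ`): `G(M/K)` is bounded by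
`v₀ ≥ 0` iff `c j - 1 ≤ e v₀` for all `j`. -/
theorem upperBounded_iff_of_tame_of_jumps (hq : QuotientFormula I N IQ) (ht : IQ.IsTame)
    (hqN : ∀ j, QuotientFormula (I.restrict N) (H j) (IN j)) (hH : ⨅ j, H j = ⊥)
    (hnt : ∀ j, H j ≠ ⊤) {c : ι → ℕ} (hc : ∀ j, HasJump (IN j) (c j)) {v₀ : ℝ} (hv : 0 ≤ v₀) :
    I.UpperBounded v₀ ↔ ∀ j, (c j : ℝ) - 1 ≤ IQ.e0 * v₀ := by
  rw [upperBounded_iff_of_tame I hq ht hv,
    upperBounded_iff_forall_jump_le (I.restrict N) hqN hH hnt hc]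

/-- integer form: the breaks are bounded by the integral part of `e v₀`. -/
theorem jump_le_floor_of_upperBounded (hq : QuotientFormula I N IQ) (ht : IQ.IsTame)
    (hqN : ∀ j, QuotientFormula (I.restrict N) (H j) (IN j)) (hH : ⨅ j, H j = ⊥)
    (hnt : ∀ j, H j ≠ ⊤) {c : ι → ℕ} (hc : ∀ j, HasJump (IN j) (c j)) {v₀ : ℝ} (hv : 0 ≤ v₀)
    (hb : I.UpperBounded v₀) (j : ι) : (c j : ℤ) - 1 ≤ ⌊(IQ.e0 : ℝ) * v₀⌋ := by
  rw [Int.le_floor]
  push_cast
  exact (upperBounded_iff_of_tame_of_jumps I hq ht hqN hH hnt hc hv).1 hb j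

/-- **integrality of the breaks over the tame field**: a bound `v₀` for `G(M/K)` can be improved to
`⌊e v₀⌋ / e`. -/
theorem upperBounded_floor_of_tame_of_jumps (hq : QuotientFormula I N IQ) (ht : IQ.IsTame)
    (hqN : ∀ j, QuotientFormula (I.restrict N) (H j) (IN j)) (hH : ⨅ j, H j = ⊥)
    (hnt : ∀ j, H j ≠ ⊤) {c : ι → ℕ} (hc : ∀ j, HasJump (IN j) (c j)) {v₀ : ℝ} (hv : 0 ≤ v₀)
    (hb : I.UpperBounded v₀) : I.UpperBounded ((⌊(IQ.e0 : ℝ) * v₀⌋ : ℝ) / IQ.e0) := by
  have he : (0 : ℝ) < IQ.e0 := Nat.cast_pos.2 IQ.e0_pos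
  have h0 : (0 : ℝ) ≤ (⌊(IQ.e0 : ℝ) * v₀⌋ : ℝ) := by
    have : (0 : ℤ) ≤ ⌊(IQ.e0 : ℝ) * v₀⌋ := Int.floor_nonneg.2 (mul_nonneg he.le hv)
    exact_mod_cast this
  rw [upperBounded_iff_of_tame_of_jumps I hq ht hqN hH hnt hc (div_nonneg h0 he.le),
    mul_div_cancel₀ _ he.ne']
  intro j
  have := jump_le_floor_of_upperBounded I hq ht hqN hH hnt hc hv hb j
  exact_mod_cast this

end TameCompositum

end Fermat.Agent.Lib.Ram.TameTower
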