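import Fermat.Agent.Lib.Ram.Transport
import Fermat.Agent.Lib.Ram.TameTower

/-!
helper24 (P-S56, block (A) LOCAL).  Complements to helper12's `Lib/Ram/Transport.lean`
(`Transport.comap` along isomorphisms, `Transport.HomFormula I f IQ` = Serre IV Prop. 3 for a
surjection `f : G →* Q`) and to `Lib/Ram/TameTower.lean` (`HasJump`, composita, floor):

* `comapInj I f hf` : pull back along an INJECTIVE hom (`Gal(M/L) → Gal(M/K)`);
  `restrict_eq_comapInj`, `lowerGroup_comapInj`, `isTame_comapInj`, `hasJump_comapInj`,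
  `comapInj_eq_comap_restrict`, `comapInj_eq_comap_of_range_eq`, `upperBounded_comapInj_iff`,
  `upperBounded_comapInj_iff_of_range_eq`;  `hasJump_comap` (transport of `HasJump`),
  `comap_upperGroup_eq_bot_iff`.
* `homFormula_of_nat`, `homFormula_of_enat` : `HomFormula` from the relation stated in `ℕ` / `ℕ∞`
  (the shape produced by valuations: `i_Q(σ) · e' = ∑_{f s = σ} i_G(s)` in `ℕ∞`).
* more hom forms: `e0_eq_mul_hom` (no `Fintype (G ⧸ ker)` needed), `phi_eq_comp_hom`,
  `psi_eq_comp_hom`, `map_lowerGroup_hom`, `map_upperGroup_hom`, `upperBounded_of_hom`,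
  `upperGroup_le_ker_of_hom`, `upperGroup_restrict_hom`, `upperBounded_restrict_hom`,
  `upperBounded_of_tower_hom`, `upperGroup_restrict_of_tame_hom`, `upperBounded_iff_of_tame_hom`,
  `upperGroup_eq_bot_iff_of_tame_hom`, exact-sequence form `upperBounded_iff_of_tame_exact`.
* composita in hom form: `upperBounded_iff_of_homs`, `upperBounded_iff_forall_jump_le_hom`.
* tame base + compositum of single-jump extensions, exact-sequence form:
  `upperBounded_iff_of_tame_of_jumps_exact`, `jump_le_floor_of_upperBounded_exact`,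
  `upperBounded_floor_exact`.
-/

set_option autoImplicit false
set_option linter.unusedSectionVars false

namespace Fermat.Agent.Lib.Ram.TransportHom

open Fermat.Agent.Lib.Ram Fermat.Agent.Lib.Ram.LowerNumbering Fermat.Agent.Lib.Ram.TameTower
  Fermat.Agent.Lib.Ram.Transport

variable {G G' : Type*} [Group G] [Group G'] (I : LowerNumbering G)

/-! ### Pull back along an injection -/

/-- pull back a lower numbering along an injective homomorphism (`Gal(M/L) → Gal(M/K)`). -/
def comapInj (f : G' →* G) (hf : Function.Injective f) : LowerNumbering G' where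
  i s := I.i (f s)
  i_eq_top s := by
    rw [I.i_eq_top]
    exact ⟨fun h => hf (h.trans (map_one f).symm), fun h => by rw [h, map_one]⟩
  i_mul s t := by rw [map_mul]; exact I.i_mul _ _
  i_inv s := by rw [map_inv]; exact I.i_inv _
  i_conj s t := by rw [map_mul, map_mul, map_inv]; exact I.i_conj _ _

@[simp] theorem comapInj_i (f : G' →* G) (hf : Function.Injective f) (s : G') :
    (comapInj I f hf).i s = I.i (f s) := rfl

theorem lowerGroup_comapInj (f : G' →* G) (hf : Function.Injective f) (u : ℝ) :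
    (comapInj I f hf).lowerGroup u = (I.lowerGroup u).comap f := by
  ext s
  rfl

theorem restrict_eq_comapInj (H : Subgroup G) :
    I.restrict H = comapInj I H.subtype H.subtype_injective := rfl

theorem comap_eq_comapInj (e : G' ≃* G) :
    Transport.comap I e = comapInj I e.toMonoidHom e.injective := rfl

theorem isTame_comapInj (f : G' →* G) (hf : Function.Injective f) (h : I.IsTame) :
    (comapInj I f hf).IsTame := fun s hs =>
  h (f s) fun h1 => hs (hf (h1.trans (map_one f).symm))

theorem hasJump_comapInj (f : G' →* G) (hf : Function.Injective f) {c : ℕ} (h : HasJump I c) :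
    HasJump (comapInj I f hf) c := fun s hs =>
  h (f s) fun h1 => hs (hf (h1.trans (map_one f).symm))

/-- transport of `HasJump` along an isomorphism. -/
theorem hasJump_comap (e : G' ≃* G) {c : ℕ} : HasJump (Transport.comap I e) c ↔ HasJump I c := by
  constructor
  · intro h s hs
    have := h (e.symm s) fun h1 => hs (by rw [← e.apply_symm_apply s, h1, map_one])
    rwa [comap_i, e.apply_symm_apply] at this
  · exact hasJump_comapInj I e.toMonoidHom e.injective

theorem comap_upperGroup_eq_bot_iff [Fintype G] [Fintype G'] (e : G' ≃* G) {v : ℝ} :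
    (Transport.comap I e).upperGroup v = ⊥ ↔ I.upperGroup v = ⊥ := by
  rw [eq_bot_iff, eq_bot_iff]
  constructor
  · intro h s hs
    have h1 : e.symm s ∈ (Transport.comap I e).upperGroup v := by
      rw [mem_comap_upperGroup, e.apply_symm_apply]; exact hs
    have h2 := h h1
    rw [Subgroup.mem_bot] at h2 ⊢
    rw [← e.apply_symm_apply s, h2, map_one]
  · intro h s hs
    rw [mem_comap_upperGroup] at hs
    have h2 := h hs
    rw [Subgroup.mem_bot] at h2 ⊢
    exact e.injective (h2.trans (map_one e).symm)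

/-- an injection is an isomorphism onto its range. -/
theorem comapInj_eq_comap_restrict (f : G' →* G) (hf : Function.Injective f) :
    comapInj I f hf = Transport.comap (I.restrict f.range) (MonoidHom.ofInjective hf) := rfl

theorem upperBounded_comapInj_iff [Fintype G'] (f : G' →* G) (hf : Function.Injective f)
    [Fintype f.range] {v₀ : ℝ} :
    (comapInj I f hf).UpperBounded v₀ ↔ (I.restrict f.range).UpperBounded v₀ := by
  rw [comapInj_eq_comap_restrict]
  exact comap_upperBounded_iff (I.restrict f.range) (MonoidHom.ofInjective hf)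

/-- an injection with range `H` is an isomorphism onto `H` (exact sequences). -/
theorem comapInj_eq_comap_of_range_eq (f : G' →* G) (hf : Function.Injective f)
    {H : Subgroup G} (hH : f.range = H) :
    comapInj I f hf = Transport.comap (I.restrict H)
      ((MonoidHom.ofInjective hf).trans (MulEquiv.subgroupCongr hH)) := rfl

theorem upperBounded_comapInj_iff_of_range_eq [Fintype G'] (f : G' →* G)
    (hf : Function.Injective f) {H : Subgroup G} [Fintype H] (hH : f.range = H) {v₀ : ℝ} :
    (comapInj I f hf).UpperBounded v₀ ↔ (I.restrict H).UpperBounded v₀ := by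
  rw [comapInj_eq_comap_of_range_eq I f hf hH]
  exact comap_upperBounded_iff (I.restrict H) _

/-! ### `HomFormula` from relations in `ℕ` and `ℕ∞` -/

section Hom

variable {Q : Type*} [Group Q] [Fintype G] [Fintype Q] (π : G →* Q) [Fintype π.ker]
  (J : LowerNumbering Q)

open Classical in
/-- the relation of Serre IV Prop. 3 stated in `ℕ`. -/
theorem homFormula_of_nat
    (h : ∀ σ : Q, σ ≠ 1 → (J.i σ).toNat * (I.restrict π.ker).e0 =
      ∑ s ∈ Finset.univ.filter (fun s : G => π s = σ), (I.i s).toNat) :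
    HomFormula I π J := by
  intro σ hσ
  have h1 := congrArg (fun n : ℕ => (n : ℝ)) (h σ hσ)
  simp only [Nat.cast_mul, Nat.cast_sum] at h1
  exact h1

open Classical in
/-- the relation of Serre IV Prop. 3 stated in `ℕ∞` (the shape produced by valuations). -/
theorem homFormula_of_enat
    (h : ∀ σ : Q, σ ≠ 1 → J.i σ * ((I.restrict π.ker).e0 : ℕ∞) =
      ∑ s ∈ Finset.univ.filter (fun s : G => π s = σ), I.i s) :
    HomFormula I π J := by
  apply homFormula_of_nat
  intro σ hσ
  have h1 := h σ hσ
  have hJ : J.i σ ≠ ⊤ := fun h2 => hσ ((J.i_eq_top σ).1 h2)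
  have hI : ∀ s ∈ Finset.univ.filter (fun s : G => π s = σ), I.i s = ((I.i s).toNat : ℕ∞) := by
    intro s hs
    have hs1 : s ≠ 1 := by
      rintro rfl
      exact hσ ((Finset.mem_filter.1 hs).2.symm.trans (map_one π))
    exact (ENat.natCast_toNat (fun h2 => hs1 ((I.i_eq_top s).1 h2))).symm
  rw [Finset.sum_congr rfl hI, ← ENat.natCast_toNat hJ, ← Nat.cast_sum, ← Nat.cast_mul] at h1
  exact_mod_cast h1

variable {π J}

/-! ### More hom forms of Herbrand's theory -/

/-- the canonical isomorphism `G ⧸ ker π ≃* Q`. -/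
noncomputable def quotEquiv (hπ : Function.Surjective π) : G ⧸ π.ker ≃* Q :=
  QuotientGroup.quotientKerEquivOfSurjective π hπ

theorem quotEquiv_mk (hπ : Function.Surjective π) (s : G) :
    quotEquiv hπ (s : G ⧸ π.ker) = π s := rfl

theorem quotEquiv_comp_mk' (hπ : Function.Surjective π) :
    (quotEquiv hπ).toMonoidHom.comp (QuotientGroup.mk' π.ker) = π :=
  MonoidHom.ext fun _ => rfl

theorem quotientFormula_of_hom [Fintype (G ⧸ π.ker)] (hπ : Function.Surjective π)
    (h : HomFormula I π J) : QuotientFormula I π.ker (Transport.comap J (quotEquiv hπ)) :=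
  h.quotientFormula hπ

/-- **multiplicativity of the ramification index**, hom form. -/
theorem e0_eq_mul_hom (hπ : Function.Surjective π) (h : HomFormula I π J) :
    I.e0 = J.e0 * (I.restrict π.ker).e0 := by
  have : Fintype (G ⧸ π.ker) := Fintype.ofFinite _
  rw [e0_eq_mul I (quotientFormula_of_hom I hπ h), comap_e0]

/-- **transitivity of `φ`**, hom form: `φ_G = φ_Q ∘ φ_{ker π}`. -/
theorem phi_eq_comp_hom (hπ : Function.Surjective π) (h : HomFormula I π J)
    (u : ℝ) : I.phi u = J.phi ((I.restrict π.ker).phi u) := by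
  have : Fintype (G ⧸ π.ker) := Fintype.ofFinite _
  rw [phi_eq_comp I (quotientFormula_of_hom I hπ h), comap_phi]

theorem psi_eq_comp_hom (hπ : Function.Surjective π) (h : HomFormula I π J)
    (v : ℝ) : I.psi v = (I.restrict π.ker).psi (J.psi v) := by
  have : Fintype (G ⧸ π.ker) := Fintype.ofFinite _
  rw [psi_eq_comp I (quotientFormula_of_hom I hπ h), comap_psi]

/-- **Herbrand's theorem**, hom form: `π(G_u) = Q_{φ_{ker π}(u)}`. -/
theorem map_lowerGroup_hom (hπ : Function.Surjective π) (h : HomFormula I π J)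
    (u : ℝ) :
    (I.lowerGroup u).map π = J.lowerGroup ((I.restrict π.ker).phi u) := by
  have : Fintype (G ⧸ π.ker) := Fintype.ofFinite _
  have h1 := map_lowerGroup I (quotientFormula_of_hom I hπ h) u
  rw [comap_lowerGroup] at h1
  have h2 := congrArg (Subgroup.map (quotEquiv hπ).toMonoidHom) h1
  rwa [Subgroup.map_map, quotEquiv_comp_mk',
    Subgroup.map_comap_eq_self_of_surjective (f := (quotEquiv hπ).toMonoidHom)
      (quotEquiv hπ).surjective] at h2

/-- **the upper numbering passes to quotients**, hom form: `π(G^v) = Q^v`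
(no `Fintype (G ⧸ ker π)` needed). -/
theorem map_upperGroup_hom (hπ : Function.Surjective π) (h : HomFormula I π J)
    (v : ℝ) : (I.upperGroup v).map π = J.upperGroup v := by
  unfold upperGroup
  rw [map_lowerGroup_hom I hπ h, psi_eq_comp_hom I hπ h, phi_psi]

theorem upperBounded_of_hom (hπ : Function.Surjective π) (h : HomFormula I π J)
    {v₀ : ℝ} (hb : I.UpperBounded v₀) : J.UpperBounded v₀ := by
  intro v hv
  rw [← map_upperGroup_hom I hπ h, hb v hv, Subgroup.map_bot]

theorem upperGroup_le_ker_of_hom (hπ : Function.Surjective π) (h : HomFormula I π J)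
    {v : ℝ} (hv : J.upperGroup v = ⊥) : I.upperGroup v ≤ π.ker := by
  rw [← map_upperGroup_hom I hπ h, Subgroup.map_eq_bot_iff] at hv
  exact hv

/-- `(ker π)^{ψ_Q(v)} = ker π ∩ G^v`. -/
theorem upperGroup_restrict_hom (hπ : Function.Surjective π) (h : HomFormula I π J)
    (v : ℝ) :
    (I.restrict π.ker).upperGroup (J.psi v) = (I.upperGroup v).subgroupOf π.ker := by
  unfold upperGroup
  rw [← psi_eq_comp_hom I hπ h, lowerGroup_restrict]

theorem upperBounded_restrict_hom (hπ : Function.Surjective π) (h : HomFormula I π J)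
    {v₀ : ℝ} (hb : I.UpperBounded v₀) :
    (I.restrict π.ker).UpperBounded (J.psi v₀) := by
  intro w hw
  have h1 : w = J.psi (J.phi w) := (psi_phi J w).symm
  rw [h1, upperGroup_restrict_hom I hπ h, hb, Subgroup.bot_subgroupOf]
  rw [← J.phi_psi v₀]
  exact J.phi_strictMono hw

/-- bounds in a tower, hom form. -/
theorem upperBounded_of_tower_hom (hπ : Function.Surjective π) (h : HomFormula I π J)
    {v₀ : ℝ} (hQ : J.UpperBounded v₀)
    (hH : (I.restrict π.ker).UpperBounded (J.psi v₀)) : I.UpperBounded v₀ := by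
  intro v hv
  have h1 : I.upperGroup v ≤ π.ker := upperGroup_le_ker_of_hom I hπ h (hQ v hv)
  have h2 : (I.upperGroup v).subgroupOf π.ker = ⊥ := by
    rw [← upperGroup_restrict_hom I hπ h]
    exact hH _ (J.psi_strictMono hv)
  rw [Subgroup.subgroupOf_eq_bot] at h2
  exact h2.eq_bot_of_le h1

/-- **tame rescaling**, hom form: `(ker π)^{e v} = ker π ∩ G^v` for `v ≥ 0`. -/
theorem upperGroup_restrict_of_tame_hom (hπ : Function.Surjective π) (h : HomFormula I π J)
    (ht : J.IsTame) {v : ℝ} (hv : 0 ≤ v) :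
    (I.restrict π.ker).upperGroup (J.e0 * v) = (I.upperGroup v).subgroupOf π.ker := by
  rw [← ht.psi J hv, upperGroup_restrict_hom I hπ h]

/-- **tame tower**, hom form (no `Fintype (G ⧸ ker π)` needed): `Gal(M/K)` is bounded by `v₀ ≥ 0`
iff `Gal(M/L)` is bounded by `e_{L/K} v₀`. -/
theorem upperBounded_iff_of_tame_hom (hπ : Function.Surjective π) (h : HomFormula I π J)
    (ht : J.IsTame) {v₀ : ℝ} (hv : 0 ≤ v₀) :
    I.UpperBounded v₀ ↔ (I.restrict π.ker).UpperBounded (J.e0 * v₀) := by
  rw [← ht.psi J hv]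
  exact ⟨upperBounded_restrict_hom I hπ h,
    upperBounded_of_tower_hom I hπ h ((ht.upperBounded J).mono J hv)⟩

/-- **tame tower**, pointwise hom form: for `v > 0`, `G^v = 1 ↔ (ker π)^{e v} = 1`. -/
theorem upperGroup_eq_bot_iff_of_tame_hom (hπ : Function.Surjective π) (h : HomFormula I π J)
    (ht : J.IsTame) {v : ℝ} (hv : 0 < v) :
    I.upperGroup v = ⊥ ↔ (I.restrict π.ker).upperGroup (J.e0 * v) = ⊥ := by
  rw [upperGroup_restrict_of_tame_hom I hπ h ht hv.le, Subgroup.subgroupOf_eq_bot,
    disjoint_of_le_iff_left_eq_bot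
      (upperGroup_le_ker_of_hom I hπ h (ht.upperBounded J v hv))]

/-- **tame tower for an exact sequence** `1 → N' → G → Q → 1` (`N' = Gal(M/L)`, `G = Gal(M/K)`,
`Q = Gal(L/K)` tame): `G` is bounded by `v₀ ≥ 0` iff `N'` (with the pulled back numbering, which
is its own arithmetic numbering) is bounded by `e_{L/K} v₀`. -/
theorem upperBounded_iff_of_tame_exact (hπ : Function.Surjective π) (h : HomFormula I π J)
    {N' : Type*} [Group N'] [Fintype N'] (ι : N' →* G)
    (hι : Function.Injective ι) (hex : ι.range = π.ker) (ht : J.IsTame) {v₀ : ℝ} (hv : 0 ≤ v₀) :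
    I.UpperBounded v₀ ↔ (comapInj I ι hι).UpperBounded (J.e0 * v₀) := by
  rw [upperBounded_iff_of_tame_hom I hπ h ht hv, upperBounded_comapInj_iff_of_range_eq I ι hι hex]

end Hom

/-! ### Composita, hom form -/

section Homs

variable [Fintype G] {ι : Type*} {Q : ι → Type*} [∀ j, Group (Q j)] [∀ j, Fintype (Q j)]
  {π : ∀ j, G →* Q j} [∀ j, Fintype (π j).ker] {J : ∀ j, LowerNumbering (Q j)}

/-- **compositum**, hom form: if the `π j` are jointly injective then `G` is bounded by `v₀` iff
all `Q j` are. -/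
theorem upperBounded_iff_of_homs (hπ : ∀ j, Function.Surjective (π j))
    (h : ∀ j, HomFormula I (π j) (J j)) (hker : ⨅ j, (π j).ker = ⊥) {v₀ : ℝ} :
    I.UpperBounded v₀ ↔ ∀ j, (J j).UpperBounded v₀ := by
  constructor
  · intro hb j
    exact upperBounded_of_hom I (hπ j) (h j) hb
  · intro hb v hv
    rw [eq_bot_iff, ← hker]
    exact le_iInf fun j => upperGroup_le_ker_of_hom I (hπ j) (h j) (hb j v hv)

/-- **compositum of single-jump extensions**, hom form: the largest upper break is the maximum of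
the single (integral) breaks `c j - 1`. -/
theorem upperBounded_iff_forall_jump_le_hom (hπ : ∀ j, Function.Surjective (π j))
    (h : ∀ j, HomFormula I (π j) (J j)) (hker : ⨅ j, (π j).ker = ⊥)
    [∀ j, Nontrivial (Q j)] {c : ι → ℕ} (hc : ∀ j, HasJump (J j) (c j)) {v₀ : ℝ} :
    I.UpperBounded v₀ ↔ ∀ j, (c j : ℝ) - 1 ≤ v₀ := by
  rw [upperBounded_iff_of_homs I hπ h hker]
  exact forall_congr' fun j => (hc j).upperBounded_iff

end Homs

/-! ### Tame base, compositum of single-jump extensions on top: exact-sequence form -/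

section TameExact

variable [Fintype G] {Q : Type*} [Group Q] [Fintype Q] {π : G →* Q} [Fintype π.ker]
  {J : LowerNumbering Q} {N' : Type*} [Group N'] [Fintype N'] {ι : N' →* G}
  {κ : Type*} {R : κ → Type*} [∀ j, Group (R j)] [∀ j, Fintype (R j)]
  {ρ : ∀ j, N' →* R j} [∀ j, Fintype (ρ j).ker] {JR : ∀ j, LowerNumbering (R j)}

/-- `1 → N' → G → Q → 1` exact (`N' = Gal(M/L)`, `G = Gal(M/K)`, `Q = Gal(L/K)` tame of
ramification index `e = J.e0`), `M / L` the compositum of single-jump extensions `L_j / L`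
(`R j = Gal(L_j/L)`, break `c j - 1 ∈ ℤ`): `G` is bounded by `v₀ ≥ 0` iff `c j - 1 ≤ e v₀` for all
`j`. -/
theorem upperBounded_iff_of_tame_of_jumps_exact (hπ : Function.Surjective π)
    (h : HomFormula I π J) (hι : Function.Injective ι) (hex : ι.range = π.ker)
    (ht : J.IsTame) (hρ : ∀ j, Function.Surjective (ρ j))
    (hR : ∀ j, HomFormula (comapInj I ι hι) (ρ j) (JR j)) (hker : ⨅ j, (ρ j).ker = ⊥)
    [∀ j, Nontrivial (R j)] {c : κ → ℕ} (hc : ∀ j, HasJump (JR j) (c j)) {v₀ : ℝ} (hv : 0 ≤ v₀) :
    I.UpperBounded v₀ ↔ ∀ j, (c j : ℝ) - 1 ≤ J.e0 * v₀ := by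
  rw [upperBounded_iff_of_tame_exact I hπ h ι hι hex ht hv,
    upperBounded_iff_forall_jump_le_hom (comapInj I ι hι) hρ hR hker hc]

/-- integer form: the breaks are bounded by the integral part of `e v₀`. -/
theorem jump_le_floor_of_upperBounded_exact (hπ : Function.Surjective π)
    (h : HomFormula I π J) (hι : Function.Injective ι) (hex : ι.range = π.ker)
    (ht : J.IsTame) (hρ : ∀ j, Function.Surjective (ρ j))
    (hR : ∀ j, HomFormula (comapInj I ι hι) (ρ j) (JR j)) (hker : ⨅ j, (ρ j).ker = ⊥)
    [∀ j, Nontrivial (R j)] {c : κ → ℕ} (hc : ∀ j, HasJump (JR j) (c j)) {v₀ : ℝ} (hv : 0 ≤ v₀)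
    (hb : I.UpperBounded v₀) (j : κ) : (c j : ℤ) - 1 ≤ ⌊(J.e0 : ℝ) * v₀⌋ := by
  rw [Int.le_floor]
  push_cast
  exact (upperBounded_iff_of_tame_of_jumps_exact I hπ h hι hex ht hρ hR hker hc hv).1 hb j

/-- **integrality of the breaks over the tame field**: a bound `v₀` for `G` can be improved to
`⌊e v₀⌋ / e`. -/
theorem upperBounded_floor_exact (hπ : Function.Surjective π)
    (h : HomFormula I π J) (hι : Function.Injective ι) (hex : ι.range = π.ker)
    (ht : J.IsTame) (hρ : ∀ j, Function.Surjective (ρ j))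
    (hR : ∀ j, HomFormula (comapInj I ι hι) (ρ j) (JR j)) (hker : ⨅ j, (ρ j).ker = ⊥)
    [∀ j, Nontrivial (R j)] {c : κ → ℕ} (hc : ∀ j, HasJump (JR j) (c j)) {v₀ : ℝ} (hv : 0 ≤ v₀)
    (hb : I.UpperBounded v₀) : I.UpperBounded ((⌊(J.e0 : ℝ) * v₀⌋ : ℝ) / J.e0) := by
  have he : (0 : ℝ) < J.e0 := Nat.cast_pos.2 J.e0_pos
  have h0 : (0 : ℝ) ≤ (⌊(J.e0 : ℝ) * v₀⌋ : ℝ) := by
    have : (0 : ℤ) ≤ ⌊(J.e0 : ℝ) * v₀⌋ := Int.floor_nonneg.2 (mul_nonneg he.le hv)
    exact_mod_cast this
  rw [upperBounded_iff_of_tame_of_jumps_exact I hπ h hι hex ht hρ hR hker hc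
    (div_nonneg h0 he.le), mul_div_cancel₀ _ he.ne']
  intro j
  have := jump_le_floor_of_upperBounded_exact I hπ h hι hex ht hρ hR hker hc hv hb j
  exact_mod_cast this

end TameExact

end Fermat.Agent.Lib.Ram.TransportHom
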