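import Fermat.Agent.Lib.Ram.GaloisLower
import Fermat.Agent.Lib.Ram.TransportHom

/-!
helper24 (P-S56, block (A) LOCAL).  The ARITHMETIC EXACT SEQUENCE of a tower `K ≤ L ≤ M`
(`L / K` normal) in helper12's `GaloisLower` formalism, as input for the hom-form / exact-sequence
theorems of `Lib/Ram/Transport` and `Lib/Ram/TransportHom`:

  `1 → Gal(M/L) --inclHom--> Gal(M/K) --resHom--> Gal(L/K) → 1`.

* `lowerNumbering_ext` : two lower numberings with the same `i` are equal.
* `inclHom K L M`, `inclHom_injective`; `resHom K L M`, `resHom_surjective`, `mem_ker_resHom_iff`,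
  `range_inclHom : (inclHom K L M).range = (resHom K L M).ker`.
* `comapInj_lowerNumbering` : the numbering of `Gal(M/K)` pulled back to `Gal(M/L)` is the
  arithmetic numbering of `M / L` (from `GaloisLower.iG_congr`).
* field-level corollaries, with `HomFormula (lowerNumbering A K M C) (resHom K L M)
  (lowerNumbering A K L B)` (= Serre IV Prop. 3 for `M / L / K`) as the only arithmetic hypothesis:
  `upperBounded_quotient`, `upperBounded_iff_of_tame_tower`, `upperBounded_sub_of_tame_tower`;
  single-jump layer `M / L' / L / K` over a tame base: `jump_le_of_tame_tower`,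
  `jump_le_floor_of_tame_tower`.
-/

set_option autoImplicit false
set_option linter.unusedSectionVars false
set_option linter.overlappingInstances false

namespace Fermat.Agent.Lib.Ram.GaloisTower

open Fermat.Agent.Lib.Ram Fermat.Agent.Lib.Ram.LowerNumbering Fermat.Agent.Lib.Ram.GaloisLower
  Fermat.Agent.Lib.Ram.Transport Fermat.Agent.Lib.Ram.TransportHom Fermat.Agent.Lib.Ram.TameTower

theorem lowerNumbering_ext {G : Type*} [Group G] {I I' : LowerNumbering G}
    (h : ∀ s, I.i s = I'.i s) : I = I' := by
  cases I
  cases I'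
  simp only [LowerNumbering.mk.injEq]
  funext s
  exact h s

/-! ### The exact sequence of Galois groups -/

section Fields

variable (K L M : Type*) [Field K] [Field L] [Field M] [Algebra K L] [Algebra K M] [Algebra L M]
  [IsScalarTower K L M]

/-- the inclusion `Gal(M/L) → Gal(M/K)`. -/
def inclHom : (M ≃ₐ[L] M) →* (M ≃ₐ[K] M) := AlgEquiv.restrictScalarsHom K

@[simp] theorem inclHom_apply (σ : M ≃ₐ[L] M) (x : M) : inclHom K L M σ x = σ x := rfl

theorem inclHom_injective : Function.Injective (inclHom K L M) :=
  AlgEquiv.restrictScalars_injective K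

variable [Normal K L]

/-- the restriction `Gal(M/K) → Gal(L/K)`. -/
noncomputable def resHom : (M ≃ₐ[K] M) →* (L ≃ₐ[K] L) := AlgEquiv.restrictNormalHom L

theorem resHom_commutes (σ : M ≃ₐ[K] M) (x : L) :
    algebraMap L M (resHom K L M σ x) = σ (algebraMap L M x) :=
  AlgEquiv.restrictNormal_commutes σ L x

theorem resHom_surjective [Normal K M] : Function.Surjective (resHom K L M) :=
  AlgEquiv.restrictNormalHom_surjective M

theorem mem_ker_resHom_iff (σ : M ≃ₐ[K] M) :
    σ ∈ (resHom K L M).ker ↔ ∀ x : L, σ (algebraMap L M x) = algebraMap L M x := by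
  rw [MonoidHom.mem_ker]
  constructor
  · intro h x
    rw [← resHom_commutes, h]
    rfl
  · intro h
    ext x
    apply (algebraMap L M).injective
    rw [resHom_commutes, h]
    rfl

/-- exactness in the middle. -/
theorem range_inclHom : (inclHom K L M).range = (resHom K L M).ker := by
  ext σ
  rw [mem_ker_resHom_iff]
  constructor
  · rintro ⟨τ, rfl⟩ x
    rw [inclHom_apply]
    exact τ.commutes x
  · intro h
    refine ⟨{ σ.toRingEquiv with commutes' := h }, ?_⟩
    ext x
    rfl

end Fields

/-! ### The numberings in a tower -/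

section AKLB

variable (A K L M B C : Type*) [CommRing A] [Field K] [Algebra A K] [IsFractionRing A K]
  [Field M] [Algebra K M] [Algebra.IsAlgebraic K M] [Algebra A M] [IsScalarTower A K M]
  [CommRing C] [IsDomain C] [IsDiscreteValuationRing C] [Algebra A C] [Algebra C M]
  [IsScalarTower A C M] [IsIntegralClosure C A M]
  [Field L] [Algebra K L] [Algebra L M] [IsScalarTower K L M]
  [CommRing B] [Algebra B L] [IsFractionRing B L] [Algebra.IsAlgebraic L M] [Algebra B M]
  [IsScalarTower B L M] [Algebra B C] [IsScalarTower B C M] [IsIntegralClosure C B M]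

/-- the numbering of `Gal(M/K)` pulled back to `Gal(M/L)` is the arithmetic numbering of
`M / L`. -/
theorem comapInj_lowerNumbering :
    comapInj (lowerNumbering A K M C) (inclHom K L M) (inclHom_injective K L M) =
      lowerNumbering B L M C :=
  lowerNumbering_ext fun σ => iG_congr (A := A) (K := K) (L := M) (B := C) (A' := B) (K' := L)
    (inclHom K L M σ) σ fun _ => rfl

variable [Algebra.IsAlgebraic K L] [Algebra A L] [IsScalarTower A K L] [IsDomain B]
  [IsDiscreteValuationRing B] [Algebra A B] [IsScalarTower A B L] [IsIntegralClosure B A L]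
  [Normal K L] [Normal K M]
  [Fintype (M ≃ₐ[K] M)] [Fintype (L ≃ₐ[K] L)] [Fintype (M ≃ₐ[L] M)] [Fintype (resHom K L M).ker]

variable {A K L M B C}

/-- the upper numbering of `Gal(L/K)` is bounded by that of `Gal(M/K)`. -/
theorem upperBounded_quotient
    (h : HomFormula (lowerNumbering A K M C) (resHom K L M) (lowerNumbering A K L B)) {v₀ : ℝ}
    (hb : (lowerNumbering A K M C).UpperBounded v₀) : (lowerNumbering A K L B).UpperBounded v₀ :=
  upperBounded_of_hom _ (resHom_surjective K L M) h hb

/-- **tame tower** `M / L / K`, `L / K` tame of ramification index `e`: `Gal(M/K)` is bounded by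
`v₀ ≥ 0` iff `Gal(M/L)` is bounded by `e v₀`. -/
theorem upperBounded_iff_of_tame_tower
    (h : HomFormula (lowerNumbering A K M C) (resHom K L M) (lowerNumbering A K L B))
    (ht : (lowerNumbering A K L B).IsTame) {v₀ : ℝ} (hv : 0 ≤ v₀) :
    (lowerNumbering A K M C).UpperBounded v₀ ↔
      (lowerNumbering B L M C).UpperBounded ((lowerNumbering A K L B).e0 * v₀) := by
  rw [← comapInj_lowerNumbering A K L M B C]
  exact upperBounded_iff_of_tame_exact _ (resHom_surjective K L M) h (inclHom K L M)
    (inclHom_injective K L M) (range_inclHom K L M) ht hv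

/-- one direction, convenient form. -/
theorem upperBounded_sub_of_tame_tower
    (h : HomFormula (lowerNumbering A K M C) (resHom K L M) (lowerNumbering A K L B))
    (ht : (lowerNumbering A K L B).IsTame) {v₀ : ℝ} (hv : 0 ≤ v₀)
    (hb : (lowerNumbering A K M C).UpperBounded v₀) :
    (lowerNumbering B L M C).UpperBounded ((lowerNumbering A K L B).e0 * v₀) :=
  (upperBounded_iff_of_tame_tower h ht hv).1 hb

end AKLB

/-! ### A single-jump layer over a tame base: `M / L' / L / K` -/

section Layer

variable {A K L M B C : Type*} [CommRing A] [Field K] [Algebra A K] [IsFractionRing A K]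
  [Field M] [Algebra K M] [Algebra.IsAlgebraic K M] [Algebra A M] [IsScalarTower A K M]
  [CommRing C] [IsDomain C] [IsDiscreteValuationRing C] [Algebra A C] [Algebra C M]
  [IsScalarTower A C M] [IsIntegralClosure C A M]
  [Field L] [Algebra K L] [Algebra L M] [IsScalarTower K L M]
  [CommRing B] [Algebra B L] [IsFractionRing B L] [Algebra.IsAlgebraic L M] [Algebra B M]
  [IsScalarTower B L M] [Algebra B C] [IsScalarTower B C M] [IsIntegralClosure C B M]
  [Algebra.IsAlgebraic K L] [Algebra A L] [IsScalarTower A K L] [IsDomain B]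
  [IsDiscreteValuationRing B] [Algebra A B] [IsScalarTower A B L] [IsIntegralClosure B A L]
  [Normal K L] [Normal K M]
  [Fintype (M ≃ₐ[K] M)] [Fintype (L ≃ₐ[K] L)] [Fintype (M ≃ₐ[L] M)] [Fintype (resHom K L M).ker]
  {L' B' : Type*} [Field L'] [Algebra L L'] [Algebra L' M] [IsScalarTower L L' M]
  [Algebra.IsAlgebraic L L'] [Algebra B L'] [IsScalarTower B L L']
  [CommRing B'] [IsDomain B'] [IsDiscreteValuationRing B'] [Algebra B B'] [Algebra B' L']
  [IsScalarTower B B' L'] [IsIntegralClosure B' B L']
  [Normal L L'] [Normal L M] [Fintype (L' ≃ₐ[L] L')] [Fintype (resHom L L' M).ker]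

/-- **single-jump layer over a tame base**: `M / L' / L / K`, `L / K` tame of ramification index
`e`, `L' / L` with the single jump `c` (break `c - 1`, e.g. a Kummer extension of degree `p`).  If
`Gal(M/K)` is bounded by `v₀ ≥ 0` then `c - 1 ≤ e v₀`. -/
theorem jump_le_of_tame_tower
    (h : HomFormula (lowerNumbering A K M C) (resHom K L M) (lowerNumbering A K L B))
    (ht : (lowerNumbering A K L B).IsTame)
    (h' : HomFormula (lowerNumbering B L M C) (resHom L L' M) (lowerNumbering B L L' B'))
    {c : ℕ} (hc : HasJump (lowerNumbering B L L' B') c) [Nontrivial (L' ≃ₐ[L] L')] {v₀ : ℝ}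
    (hv : 0 ≤ v₀) (hb : (lowerNumbering A K M C).UpperBounded v₀) :
    (c : ℝ) - 1 ≤ (lowerNumbering A K L B).e0 * v₀ :=
  hc.le_of_upperBounded
    (upperBounded_of_hom _ (resHom_surjective L L' M) h' (upperBounded_sub_of_tame_tower h ht hv hb))

/-- integer form of `jump_le_of_tame_tower`: the slack is removed by integrality. -/
theorem jump_le_floor_of_tame_tower
    (h : HomFormula (lowerNumbering A K M C) (resHom K L M) (lowerNumbering A K L B))
    (ht : (lowerNumbering A K L B).IsTame)
    (h' : HomFormula (lowerNumbering B L M C) (resHom L L' M) (lowerNumbering B L L' B'))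
    {c : ℕ} (hc : HasJump (lowerNumbering B L L' B') c) [Nontrivial (L' ≃ₐ[L] L')] {v₀ : ℝ}
    (hv : 0 ≤ v₀) (hb : (lowerNumbering A K M C).UpperBounded v₀) :
    (c : ℤ) - 1 ≤ ⌊((lowerNumbering A K L B).e0 : ℝ) * v₀⌋ := by
  rw [Int.le_floor]
  push_cast
  exact jump_le_of_tame_tower h ht h' hc hv hb

end Layer

end Fermat.Agent.Lib.Ram.GaloisTower
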