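/-
P-S56, block (A) LOCAL FLAT (helper17): the bridge between the normed-field formalism of
`Lib/Ram/PropertyPm` (`intK`, `intE E`, `idealLE E ρ` inside a big normed field `Ω`) and the
complete-discrete-valuation-ring hypotheses of `S56x/Fontaine/LiftPts` (and `Unr`, `LiftConv`).

* general `(K, Ω, E)`: units of `𝓞_E` are the elements of norm one; divisibility in `𝓞_E` is
  comparison of norms; for `𝓞_E` a discrete valuation ring, Fontaine's ideals `a_E(ρ)` are the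
  powers `(ϖ^n)` of the maximal ideal, and `exists_level_data` produces exactly the data
  `(ϖ, u, e, t)` needed by the lifting lemma (L2) from `ρ ^ (p - 1) < ‖p‖ ^ p`
  (i.e. `m > 1 + 1/(p - 1)`);
* `K = ℚ_[p]`, `Ω = PadicAlgCl p`: `‖x‖ ≤ 1 ↔ IsIntegral ℤ_[p] x`; for `E/ℚ_[p]` finite, `𝓞_E` is
  the integral closure of `ℤ_[p]` in `E`, hence a complete discrete valuation ring
  (`Lib/CFT/Local/Basic`).
-/
import Mathlib
import Fermat.Agent.Lib.Ram.PropertyPm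
import Fermat.Agent.Lib.CFT.Local.Basic

set_option autoImplicit false
set_option linter.style.haveILetI false

open Polynomial IntermediateField IsLocalRing
open scoped NNReal
open Fermat.Agent.Lib.Ram.PropertyPm

namespace Fermat.Agent.Lib.Ram.IntEPadic

/-! ### General normed fields -/

section General

variable {K : Type*} [NormedField K] [IsUltrametricDist K]
variable {Ω : Type*} [NormedField Ω] [IsUltrametricDist Ω] [NormedAlgebra K Ω]
variable (E : IntermediateField K Ω)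

theorem norm_le_one (x : intE E) : ‖(x : Ω)‖ ≤ 1 := x.2.2

theorem coe_mem (x : intE E) : (x : Ω) ∈ E := x.2.1

theorem coe_ne_zero {x : intE E} (hx : x ≠ 0) : (x : Ω) ≠ 0 := fun h => hx (Subtype.ext h)

/-- units of `𝓞_E` are the elements of norm one. -/
theorem isUnit_iff_norm_eq_one (x : intE E) : IsUnit x ↔ ‖(x : Ω)‖ = 1 := by
  constructor
  · rintro ⟨u, rfl⟩
    have h1 : ‖((u : intE E) : Ω)‖ * ‖(((u⁻¹ : (intE E)ˣ) : intE E) : Ω)‖ = 1 := by
      rw [← norm_mul, ← MulMemClass.coe_mul, Units.mul_inv, OneMemClass.coe_one, norm_one]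
    have h2 := norm_le_one E (u : intE E)
    have h3 := norm_le_one E ((u⁻¹ : (intE E)ˣ) : intE E)
    by_contra h
    have h4 : ‖((u : intE E) : Ω)‖ < 1 := lt_of_le_of_ne h2 h
    have : ‖((u : intE E) : Ω)‖ * ‖(((u⁻¹ : (intE E)ˣ) : intE E) : Ω)‖ < 1 := by
      calc _ ≤ ‖((u : intE E) : Ω)‖ * 1 :=
            mul_le_mul_of_nonneg_left h3 (norm_nonneg _)
        _ < 1 := by rw [mul_one]; exact h4
    rw [h1] at this
    exact lt_irrefl _ this
  · intro h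
    have hx0 : (x : Ω) ≠ 0 := by
      intro h0; rw [h0, norm_zero] at h; exact zero_ne_one h
    refine IsUnit.of_mul_eq_one ⟨(x : Ω)⁻¹, E.inv_mem (coe_mem E x), ?_⟩ ?_
    · rw [norm_inv, h, inv_one]
    · apply Subtype.ext
      change (x : Ω) * (x : Ω)⁻¹ = 1
      exact mul_inv_cancel₀ hx0

theorem norm_lt_one_of_not_isUnit {x : intE E} (hx : ¬ IsUnit x) : ‖(x : Ω)‖ < 1 :=
  lt_of_le_of_ne (norm_le_one E x) (fun h => hx ((isUnit_iff_norm_eq_one E x).2 h))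

/-- divisibility in `𝓞_E` is comparison of norms. -/
theorem dvd_iff_norm_le {a x : intE E} (ha : (a : Ω) ≠ 0) :
    a ∣ x ↔ ‖(x : Ω)‖ ≤ ‖(a : Ω)‖ := by
  constructor
  · rintro ⟨y, rfl⟩
    rw [MulMemClass.coe_mul, norm_mul]
    calc ‖(a : Ω)‖ * ‖(y : Ω)‖ ≤ ‖(a : Ω)‖ * 1 :=
          mul_le_mul_of_nonneg_left (norm_le_one E y) (norm_nonneg _)
      _ = ‖(a : Ω)‖ := mul_one _
  · intro h
    refine ⟨⟨(a : Ω)⁻¹ * (x : Ω), E.mul_mem (E.inv_mem (coe_mem E a)) (coe_mem E x), ?_⟩, ?_⟩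
    · rw [norm_mul, norm_inv]
      have hpos : 0 < ‖(a : Ω)‖ := norm_pos_iff.mpr ha
      rw [inv_mul_le_iff₀ hpos, mul_one]
      exact h
    · apply Subtype.ext
      change (x : Ω) = (a : Ω) * ((a : Ω)⁻¹ * (x : Ω))
      rw [← mul_assoc, mul_inv_cancel₀ ha, one_mul]

/-- the levels `ϖ^n ∣ x` of the lifting lemmas in terms of norms. -/
theorem pow_dvd_iff_norm_le {ϖ x : intE E} (hϖ : (ϖ : Ω) ≠ 0) (n : ℕ) :
    ϖ ^ n ∣ x ↔ ‖(x : Ω)‖ ≤ ‖(ϖ : Ω)‖ ^ n := by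
  rw [dvd_iff_norm_le E (by rw [SubmonoidClass.coe_pow]; exact pow_ne_zero _ hϖ),
    SubmonoidClass.coe_pow, norm_pow]

/-- in a discretely valued `𝓞_E` every non zero norm is a power of the norm of a uniformizer. -/
theorem exists_norm_eq_pow [IsDiscreteValuationRing (intE E)] {ϖ : intE E} (hϖ : Irreducible ϖ)
    {x : intE E} (hx : x ≠ 0) : ∃ n : ℕ, ‖(x : Ω)‖ = ‖(ϖ : Ω)‖ ^ n := by
  obtain ⟨n, u, rfl⟩ := IsDiscreteValuationRing.eq_unit_mul_pow_irreducible hx hϖ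
  refine ⟨n, ?_⟩
  rw [MulMemClass.coe_mul, norm_mul, (isUnit_iff_norm_eq_one E _).1 u.isUnit, one_mul,
    SubmonoidClass.coe_pow, norm_pow]

/-- Fontaine's ideals `a_E(ρ)` are the powers of the maximal ideal: `a_E(ρ) = (ϖ^n)` with `n`
minimal such that `‖ϖ‖^n ≤ ρ`. -/
theorem exists_idealLE_eq_span [IsDiscreteValuationRing (intE E)] {ϖ : intE E}
    (hϖ : Irreducible ϖ) {ρ : ℝ≥0} (hρ : 0 < ρ) :
    ∃ n : ℕ, idealLE E ρ = Ideal.span {ϖ ^ n} ∧ ‖(ϖ : Ω)‖ ^ n ≤ ρ ∧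
      ∀ k : ℕ, ‖(ϖ : Ω)‖ ^ k ≤ ρ → n ≤ k := by
  classical
  have hϖ0 : (ϖ : Ω) ≠ 0 := coe_ne_zero E hϖ.ne_zero
  have hlt : ‖(ϖ : Ω)‖ < 1 := norm_lt_one_of_not_isUnit E hϖ.not_isUnit
  have hpos : 0 < ‖(ϖ : Ω)‖ := norm_pos_iff.mpr hϖ0
  have hex : ∃ n : ℕ, ‖(ϖ : Ω)‖ ^ n ≤ ρ := by
    obtain ⟨n, hn⟩ := exists_pow_lt_of_lt_one (show (0 : ℝ) < ρ from hρ) hlt
    exact ⟨n, hn.le⟩
  refine ⟨Nat.find hex, ?_, Nat.find_spec hex, fun k hk => Nat.find_min' hex hk⟩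
  ext x
  rw [mem_idealLE, Ideal.mem_span_singleton, pow_dvd_iff_norm_le E hϖ0]
  constructor
  · intro h
    by_cases hx : x = 0
    · rw [hx, ZeroMemClass.coe_zero, norm_zero]; positivity
    · obtain ⟨k, hk⟩ := exists_norm_eq_pow E hϖ hx
      rw [hk] at h ⊢
      exact pow_le_pow_of_le_one hpos.le hlt.le (Nat.find_min' hex h)
  · intro h
    exact h.trans (Nat.find_spec hex)

/-- **level data**: for `ρ ^ (p - 1) < ‖p‖ ^ p` (i.e. `ρ = ‖p‖ ^ m` with `m > 1 + 1/(p - 1)`),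
Fontaine's ideal `a_E(ρ)` is `(ϖ^(t + e))` with `e = ord_ϖ p` and `t (p - 1) > e`: exactly the
hypotheses of the lifting lemma (L2). -/
theorem exists_level_data [IsDiscreteValuationRing (intE E)] {p : ℕ} (hp1 : 1 < p)
    (hp0 : ((p : ℕ) : Ω) ≠ 0) {ρ : ℝ≥0} (hρ0 : 0 < ρ)
    (hρ : (ρ : ℝ) ^ (p - 1) < ‖((p : ℕ) : Ω)‖ ^ p) :
    ∃ (ϖ : intE E) (u : (intE E)ˣ) (e t : ℕ), Irreducible ϖ ∧ ((p : ℕ) : intE E) = u * ϖ ^ e ∧
      e < t * (p - 1) ∧ idealLE E ρ = Ideal.span {ϖ ^ (t + e)} := by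
  obtain ⟨ϖ, hϖ⟩ := IsDiscreteValuationRing.exists_irreducible (intE E)
  have hϖ0 : (ϖ : Ω) ≠ 0 := coe_ne_zero E hϖ.ne_zero
  have hlt : ‖(ϖ : Ω)‖ < 1 := norm_lt_one_of_not_isUnit E hϖ.not_isUnit
  have hpos : 0 < ‖(ϖ : Ω)‖ := norm_pos_iff.mpr hϖ0
  have hpB : ((p : ℕ) : intE E) ≠ 0 := by
    intro h
    apply hp0
    have := congrArg (fun x : intE E => (x : Ω)) h
    simpa using this
  obtain ⟨e, u, hu⟩ := IsDiscreteValuationRing.eq_unit_mul_pow_irreducible hpB hϖ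
  have hnormp : ‖((p : ℕ) : Ω)‖ = ‖(ϖ : Ω)‖ ^ e := by
    have h1 : (((p : ℕ) : intE E) : Ω) = ((p : ℕ) : Ω) := by simp
    rw [← h1, hu, MulMemClass.coe_mul, norm_mul, (isUnit_iff_norm_eq_one E _).1 u.isUnit, one_mul,
      SubmonoidClass.coe_pow, norm_pow]
  obtain ⟨n, hn1, hn2, -⟩ := exists_idealLE_eq_span E hϖ hρ0
  -- `e p < n (p - 1)`
  have hkey : e * p < n * (p - 1) := by
    by_contra hcon
    rw [not_lt] at hcon
    have h1 : ‖(ϖ : Ω)‖ ^ (e * p) ≤ ‖(ϖ : Ω)‖ ^ (n * (p - 1)) :=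
      pow_le_pow_of_le_one hpos.le hlt.le hcon
    have h2 : ‖(ϖ : Ω)‖ ^ (n * (p - 1)) ≤ (ρ : ℝ) ^ (p - 1) := by
      rw [pow_mul]
      exact pow_le_pow_left₀ (pow_nonneg hpos.le _) hn2 _
    rw [hnormp, ← pow_mul] at hρ
    exact lt_irrefl _ (lt_of_le_of_lt (h1.trans h2) hρ)
  have hep : e * p = e * (p - 1) + e := by
    obtain ⟨q, rfl⟩ : ∃ q, p = q + 1 := ⟨p - 1, by omega⟩
    simp only [Nat.add_sub_cancel]; ring
  have hne : e ≤ n := by
    by_contra hcon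
    rw [not_le] at hcon
    have : n * (p - 1) ≤ e * (p - 1) := Nat.mul_le_mul_right _ hcon.le
    omega
  refine ⟨ϖ, u, e, n - e, hϖ, hu, ?_, ?_⟩
  · rw [Nat.sub_mul]
    omega
  · rw [Nat.sub_add_cancel hne]
    exact hn1

end General

/-! ### `K = ℚ_[p]`, `Ω = PadicAlgCl p` -/

section Padic

variable {p : ℕ} [Fact p.Prime]

theorem norm_eq_spectralValue (x : PadicAlgCl p) : ‖x‖ = spectralValue (minpoly ℚ_[p] x) := rfl

/-- elements of norm `≤ 1` of `PadicAlgCl p` are integral over `ℤ_[p]`. -/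
theorem isIntegral_of_norm_le_one {x : PadicAlgCl p} (hx : ‖x‖ ≤ 1) : IsIntegral ℤ_[p] x := by
  have hxint : IsIntegral ℚ_[p] x := Algebra.IsIntegral.isIntegral x
  have hmonic : (minpoly ℚ_[p] x).Monic := minpoly.monic hxint
  rw [norm_eq_spectralValue, spectralValue_le_one_iff hmonic] at hx
  have hlifts : minpoly ℚ_[p] x ∈ Polynomial.lifts (algebraMap ℤ_[p] ℚ_[p]) := by
    rw [Polynomial.lifts_iff_coeff_lifts]
    intro n
    exact ⟨⟨_, hx n⟩, rfl⟩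
  obtain ⟨q, hq, -, hqm⟩ := Polynomial.lifts_and_natDegree_eq_and_monic hlifts hmonic
  refine ⟨q, hqm, ?_⟩
  have h1 : Polynomial.aeval x (q.map (algebraMap ℤ_[p] ℚ_[p])) = 0 := by
    rw [hq]; exact minpoly.aeval _ _
  rw [Polynomial.aeval_map_algebraMap] at h1
  exact h1

/-- elements of `PadicAlgCl p` integral over `ℤ_[p]` have norm `≤ 1`. -/
theorem norm_le_one_of_isIntegral {x : PadicAlgCl p} (hx : IsIntegral ℤ_[p] x) : ‖x‖ ≤ 1 := by
  have hxint : IsIntegral ℚ_[p] x := Algebra.IsIntegral.isIntegral x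
  have hmonic : (minpoly ℚ_[p] x).Monic := minpoly.monic hxint
  rw [norm_eq_spectralValue, spectralValue_le_one_iff hmonic]
  intro n
  rw [minpoly.isIntegrallyClosed_eq_field_fractions' ℚ_[p] hx, Polynomial.coeff_map]
  exact ((minpoly ℤ_[p] x).coeff n).2

theorem norm_le_one_iff_isIntegral {x : PadicAlgCl p} : ‖x‖ ≤ 1 ↔ IsIntegral ℤ_[p] x :=
  ⟨isIntegral_of_norm_le_one, norm_le_one_of_isIntegral⟩

variable (E : IntermediateField ℚ_[p] (PadicAlgCl p))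

/-- `ℤ_[p] → 𝓞_E`. -/
noncomputable def zpToIntE : ℤ_[p] →+* intE E where
  toFun x := ⟨algebraMap ℚ_[p] (PadicAlgCl p) (x : ℚ_[p]), E.algebraMap_mem _, by
    rw [norm_algebraMap']; exact x.2⟩
  map_one' := by ext; simp
  map_mul' x y := by ext; simp
  map_zero' := by ext; simp
  map_add' x y := by ext; simp

/-- `𝓞_E → E`. -/
noncomputable def intEToE : intE E →+* E where
  toFun x := ⟨(x : PadicAlgCl p), x.2.1⟩
  map_one' := rfl
  map_mul' _ _ := rfl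
  map_zero' := rfl
  map_add' _ _ := rfl

theorem intEToE_injective : Function.Injective (intEToE E) := by
  intro x y h
  apply Subtype.ext
  exact congrArg (fun z : E => (z : PadicAlgCl p)) h

/-- `𝓞_E` is the integral closure of `ℤ_[p]` in `E`. -/
theorem isIntegral_iff_exists (x : E) :
    IsIntegral ℤ_[p] x ↔ ∃ y : intE E, intEToE E y = x := by
  have h1 : IsIntegral ℤ_[p] x ↔ IsIntegral ℤ_[p] (x : PadicAlgCl p) := by
    have : IsScalarTower ℤ_[p] E (PadicAlgCl p) := IsScalarTower.of_algebraMap_eq (fun _ => rfl)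
    exact (isIntegral_algHom_iff (IsScalarTower.toAlgHom ℤ_[p] E (PadicAlgCl p))
      (algebraMap E (PadicAlgCl p)).injective).symm
  rw [h1, ← norm_le_one_iff_isIntegral]
  constructor
  · intro h
    exact ⟨⟨(x : PadicAlgCl p), x.2, h⟩, rfl⟩
  · rintro ⟨y, rfl⟩
    exact y.2.2

/-- for `E/ℚ_[p]` finite, `𝓞_E` is a discrete valuation ring. -/
theorem isDiscreteValuationRing_intE [FiniteDimensional ℚ_[p] E] :
    IsDiscreteValuationRing (intE E) := by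
  letI : Algebra ℤ_[p] (intE E) := (zpToIntE E).toAlgebra
  letI : Algebra (intE E) E := (intEToE E).toAlgebra
  haveI : IsScalarTower ℤ_[p] (intE E) E :=
    IsScalarTower.of_algebraMap_eq (fun x => by apply Subtype.ext; rfl)
  haveI : IsIntegralClosure (intE E) ℤ_[p] E :=
    ⟨intEToE_injective E, fun {x} => isIntegral_iff_exists E x⟩
  exact Fermat.Agent.Lib.CFT.Local.ext_isDiscreteValuationRing ℤ_[p] ℚ_[p] E (intE E)

/-- for `E/ℚ_[p]` finite, `𝓞_E` is complete. -/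
theorem isAdicComplete_intE [FiniteDimensional ℚ_[p] E] [IsLocalRing (intE E)] :
    IsAdicComplete (maximalIdeal (intE E)) (intE E) := by
  letI : Algebra ℤ_[p] (intE E) := (zpToIntE E).toAlgebra
  letI : Algebra (intE E) E := (intEToE E).toAlgebra
  haveI : IsScalarTower ℤ_[p] (intE E) E :=
    IsScalarTower.of_algebraMap_eq (fun x => by apply Subtype.ext; rfl)
  haveI : IsIntegralClosure (intE E) ℤ_[p] E :=
    ⟨intEToE_injective E, fun {x} => isIntegral_iff_exists E x⟩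
  exact Fermat.Agent.Lib.CFT.Local.ext_isAdicComplete ℤ_[p] ℚ_[p] E (intE E)

/-- `‖p‖ = p⁻¹` in `PadicAlgCl p`. -/
theorem norm_natCast_p : ‖((p : ℕ) : PadicAlgCl p)‖ = (p : ℝ)⁻¹ := by
  have h1 : ((p : ℕ) : PadicAlgCl p) = algebraMap ℚ_[p] (PadicAlgCl p) ((p : ℕ) : ℚ_[p]) := by
    simp
  rw [h1, norm_algebraMap', Padic.norm_p]

/-- **level data for `E/ℚ_[p]` finite**: for `ρ ^ (p - 1) < p ^ (-p)` (`m > 1 + 1/(p-1)`),
`𝓞_E` is a complete discrete valuation ring and `a_E(ρ) = (ϖ^(t+e))`, `p = u ϖ^e`,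
`e < t (p - 1)`. -/
theorem exists_level_data_padic [FiniteDimensional ℚ_[p] E] [IsDiscreteValuationRing (intE E)]
    {ρ : ℝ≥0} (hρ0 : 0 < ρ) (hρ : (ρ : ℝ) ^ (p - 1) < ((p : ℝ)⁻¹) ^ p) :
    ∃ (ϖ : intE E) (u : (intE E)ˣ) (e t : ℕ), Irreducible ϖ ∧ ((p : ℕ) : intE E) = u * ϖ ^ e ∧
      e < t * (p - 1) ∧ idealLE E ρ = Ideal.span {ϖ ^ (t + e)} := by
  have hp := (Fact.out : p.Prime)
  refine exists_level_data E hp.one_lt ?_ hρ0 (by rw [norm_natCast_p]; exact hρ)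
  exact_mod_cast hp.ne_zero

end Padic

end Fermat.Agent.Lib.Ram.IntEPadic
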