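/-
helper82 (P-S56, block (A) LOCAL FLAT): the KUMMER BREAK in the AKLB formalism of
`Lib/Ram/GaloisLower` (Serre's `i_G`), on top of the valuation core `S56x/Local/KummerVal`.

`A` a DVR with fraction field `K ∋ ζ_p`, `L = K(α)`, `α ^ p = u ∈ A`, `[L : K] = p`, `B` the integral
closure of `A` in `L` (a DVR).  If `u` is a unit of level `i = v_A(u - 1)` prime to `p` with
`i (p - 1) < p e` (`e = v_A(p)`), then `L / K` is totally ramified, `B = A[ϖ]`, and for every
`σ ≠ 1` in `Gal(L / K)`:   `(p - 1) i_G(σ) + (p - 1) i = p e + (p - 1)`,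
i.e. `i_G(σ) = 1 + p e / (p - 1) - i`: the unique ramification break of `L / K` is `p e / (p - 1) - i`.
-/
import Fermat.Agent.Lib.Ram.GaloisLower
import Fermat.Agent.Lib.CFT.Local.DVRVal
import Fermat.Agent.S56x.Local.KummerVal

set_option autoImplicit false
set_option linter.unusedSectionVars false

namespace Fermat.Agent.Lib.Ram.KummerBreak

open Fermat.Agent.Lib.Ram Fermat.Agent.Lib.Ram.GaloisLower Fermat.Agent.Lib.CFT.Local
open Fermat.Agent.S56x.Local.KummerVal
open IsLocalRing IsDiscreteValuationRing WithZero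

section Bridge

variable (R : Type*) [CommRing R] [IsDomain R] [IsDiscreteValuationRing R]
  (F : Type*) [Field F] [Algebra R F] [IsFractionRing R F]

/-- `dvrVal` and `addVal` of a discrete valuation ring. -/
theorem dvrVal_eq_exp_neg_iff {r : R} (n : ℕ) :
    dvrVal R F (algebraMap R F r) = exp (-(n : ℤ)) ↔ addVal R r = (n : ℕ∞) := by
  by_cases hr : r = 0
  · subst hr
    simp only [map_zero, addVal_zero, ENat.top_ne_natCast, iff_false]
    exact (exp_ne_zero).symm
  obtain ⟨ϖ, hϖ⟩ := exists_irreducible R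
  obtain ⟨m, u, rfl⟩ := eq_unit_mul_pow_irreducible hr hϖ
  rw [addVal_def' u hϖ m, map_mul, map_pow, map_mul,
    (dvrVal_algebraMap_eq_one_iff R F _).mpr u.isUnit, one_mul, map_pow, dvrVal_irreducible R F hϖ,
    ← exp_nsmul]
  constructor
  · intro h
    have := exp_injective h
    have : (m : ℤ) = n := by simpa using this
    exact_mod_cast this
  · intro h
    have : m = n := by exact_mod_cast h
    subst this
    simp

/-- `log (dvrVal)` of an element of `R` of additive valuation `n`. -/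
theorem log_dvrVal_of_addVal {r : R} {n : ℕ} (h : addVal R r = (n : ℕ∞)) :
    log (dvrVal R F (algebraMap R F r)) = -(n : ℤ) := by
  rw [(dvrVal_eq_exp_neg_iff R F n).mpr h, log_exp]

theorem addVal_of_log_dvrVal {r : R} (hr : r ≠ 0) {n : ℕ}
    (h : log (dvrVal R F (algebraMap R F r)) = -(n : ℤ)) : addVal R r = (n : ℕ∞) := by
  rw [← dvrVal_eq_exp_neg_iff R F n, ← h, exp_log]
  rw [Valuation.ne_zero_iff]
  exact (map_ne_zero_iff _ (IsFractionRing.injective R F)).mpr hr

end Bridge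

/-- two nonzero elements of `ℤᵐ⁰` with the same `log` are equal. -/
theorem eq_of_log_eq {x y : ℤᵐ⁰} (hx : x ≠ 0) (hy : y ≠ 0) (h : log x = log y) : x = y := by
  rw [← exp_log hx, ← exp_log hy, h]

section Main

variable {A K L B : Type*} [CommRing A] [IsDomain A] [IsDiscreteValuationRing A]
  [Field K] [Algebra A K] [IsFractionRing A K]
  [Field L] [Algebra K L] [FiniteDimensional K L] [Algebra A L] [IsScalarTower A K L]
  [CommRing B] [IsDomain B] [IsDiscreteValuationRing B] [Algebra A B]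
  [Algebra B L] [IsScalarTower A B L] [IsIntegralClosure B A L] [IsFractionRing B L]
  [Module.Finite A B] [Module.IsTorsionFree A B]

theorem log_dvrVal_algebraMap (x : K) :
    log (dvrVal B L (algebraMap K L x)) = (ramIdx A B : ℤ) * log (dvrVal A K x) := by
  rw [dvrVal_algebraMap A K L B, log_pow, nsmul_eq_mul]

variable (K) in
include K in
theorem log_dvrVal_algebraMap_of_addVal {r : A} {n : ℕ} (h : addVal A r = (n : ℕ∞)) :
    log (dvrVal B L (algebraMap A L r)) = -((ramIdx A B : ℤ) * n) := by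
  rw [IsScalarTower.algebraMap_apply A K L, log_dvrVal_algebraMap (A := A) (B := B),
    log_dvrVal_of_addVal A K h]
  ring

variable (K) in
include K in
theorem algebraMap_ne_zero_of_addVal {r : A} {n : ℕ} (h : addVal A r = (n : ℕ∞)) :
    algebraMap A L r ≠ 0 := by
  have hr : r ≠ 0 := by
    rintro rfl
    rw [addVal_zero] at h
    exact ENat.top_ne_natCast n h
  rw [IsScalarTower.algebraMap_apply A K L]
  exact (map_ne_zero_iff _ (algebraMap K L).injective).mpr
    ((map_ne_zero_iff _ (IsFractionRing.injective A K)).mpr hr)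

/-- discreteness of `dvrVal B L` on `K`, in the shape used by `KummerVal`. -/
theorem exists_zpow_eq {π : A} (hπ : Irreducible π) (c : K) (hc : c ≠ 0) :
    ∃ m : ℤ, dvrVal B L (algebraMap K L c) =
      dvrVal B L (algebraMap K L (algebraMap A K π)) ^ m := by
  have hπ1 : addVal A π = ((1 : ℕ) : ℕ∞) := by simpa using addVal_uniformizer hπ
  have hE0 : (ramIdx A B : ℤ) ≠ 0 := by exact_mod_cast (ramIdx_pos A B).ne'
  have hcL : dvrVal B L (algebraMap K L c) ≠ 0 :=
    (Valuation.ne_zero_iff _).mpr ((map_ne_zero_iff _ (algebraMap K L).injective).mpr hc)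
  have hπL : dvrVal B L (algebraMap K L (algebraMap A K π)) ≠ 0 := by
    rw [← IsScalarTower.algebraMap_apply A K L]
    exact (Valuation.ne_zero_iff _).mpr (algebraMap_ne_zero_of_addVal K hπ1)
  refine ⟨-log (dvrVal A K c), eq_of_log_eq hcL (zpow_ne_zero _ hπL) ?_⟩
  rw [log_zpow, log_dvrVal_algebraMap (A := A) (B := B), log_dvrVal_algebraMap (A := A) (B := B),
    log_dvrVal_of_addVal A K hπ1, smul_eq_mul]
  ring

/-- **The Kummer break** in the AKLB formalism of `GaloisLower`: `L = K(α)`, `α ^ p = u`, `u` a unit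
of level `i` prime to `p`, `i (p - 1) < p e`; then `L / K` is totally ramified and every `σ ≠ 1`
has `i_G(σ) = 1 + p e / (p - 1) - i`. -/
theorem iG_kummer {p : ℕ} (hp : p.Prime) {ζ : K} (hζ : IsPrimitiveRoot ζ p)
    (hdeg : Module.finrank K L = p) (hrank : Module.finrank A B = Module.finrank K L)
    {u : A} {i e : ℕ} (hi : addVal A (u - 1) = (i : ℕ∞)) (hi0 : 0 < i) (hpi : ¬ p ∣ i)
    (he : addVal A (p : A) = (e : ℕ∞)) (he0 : 0 < e) (hlev : i * (p - 1) < p * e)
    {α : L} (hα : α ^ p = algebraMap A L u)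
    (σ : L ≃ₐ[K] L) (hσ : σ ≠ 1) :
    ∃ t : ℕ, iG A K L B σ = (t : ℕ∞) ∧ (p - 1) * t + (p - 1) * i = p * e + (p - 1) ∧
      ramIdx A B = p := by
  classical
  set w := dvrVal B L with hw
  set E : ℕ := ramIdx A B with hE
  have hE0 : 0 < E := ramIdx_pos A B
  have hEf : E * resDeg A B = p := by rw [hE, ramIdx_mul_resDeg, hrank, hdeg]
  have hp1 : 1 ≤ p := hp.one_lt.le
  have hp2 : 2 ≤ p := hp.two_le
  -- logs of the basic elements
  have hζL : IsPrimitiveRoot (algebraMap K L ζ) p :=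
    hζ.map_of_injective (algebraMap K L).injective
  have hpL : (p : L) = algebraMap A L (p : A) := by simp
  have hlogp : log (w (p : L)) = -((E : ℤ) * e) := by
    rw [hpL]; exact log_dvrVal_algebraMap_of_addVal K he
  have hp0L : (p : L) ≠ 0 := by rw [hpL]; exact algebraMap_ne_zero_of_addVal K he
  have hwp0 : w (p : L) ≠ 0 := (Valuation.ne_zero_iff _).mpr hp0L
  have hwp : w (p : L) < 1 := by
    rw [← exp_log hwp0, hlogp, ← exp_zero, exp_lt_exp]
    have : (0 : ℤ) < (E : ℤ) * e := by positivity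
    omega
  have hαu : α ^ p - 1 = algebraMap A L (u - 1) := by rw [map_sub, map_one, hα]
  have hlogu : log (w (α ^ p - 1)) = -((E : ℤ) * i) := by
    rw [hαu]; exact log_dvrVal_algebraMap_of_addVal K hi
  have hu0 : w (α ^ p - 1) ≠ 0 := by
    rw [hαu]; exact (Valuation.ne_zero_iff _).mpr (algebraMap_ne_zero_of_addVal K hi)
  have h1 : w (α ^ p - 1) < 1 := by
    rw [← exp_log hu0, hlogu, ← exp_zero, exp_lt_exp]
    have : (0 : ℤ) < (E : ℤ) * i := by positivity
    omega
  -- `1 - ζ`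
  have hζp := val_one_sub_primitiveRoot_pow w hp hζL
  have hζ0 : w (1 - algebraMap K L ζ) ≠ 0 := by
    intro h
    rw [h, zero_pow (by omega)] at hζp
    exact hwp0 hζp.symm
  set z := log (w (1 - algebraMap K L ζ)) with hz
  have hzeq : ((p : ℤ) - 1) * z = -((E : ℤ) * e) := by
    have := congrArg log hζp
    rw [log_pow, hlogp, nsmul_eq_mul, Nat.cast_sub hp1] at this
    simpa using this
  have h2 : w (1 - algebraMap K L ζ) ^ p < w (α ^ p - 1) := by
    rw [← log_lt_log (pow_ne_zero p hζ0) hu0, log_pow, hlogu, nsmul_eq_mul, ← hz]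
    have hlev' : ((i : ℤ) * ((p : ℤ) - 1)) < (p : ℤ) * e := by
      have := hlev
      zify [hp1] at this
      exact this
    have hEpos : (0 : ℤ) < E := by exact_mod_cast hE0
    have hp1' : (0 : ℤ) < (p : ℤ) - 1 := by
      have : (2 : ℤ) ≤ p := by exact_mod_cast hp2
      omega
    by_contra hcon
    rw [not_lt] at hcon
    -- `-(E i) ≤ p z`  ⇒  `-(p-1) E i ≤ p (p-1) z = - p E e`
    have h3 : ((p : ℤ) - 1) * (-((E : ℤ) * i)) ≤ ((p : ℤ) - 1) * ((p : ℤ) * z) :=
      mul_le_mul_of_nonneg_left hcon hp1'.le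
    have h4 : ((p : ℤ) - 1) * ((p : ℤ) * z) = (p : ℤ) * (-((E : ℤ) * e)) := by
      rw [← hzeq]; ring
    rw [h4] at h3
    have h5 : (E : ℤ) * ((p : ℤ) * e) ≤ (E : ℤ) * ((i : ℤ) * ((p : ℤ) - 1)) := by linarith
    have h6 := le_of_mul_le_mul_left h5 hEpos
    omega
  -- (K1)
  obtain ⟨hlt, hpow⟩ := val_sub_one_pow_eq w hp hζp h1 h2
  have hy0 : w (α - 1) ≠ 0 := ne_of_gt (lt_of_le_of_lt zero_le hlt)
  have hyL0 : α - 1 ≠ 0 := (Valuation.ne_zero_iff _).mp hy0
  set y := log (w (α - 1)) with hy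
  have hyeq : (p : ℤ) * y = -((E : ℤ) * i) := by
    have := congrArg log hpow
    rw [log_pow, hlogu, nsmul_eq_mul] at this
    exact this
  -- `E = p`
  have hpE : p ∣ E := by
    have h : (p : ℤ) ∣ (E : ℤ) * i := ⟨-y, by rw [mul_neg, hyeq, neg_neg]⟩
    have h' : p ∣ E * i := by exact_mod_cast h
    rcases (Nat.Prime.dvd_mul hp).mp h' with h'' | h''
    · exact h''
    · exact absurd h'' hpi
  have hEp : E = p := by
    have hEdvd : E ∣ p := ⟨resDeg A B, hEf.symm⟩
    exact Nat.dvd_antisymm hEdvd hpE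
  have hpZ : (0 : ℤ) < p := by exact_mod_cast hp.pos
  have hyi : y = -(i : ℤ) := by
    rw [hEp] at hyeq
    have : (p : ℤ) * y = (p : ℤ) * (-(i : ℤ)) := by rw [hyeq]; ring
    exact mul_left_cancel₀ hpZ.ne' this
  -- Bezout
  obtain ⟨a, b, hpa, hab⟩ : ∃ (a : ℕ) (b : ℤ), ¬ p ∣ a ∧ (a : ℤ) * i + b * p = 1 := by
    have hcop : Nat.Coprime i p := (Nat.Coprime.symm ((Nat.Prime.coprime_iff_not_dvd hp).mpr hpi))
    obtain ⟨a, -, ha⟩ := Nat.exists_mul_mod_eq_one_of_coprime hcop hp.one_lt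
    refine ⟨a, -((i * a / p : ℕ) : ℤ), ?_, ?_⟩
    · intro hdvd
      have : i * a % p = 0 := Nat.mod_eq_zero_of_dvd (Dvd.dvd.mul_left hdvd i)
      omega
    · have h := Nat.div_add_mod (i * a) p
      rw [ha] at h
      have h' : ((p : ℤ) * ((i * a / p : ℕ) : ℤ) + 1) = (i : ℤ) * a := by exact_mod_cast h
      linarith
  -- the uniformizer
  obtain ⟨π, hπ⟩ := exists_irreducible A
  have hπ1 : addVal A π = ((1 : ℕ) : ℕ∞) := by simpa using addVal_uniformizer hπ
  set πL : L := algebraMap A L π with hπL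
  have hπL0 : πL ≠ 0 := algebraMap_ne_zero_of_addVal K hπ1
  have hlogπ : log (w πL) = -(E : ℤ) := by
    have := log_dvrVal_algebraMap_of_addVal (B := B) (L := L) K hπ1
    simpa using this
  set ϖL : L := (α - 1) ^ a * πL ^ b with hϖL
  have hϖ0 : ϖL ≠ 0 := mul_ne_zero (pow_ne_zero a hyL0) (zpow_ne_zero b hπL0)
  have hwϖ0 : w ϖL ≠ 0 := (Valuation.ne_zero_iff _).mpr hϖ0
  have hlogϖ : log (w ϖL) = -1 := by
    rw [hϖL, map_mul, log_mul ((Valuation.ne_zero_iff _).mpr (pow_ne_zero a hyL0))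
      ((Valuation.ne_zero_iff _).mpr (zpow_ne_zero b hπL0)), map_pow, log_pow, map_zpow₀, log_zpow,
      hlogπ, ← hy, hyi, hEp, nsmul_eq_mul, smul_eq_mul]
    linarith
  have hwϖ : w ϖL = exp (-1 : ℤ) := by rw [← hlogϖ, exp_log hwϖ0]
  have hwϖ1 : w ϖL < 1 := by rw [hwϖ, ← exp_zero, exp_lt_exp]; omega
  obtain ⟨ϖ, hϖ⟩ : ∃ ϖ : B, algebraMap B L ϖ = ϖL := (dvrVal_le_one_iff B L).mp hwϖ1.le
  -- discreteness and expansions
  have hπKL : algebraMap K L (algebraMap A K π) = πL := by
    rw [hπL, ← IsScalarTower.algebraMap_apply A K L]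
  have hdisc : ∀ c : K, c ≠ 0 → ∃ m : ℤ, w (algebraMap K L c) =
      w (algebraMap K L (algebraMap A K π)) ^ m := exists_zpow_eq (B := B) (L := L) hπ
  have hπpow : w (algebraMap K L (algebraMap A K π)) = w ϖL ^ p := by
    rw [hπKL]
    refine eq_of_log_eq ((Valuation.ne_zero_iff _).mpr hπL0) (pow_ne_zero p hwϖ0) ?_
    rw [log_pow, hlogπ, hlogϖ, hEp, nsmul_eq_mul]; ring
  have hnv := pow_ne_val_of_discrete w hwϖ1 hϖ0 hπpow hdisc
  have hexp : ∀ x : L, ∃ c : ℕ → K, x = ∑ j ∈ Finset.range p, algebraMap K L (c j) * ϖL ^ j :=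
    exists_expansion w hp.pos hdeg hϖ0 hnv
  -- `σ` moves `α`
  have hσπ : σ πL = πL := by rw [← hπKL]; exact σ.commutes _
  have hσα : σ α ≠ α := by
    intro h
    apply hσ
    have hσϖ : σ ϖL = ϖL := by
      rw [hϖL, map_mul, map_pow, map_sub, map_one, h, map_zpow₀, hσπ]
    ext x
    obtain ⟨c, rfl⟩ := hexp x
    rw [map_sum, AlgEquiv.one_apply]
    refine Finset.sum_congr rfl fun j _ => ?_
    rw [map_mul, map_pow, hσϖ, σ.commutes]
  -- `B = A[ϖ]`
  have hadj : Algebra.adjoin A {ϖ} = ⊤ := by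
    rw [eq_top_iff]
    rintro b -
    obtain ⟨c, hc⟩ := hexp (algebraMap B L b)
    have hb1 : w (algebraMap B L b) ≤ 1 := dvrVal_algebraMap_le_one B L b
    have hcoef : ∀ j, j < p → ∃ r : A, algebraMap A K r = c j := by
      intro j hj
      have h3 := val_term_le_val_sum w hnv c hj
      rw [← hc] at h3
      have h4 := val_coeff_le_one w hwϖ1 hϖ0 hπpow hdisc hj (h3.trans hb1)
      rw [dvrVal_algebraMap A K L B] at h4
      have h5 : dvrVal A K (c j) ≤ 1 := by
        by_contra hgt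
        rw [not_le] at hgt
        exact absurd h4 (not_le.mpr (one_lt_pow₀ hgt hE0.ne'))
      obtain ⟨r, hr⟩ := (dvrVal_le_one_iff A K).mp h5
      exact ⟨r, hr⟩
    set r : ℕ → A := fun j => if h : j < p then (hcoef j h).choose else 0 with hr
    have hrj : ∀ j, j < p → algebraMap A K (r j) = c j := by
      intro j hj
      rw [hr]; simp only [hj, dite_true]
      exact (hcoef j hj).choose_spec
    have hb : b = ∑ j ∈ Finset.range p, r j • ϖ ^ j := by
      apply IsFractionRing.injective B L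
      rw [hc, map_sum]
      refine Finset.sum_congr rfl fun j hj => ?_
      rw [Finset.mem_range] at hj
      rw [Algebra.smul_def, map_mul, map_pow, hϖ, ← IsScalarTower.algebraMap_apply A B L,
        IsScalarTower.algebraMap_apply A K L, hrj j hj]
    rw [hb]
    refine Subalgebra.sum_mem _ fun j _ => Subalgebra.smul_mem _ ?_ _
    exact Subalgebra.pow_mem _ (Algebra.subset_adjoin (Set.mem_singleton ϖ)) j
  -- the computation
  have hσu : (σ : L →+* L) (α ^ p) = α ^ p := by
    show σ (α ^ p) = α ^ p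
    rw [hα, IsScalarTower.algebraMap_apply A K L]; exact σ.commutes _
  have hσc : (σ : L →+* L) (πL ^ b) = πL ^ b := by
    show σ (πL ^ b) = πL ^ b
    rw [map_zpow₀, hσπ]
  have hbreak := val_map_unif_sub w hp hwp hζL h1 h2 (σ : L →+* L) hσα hσu hpa hσc
  have hbreak' : w (σ ϖL - ϖL) = w ϖL * (w (1 - algebraMap K L ζ) / w (α - 1)) := hbreak
  have hd0 : w (σ ϖL - ϖL) ≠ 0 := by
    rw [hbreak']
    exact mul_ne_zero hwϖ0 (div_ne_zero hζ0 hy0)
  have hlogd : log (w (σ ϖL - ϖL)) = -1 + z + i := by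
    rw [hbreak', log_mul hwϖ0 (div_ne_zero hζ0 hy0), log_div hζ0 hy0, hlogϖ, ← hz, ← hy, hyi]
    ring
  -- the natural number `t`
  have hp1' : (0 : ℤ) < (p : ℤ) - 1 := by
    have : (2 : ℤ) ≤ p := by exact_mod_cast hp2
    omega
  have hzeq' : ((p : ℤ) - 1) * z = -((p : ℤ) * e) := by rw [hzeq, hEp]
  have htpos : 0 ≤ 1 - z - i := by
    have hlev' : ((i : ℤ) * ((p : ℤ) - 1)) < (p : ℤ) * e := by
      have := hlev
      zify [hp1] at this
      exact this
    have : 0 < ((p : ℤ) - 1) * (1 - z - i) := by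
      have : ((p : ℤ) - 1) * (1 - z - i) = ((p : ℤ) - 1) - ((p : ℤ) - 1) * z - (i : ℤ) * ((p : ℤ) - 1) := by
        ring
      rw [this, hzeq']
      linarith
    exact le_of_lt (pos_of_mul_pos_right this hp1'.le)
  refine ⟨(1 - z - i).toNat, ?_, ?_, hEp⟩
  · rw [iG_eq_addVal_of_adjoin ϖ hadj σ]
    have hne : galRestrict A K L B σ ϖ - ϖ ≠ 0 := by
      intro h
      apply hd0
      have := congrArg (algebraMap B L) h
      rw [map_sub, algebraMap_galRestrict_apply, hϖ, map_zero] at this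
      rw [this, map_zero]
    refine addVal_of_log_dvrVal B L hne ?_
    rw [map_sub, algebraMap_galRestrict_apply, hϖ, ← hw, hlogd, Int.toNat_of_nonneg htpos]
    ring
  · zify [hp1]
    rw [Int.toNat_of_nonneg htpos]
    have : ((p : ℤ) - 1) * (1 - z - i) = ((p : ℤ) - 1) - ((p : ℤ) - 1) * z - ((p : ℤ) - 1) * i := by
      ring
    rw [this, hzeq']
    ring

end Main

end Fermat.Agent.Lib.Ram.KummerBreak
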