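/-
helper82 (P-S56, block (A) LOCAL FLAT): the two boundary types of Kummer classes in the AKLB
formalism of `Lib/Ram/GaloisLower`, companion of `Lib/Ram/KummerBreak`.

* `iG_kummer_root` (très ramifié type): `α ^ p = u`, `v_A(u) = k` prime to `p`  ⟹  `L / K` totally
  ramified and `(p - 1) i_G(σ) = p e + (p - 1)` for every `σ ≠ 1`  (`i_G(σ) = 1 + p e / (p - 1)`).
* `map_root_eq_of_one_le_iG` (unramified type): `u` a unit of level `i`, `p e ≤ i (p - 1)`  ⟹  every
  `σ` in the inertia group (`1 ≤ i_G(σ)`) fixes `α`.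
* `exists_adjoin_eq_top_of_unif`: totally ramified of degree `p` ⟹ `B = A[ϖ]` and `L = ⊕ K ϖ^j`.
-/
import Fermat.Agent.Lib.Ram.KummerBreak
import Fermat.Agent.S56x.Local.KummerNormalForm

set_option autoImplicit false
set_option linter.unusedSectionVars false

namespace Fermat.Agent.Lib.Ram.KummerBreak

open Fermat.Agent.Lib.Ram Fermat.Agent.Lib.Ram.GaloisLower Fermat.Agent.Lib.CFT.Local
open Fermat.Agent.S56x.Local.KummerVal Fermat.Agent.S56x.Local.KummerNormalForm
open IsLocalRing IsDiscreteValuationRing WithZero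

section Main

variable {A K L B : Type*} [CommRing A] [IsDomain A] [IsDiscreteValuationRing A]
  [Field K] [Algebra A K] [IsFractionRing A K]
  [Field L] [Algebra K L] [FiniteDimensional K L] [Algebra A L] [IsScalarTower A K L]
  [CommRing B] [IsDomain B] [IsDiscreteValuationRing B] [Algebra A B]
  [Algebra B L] [IsScalarTower A B L] [IsIntegralClosure B A L] [IsFractionRing B L]
  [Module.Finite A B] [Module.IsTorsionFree A B]

/-- totally ramified of degree `p` with a uniformizer `ϖL ∈ L`: power basis of `L / K` and of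
`B / A`. -/
theorem exists_adjoin_eq_top_of_unif {p : ℕ} (hp0 : 0 < p) (hdeg : Module.finrank K L = p)
    (hEp : ramIdx A B = p) {ϖL : L} (hlog : dvrVal B L ϖL = exp (-1 : ℤ)) :
    (∀ x : L, ∃ c : ℕ → K, x = ∑ j ∈ Finset.range p, algebraMap K L (c j) * ϖL ^ j) ∧
      ∃ ϖ : B, algebraMap B L ϖ = ϖL ∧ Algebra.adjoin A {ϖ} = ⊤ := by
  classical
  set w := dvrVal B L with hw
  have hwϖ0 : w ϖL ≠ 0 := by rw [hlog]; exact exp_ne_zero
  have hϖ0 : ϖL ≠ 0 := (Valuation.ne_zero_iff _).mp hwϖ0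
  have hwϖ1 : w ϖL < 1 := by rw [hlog, ← exp_zero, exp_lt_exp]; omega
  have hE0 : 0 < ramIdx A B := ramIdx_pos A B
  obtain ⟨π, hπ⟩ := exists_irreducible A
  have hπ1 : addVal A π = ((1 : ℕ) : ℕ∞) := by simpa using addVal_uniformizer hπ
  have hπL0 : algebraMap A L π ≠ 0 := algebraMap_ne_zero_of_addVal K hπ1
  have hlogπ : log (w (algebraMap A L π)) = -(ramIdx A B : ℤ) := by
    have := log_dvrVal_algebraMap_of_addVal (B := B) (L := L) K hπ1
    simpa using this
  have hπKL : algebraMap K L (algebraMap A K π) = algebraMap A L π := by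
    rw [← IsScalarTower.algebraMap_apply A K L]
  have hdisc : ∀ c : K, c ≠ 0 → ∃ m : ℤ, w (algebraMap K L c) =
      w (algebraMap K L (algebraMap A K π)) ^ m := exists_zpow_eq (B := B) (L := L) hπ
  have hπpow : w (algebraMap K L (algebraMap A K π)) = w ϖL ^ p := by
    rw [hπKL]
    refine eq_of_log_eq ((Valuation.ne_zero_iff _).mpr hπL0) (pow_ne_zero p hwϖ0) ?_
    rw [log_pow, hlogπ, hlog, log_exp, hEp, nsmul_eq_mul]; ring
  have hnv := pow_ne_val_of_discrete w hwϖ1 hϖ0 hπpow hdisc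
  have hexp : ∀ x : L, ∃ c : ℕ → K, x = ∑ j ∈ Finset.range p, algebraMap K L (c j) * ϖL ^ j :=
    exists_expansion w hp0 hdeg hϖ0 hnv
  refine ⟨hexp, ?_⟩
  obtain ⟨ϖ, hϖ⟩ : ∃ ϖ : B, algebraMap B L ϖ = ϖL := (dvrVal_le_one_iff B L).mp hwϖ1.le
  refine ⟨ϖ, hϖ, ?_⟩
  rw [eq_top_iff]
  rintro b -
  obtain ⟨c, hc⟩ := hexp (algebraMap B L b)
  have hb1 : w (algebraMap B L b) ≤ 1 := dvrVal_algebraMap_le_one B L b
  have hcoef : ∀ j, j < p → ∃ r : A, algebraMap A K r = c j := by
    intro j hj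
    have h3 := val_term_le_val_sum w hnv c hj
    rw [← hc] at h3
    have h4 := val_coeff_le_one w hwϖ1 hϖ0 hπpow hdisc hj (h3.trans hb1)
    rw [dvrVal_algebraMap A K L B] at h4
    have h5 : dvrVal A K (c j) ≤ 1 := by
      by_contra hgt
      rw [not_le] at hgt
      exact absurd h4 (not_le.mpr (one_lt_pow₀ hgt hE0.ne'))
    obtain ⟨r, hr⟩ := (dvrVal_le_one_iff A K).mp h5
    exact ⟨r, hr⟩
  set r : ℕ → A := fun j => if h : j < p then (hcoef j h).choose else 0 with hr
  have hrj : ∀ j, j < p → algebraMap A K (r j) = c j := by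
    intro j hj
    rw [hr]; simp only [hj, dite_true]
    exact (hcoef j hj).choose_spec
  have hb : b = ∑ j ∈ Finset.range p, r j • ϖ ^ j := by
    apply IsFractionRing.injective B L
    rw [hc, map_sum]
    refine Finset.sum_congr rfl fun j hj => ?_
    rw [Finset.mem_range] at hj
    rw [Algebra.smul_def, map_mul, map_pow, hϖ, ← IsScalarTower.algebraMap_apply A B L,
      IsScalarTower.algebraMap_apply A K L, hrj j hj]
  rw [hb]
  refine Subalgebra.sum_mem _ fun j _ => Subalgebra.smul_mem _ ?_ _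
  exact Subalgebra.pow_mem _ (Algebra.subset_adjoin (Set.mem_singleton ϖ)) j

/-- **The très ramifié type**: `α ^ p = u` with `v_A(u) = k` prime to `p`; then `L / K` is totally
ramified and every `σ ≠ 1` has `i_G(σ) = 1 + p e / (p - 1)`. -/
theorem iG_kummer_root {p : ℕ} (hp : p.Prime) {ζ : K} (hζ : IsPrimitiveRoot ζ p)
    (hdeg : Module.finrank K L = p) (hrank : Module.finrank A B = Module.finrank K L)
    {u : A} {k e : ℕ} (hk : addVal A u = (k : ℕ∞)) (hpk : ¬ p ∣ k)
    (he : addVal A (p : A) = (e : ℕ∞))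
    {α : L} (hα : α ^ p = algebraMap A L u)
    (σ : L ≃ₐ[K] L) (hσ : σ ≠ 1) :
    ∃ t : ℕ, iG A K L B σ = (t : ℕ∞) ∧ (p - 1) * t = p * e + (p - 1) ∧ ramIdx A B = p := by
  classical
  set w := dvrVal B L with hw
  set E : ℕ := ramIdx A B with hE
  have hE0 : 0 < E := ramIdx_pos A B
  have hEf : E * resDeg A B = p := by rw [hE, ramIdx_mul_resDeg, hrank, hdeg]
  have hp1 : 1 ≤ p := hp.one_lt.le
  have hp2 : 2 ≤ p := hp.two_le
  have hζL : IsPrimitiveRoot (algebraMap K L ζ) p :=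
    hζ.map_of_injective (algebraMap K L).injective
  have hpL : (p : L) = algebraMap A L (p : A) := by simp
  have hlogp : log (w (p : L)) = -((E : ℤ) * e) := by
    rw [hpL]; exact log_dvrVal_algebraMap_of_addVal K he
  have hp0L : (p : L) ≠ 0 := by rw [hpL]; exact algebraMap_ne_zero_of_addVal K he
  have hwp0 : w (p : L) ≠ 0 := (Valuation.ne_zero_iff _).mpr hp0L
  -- `1 - ζ`
  have hζp := val_one_sub_primitiveRoot_pow w hp hζL
  have hζ0 : w (1 - algebraMap K L ζ) ≠ 0 := by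
    intro h
    rw [h, zero_pow (by omega)] at hζp
    exact hwp0 hζp.symm
  set z := log (w (1 - algebraMap K L ζ)) with hz
  have hzeq : ((p : ℤ) - 1) * z = -((E : ℤ) * e) := by
    have := congrArg log hζp
    rw [log_pow, hlogp, nsmul_eq_mul, Nat.cast_sub hp1] at this
    simpa using this
  -- `α`
  have hαp0 : α ^ p ≠ 0 := by rw [hα]; exact algebraMap_ne_zero_of_addVal K hk
  have hα0 : α ≠ 0 := fun h => hαp0 (by rw [h, zero_pow hp.ne_zero])
  have hwα0 : w α ≠ 0 := (Valuation.ne_zero_iff _).mpr hα0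
  set y := log (w α) with hy
  have hyeq : (p : ℤ) * y = -((E : ℤ) * k) := by
    have h1 : log (w (α ^ p)) = -((E : ℤ) * k) := by
      rw [hα]; exact log_dvrVal_algebraMap_of_addVal K hk
    rw [map_pow, log_pow, nsmul_eq_mul] at h1
    exact h1
  have hpE : p ∣ E := by
    have h : (p : ℤ) ∣ (E : ℤ) * k := ⟨-y, by rw [mul_neg, hyeq, neg_neg]⟩
    have h' : p ∣ E * k := by exact_mod_cast h
    rcases (Nat.Prime.dvd_mul hp).mp h' with h'' | h''
    · exact h''
    · exact absurd h'' hpk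
  have hEp : E = p := by
    have hEdvd : E ∣ p := ⟨resDeg A B, hEf.symm⟩
    exact Nat.dvd_antisymm hEdvd hpE
  have hpZ : (0 : ℤ) < p := by exact_mod_cast hp.pos
  have hyk : y = -(k : ℤ) := by
    rw [hEp] at hyeq
    have : (p : ℤ) * y = (p : ℤ) * (-(k : ℤ)) := by rw [hyeq]; ring
    exact mul_left_cancel₀ hpZ.ne' this
  -- Bezout
  obtain ⟨a, b, hpa, hab⟩ : ∃ (a : ℕ) (b : ℤ), ¬ p ∣ a ∧ (a : ℤ) * k + b * p = 1 := by
    have hcop : Nat.Coprime k p := (Nat.Coprime.symm ((Nat.Prime.coprime_iff_not_dvd hp).mpr hpk))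
    obtain ⟨a, -, ha⟩ := Nat.exists_mul_mod_eq_one_of_coprime hcop hp.one_lt
    refine ⟨a, -((k * a / p : ℕ) : ℤ), ?_, ?_⟩
    · intro hdvd
      have : k * a % p = 0 := Nat.mod_eq_zero_of_dvd (Dvd.dvd.mul_left hdvd k)
      omega
    · have h := Nat.div_add_mod (k * a) p
      rw [ha] at h
      have h' : ((p : ℤ) * ((k * a / p : ℕ) : ℤ) + 1) = (k : ℤ) * a := by exact_mod_cast h
      linarith
  -- the uniformizer
  obtain ⟨π, hπ⟩ := exists_irreducible A
  have hπ1 : addVal A π = ((1 : ℕ) : ℕ∞) := by simpa using addVal_uniformizer hπ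
  set πL : L := algebraMap A L π with hπL
  have hπL0 : πL ≠ 0 := algebraMap_ne_zero_of_addVal K hπ1
  have hlogπ : log (w πL) = -(E : ℤ) := by
    have := log_dvrVal_algebraMap_of_addVal (B := B) (L := L) K hπ1
    simpa using this
  set ϖL : L := α ^ a * πL ^ b with hϖL
  have hϖ0 : ϖL ≠ 0 := mul_ne_zero (pow_ne_zero a hα0) (zpow_ne_zero b hπL0)
  have hwϖ0 : w ϖL ≠ 0 := (Valuation.ne_zero_iff _).mpr hϖ0
  have hlogϖ : log (w ϖL) = -1 := by
    rw [hϖL, map_mul, log_mul ((Valuation.ne_zero_iff _).mpr (pow_ne_zero a hα0))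
      ((Valuation.ne_zero_iff _).mpr (zpow_ne_zero b hπL0)), map_pow, log_pow, map_zpow₀, log_zpow,
      hlogπ, ← hy, hyk, hEp, nsmul_eq_mul, smul_eq_mul]
    linarith
  have hwϖ : w ϖL = exp (-1 : ℤ) := by rw [← hlogϖ, exp_log hwϖ0]
  obtain ⟨hexp, ϖ, hϖ, hadj⟩ := exists_adjoin_eq_top_of_unif (A := A) (B := B) hp.pos hdeg hEp hwϖ
  have hπKL : algebraMap K L (algebraMap A K π) = πL := by
    rw [hπL, ← IsScalarTower.algebraMap_apply A K L]
  have hσπ : σ πL = πL := by rw [← hπKL]; exact σ.commutes _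
  have hσα : σ α ≠ α := by
    intro h
    apply hσ
    have hσϖ : σ ϖL = ϖL := by
      rw [hϖL, map_mul, map_pow, h, map_zpow₀, hσπ]
    ext x
    obtain ⟨c, rfl⟩ := hexp x
    rw [map_sum, AlgEquiv.one_apply]
    refine Finset.sum_congr rfl fun j _ => ?_
    rw [map_mul, map_pow, hσϖ, σ.commutes]
  have hσu : (σ : L →+* L) (α ^ p) = α ^ p := by
    show σ (α ^ p) = α ^ p
    rw [hα, IsScalarTower.algebraMap_apply A K L]; exact σ.commutes _
  have hσc : (σ : L →+* L) (πL ^ b) = πL ^ b := by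
    show σ (πL ^ b) = πL ^ b
    rw [map_zpow₀, hσπ]
  have hbreak := val_map_unif_sub_of_root w hp hζL hα0 (σ : L →+* L) hσα hσu hpa hσc
  have hbreak' : w (σ ϖL - ϖL) = w ϖL * w (1 - algebraMap K L ζ) := hbreak
  have hd0 : w (σ ϖL - ϖL) ≠ 0 := by
    rw [hbreak']
    exact mul_ne_zero hwϖ0 hζ0
  have hlogd : log (w (σ ϖL - ϖL)) = -1 + z := by
    rw [hbreak', log_mul hwϖ0 hζ0, hlogϖ, ← hz]
  have hp1' : (0 : ℤ) < (p : ℤ) - 1 := by
    have : (2 : ℤ) ≤ p := by exact_mod_cast hp2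
    omega
  have hzeq' : ((p : ℤ) - 1) * z = -((p : ℤ) * e) := by rw [hzeq, hEp]
  have hz0 : z ≤ 0 := by
    by_contra hpos
    rw [not_le] at hpos
    have : 0 < ((p : ℤ) - 1) * z := mul_pos hp1' hpos
    rw [hzeq'] at this
    have : (0 : ℤ) ≤ (p : ℤ) * e := by positivity
    omega
  have htpos : 0 ≤ 1 - z := by omega
  refine ⟨(1 - z).toNat, ?_, ?_, hEp⟩
  · rw [iG_eq_addVal_of_adjoin ϖ hadj σ]
    have hne : galRestrict A K L B σ ϖ - ϖ ≠ 0 := by
      intro h
      apply hd0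
      have := congrArg (algebraMap B L) h
      rw [map_sub, algebraMap_galRestrict_apply, hϖ, map_zero] at this
      rw [this, map_zero]
    refine addVal_of_log_dvrVal B L hne ?_
    rw [map_sub, algebraMap_galRestrict_apply, hϖ, ← hw, hlogd, Int.toNat_of_nonneg htpos]
    ring
  · zify [hp1]
    rw [Int.toNat_of_nonneg htpos]
    have : ((p : ℤ) - 1) * (1 - z) = ((p : ℤ) - 1) - ((p : ℤ) - 1) * z := by ring
    rw [this, hzeq']
    ring

/-- **The unramified type**: `u` a unit of level `i` with `p e ≤ i (p - 1)`; then every element of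
the inertia group (`1 ≤ i_G(σ)`) fixes the root `α` of `X ^ p - u`. -/
theorem map_root_eq_of_one_le_iG {p : ℕ} (hp : p.Prime) {ζ : K} (hζ : IsPrimitiveRoot ζ p)
    {u : A} {i e : ℕ} (hi : addVal A (u - 1) = (i : ℕ∞)) (hi0 : 0 < i)
    (he : addVal A (p : A) = (e : ℕ∞)) (hlev : p * e ≤ i * (p - 1))
    {α : L} (hα : α ^ p = algebraMap A L u)
    (σ : L ≃ₐ[K] L) (hσ : 1 ≤ iG A K L B σ) : σ α = α := by
  classical
  set w := dvrVal B L with hw
  set E : ℕ := ramIdx A B with hE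
  have hE0 : 0 < E := ramIdx_pos A B
  have hp1 : 1 ≤ p := hp.one_lt.le
  have hp2 : 2 ≤ p := hp.two_le
  have hζL : IsPrimitiveRoot (algebraMap K L ζ) p :=
    hζ.map_of_injective (algebraMap K L).injective
  have hpL : (p : L) = algebraMap A L (p : A) := by simp
  have hlogp : log (w (p : L)) = -((E : ℤ) * e) := by
    rw [hpL]; exact log_dvrVal_algebraMap_of_addVal K he
  have hp0L : (p : L) ≠ 0 := by rw [hpL]; exact algebraMap_ne_zero_of_addVal K he
  have hwp0 : w (p : L) ≠ 0 := (Valuation.ne_zero_iff _).mpr hp0L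
  have hαu : α ^ p - 1 = algebraMap A L (u - 1) := by rw [map_sub, map_one, hα]
  have hlogu : log (w (α ^ p - 1)) = -((E : ℤ) * i) := by
    rw [hαu]; exact log_dvrVal_algebraMap_of_addVal K hi
  have hu0 : w (α ^ p - 1) ≠ 0 := by
    rw [hαu]; exact (Valuation.ne_zero_iff _).mpr (algebraMap_ne_zero_of_addVal K hi)
  have h1 : w (α ^ p - 1) < 1 := by
    rw [← exp_log hu0, hlogu, ← exp_zero, exp_lt_exp]
    have : (0 : ℤ) < (E : ℤ) * i := by positivity
    omega
  have hζp := val_one_sub_primitiveRoot_pow w hp hζL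
  have hζ0 : w (1 - algebraMap K L ζ) ≠ 0 := by
    intro h
    rw [h, zero_pow (by omega)] at hζp
    exact hwp0 hζp.symm
  set z := log (w (1 - algebraMap K L ζ)) with hz
  have hzeq : ((p : ℤ) - 1) * z = -((E : ℤ) * e) := by
    have := congrArg log hζp
    rw [log_pow, hlogp, nsmul_eq_mul, Nat.cast_sub hp1] at this
    simpa using this
  have h2 : w (α ^ p - 1) ≤ w (1 - algebraMap K L ζ) ^ p := by
    rw [← log_le_log hu0 (pow_ne_zero p hζ0), log_pow, hlogu, nsmul_eq_mul, ← hz]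
    have hlev' : (p : ℤ) * e ≤ ((i : ℤ) * ((p : ℤ) - 1)) := by
      have := hlev
      zify [hp1] at this
      exact this
    have hEpos : (0 : ℤ) < E := by exact_mod_cast hE0
    have hp1' : (0 : ℤ) < (p : ℤ) - 1 := by
      have : (2 : ℤ) ≤ p := by exact_mod_cast hp2
      omega
    by_contra hcon
    rw [not_le] at hcon
    have h3 : ((p : ℤ) - 1) * ((p : ℤ) * z) < ((p : ℤ) - 1) * (-((E : ℤ) * i)) :=
      mul_lt_mul_of_pos_left hcon hp1'
    have h4 : ((p : ℤ) - 1) * ((p : ℤ) * z) = (p : ℤ) * (-((E : ℤ) * e)) := by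
      rw [← hzeq]; ring
    rw [h4] at h3
    have h5 : (E : ℤ) * ((i : ℤ) * ((p : ℤ) - 1)) < (E : ℤ) * ((p : ℤ) * e) := by linarith
    have h6 := lt_of_mul_lt_mul_left h5 hEpos.le
    omega
  have hσζ : (σ : L →+* L) (algebraMap K L ζ) = algebraMap K L ζ := σ.commutes ζ
  have hσu : (σ : L →+* L) (α ^ p) = α ^ p := by
    show σ (α ^ p) = α ^ p
    rw [hα, IsScalarTower.algebraMap_apply A K L]; exact σ.commutes _
  have hinert : ∀ x : L, w x ≤ 1 → w ((σ : L →+* L) x - x) < 1 := by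
    intro x hx
    obtain ⟨b, rfl⟩ := (dvrVal_le_one_iff B L).mp hx
    have hb := (natCast_le_iG_iff (A := A) (K := K) (L := L) (B := B) σ 1).mp (by exact_mod_cast hσ) b
    rw [pow_one] at hb
    show w (σ (algebraMap B L b) - algebraMap B L b) < 1
    rw [← algebraMap_galRestrict_apply A, ← map_sub]
    exact (dvrVal_algebraMap_lt_one_iff B L _).mpr hb
  exact map_root_eq_of_top_level w hp hζL h1 h2 (σ : L →+* L) hσζ hσu hinert

end Main

end Fermat.Agent.Lib.Ram.KummerBreak
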