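/-
helper82 (P-S56, block (A) LOCAL FLAT): the three types of Kummer extensions of degree `p` in the
currency `TameTower.HasJump (GaloisLower.lowerNumbering A K L B) t` (helper24): all `σ ≠ 1` have
`i_G(σ) = t`, so the unique lower = upper break of `L / K` is `t - 1`.

* `hasJump_kummer`       : level type (`v_A(u - 1) = i`, `p ∤ i`, `i (p - 1) < p e`):
                           `(p - 1) t + (p - 1) i = p e + (p - 1)`;
* `hasJump_kummer_root`  : très ramifié type (`p ∤ v_A(u)`): `(p - 1) t = p e + (p - 1)`;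
* `hasJump_kummer_unram` : unramified type (`p e ≤ i (p - 1)`): `t = 0`.
-/
import Fermat.Agent.Lib.Ram.KummerBreakRoot
import Fermat.Agent.Lib.Ram.TameTower

set_option autoImplicit false
set_option linter.unusedSectionVars false

namespace Fermat.Agent.Lib.Ram.KummerBreak

open Fermat.Agent.Lib.Ram Fermat.Agent.Lib.Ram.GaloisLower Fermat.Agent.Lib.CFT.Local
open Fermat.Agent.Lib.Ram.TameTower
open IsLocalRing IsDiscreteValuationRing

section Main

variable {A K L B : Type*} [CommRing A] [IsDomain A] [IsDiscreteValuationRing A]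
  [Field K] [Algebra A K] [IsFractionRing A K]
  [Field L] [Algebra K L] [FiniteDimensional K L] [Algebra A L] [IsScalarTower A K L]
  [CommRing B] [IsDomain B] [IsDiscreteValuationRing B] [Algebra A B]
  [Algebra B L] [IsScalarTower A B L] [IsIntegralClosure B A L] [IsFractionRing B L]
  [Module.Finite A B] [Module.IsTorsionFree A B]

/-- `ζ_p ∈ K` forces `(p - 1) ∣ e`: the integer `t = 1 + p e / (p - 1) - i`. -/
theorem exists_jump_eq {p : ℕ} (hp : p.Prime) {ζ : K} (hζ : IsPrimitiveRoot ζ p)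
    {i e : ℕ} (he : addVal A (p : A) = (e : ℕ∞)) (hlev : i * (p - 1) < p * e + p) :
    ∃ t : ℕ, (p - 1) * t + (p - 1) * i = p * e + (p - 1) := by
  have hp1 : 1 ≤ p := hp.one_lt.le
  have hp2 : 2 ≤ p := hp.two_le
  set v := dvrVal A K with hv
  have hpK : (p : K) = algebraMap A K (p : A) := by simp
  have hlogp : WithZero.log (v (p : K)) = -(e : ℤ) := by
    rw [hpK]; exact log_dvrVal_of_addVal A K he
  have hp0 : (p : A) ≠ 0 := by
    rintro h
    rw [h, addVal_zero] at he
    exact ENat.top_ne_natCast e he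
  have hvp0 : v (p : K) ≠ 0 := by
    rw [hpK]
    exact (Valuation.ne_zero_iff _).mpr ((map_ne_zero_iff _ (IsFractionRing.injective A K)).mpr hp0)
  have hζp := Fermat.Agent.S56x.Local.KummerVal.val_one_sub_primitiveRoot_pow v hp hζ
  set z := WithZero.log (v (1 - ζ)) with hz
  have hzeq : ((p : ℤ) - 1) * z = -(e : ℤ) := by
    have := congrArg WithZero.log hζp
    rw [WithZero.log_pow, hlogp, nsmul_eq_mul, Nat.cast_sub hp1] at this
    simpa using this
  have hp1' : (0 : ℤ) < (p : ℤ) - 1 := by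
    have : (2 : ℤ) ≤ p := by exact_mod_cast hp2
    omega
  have hlev' : ((i : ℤ) * ((p : ℤ) - 1)) < (p : ℤ) * e + p := by
    have := hlev
    zify [hp1] at this
    exact this
  have hkey : ((p : ℤ) - 1) * (1 - (p : ℤ) * z - i) = ((p : ℤ) - 1) + (p : ℤ) * e - (i : ℤ) * ((p : ℤ) - 1) := by
    have : ((p : ℤ) - 1) * (1 - (p : ℤ) * z - i) =
        ((p : ℤ) - 1) - (p : ℤ) * (((p : ℤ) - 1) * z) - (i : ℤ) * ((p : ℤ) - 1) := by ring
    rw [this, hzeq]; ring
  have htpos : 0 ≤ 1 - (p : ℤ) * z - i := by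
    by_contra hneg
    rw [not_le] at hneg
    have : ((p : ℤ) - 1) * (1 - (p : ℤ) * z - i) ≤ ((p : ℤ) - 1) * (-1) :=
      mul_le_mul_of_nonneg_left (by omega) hp1'.le
    rw [hkey] at this
    omega
  refine ⟨(1 - (p : ℤ) * z - i).toNat, ?_⟩
  zify [hp1]
  rw [Int.toNat_of_nonneg htpos, hkey]
  ring

/-- level type: single jump `t` with `(p - 1) t + (p - 1) i = p e + (p - 1)`. -/
theorem hasJump_kummer {p : ℕ} (hp : p.Prime) {ζ : K} (hζ : IsPrimitiveRoot ζ p)
    (hdeg : Module.finrank K L = p) (hrank : Module.finrank A B = Module.finrank K L)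
    {u : A} {i e : ℕ} (hi : addVal A (u - 1) = (i : ℕ∞)) (hi0 : 0 < i) (hpi : ¬ p ∣ i)
    (he : addVal A (p : A) = (e : ℕ∞)) (he0 : 0 < e) (hlev : i * (p - 1) < p * e)
    {α : L} (hα : α ^ p = algebraMap A L u) :
    ∃ t : ℕ, (p - 1) * t + (p - 1) * i = p * e + (p - 1) ∧
      HasJump (lowerNumbering A K L B) t := by
  have hp1 : 0 < p - 1 := by have := hp.two_le; omega
  obtain ⟨t, ht⟩ := exists_jump_eq (A := A) hp hζ (i := i) he (by omega)
  refine ⟨t, ht, fun σ hσ => ?_⟩
  obtain ⟨t', ht'1, ht'2, -⟩ := iG_kummer (B := B) hp hζ hdeg hrank hi hi0 hpi he he0 hlev hα σ hσ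
  have : t' = t := by
    have h : (p - 1) * t' = (p - 1) * t := by omega
    exact Nat.eq_of_mul_eq_mul_left hp1 h
  rw [lowerNumbering_i, ht'1, this]

/-- très ramifié type: single jump `t` with `(p - 1) t = p e + (p - 1)`. -/
theorem hasJump_kummer_root {p : ℕ} (hp : p.Prime) {ζ : K} (hζ : IsPrimitiveRoot ζ p)
    (hdeg : Module.finrank K L = p) (hrank : Module.finrank A B = Module.finrank K L)
    {u : A} {k e : ℕ} (hk : addVal A u = (k : ℕ∞)) (hpk : ¬ p ∣ k)
    (he : addVal A (p : A) = (e : ℕ∞))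
    {α : L} (hα : α ^ p = algebraMap A L u) :
    ∃ t : ℕ, (p - 1) * t = p * e + (p - 1) ∧ HasJump (lowerNumbering A K L B) t := by
  have hp1 : 0 < p - 1 := by have := hp.two_le; omega
  obtain ⟨t, ht⟩ := exists_jump_eq (A := A) hp hζ (i := 0) he (by omega)
  rw [mul_zero, add_zero] at ht
  refine ⟨t, ht, fun σ hσ => ?_⟩
  obtain ⟨t', ht'1, ht'2, -⟩ := iG_kummer_root (B := B) hp hζ hdeg hrank hk hpk he hα σ hσ
  have : t' = t := by
    have h : (p - 1) * t' = (p - 1) * t := by omega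
    exact Nat.eq_of_mul_eq_mul_left hp1 h
  rw [lowerNumbering_i, ht'1, this]

/-- unramified type: `i_G(σ) = 0` for every `σ ≠ 1` (`hgen`: `L = K(α)`). -/
theorem hasJump_kummer_unram {p : ℕ} (hp : p.Prime) {ζ : K} (hζ : IsPrimitiveRoot ζ p)
    {u : A} {i e : ℕ} (hi : addVal A (u - 1) = (i : ℕ∞)) (hi0 : 0 < i)
    (he : addVal A (p : A) = (e : ℕ∞)) (hlev : p * e ≤ i * (p - 1))
    {α : L} (hα : α ^ p = algebraMap A L u)
    (hgen : ∀ σ : L ≃ₐ[K] L, σ α = α → σ = 1) :
    HasJump (lowerNumbering A K L B) 0 := by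
  intro σ hσ
  rw [lowerNumbering_i]
  by_contra h0
  have h1 : 1 ≤ iG A K L B σ := by
    rw [Nat.cast_zero] at h0
    exact Order.one_le_iff_ne_zero.mpr h0
  exact hσ (hgen σ (map_root_eq_of_one_le_iG (B := B) hp hζ hi hi0 he hlev hα σ h1))

/-- `L = K(α)` in the form used by `hasJump_kummer_unram`. -/
theorem eq_one_of_map_root_eq {α : L} (hgen : IntermediateField.adjoin K {α} = ⊤)
    (σ : L ≃ₐ[K] L) (h : σ α = α) : σ = 1 := by
  let S : IntermediateField K L :=
    (AlgHom.equalizer (σ : L →ₐ[K] L) (AlgHom.id K L)).toIntermediateField (fun x hx => by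
      have hx' : σ x = x := hx
      show σ x⁻¹ = x⁻¹
      rw [map_inv₀, hx'])
  have hα : α ∈ S := h
  have hle : IntermediateField.adjoin K {α} ≤ S :=
    IntermediateField.adjoin_le_iff.mpr (Set.singleton_subset_iff.mpr hα)
  rw [hgen] at hle
  ext x
  exact hle (IntermediateField.mem_top (x := x))

end Main

end Fermat.Agent.Lib.Ram.KummerBreak
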