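/-
P-S56, block (A) LOCAL FLAT (helper79): the monogenic generator for `K = ℚ_[p]` in the normed-field
formalism of `Lib/Ram/PropertyPm`.  For `E : IntermediateField ℚ_[p] (PadicAlgCl p)` finite over
`ℚ_[p]` there is `x : intE E` with `Algebra.adjoin (intK ℚ_[p]) {x} = ⊤`
(`exists_adjoin_eq_top`) -- the hypothesis `hx` of `Lib/Ram/PmSharpFinal` and `Lib/Ram/PmForms`.

Instantiation of `Lib/Ram/Monogenic.exists_adjoin_eq_top` (Serre III §6 Prop. 12) with
`A = intK ℚ_[p]` (`≃+* ℤ_[p]`, `zpEquivIntK`), `B = intE E` (a discrete valuation ring by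
`Lib/Ram/IntEPadic`): the instances `IsDiscreteValuationRing (intK ℚ_[p])`,
`Finite (ResidueField (intK ℚ_[p]))`, `IsLocalHom (algebraMap (intK ℚ_[p]) (intE E))`,
`Module.Finite (intK ℚ_[p]) (intE E)` are proved here; the residue extension is separable because
the residue field of `ℤ_[p]` is finite.
-/
import Mathlib
import Fermat.Agent.Lib.Ram.PropertyPm
import Fermat.Agent.Lib.Ram.IntEPadic
import Fermat.Agent.Lib.Ram.Monogenic

set_option autoImplicit false
set_option linter.style.haveILetI false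

open Polynomial IntermediateField IsLocalRing
open scoped NNReal
open Fermat.Agent.Lib.Ram.PropertyPm Fermat.Agent.Lib.Ram.IntEPadic

namespace Fermat.Agent.Lib.Ram.MonogenicPadic

variable {p : ℕ} [Fact p.Prime]

/-- `ℤ_[p] ≃+* 𝓞_{ℚ_p}` (the same underlying elements of `ℚ_[p]`). -/
noncomputable def zpEquivIntK : ℤ_[p] ≃+* intK ℚ_[p] where
  toFun x := ⟨(x : ℚ_[p]), x.2⟩
  invFun x := ⟨(x : ℚ_[p]), x.2⟩
  left_inv _ := rfl
  right_inv _ := rfl
  map_mul' _ _ := rfl
  map_add' _ _ := rfl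

theorem coe_zpEquivIntK (x : ℤ_[p]) : ((zpEquivIntK x : intK ℚ_[p]) : ℚ_[p]) = x := rfl

instance isDiscreteValuationRing_intK : IsDiscreteValuationRing (intK ℚ_[p]) :=
  IsDiscreteValuationRing.RingEquivClass.isDiscreteValuationRing (zpEquivIntK (p := p))

instance finite_residueField_intK : Finite (ResidueField (intK ℚ_[p])) :=
  Finite.of_equiv (ZMod p)
    ((PadicInt.residueField (p := p)).symm.trans (ResidueField.mapEquiv zpEquivIntK)).toEquiv

variable (E : IntermediateField ℚ_[p] (PadicAlgCl p))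

theorem algebraMap_intK_intE_injective :
    Function.Injective (algebraMap (intK ℚ_[p]) (intE E)) := by
  intro a b h
  have h1 : algebraMap ℚ_[p] (PadicAlgCl p) (a : ℚ_[p]) = algebraMap ℚ_[p] (PadicAlgCl p) b :=
    congrArg (fun z : intE E => (z : PadicAlgCl p)) h
  exact Subtype.ext ((algebraMap ℚ_[p] (PadicAlgCl p)).injective h1)

/-- units of `𝓞_K` are the elements of norm one. -/
theorem isUnit_intK_iff {K : Type*} [NormedField K] [IsUltrametricDist K] (a : intK K) :
    IsUnit a ↔ ‖(a : K)‖ = 1 := by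
  constructor
  · rintro ⟨u, rfl⟩
    have h1 : ‖((u : intK K) : K)‖ ≤ 1 := (u : intK K).2
    have h2 : ‖(((u⁻¹ : (intK K)ˣ) : intK K) : K)‖ ≤ 1 := ((u⁻¹ : (intK K)ˣ) : intK K).2
    have h3 : ((u : intK K) : K) * (((u⁻¹ : (intK K)ˣ) : intK K) : K) = 1 := by
      rw [← Subring.coe_mul, Units.mul_inv]; rfl
    have h4 : ‖((u : intK K) : K)‖ * ‖(((u⁻¹ : (intK K)ˣ) : intK K) : K)‖ = 1 := by
      rw [← norm_mul, h3, norm_one]
    nlinarith [norm_nonneg ((u : intK K) : K), norm_nonneg (((u⁻¹ : (intK K)ˣ) : intK K) : K)]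
  · intro h
    have ha0 : (a : K) ≠ 0 := by
      intro h0; rw [h0, norm_zero] at h; exact zero_ne_one h
    refine isUnit_iff_exists_inv.2 ⟨⟨(a : K)⁻¹, ?_⟩, ?_⟩
    · change ‖(a : K)⁻¹‖ ≤ 1
      rw [norm_inv, h, inv_one]
    · apply Subtype.ext
      change (a : K) * (a : K)⁻¹ = 1
      exact mul_inv_cancel₀ ha0

instance isLocalHom_algebraMap_intK_intE [IsLocalRing (intE E)] :
    IsLocalHom (algebraMap (intK ℚ_[p]) (intE E)) where
  map_nonunit a ha := by
    rw [isUnit_intK_iff]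
    have h := (isUnit_iff_norm_eq_one E _).1 ha
    have h1 : ((algebraMap (intK ℚ_[p]) (intE E) a : intE E) : PadicAlgCl p) =
        algebraMap ℚ_[p] (PadicAlgCl p) (a : ℚ_[p]) := rfl
    rw [h1, norm_algebraMap'] at h
    exact h

/-- `𝓞_E` is a finite `𝓞_{ℚ_p}`-module for `E/ℚ_p` finite. -/
theorem finite_intE [FiniteDimensional ℚ_[p] E] : Module.Finite (intK ℚ_[p]) (intE E) := by
  letI : Algebra ℤ_[p] (intE E) := (zpToIntE E).toAlgebra
  letI : Algebra (intE E) E := (intEToE E).toAlgebra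
  haveI : IsScalarTower ℤ_[p] (intE E) E :=
    IsScalarTower.of_algebraMap_eq (fun x => by apply Subtype.ext; rfl)
  haveI : IsIntegralClosure (intE E) ℤ_[p] E :=
    ⟨intEToE_injective E, fun {x} => isIntegral_iff_exists E x⟩
  haveI : Module.Finite ℤ_[p] (intE E) := IsIntegralClosure.finite ℤ_[p] ℚ_[p] E (intE E)
  letI : Algebra ℤ_[p] (intK ℚ_[p]) := (zpEquivIntK (p := p)).toRingHom.toAlgebra
  haveI : IsScalarTower ℤ_[p] (intK ℚ_[p]) (intE E) :=
    IsScalarTower.of_algebraMap_eq (fun x => by apply Subtype.ext; rfl)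
  exact Module.Finite.of_restrictScalars_finite ℤ_[p] (intK ℚ_[p]) (intE E)

/-- **Monogenicity of `𝓞_E / 𝓞_{ℚ_p}`** (Serre III §6 Prop. 12 for `ℚ_p`): for `E/ℚ_p` finite
inside `PadicAlgCl p` there is `x ∈ 𝓞_E` with `𝓞_E = 𝓞_{ℚ_p}[x]`. -/
theorem exists_adjoin_eq_top [FiniteDimensional ℚ_[p] E] :
    ∃ x : intE E, Algebra.adjoin (intK ℚ_[p]) {x} = ⊤ := by
  haveI : IsDiscreteValuationRing (intE E) := isDiscreteValuationRing_intE E
  haveI : Module.Finite (intK ℚ_[p]) (intE E) := finite_intE E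
  haveI : Algebra.IsSeparable (ResidueField (intK ℚ_[p])) (ResidueField (intE E)) :=
    Algebra.IsAlgebraic.isSeparable_of_perfectField
  exact Monogenic.exists_adjoin_eq_top (intK ℚ_[p]) (intE E) (algebraMap_intK_intE_injective E)

end Fermat.Agent.Lib.Ram.MonogenicPadic
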