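/-
P-S56 block (A), ramification (helper12): FONTAINE'S BOUND IN SERRE'S UPPER NUMBERING, final form.

`Lib/Ram/PmSharpFinal` (helper61: `(∀ ρ < ρ₀, PropertyP K Ω L ρ) → ρ₀ ≤ threshold`, unconditional)
+ `Lib/Ram/SharpSerre` (`threshold = c ^ (e₀ (u_max + 1))`)
⟹ `(∀ ρ < c ^ (e₀ (v₀ + 1)), PropertyP K Ω L ρ) → I.UpperBounded v₀`.
-/
import Fermat.Agent.Lib.Ram.PmSharpFinal
import Fermat.Agent.Lib.Ram.SharpSerre

set_option autoImplicit false

namespace Fermat.Agent.Lib.Ram.SharpSerreFinal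

open Fermat.Agent.Lib.Ram Fermat.Agent.Lib.Ram.LemmaA Fermat.Agent.Lib.Ram.PmSharp
  Fermat.Agent.Lib.Ram.PropertyPm Fermat.Agent.Lib.Ram.PmSharpFinal
  Fermat.Agent.Lib.Ram.SharpSerre

section Trivial

variable {G : Type*} [Group G] [Fintype G] (I : LowerNumbering G)

/-- For the trivial group every bound holds. -/
theorem upperBounded_of_forall_eq_one (h : ∀ s : G, s = 1) (v₀ : ℝ) : I.UpperBounded v₀ := by
  intro v _
  rw [Subgroup.eq_bot_iff_forall]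
  exact fun s _ => h s

end Trivial

section Main

variable {K : Type*} [NontriviallyNormedField K] [CompleteSpace K] [IsUltrametricDist K]
  [LocallyCompactSpace K]
variable {Ω : Type*} [NormedField Ω] [IsUltrametricDist Ω] [NormedAlgebra K Ω]
variable (L : IntermediateField K Ω) [FiniteDimensional K L] [IsGalois K L]
  [Fintype (L ≃ₐ[K] L)] (I : LowerNumbering (L ≃ₐ[K] L))

/-- **Fontaine's Prop. 1.5 (ii) in Serre's upper numbering (sharp, hom form, unconditional).**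
`K` complete locally compact ultrametric (`ℚ_[p]`), `Ω` algebraically closed algebraic (`PadicAlgCl p`),
`L/K` finite Galois inside `Ω` with `𝓞_L = 𝓞_K[x]`, `I` a lower numbering of `Gal(L/K)` with
`‖σ x - x‖ = c ^ i(σ)` (`c = ‖π_L‖`).  If `(P_m)` holds for all `ρ < ρ₀ = c ^ (e₀ (v₀ + 1))` then
`G^v = 1` for all `v > v₀`. -/
theorem upperBounded_of_forall_propertyP [IsAlgClosed Ω] [Algebra.IsAlgebraic K Ω]
    (p : ℕ) [Fact p.Prime] (hp : ‖(p : Ω)‖ < 1)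
    (x : intE L) (hx : Algebra.adjoin (intK K) {x} = ⊤)
    {c : ℝ} (hc0 : 0 < c) (hc1 : c < 1)
    (hi : ∀ σ : L ≃ₐ[K] L, ‖((σ (toL L x) : L) : Ω) - x‖ = epow c (I.i σ))
    {v₀ : ℝ} (hv₀ : -1 ≤ v₀) {ρ₀ : NNReal} (hρ₀ : (ρ₀ : ℝ) = c ^ ((I.e0 : ℝ) * (v₀ + 1)))
    (h : ∀ ρ < ρ₀, PropertyP K Ω L ρ) : I.UpperBounded v₀ := by
  by_cases hG : ∃ σ : L ≃ₐ[K] L, σ ≠ 1
  · obtain ⟨s₁, hs₁, hmin⟩ := exists_min_conj L (toL L x) hG
    have h1 := le_threshold_of_forall_propertyP L p hp x hx s₁ hs₁ hmin h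
    have h2 : (ρ₀ : ℝ) ≤ (threshold L (toL L x) s₁ : ℝ) := by exact_mod_cast h1
    rw [hρ₀, threshold_eq_rpow L I hc0 hc1 (toL L x) hi s₁ hs₁ hmin] at h2
    have h3 : (I.e0 : ℝ) * (I.uMax + 1) ≤ (I.e0 : ℝ) * (v₀ + 1) :=
      (Real.rpow_le_rpow_left_iff_of_base_lt_one hc0 hc1).1 h2
    have he : (0 : ℝ) < I.e0 := by exact_mod_cast I.e0_pos
    have h4 : I.uMax + 1 ≤ v₀ + 1 := le_of_mul_le_mul_left h3 he
    exact (I.upperBounded_iff_uMax_le hv₀).2 (by linarith)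
  · have hG' : ∀ σ : L ≃ₐ[K] L, σ = 1 := fun σ => by
      by_contra hσ
      exact hG ⟨σ, hσ⟩
    exact upperBounded_of_forall_eq_one I hG' v₀

end Main

end Fermat.Agent.Lib.Ram.SharpSerreFinal
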