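import Mathlib
import Fermat.Agent.Lib.Ram.PmInst
import Fermat.Agent.Lib.Ram.PmSharpFinal
import Fermat.Agent.Lib.Ram.SharpSerre

/-!
helper61 (P-S56, block (A) LOCAL).  **Fontaine's Prop. 1.5 (ii), SHARP, UNCONDITIONAL, in Serre's
upper numbering**, for the arithmetic lower numbering `GaloisLower.lowerNumbering A K L B` in the
model `(A, B)` of the rings of integers of `Lib/Ram/PmInst`:

`K` complete, locally compact, ultrametric; `Ω` algebraically closed, algebraic, normed over `K`;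
`L : IntermediateField K Ω` finite Galois; `B = A[x]` a DVR, `ϖ` a uniformiser of `B`,
`c = ‖ϖ‖`.  Then, for `v₀ ≥ -1` and `ρ₀ = c ^ (e₀ (v₀ + 1))` (`= ‖π_K‖ ^ (v₀ + 1)`):

`upperBounded_of_forall_propertyP : (∀ ρ < ρ₀, PropertyP K Ω L ρ) → I.UpperBounded v₀`,

i.e. `Gal(L/K)^v = 1` for all `v > v₀`.  (For `K = ℚ_p`, `ρ₀ = ‖p‖ ^ (1 + 1/(p-1))`:
`v₀ = 1/(p-1)`, Fontaine's Théorème A.)
-/

set_option autoImplicit false

open Polynomial IntermediateField
open scoped NNReal

namespace Fermat.Agent.Lib.Ram.SharpSerreInst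

open Fermat.Agent.Lib.Ram Fermat.Agent.Lib.Ram.PropertyPm Fermat.Agent.Lib.Ram.PmSharp
open Fermat.Agent.Lib.Ram.PmSharpFinal Fermat.Agent.Lib.Ram.PmInst

section Trivial

variable {G : Type*} [Group G] [Fintype G] (I : LowerNumbering G)

/-- For the trivial group every `v₀ ≥ -1` bounds the upper numbering. -/
theorem upperBounded_of_trivial_group (h : ∀ s : G, s = 1) {v₀ : ℝ} (hv₀ : -1 ≤ v₀) :
    I.UpperBounded v₀ := by
  rw [I.upperBounded_iff_uMax_le hv₀]
  have hiMax : I.iMax = 0 := by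
    apply le_antisymm _ I.iMax_nonneg
    rw [I.iMax_le_iff le_rfl]
    intro s hs
    exact absurd (h s) hs
  unfold LowerNumbering.uMax
  rw [hiMax, zero_sub, I.phi_neg_one]
  exact hv₀

end Trivial

variable {A K Ω B : Type*} [CommRing A] [NontriviallyNormedField K] [IsUltrametricDist K]
  [CompleteSpace K] [LocallyCompactSpace K] [Algebra A K] [IsFractionRing A K]
  [NormedField Ω] [IsUltrametricDist Ω] [NormedAlgebra K Ω] [Algebra.IsAlgebraic K Ω]
  [Algebra A Ω] [IsScalarTower A K Ω]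
  {L : IntermediateField K Ω} [FiniteDimensional K L] [IsGalois K L]
  [Algebra A L] [IsScalarTower A K L]
  [CommRing B] [IsDomain B] [IsDiscreteValuationRing B] [Algebra A B] [Algebra B L]
  [IsScalarTower A B L] [IsIntegralClosure B A L]

/-- **Fontaine Prop. 1.5 (ii)**, sharp, unconditional, hom form, Serre's upper numbering. -/
theorem upperBounded_lowerNumbering_of_forall_propertyP [IsAlgClosed Ω] (p : ℕ) [Fact p.Prime]
    (hp : ‖(p : Ω)‖ < 1) (hA : ∀ k : K, ‖k‖ ≤ 1 ↔ k ∈ (algebraMap A K).range)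
    {ϖ : B} (hϖ : Irreducible ϖ) (x : B) (hx : Algebra.adjoin A {x} = ⊤)
    {v₀ : ℝ} (hv₀ : -1 ≤ v₀) {ρ₀ : ℝ≥0}
    (hρ₀ : (ρ₀ : ℝ) = ‖emb (L := L) ϖ‖ ^
      (((GaloisLower.lowerNumbering A K L B).e0 : ℝ) * (v₀ + 1)))
    (h : ∀ ρ < ρ₀, PropertyP K Ω L ρ) :
    (GaloisLower.lowerNumbering A K L B).UpperBounded v₀ := by
  by_cases hne : ∃ σ : L ≃ₐ[K] L, σ ≠ 1
  · have hc0 := norm_emb_uniformizer_pos (L := L) hA hϖ
    have hc1 := norm_emb_uniformizer_lt_one (L := L) hA hϖ
    have hgen := adjoin_toIntE_eq_top (L := L) hA x hx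
    obtain ⟨s₁, hs₁, hmin⟩ := exists_min_conj L (toL L (toIntE (L := L) hA x)) hne
    have h1 := le_threshold_of_forall_propertyP L p hp (toIntE (L := L) hA x) hgen s₁ hs₁ hmin h
    have h2 : (ρ₀ : ℝ) ≤ (threshold L (toL L (toIntE (L := L) hA x)) s₁ : ℝ) := by
      exact_mod_cast h1
    have hi : ∀ σ : L ≃ₐ[K] L,
        ‖((σ (toL L (toIntE (L := L) hA x)) : L) : Ω) - (toL L (toIntE (L := L) hA x) : L)‖ =
          LemmaA.epow ‖emb (L := L) ϖ‖ ((GaloisLower.lowerNumbering A K L B).i σ) := by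
      intro σ
      have h3 := norm_conj_sub_conj (L := L) hA hϖ x hx σ 1
      rw [norm_sub_rev] at h3
      have h4 : (GaloisLower.lowerNumbering A K L B).i (σ⁻¹ * 1) =
          (GaloisLower.lowerNumbering A K L B).i σ := by
        rw [mul_one, (GaloisLower.lowerNumbering A K L B).i_inv]
      rw [h4] at h3
      rw [← h3, norm_sub_rev]
      rfl
    rw [hρ₀, SharpSerre.threshold_eq_rpow L (GaloisLower.lowerNumbering A K L B) hc0 hc1
      (toL L (toIntE (L := L) hA x)) hi s₁ hs₁ hmin] at h2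
    have h3 := (Real.rpow_le_rpow_left_iff_of_base_lt_one hc0 hc1).1 h2
    have he : (0 : ℝ) < ((GaloisLower.lowerNumbering A K L B).e0 : ℝ) := by
      exact_mod_cast (GaloisLower.lowerNumbering A K L B).e0_pos
    have h4 := le_of_mul_le_mul_left h3 he
    exact ((GaloisLower.lowerNumbering A K L B).upperBounded_iff_uMax_le hv₀).2 (by linarith)
  · refine upperBounded_of_trivial_group _ (fun s => ?_) hv₀
    by_contra hs
    exact hne ⟨s, hs⟩

end Fermat.Agent.Lib.Ram.SharpSerreInst
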