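/-
P-S56 block (A), ramification (helper12): TAMENESS CRITERION.

In a DVR `B` of residue characteristic `p`, an automorphism in the first ramification group `G_1`
(`σ b - b ∈ 𝔪²` for all `b`) whose order is prime to `p` is trivial (`G_1` is a `p`-group).
Consequence for the AKLB lower numbering of `Lib/Ram/GaloisLower`:
`p ∤ e0 = #G_0`  ⟹  `IsTame`  (hypothesis `IQ.IsTame` of `Lib/Ram/TameTower`, `Lib/Ram/Transport`).
No monogenicity, no completeness.
-/
import Fermat.Agent.Lib.Ram.GaloisLower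
import Fermat.Agent.Lib.Ram.HerbrandCor

set_option autoImplicit false

namespace Fermat.Agent.Lib.Ram.TameCriterion

open IsLocalRing IsDiscreteValuationRing Fermat.Agent.Lib.Ram Fermat.Agent.Lib.Ram.GaloisLower

section DVR

variable {B : Type*} [CommRing B] [IsDomain B] [IsDiscreteValuationRing B]

theorem pow_le_pow_max {a b : ℕ} (h : a ≤ b) :
    IsLocalRing.maximalIdeal B ^ b ≤ IsLocalRing.maximalIdeal B ^ a := Ideal.pow_le_pow_right h

theorem mul_mem_pow_add {a b : ℕ} {x y : B} (hx : x ∈ IsLocalRing.maximalIdeal B ^ a)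
    (hy : y ∈ IsLocalRing.maximalIdeal B ^ b) : x * y ∈ IsLocalRing.maximalIdeal B ^ (a + b) := by
  rw [pow_add]; exact Ideal.mul_mem_mul hx hy

theorem map_mem_max (τ : B →+* B) (hτ : ∀ b : B, τ b - b ∈ IsLocalRing.maximalIdeal B ^ 2)
    {x : B} (hx : x ∈ IsLocalRing.maximalIdeal B) : τ x ∈ IsLocalRing.maximalIdeal B := by
  have h1 : τ x - x ∈ IsLocalRing.maximalIdeal B := by
    have h0 := pow_le_pow_max (B := B) (show 1 ≤ 2 by norm_num) (hτ x)
    rwa [pow_one] at h0
  have h2 : τ x = (τ x - x) + x := by ring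
  rw [h2]; exact Ideal.add_mem _ h1 hx

theorem pow_sub_pow_mem (τ : B →+* B) (hτ : ∀ b : B, τ b - b ∈ IsLocalRing.maximalIdeal B ^ 2)
    {x : B} (hx : x ∈ IsLocalRing.maximalIdeal B) (t : ℕ) :
    (τ x) ^ t - x ^ t ∈ IsLocalRing.maximalIdeal B ^ (t + 1) := by
  induction t with
  | zero => simp
  | succ t ih =>
    have h1 : (τ x) ^ (t + 1) - x ^ (t + 1) = τ x * ((τ x) ^ t - x ^ t) + (τ x - x) * x ^ t := by
      ring
    rw [h1]
    refine Ideal.add_mem _ ?_ ?_
    · have h2 : τ x ∈ IsLocalRing.maximalIdeal B ^ 1 := by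
        rw [pow_one]; exact map_mem_max τ hτ hx
      have h3 := mul_mem_pow_add h2 ih
      rwa [show 1 + (t + 1) = t + 1 + 1 by ring] at h3
    · have h3 : x ^ t ∈ IsLocalRing.maximalIdeal B ^ t := Ideal.pow_mem_pow hx t
      have h4 := mul_mem_pow_add (hτ x) h3
      rwa [show 2 + t = t + 1 + 1 by ring] at h4

/-- an element of `G_1` moves `y ∈ 𝔪^t` only modulo `𝔪^(t+1)`. -/
theorem map_sub_mem_pow_succ (τ : B →+* B)
    (hτ : ∀ b : B, τ b - b ∈ IsLocalRing.maximalIdeal B ^ 2) {t : ℕ} {y : B}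
    (hy : y ∈ IsLocalRing.maximalIdeal B ^ t) : τ y - y ∈ IsLocalRing.maximalIdeal B ^ (t + 1) := by
  obtain ⟨ϖ, hϖ⟩ := exists_irreducible B
  have hϖm : ϖ ∈ IsLocalRing.maximalIdeal B := by
    rw [hϖ.maximalIdeal_eq]; exact Ideal.mem_span_singleton_self ϖ
  have hy' := hy
  rw [hϖ.maximalIdeal_eq, Ideal.span_singleton_pow, Ideal.mem_span_singleton] at hy'
  obtain ⟨c, rfl⟩ := hy'
  have h1 : τ (ϖ ^ t * c) - ϖ ^ t * c = (τ c - c) * (τ ϖ) ^ t + c * ((τ ϖ) ^ t - ϖ ^ t) := by
    rw [map_mul, map_pow]; ring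
  rw [h1]
  refine Ideal.add_mem _ ?_ (Ideal.mul_mem_left _ _ (pow_sub_pow_mem τ hτ hϖm t))
  have h2 : (τ ϖ) ^ t ∈ IsLocalRing.maximalIdeal B ^ t :=
    Ideal.pow_mem_pow (map_mem_max τ hτ hϖm) t
  have h3 := mul_mem_pow_add (hτ c) h2
  exact pow_le_pow_max (by omega) h3

theorem map_mem_pow (τ : B →+* B) (hτ : ∀ b : B, τ b - b ∈ IsLocalRing.maximalIdeal B ^ 2)
    {t : ℕ} {y : B} (hy : y ∈ IsLocalRing.maximalIdeal B ^ t) :
    τ y ∈ IsLocalRing.maximalIdeal B ^ t := by
  have h1 := pow_le_pow_max (B := B) (Nat.le_succ t) (map_sub_mem_pow_succ τ hτ hy)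
  have h2 : τ y = (τ y - y) + y := by ring
  rw [h2]; exact Ideal.add_mem _ h1 hy

/-- `τ^j b ≡ b + j (τ b - b)` modulo `𝔪^(n+2)` if `τ b - b ∈ 𝔪^(n+1)`. -/
theorem iterate_sub_mem (τ : B →+* B) (hτ : ∀ b : B, τ b - b ∈ IsLocalRing.maximalIdeal B ^ 2)
    {n : ℕ} {b : B} (hb : τ b - b ∈ IsLocalRing.maximalIdeal B ^ (n + 1)) (j : ℕ) :
    (τ^[j]) b - b - (j : B) * (τ b - b) ∈ IsLocalRing.maximalIdeal B ^ (n + 2) := by
  induction j with
  | zero => simp
  | succ j ih =>
    have h1 : (τ^[j + 1]) b - b - ((j + 1 : ℕ) : B) * (τ b - b)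
        = τ ((τ^[j]) b - b - (j : B) * (τ b - b))
          + (j : B) * (τ (τ b - b) - (τ b - b)) := by
      rw [Function.iterate_succ_apply']
      simp only [map_sub, map_mul, map_natCast]
      push_cast
      ring
    rw [h1]
    refine Ideal.add_mem _ (map_mem_pow τ hτ ih) ?_
    exact Ideal.mul_mem_left _ _ (map_sub_mem_pow_succ τ hτ hb)

/-- **`G_1` has no prime-to-`p` torsion**: if `τ ∈ G_1`, `τ^m = id` with `m` a unit of `B`, then
`τ = id`. -/
theorem eq_self_of_iterate_eq (τ : B →+* B)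
    (hτ : ∀ b : B, τ b - b ∈ IsLocalRing.maximalIdeal B ^ 2) {m : ℕ} (hm : IsUnit (m : B))
    (hiter : ∀ b : B, (τ^[m]) b = b) (b : B) : τ b = b := by
  have key : ∀ n : ℕ, ∀ b : B, τ b - b ∈ IsLocalRing.maximalIdeal B ^ (n + 1) := by
    intro n
    induction n with
    | zero =>
      intro b
      exact pow_le_pow_max (B := B) (show 0 + 1 ≤ 2 by norm_num) (hτ b)
    | succ n ih =>
      intro b
      have h1 := iterate_sub_mem τ hτ (ih b) m
      rw [hiter b, sub_self, zero_sub, neg_mem_iff] at h1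
      obtain ⟨u, hu⟩ := hm
      have h2 : τ b - b = (↑u⁻¹ : B) * ((m : B) * (τ b - b)) := by
        rw [← mul_assoc, ← hu, Units.inv_mul, one_mul]
      rw [h2]
      exact Ideal.mul_mem_left _ _ h1
  have h0 : addVal B (τ b - b) = ⊤ := by
    rw [ENat.eq_top_iff_forall_ge]
    intro n
    have h3 : ((n + 1 : ℕ) : ℕ∞) ≤ addVal B (τ b - b) :=
      (natCast_le_addVal_iff (n + 1) _).2 (key n b)
    exact le_trans (by exact_mod_cast Nat.le_succ n) h3
  rw [addVal_eq_top_iff, sub_eq_zero] at h0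
  exact h0

end DVR

section AKLB

variable {A K L B : Type*} [CommRing A] [Field K] [Algebra A K] [IsFractionRing A K]
  [Field L] [Algebra K L] [Algebra.IsAlgebraic K L] [Algebra A L] [IsScalarTower A K L]
  [CommRing B] [IsDomain B] [IsDiscreteValuationRing B] [Algebra A B] [Algebra B L]
  [IsScalarTower A B L] [IsIntegralClosure B A L]

omit [IsDomain B] [IsDiscreteValuationRing B] in
theorem galRestrict_pow_apply (σ : L ≃ₐ[K] L) (j : ℕ) (b : B) :
    galRestrict A K L B (σ ^ j) b = ((galRestrict A K L B σ : B →+* B)^[j]) b := by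
  induction j with
  | zero => simp
  | succ j ih =>
    rw [pow_succ', galRestrict_mul_apply, ih, Function.iterate_succ_apply']
    rfl

/-- A natural number prime to the residue characteristic is a unit of `B`. -/
theorem isUnit_natCast_of_coprime {p m : ℕ} (hp : (p : B) ∈ IsLocalRing.maximalIdeal B)
    (hc : Nat.Coprime m p) : IsUnit (m : B) := by
  by_contra hnu
  have hm : (m : B) ∈ IsLocalRing.maximalIdeal B := (IsLocalRing.mem_maximalIdeal _).2 hnu
  have h1 : ((Nat.gcd m p : ℕ) : B) ∈ IsLocalRing.maximalIdeal B := by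
    have hb := Nat.gcd_eq_gcd_ab m p
    have h2 : ((Nat.gcd m p : ℤ) : B) = (m : B) * ((Nat.gcdA m p : ℤ) : B)
        + (p : B) * ((Nat.gcdB m p : ℤ) : B) := by
      rw [hb]; push_cast; ring
    have h3 : ((Nat.gcd m p : ℤ) : B) ∈ IsLocalRing.maximalIdeal B := by
      rw [h2]
      exact Ideal.add_mem _ (Ideal.mul_mem_right _ _ hm) (Ideal.mul_mem_right _ _ hp)
    simpa using h3
  rw [hc, Nat.cast_one] at h1
  exact (Ideal.ne_top_iff_one _).1 (IsLocalRing.maximalIdeal.isMaximal B).ne_top h1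

/-- **`G_1` is a `p`-group** (elementwise form): `σ ∈ G_1`, `σ^m = 1` with `m` prime to the
residue characteristic `p`  ⟹  `σ = 1`. -/
theorem eq_one_of_two_le_iG {p m : ℕ} (hp : (p : B) ∈ IsLocalRing.maximalIdeal B)
    (hc : Nat.Coprime m p) {σ : L ≃ₐ[K] L} (h2 : 2 ≤ iG A K L B σ) (hpow : σ ^ m = 1) :
    σ = 1 := by
  have hτ : ∀ b : B, (galRestrict A K L B σ : B →+* B) b - b ∈ IsLocalRing.maximalIdeal B ^ 2 :=
    (natCast_le_iG_iff σ 2).1 (by exact_mod_cast h2)
  have hiter : ∀ b : B, ((galRestrict A K L B σ : B →+* B)^[m]) b = b := by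
    intro b
    rw [← galRestrict_pow_apply, hpow, galRestrict_one_apply]
  have h1 : ∀ b : B, galRestrict A K L B σ b = b := fun b =>
    eq_self_of_iterate_eq _ hτ (isUnit_natCast_of_coprime hp hc) hiter b
  rw [← iG_eq_top_iff (A := A) (K := K) (L := L) (B := B)]
  rw [eq_top_iff, le_iG_iff]
  intro b
  rw [h1 b, sub_self, addVal_zero]

variable [Fintype (L ≃ₐ[K] L)]

omit [Algebra.IsAlgebraic K L] in
/-- `e0` is the order of the inertia group `G_0`. -/
theorem e0_eq_card_lowerGroup_zero (I : LowerNumbering (L ≃ₐ[K] L)) :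
    I.e0 = Nat.card (I.lowerGroup 0) := by
  classical
  unfold LowerNumbering.e0
  rw [Nat.card_eq_fintype_card, Fintype.card_subtype]
  apply congrArg Finset.card
  ext s
  rw [Finset.mem_filter, Finset.mem_filter, LowerNumbering.mem_lowerGroup_zero]

/-- **Tameness criterion**: if the order `e0` of the inertia group is prime to the residue
characteristic `p`, the lower numbering is tame (`G_1 = 1`). -/
theorem isTame_of_coprime {p : ℕ} (hp : (p : B) ∈ IsLocalRing.maximalIdeal B)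
    (hc : Nat.Coprime (lowerNumbering A K L B).e0 p) : (lowerNumbering A K L B).IsTame := by
  intro σ hσ
  by_contra hlt
  rw [not_le] at hlt
  have h2 : 2 ≤ iG A K L B σ := by
    have : (1 : ℕ∞) + 1 ≤ iG A K L B σ := Order.add_one_le_of_lt hlt
    rwa [one_add_one_eq_two] at this
  have hmem : σ ∈ (lowerNumbering A K L B).lowerGroup 0 := by
    rw [LowerNumbering.mem_lowerGroup_zero]
    exact le_trans (by norm_num) h2
  -- order of σ divides #G_0 = e0
  have hord : orderOf σ ∣ (lowerNumbering A K L B).e0 := by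
    rw [e0_eq_card_lowerGroup_zero]
    have := Subgroup.orderOf_dvd_natCard ((lowerNumbering A K L B).lowerGroup 0) hmem
    exact this
  have hc' : Nat.Coprime (orderOf σ) p := Nat.Coprime.coprime_dvd_left hord hc
  exact hσ (eq_one_of_two_le_iG hp hc' h2 (pow_orderOf_eq_one σ))

/-- If `[L : K]`-many automorphisms, i.e. `#Gal(L/K)`, is prime to `p`, the numbering is tame. -/
theorem isTame_of_card_coprime {p : ℕ} (hp : (p : B) ∈ IsLocalRing.maximalIdeal B)
    (hc : Nat.Coprime (Nat.card (L ≃ₐ[K] L)) p) : (lowerNumbering A K L B).IsTame := by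
  apply isTame_of_coprime hp
  rw [e0_eq_card_lowerGroup_zero]
  exact Nat.Coprime.coprime_dvd_left (Subgroup.card_subgroup_dvd_card _) hc

end AKLB

end Fermat.Agent.Lib.Ram.TameCriterion
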